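import Mathlib
import Fermat.Prelude.Def_ModularCurve_IgusaScheme
import Fermat.Prelude.Def_ModularCurve_X0ModL
import Fermat.Agent.S24.LaurentRescale

/-!
# S28 (Igusa): shared definitions

* `sub m` : the substitution `t ↦ t ^ m` on Laurent series (identity for `m = 0`);
* `theta` : the derivation `t d/dt` (coefficient `n` is multiplied by `n`);
* `DeltaL R` : the formal discriminant `t * ∏ (1 - t ^ n) ^ 24`;
* `Jx k ξ m` : the series `J(ξ t ^ m)`, `J = jqModC k`;
* `unitV k r` : the modular unit `r ^ 12 * Δ(t ^ r) / Δ(t)`;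
* `evalAt x` : evaluation of polynomials with constant coefficients at a Laurent series;
* `PrimeData k r` : the reduced modular equation and unit equation of prime level `r`.
-/

set_option autoImplicit false
set_option linter.style.haveILetI false

namespace Fermat.Agent.S28.Basic

open HahnSeries Polynomial ModularCurve

section Ring

variable (R : Type*) [CommRing R]

/-- The substitution `t ↦ t ^ m` (the identity for `m = 0`). -/
noncomputable def sub (m : ℕ) : LaurentSeries R →+* LaurentSeries R :=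
  if h : m = 0 then RingHom.id _ else @qExpand R _ m ⟨h⟩

theorem sub_eq_qExpand (m : ℕ) [NeZero m] : sub R m = qExpand R m := by
  unfold sub
  rw [dif_neg (NeZero.ne m)]

variable {R}

theorem sub_apply (m : ℕ) [NeZero m] (f : LaurentSeries R) : sub R m f = qExpand R m f := by
  rw [sub_eq_qExpand]

theorem sub_one (f : LaurentSeries R) : sub R 1 f = f := by
  rw [sub_apply, qExpand_one_apply]

theorem sub_sub {m n : ℕ} (hm : m ≠ 0) (hn : n ≠ 0) (f : LaurentSeries R) :
    sub R m (sub R n f) = sub R (m * n) f := by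
  haveI : NeZero m := ⟨hm⟩
  haveI : NeZero n := ⟨hn⟩
  haveI : NeZero (m * n) := ⟨Nat.mul_ne_zero hm hn⟩
  rw [sub_apply, sub_apply, sub_apply, qExpand_qExpand]

theorem sub_injective {m : ℕ} (hm : m ≠ 0) : Function.Injective (sub R m) := by
  haveI : NeZero m := ⟨hm⟩
  rw [sub_eq_qExpand]
  exact qExpand_injective m

theorem sub_coeff_mul {m : ℕ} (hm : m ≠ 0) (f : LaurentSeries R) (n : ℤ) :
    (sub R m f).coeff ((m : ℤ) * n) = f.coeff n := by
  haveI : NeZero m := ⟨hm⟩
  rw [sub_apply, qExpand_coeff_mul]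

theorem sub_coeff_of_not_dvd {m : ℕ} (hm : m ≠ 0) (f : LaurentSeries R) {n : ℤ}
    (hn : ¬ (m : ℤ) ∣ n) : (sub R m f).coeff n = 0 := by
  haveI : NeZero m := ⟨hm⟩
  rw [sub_apply, qExpand_coeff_of_not_dvd m f hn]

theorem sub_C (m : ℕ) (c : R) : sub R m (HahnSeries.C c) = HahnSeries.C c := by
  by_cases hm : m = 0
  · unfold sub
    rw [dif_pos hm]
    rfl
  · haveI : NeZero m := ⟨hm⟩
    rw [sub_apply, qExpand_C]

/-- The derivation `t d/dt`: the coefficient of `t ^ n` is multiplied by `n`. -/
noncomputable def theta (f : LaurentSeries R) : LaurentSeries R where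
  coeff n := (n : R) * f.coeff n
  isPWO_support' := by
    refine f.isPWO_support.mono ?_
    intro n hn
    simp only [Function.mem_support, ne_eq] at hn
    simp only [HahnSeries.mem_support, ne_eq]
    exact fun h => hn (by rw [h, mul_zero])

@[simp] theorem theta_coeff (f : LaurentSeries R) (n : ℤ) :
    (theta f).coeff n = (n : R) * f.coeff n := rfl

variable (R)

/-- The formal discriminant `Δ = t * ∏ (1 - t ^ n) ^ 24`. -/
noncomputable def DeltaL : LaurentSeries R :=
  HahnSeries.single (1 : ℤ) 1 *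
    HahnSeries.ofPowerSeries ℤ R (dedekindEtaUnit.map (Int.castRingHom R))

/-- Evaluation of polynomials with constant coefficients at a Laurent series. -/
noncomputable def evalAt (x : LaurentSeries R) : R[X] →+* LaurentSeries R :=
  Polynomial.eval₂RingHom (HahnSeries.C : R →+* LaurentSeries R) x

variable {R}

@[simp] theorem evalAt_X (x : LaurentSeries R) : evalAt R x Polynomial.X = x := by
  simp [evalAt]

@[simp] theorem evalAt_C (x : LaurentSeries R) (c : R) :
    evalAt R x (Polynomial.C c) = HahnSeries.C c := by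
  simp [evalAt]

end Ring

section Field

variable (k : Type*) [Field k]

/-- The series `J(ξ t ^ m)`, where `J = jqModC k = t⁻¹ + 744 + ⋯`. -/
noncomputable def Jx (ξ : kˣ) (m : ℕ) : LaurentSeries k :=
  sub k m (Fermat.Agent.S24.LaurentRescale.rescale (ξ : k) ξ.ne_zero (jqModC k))

/-- The series `J(t ^ m)`. -/
noncomputable def Jm (m : ℕ) : LaurentSeries k := sub k m (jqModC k)

theorem Jx_one (m : ℕ) : Jx k 1 m = Jm k m := by
  unfold Jx Jm
  congr 1
  ext n
  simp

theorem Jm_one : Jm k 1 = jqModC k := sub_one _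

/-- The modular unit `r ^ 12 * Δ(t ^ r) / Δ(t)`. -/
noncomputable def unitV (r : ℕ) : LaurentSeries k :=
  HahnSeries.C ((r : k) ^ 12) * sub k r (DeltaL k) * (DeltaL k)⁻¹

/-- **Prime data**: the modular equation and the unit equation of prime level `r` over `k`.

* `factor` : `Φ(X, J(t^r)) = (X - J(t^(r^2))) * ∏_{b < r} (X - J(ζ^b t))`;
* `rootΨ`, `constΨ` : the unit `v = r^12 Δ(t^r)/Δ(t)` is a root of the monic `Ψ(X, J(t))`, whose
  constant term is a nonzero constant. -/
structure PrimeData (r : ℕ) where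
  /-- a primitive `r`-th root of unity -/
  ζ : kˣ
  prim : IsPrimitiveRoot (ζ : k) r
  /-- the modular polynomial `Φ_r(X, Y)` as a polynomial in `X` over `k[Y]` -/
  Φ : k[X][X]
  monicΦ : Φ.Monic
  natDegreeΦ : Φ.natDegree = r + 1
  factor : Φ.map (evalAt k (Jm k r)) =
    (X - Polynomial.C (Jm k (r ^ 2))) *
      ∏ b ∈ Finset.range r, (X - Polynomial.C (Jx k (ζ ^ b) 1))
  /-- the unit polynomial -/
  Ψ : k[X][X]
  monicΨ : Ψ.Monic
  rootΨ : (Ψ.map (evalAt k (Jm k 1))).eval (unitV k r) = 0
  constΨ : ∃ c : k, c ≠ 0 ∧ Ψ.coeff 0 = Polynomial.C c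

end Field

end Fermat.Agent.S28.Basic
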