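import Mathlib

/-!
# S28 (B6), part 1: two generic lemmas on linear independence over subfields

* `indep_mul` : if `u` is linearly independent over `A` with values in `B ⊇ A` and `w` is linearly
  independent over `B`, then the products `u a * w b` are linearly independent over `A`;
* `descent` : descent of linear independence along a ring homomorphism of the ambient fields.
-/

set_option autoImplicit false

namespace Fermat.Agent.S28.DegreeLDescent

open IntermediateField

section Mul

variable {K L : Type*} [Field K] [Field L] [Algebra K L]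

/-- Linear independence over an intermediate field, unfolded. -/
theorem li_iff {ι : Type*} [Fintype ι] (A : IntermediateField K L) (v : ι → L) :
    LinearIndependent A v ↔ ∀ c : ι → L, (∀ i, c i ∈ A) → ∑ i, c i * v i = 0 → ∀ i, c i = 0 := by
  rw [Fintype.linearIndependent_iff]
  constructor
  · intro h c hc hsum i
    have := h (fun i => ⟨c i, hc i⟩) (by
      simpa [IntermediateField.smul_def] using hsum) i
    exact congrArg Subtype.val this
  · intro h g hsum i
    have := h (fun i => (g i : L)) (fun i => (g i).2) (by
      simpa [IntermediateField.smul_def] using hsum) i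
    exact Subtype.ext this

/-- **Products of independent families.** -/
theorem indep_mul {m n : ℕ} (A B : IntermediateField K L)
    (u : Fin m → L) (hu : ∀ a, u a ∈ B) (hui : LinearIndependent A u)
    (w : Fin n → L) (hwi : LinearIndependent B w) (hAB : A ≤ B) :
    LinearIndependent A (fun p : Fin m × Fin n => u p.1 * w p.2) := by
  rw [li_iff] at hui hwi ⊢
  intro c hc hsum p
  have h1 : ∑ b, (∑ a, c (a, b) * u a) * w b = 0 := by
    rw [← hsum, Fintype.sum_prod_type, Finset.sum_comm]
    refine Finset.sum_congr rfl fun b _ => ?_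
    rw [Finset.sum_mul]
    refine Finset.sum_congr rfl fun a _ => ?_
    ring
  have h2 := hwi (fun b => ∑ a, c (a, b) * u a)
    (fun b => B.sum_mem fun a _ => B.mul_mem (hAB (hc (a, b))) (hu a)) h1
  exact hui (fun a => c (a, p.2)) (fun a => hc (a, p.2)) (h2 p.2) p.1

end Mul

section Descent

variable {K₀ L₀ K L : Type*} [Field K₀] [Field L₀] [Algebra K₀ L₀] [Field K] [Field L]
  [Algebra K L]

/-- Membership in the span of a finite family over an intermediate field, unfolded. -/
theorem mem_span_iff {m : ℕ} (A : IntermediateField K L) (w : Fin m → L) (x : L) :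
    x ∈ Submodule.span A (Set.range w) ↔
      ∃ c : Fin m → L, (∀ i, c i ∈ A) ∧ ∑ i, c i * w i = x := by
  rw [Submodule.mem_span_range_iff_exists_fun]
  constructor
  · rintro ⟨c, hc⟩
    exact ⟨fun i => (c i : L), fun i => (c i).2, by
      simpa [IntermediateField.smul_def] using hc⟩
  · rintro ⟨c, hcA, hc⟩
    exact ⟨fun i => ⟨c i, hcA i⟩, by simpa [IntermediateField.smul_def] using hc⟩

/-- If there is no independent family of size `n` in `F`, a maximal independent family in `F`
has fewer than `n` elements and spans `F`. -/
theorem exists_maximal (A F : IntermediateField K L) (n : ℕ)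
    (h : ¬ ∃ v : Fin n → L, (∀ i, v i ∈ F) ∧ LinearIndependent A v) :
    ∃ m, m < n ∧ ∃ w : Fin m → L, (∀ i, w i ∈ F) ∧ LinearIndependent A w ∧
      ∀ x ∈ F, x ∈ Submodule.span A (Set.range w) := by
  induction n with
  | zero => exact absurd ⟨Fin.elim0, fun i => i.elim0, linearIndependent_empty_type⟩ h
  | succ n ih =>
    by_cases hn : ∃ v : Fin n → L, (∀ i, v i ∈ F) ∧ LinearIndependent A v
    · obtain ⟨w, hwF, hwi⟩ := hn
      refine ⟨n, Nat.lt_succ_self n, w, hwF, hwi, fun x hx => ?_⟩
      by_contra hxs
      refine h ⟨Fin.snoc w x, fun i => ?_, linearIndependent_finSnoc.mpr ⟨hwi, hxs⟩⟩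
      refine Fin.lastCases ?_ (fun j => ?_) i
      · rw [Fin.snoc_last]; exact hx
      · rw [Fin.snoc_castSucc]; exact hwF j
    · obtain ⟨m, hm, w, h1, h2, h3⟩ := ih hn
      exact ⟨m, hm.trans (Nat.lt_succ_self n), w, h1, h2, h3⟩

/-- **Descent of linear independence.**  `ι : L₀ → L` a ring homomorphism, `A ≤ F` intermediate
fields of `L₀`, `A'` an intermediate field of `L` containing `ι A`, and `S ⊆ ι F`.  If `K(S)`
contains `n` elements independent over `A'`, then `F` contains `n` elements independent over
`A`. -/
theorem descent (ι : L₀ →+* L) (A F : IntermediateField K₀ L₀) (A' : IntermediateField K L)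
    (hA : ∀ a ∈ A, ι a ∈ A')
    (S : Set L) (hS : ∀ s ∈ S, ∃ x ∈ F, ι x = s)
    (n : ℕ) (v' : Fin n → L) (hv' : ∀ i, v' i ∈ IntermediateField.adjoin K S)
    (hli : LinearIndependent A' v') :
    ∃ v : Fin n → L₀, (∀ i, v i ∈ F) ∧ LinearIndependent A v := by
  by_contra hcon
  obtain ⟨m, hmn, w, hwF, hwi, hspan⟩ := exists_maximal A F n hcon
  set W : Submodule A' L := Submodule.span A' (Set.range (fun i => ι (w i))) with hW
  have hιF : ∀ x ∈ F, ι x ∈ W := by
    intro x hx
    obtain ⟨c, hcA, hc⟩ := (mem_span_iff A w x).mp (hspan x hx)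
    rw [← hc, map_sum]
    refine Submodule.sum_mem _ fun i _ => ?_
    rw [map_mul]
    have : ι (c i) * ι (w i) = (⟨ι (c i), hA _ (hcA i)⟩ : A') • ι (w i) := rfl
    rw [this]
    exact Submodule.smul_mem _ _ (Submodule.subset_span ⟨i, rfl⟩)
  have h1 : (1 : L) ∈ W := by simpa using hιF 1 F.one_mem
  have hmul : ∀ x y, x ∈ W → y ∈ W → x * y ∈ W := by
    intro x y hx hy
    induction hx using Submodule.span_induction with
    | mem x hx =>
      obtain ⟨i, rfl⟩ := hx
      induction hy using Submodule.span_induction with
      | mem y hy =>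
        obtain ⟨j, rfl⟩ := hy
        rw [← map_mul]
        exact hιF _ (F.mul_mem (hwF i) (hwF j))
      | zero => rw [mul_zero]; exact W.zero_mem
      | add y z _ _ hy hz => rw [mul_add]; exact W.add_mem hy hz
      | smul a y _ hy => rw [mul_smul_comm]; exact W.smul_mem a hy
    | zero => rw [zero_mul]; exact W.zero_mem
    | add x z _ _ hx hz => rw [add_mul]; exact W.add_mem hx hz
    | smul a x _ hx => rw [smul_mul_assoc]; exact W.smul_mem a hx
  let W' : Subalgebra A' L := W.toSubalgebra h1 hmul
  have hfinW : Module.Finite A' W := FiniteDimensional.span_of_finite A' (Set.finite_range _)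
  have hfin : Module.Finite A' W' := hfinW
  have hfield : IsField W' :=
    isField_of_isIntegral_of_isField' (R := A') (S := W') (Field.toIsField A')
  have hinv : ∀ x ∈ W, x⁻¹ ∈ W := by
    intro x hx
    by_cases hx0 : x = 0
    · rw [hx0, inv_zero]; exact W.zero_mem
    · obtain ⟨y, hy⟩ := hfield.mul_inv_cancel (a := (⟨x, hx⟩ : W'))
        (by intro h; exact hx0 (congrArg Subtype.val h))
      have e1 : x * y.1 = 1 := congrArg Subtype.val hy
      have e2 : y.1 = x⁻¹ := eq_inv_of_mul_eq_one_right e1
      rw [← e2]; exact y.2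
  let Wf : IntermediateField K L :=
    Subalgebra.toIntermediateField (W'.restrictScalars K) hinv
  have hle : IntermediateField.adjoin K S ≤ Wf := by
    rw [IntermediateField.adjoin_le_iff]
    intro s hs
    obtain ⟨x, hx, rfl⟩ := hS s hs
    exact hιF x hx
  have hrange : Set.range v' ≤ Submodule.span A' (Set.range (fun i => ι (w i))) := by
    rintro _ ⟨i, rfl⟩
    exact hle (hv' i)
  classical
  have hcard := linearIndependent_le_span' v' hli (Set.range (fun i => ι (w i))) hrange
  rw [Cardinal.mk_fin] at hcard
  have h2 : Fintype.card (Set.range (fun i => ι (w i))) ≤ m := by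
    have := Fintype.card_range_le (fun i => ι (w i))
    simpa using this
  have h3 : (n : Cardinal) ≤ (m : Cardinal) := hcard.trans (by exact_mod_cast h2)
  have h4 : n ≤ m := by exact_mod_cast h3
  omega

end Descent

end Fermat.Agent.S28.DegreeLDescent
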