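import Mathlib
import Fermat.Prelude.Def_ModularCurve_X0ModL
import Fermat.Agent.S20.PsiIdentity
import Fermat.Agent.S28.Basic
import Fermat.Agent.S28.DegreeLDescent

/-!
# S28 (B6): the degree of the reduced modular function field

`exists_indep_of` : for a field `k` that is an algebra over `ZMod ℓ` and satisfies the statements
`StarStmt k ℓ` (B4) and `TowerStmt k ℓ` (B5), the field `𝔽_ℓ(J(q^d) : d ∣ N)` contains
`ψ(N)` elements linearly independent over `𝔽_ℓ(J)`, for every `N` prime to `ℓ`.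
-/

set_option autoImplicit false

namespace Fermat.Agent.S28.DegreeL

open ModularCurve IntermediateField Fermat.Agent.S28.Basic Fermat.Agent.S28.DegreeLDescent

/-- **(B4)**: `J(q^r) ∉ k(J(q^d) : d ∣ M)` for a prime `r ∤ M`. -/
def StarStmt (k : Type*) [Field k] (ℓ : ℕ) : Prop :=
  ∀ (r M : ℕ) [NeZero M], r.Prime → r ≠ ℓ → ¬ r ∣ M → ¬ ℓ ∣ M →
    Jm k r ∉ modularFunctionFieldFullC k M

/-- **(B5)**: the tower `B(J(q^r), …, J(q^(r^e)))` has degree at least `(r + 1) r^(e - 1)` over
any field `B ∋ J(q)` with `J(q^r) ∉ B`. -/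
def TowerStmt (k : Type*) [Field k] (ℓ : ℕ) : Prop :=
  ∀ (r e : ℕ), r.Prime → r ≠ ℓ → 1 ≤ e → ∀ B : IntermediateField k (LaurentSeries k),
    jqModC k ∈ B → Jm k r ∉ B →
    ∃ w : Fin ((r + 1) * r ^ (e - 1)) → LaurentSeries k,
      (∀ b, w b ∈ B ⊔ IntermediateField.adjoin k ((fun i => Jm k (r ^ i)) '' Set.Icc 1 e)) ∧
      LinearIndependent B w

section Big

variable (k : Type*) [Field k] (ℓ : ℕ)

theorem Jm_eq_qExpand (d : ℕ) [NeZero d] : Jm k d = qExpand k d (jqModC k) := by
  unfold Jm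
  rw [Basic.sub_apply]

theorem Jm_mem_full {d N : ℕ} [NeZero N] (hd : d ∣ N) :
    Jm k d ∈ modularFunctionFieldFullC k N := by
  have hd0 : d ≠ 0 := fun h => NeZero.ne N (by rw [h] at hd; exact zero_dvd_iff.mp hd)
  have : NeZero d := ⟨hd0⟩
  rw [Jm_eq_qExpand]
  exact jqModCd_mem_full k N hd

theorem adjoin_J_le_full (N : ℕ) [NeZero N] :
    IntermediateField.adjoin k {jqModC k} ≤ modularFunctionFieldFullC k N := by
  rw [IntermediateField.adjoin_le_iff]
  rintro x rfl
  exact jqModC_mem_full k N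

theorem psi_pow_mul {r e M : ℕ} (hr : r.Prime) (he : 1 ≤ e) (hM : M ≠ 0) (hrM : ¬ r ∣ M) :
    dedekindPsi (r ^ e * M) = dedekindPsi M * ((r + 1) * r ^ (e - 1)) := by
  have hcop : (r ^ e).Coprime M := Nat.Coprime.pow_left e ((Nat.Prime.coprime_iff_not_dvd hr).mpr hrM)
  rw [Fermat.Agent.S20.Cosets.PsiIdentity.dedekindPsi_mul (pow_pos hr.pos e)
    (Nat.pos_of_ne_zero hM) hcop,
    Fermat.Agent.S20.Cosets.PsiIdentity.dedekindPsi_prime_pow hr e he]
  obtain ⟨j, rfl⟩ : ∃ j, e = j + 1 := ⟨e - 1, by omega⟩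
  simp only [Nat.add_sub_cancel]
  ring

/-- The degree bound over the big field. -/
theorem exists_indep_big (hS : StarStmt k ℓ) (hT : TowerStmt k ℓ) :
    ∀ (N : ℕ) [NeZero N], ¬ ℓ ∣ N → ∀ n, n = dedekindPsi N →
      ∃ v : Fin n → LaurentSeries k, (∀ i, v i ∈ modularFunctionFieldFullC k N) ∧
        LinearIndependent (IntermediateField.adjoin k {jqModC k}) v := by
  intro N
  induction N using Nat.strong_induction_on with
  | _ N ih =>
    intro hN hℓ n hn
    by_cases h1 : N = 1
    · subst h1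
      rw [dedekindPsi_one] at hn
      subst hn
      refine ⟨fun _ => 1, fun _ => (modularFunctionFieldFullC k 1).one_mem, ?_⟩
      rw [li_iff]
      intro c _ hsum i
      have : i = 0 := Subsingleton.elim _ _
      subst this
      simpa using hsum
    · have hN0 : N ≠ 0 := NeZero.ne N
      set r := N.minFac with hrdef
      have hr : r.Prime := Nat.minFac_prime h1
      have hrN : r ∣ N := Nat.minFac_dvd N
      obtain ⟨e, M, hrM, hNeq⟩ := Nat.exists_eq_pow_mul_and_not_dvd hN0 r hr.ne_one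
      have hM0 : M ≠ 0 := by
        rintro rfl
        exact hN0 (by rw [hNeq, mul_zero])
      have he : 1 ≤ e := by
        rcases Nat.eq_zero_or_pos e with h0 | h0
        · exfalso
          rw [h0, pow_zero, one_mul] at hNeq
          exact hrM (hNeq ▸ hrN)
        · exact h0
      have hMN : M ∣ N := ⟨r ^ e, by rw [hNeq, mul_comm]⟩
      have hMlt : M < N := by
        have h2 : 2 ≤ r ^ e := by
          calc 2 ≤ r := hr.two_le
            _ = r ^ 1 := (pow_one r).symm
            _ ≤ r ^ e := Nat.pow_le_pow_right hr.pos he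
        have hMpos : 0 < M := Nat.pos_of_ne_zero hM0
        rw [hNeq]
        nlinarith
      have hrℓ : r ≠ ℓ := fun h => hℓ (h ▸ hrN)
      have hℓM : ¬ ℓ ∣ M := fun h => hℓ (h.trans hMN)
      have : NeZero M := ⟨hM0⟩
      obtain ⟨u, huM, hui⟩ := ih M hMlt hℓM (dedekindPsi M) rfl
      have hstar := hS r M hr hrℓ hrM hℓM
      obtain ⟨w, hwE, hwi⟩ := hT r e hr hrℓ he (modularFunctionFieldFullC k M)
        (jqModC_mem_full k M) hstar
      have hprod := indep_mul (IntermediateField.adjoin k {jqModC k})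
        (modularFunctionFieldFullC k M) u huM hui w hwi (adjoin_J_le_full k M)
      have hcard : n = dedekindPsi M * ((r + 1) * r ^ (e - 1)) := by
        rw [hn, hNeq, psi_pow_mul hr he hM0 hrM]
      subst hcard
      refine ⟨fun i => u (finProdFinEquiv.symm i).1 * w (finProdFinEquiv.symm i).2,
        fun i => ?_, ?_⟩
      · refine (modularFunctionFieldFullC k N).mul_mem
          (full_degeneracyC_le k hMN (huM _)) ?_
        have hle : modularFunctionFieldFullC k M ⊔
            IntermediateField.adjoin k ((fun i => Jm k (r ^ i)) '' Set.Icc 1 e)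
            ≤ modularFunctionFieldFullC k N := by
          refine sup_le (full_degeneracyC_le k hMN) ?_
          rw [IntermediateField.adjoin_le_iff]
          rintro _ ⟨i, hi, rfl⟩
          apply Jm_mem_full
          rw [hNeq]
          exact Dvd.dvd.mul_right (pow_dvd_pow r hi.2) M
        exact hle (hwE _)
      · exact hprod.comp _ finProdFinEquiv.symm.injective

end Big

section Small

variable (ℓ : ℕ) [Fact ℓ.Prime] (k : Type*) [Field k] [Algebra (ZMod ℓ) k]

theorem coeffMap_mem_adjoin (a : LaurentSeries (ZMod ℓ))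
    (ha : a ∈ IntermediateField.adjoin (ZMod ℓ) {jqModC (ZMod ℓ)}) :
    coeffMap (algebraMap (ZMod ℓ) k) a ∈ IntermediateField.adjoin k {jqModC k} := by
  let T : Subfield (LaurentSeries (ZMod ℓ)) :=
    (IntermediateField.adjoin k {jqModC k}).toSubfield.comap (coeffMap (algebraMap (ZMod ℓ) k))
  have hle : (IntermediateField.adjoin (ZMod ℓ) {jqModC (ZMod ℓ)}).toSubfield ≤ T := by
    rw [IntermediateField.adjoin_toSubfield]
    apply Subfield.closure_le.mpr
    rintro x (⟨c, rfl⟩ | rfl)
    · show coeffMap _ (algebraMap _ _ c) ∈ (IntermediateField.adjoin k {jqModC k})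
      rw [algebraMap_laurentSeries_eq_single, coeffMap_single,
        ← algebraMap_laurentSeries_eq_single]
      exact (IntermediateField.adjoin k {jqModC k}).algebraMap_mem _
    · show coeffMap _ (jqModC _) ∈ (IntermediateField.adjoin k {jqModC k})
      rw [coeffMap_jqModC]
      exact IntermediateField.subset_adjoin k _ rfl
  exact hle ha

/-- **(B6), relative form.** -/
theorem exists_indep_of (hS : StarStmt k ℓ) (hT : TowerStmt k ℓ) (N : ℕ) [NeZero N]
    (h : ¬ ℓ ∣ N) :
    ∃ v : Fin (dedekindPsi N) → LaurentSeries (ZMod ℓ),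
      (∀ i, v i ∈ modularFunctionFieldFullC (ZMod ℓ) N) ∧
        LinearIndependent (IntermediateField.adjoin (ZMod ℓ) {jqModC (ZMod ℓ)}) v := by
  obtain ⟨v', hv', hli⟩ := exists_indep_big k ℓ hS hT N h (dedekindPsi N) rfl
  refine descent (coeffMap (algebraMap (ZMod ℓ) k))
    (IntermediateField.adjoin (ZMod ℓ) {jqModC (ZMod ℓ)}) (modularFunctionFieldFullC (ZMod ℓ) N)
    (IntermediateField.adjoin k {jqModC k}) (coeffMap_mem_adjoin ℓ k)
    (divisorExpansionsC k N) ?_ (dedekindPsi N) v' hv' hli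
  rintro s ⟨d, hd, hdN, rfl⟩
  refine ⟨qExpand (ZMod ℓ) d (jqModC (ZMod ℓ)), jqModCd_mem_full (ZMod ℓ) N hdN, ?_⟩
  rw [coeffMap_qExpand, coeffMap_jqModC]

end Small

end Fermat.Agent.S28.DegreeL
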