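import Mathlib
import Fermat.Agent.S28.Basic

/-!
# S28 (Igusa), leaf (B1), part 1: the residue field `kbar ℓ`

`OO` is the ring of all algebraic integers (the integral closure of `ℤ` in `ℂ`), `maxIdeal ℓ` a
chosen maximal ideal containing the prime `ℓ`, and `kbar ℓ := OO ⧸ maxIdeal ℓ`: an algebraically
closed field of characteristic `ℓ`.
-/

set_option autoImplicit false
set_option linter.style.haveILetI false

namespace Fermat.Agent.S28.Kbar

open Polynomial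

/-- The ring of all algebraic integers. -/
abbrev OO : Type := ↥(integralClosure ℤ ℂ)

/-- The inclusion of the algebraic integers into `ℂ`. -/
noncomputable def incO : OO →+* ℂ := (integralClosure ℤ ℂ).val.toRingHom

theorem incO_apply (x : OO) : incO x = (x : ℂ) := rfl

theorem incO_injective : Function.Injective incO := Subtype.val_injective

theorem natCast_not_isUnit (ℓ : ℕ) (hℓ : ℓ.Prime) : ¬ IsUnit ((ℓ : ℕ) : OO) := by
  rintro ⟨u, hu⟩
  -- `1 / ℓ` is an algebraic integer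
  have h1 : ((ℓ : ℕ) : OO) * (↑u⁻¹ : OO) = 1 := by rw [← hu]; exact u.mul_inv
  have h2 : ((ℓ : ℕ) : ℂ) * ((↑u⁻¹ : OO) : ℂ) = 1 := by
    have := congrArg incO h1
    simpa [incO_apply] using this
  have hℓ0 : ((ℓ : ℕ) : ℂ) ≠ 0 := Nat.cast_ne_zero.mpr hℓ.ne_zero
  have h3 : ((↑u⁻¹ : OO) : ℂ) = algebraMap ℚ ℂ ((ℓ : ℚ)⁻¹) := by
    rw [map_inv₀, map_natCast]
    field_simp
    rw [mul_comm]; exact h2
  have h4 : IsIntegral ℤ (algebraMap ℚ ℂ ((ℓ : ℚ)⁻¹)) := by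
    rw [← h3]; exact (↑u⁻¹ : OO).2
  have h5 : IsIntegral ℤ ((ℓ : ℚ)⁻¹) :=
    (isIntegral_algebraMap_iff (algebraMap ℚ ℂ).injective).mp h4
  obtain ⟨y, hy⟩ := IsIntegrallyClosed.isIntegral_iff.mp h5
  have h6 : (y : ℚ) * (ℓ : ℚ) = 1 := by
    have : (algebraMap ℤ ℚ) y = (y : ℚ) := rfl
    rw [← this, hy]
    exact inv_mul_cancel₀ (Nat.cast_ne_zero.mpr hℓ.ne_zero)
  have h7 : y * (ℓ : ℤ) = 1 := by exact_mod_cast h6
  have h8 : IsUnit ((ℓ : ℕ) : ℤ) := IsUnit.of_mul_eq_one y (by rw [mul_comm]; exact h7)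
  have h9 := Int.isUnit_iff.mp h8
  have := hℓ.one_lt
  omega

theorem exists_maxIdeal (ℓ : ℕ) [Fact ℓ.Prime] :
    ∃ m : Ideal OO, m.IsMaximal ∧ ((ℓ : ℕ) : OO) ∈ m := by
  have h : Ideal.span {((ℓ : ℕ) : OO)} ≠ ⊤ := by
    rw [Ne, Ideal.span_singleton_eq_top]
    exact natCast_not_isUnit ℓ Fact.out
  obtain ⟨m, hm, hle⟩ := Ideal.exists_le_maximal _ h
  exact ⟨m, hm, hle (Ideal.subset_span rfl)⟩

/-- A chosen maximal ideal of the algebraic integers over `ℓ`. -/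
noncomputable def maxIdeal (ℓ : ℕ) [Fact ℓ.Prime] : Ideal OO := (exists_maxIdeal ℓ).choose

instance maxIdeal_isMaximal (ℓ : ℕ) [Fact ℓ.Prime] : (maxIdeal ℓ).IsMaximal :=
  (exists_maxIdeal ℓ).choose_spec.1

theorem natCast_mem_maxIdeal (ℓ : ℕ) [Fact ℓ.Prime] : ((ℓ : ℕ) : OO) ∈ maxIdeal ℓ :=
  (exists_maxIdeal ℓ).choose_spec.2

/-- The residue field: an algebraic closure of `𝔽_ℓ`. -/
def kbar (ℓ : ℕ) [Fact ℓ.Prime] : Type := OO ⧸ maxIdeal ℓ

noncomputable instance kbar_field (ℓ : ℕ) [Fact ℓ.Prime] : Field (kbar ℓ) :=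
  Ideal.Quotient.field (maxIdeal ℓ)

/-- The reduction map. -/
noncomputable def redO (ℓ : ℕ) [Fact ℓ.Prime] : OO →+* kbar ℓ := Ideal.Quotient.mk (maxIdeal ℓ)

theorem redO_surjective (ℓ : ℕ) [Fact ℓ.Prime] : Function.Surjective (redO ℓ) :=
  Ideal.Quotient.mk_surjective

theorem redO_eq_zero_iff (ℓ : ℕ) [Fact ℓ.Prime] (x : OO) : redO ℓ x = 0 ↔ x ∈ maxIdeal ℓ :=
  Ideal.Quotient.eq_zero_iff_mem

instance kbar_charP (ℓ : ℕ) [Fact ℓ.Prime] : CharP (kbar ℓ) ℓ := by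
  rw [CharP.charP_iff_prime_eq_zero Fact.out]
  have h := (redO_eq_zero_iff ℓ _).mpr (natCast_mem_maxIdeal ℓ)
  rwa [map_natCast] at h

/-- A natural number prime to `ℓ` is nonzero in `kbar ℓ`. -/
theorem natCast_kbar_ne_zero (ℓ : ℕ) [Fact ℓ.Prime] {r : ℕ} (hr : r.Prime) (hrℓ : r ≠ ℓ) :
    ((r : ℕ) : kbar ℓ) ≠ 0 := by
  intro h
  have h2 := (CharP.cast_eq_zero_iff (kbar ℓ) ℓ r).mp h
  exact hrℓ ((Nat.prime_dvd_prime_iff_eq Fact.out hr).mp h2).symm

theorem isIntegral_of_root {P : OO[X]} (hP : P.Monic) {z : ℂ}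
    (hz : (P.map incO).eval z = 0) : IsIntegral ℤ z := by
  have h1 : IsIntegral OO z := ⟨P, hP, by rw [← Polynomial.eval_map]; exact hz⟩
  exact isIntegral_trans z h1

instance kbar_isAlgClosed (ℓ : ℕ) [Fact ℓ.Prime] : IsAlgClosed (kbar ℓ) := by
  refine IsAlgClosed.of_exists_root _ fun p hp hirr => ?_
  obtain ⟨P, hPmap, hPdeg, hPmonic⟩ := Polynomial.lifts_and_natDegree_eq_and_monic
    (f := redO ℓ) ((Polynomial.mem_lifts p).mpr (Polynomial.map_surjective _ (redO_surjective ℓ) p))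
    hp
  have hdeg : (P.map incO).degree ≠ 0 := by
    rw [Polynomial.degree_map_eq_of_injective incO_injective,
      Polynomial.degree_eq_natDegree hPmonic.ne_zero, hPdeg]
    have := hirr.natDegree_pos
    exact_mod_cast this.ne'
  obtain ⟨z, hz⟩ := IsAlgClosed.exists_root (P.map incO) hdeg
  have hzint : z ∈ integralClosure ℤ ℂ := isIntegral_of_root hPmonic hz
  refine ⟨redO ℓ ⟨z, hzint⟩, ?_⟩
  have h0 : P.eval (⟨z, hzint⟩ : OO) = 0 := by
    apply incO_injective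
    rw [map_zero, ← Polynomial.eval₂_at_apply, ← Polynomial.eval_map]
    exact hz
  rw [← hPmap, Polynomial.eval_map, Polynomial.eval₂_at_apply, h0, map_zero]

end Fermat.Agent.S28.Kbar
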