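import Mathlib
import Fermat.Prelude.Def_ModularCurve_X0ModL
import Fermat.Agent.S24.LaurentRescale
import Fermat.Agent.S28.Basic

/-!
# S28: formal series over an arbitrary commutative ring and base change

The series of `S28.Basic` (`Jm`, `Jx`, `unitV`) over a commutative ring `R` instead of a field,
and their compatibility with the coefficient maps `coeffMap φ`, `φ : R →+* S`:

* `rescaleU ξ` : the rescaling `∑ aₙ tⁿ ↦ ∑ ξⁿ aₙ tⁿ` for a unit `ξ`;
* `JmR R m = J(t ^ m)`, `JxR ξ m = J(ξ t ^ m)`;
* `DeltaInvL R` : the inverse of the formal discriminant; `unitVR R r = r ^ 12 Δ(t ^ r) / Δ(t)`;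
* `coeffMap_*` : base change; `*_eq_*` : comparison with the definitions of `S28.Basic` over a
  field.
-/

set_option autoImplicit false
set_option linter.style.haveILetI false

namespace Fermat.Agent.S28.Formal

open HahnSeries Polynomial ModularCurve
open Fermat.Agent.S28.Basic

section Ring

variable {R : Type*} [CommRing R]

/-! ### Rescaling by a unit -/

/-- The underlying function of the rescaling map. -/
noncomputable def rescaleUFun (ξ : Rˣ) (f : LaurentSeries R) : LaurentSeries R where
  coeff n := ((ξ ^ n : Rˣ) : R) * f.coeff n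
  isPWO_support' := by
    refine f.isPWO_support.mono ?_
    intro n hn
    simp only [Function.mem_support, ne_eq] at hn
    simp only [HahnSeries.mem_support, ne_eq]
    exact fun h => hn (by rw [h, mul_zero])

@[simp] theorem rescaleUFun_coeff (ξ : Rˣ) (f : LaurentSeries R) (n : ℤ) :
    (rescaleUFun ξ f).coeff n = ((ξ ^ n : Rˣ) : R) * f.coeff n := rfl

theorem support_rescaleUFun (ξ : Rˣ) (f : LaurentSeries R) :
    (rescaleUFun ξ f).support = f.support := by
  ext n
  simp only [HahnSeries.mem_support, rescaleUFun_coeff, ne_eq, Units.mul_right_eq_zero]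

theorem rescaleUFun_mul (ξ : Rˣ) (f g : LaurentSeries R) :
    rescaleUFun ξ (f * g) = rescaleUFun ξ f * rescaleUFun ξ g := by
  ext a
  rw [rescaleUFun_coeff, HahnSeries.coeff_mul, HahnSeries.coeff_mul, Finset.mul_sum]
  refine Finset.sum_congr ?_ fun ij hij => ?_
  · ext ij
    simp only [Finset.mem_antidiagonal, support_rescaleUFun]
  · have hsum : ij.1 + ij.2 = a := (Finset.mem_antidiagonal.mp hij).2.2
    rw [rescaleUFun_coeff, rescaleUFun_coeff, ← hsum, zpow_add, Units.val_mul]
    ring

/-- **Rescaling** `∑ aₙ tⁿ ↦ ∑ ξⁿ aₙ tⁿ` by a unit `ξ`, as a ring homomorphism. -/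
noncomputable def rescaleU (ξ : Rˣ) : LaurentSeries R →+* LaurentSeries R where
  toFun := rescaleUFun ξ
  map_one' := by
    ext n
    rw [rescaleUFun_coeff, HahnSeries.coeff_one]
    split_ifs with h
    · rw [h, zpow_zero, Units.val_one, mul_one]
    · rw [mul_zero]
  map_mul' := rescaleUFun_mul ξ
  map_zero' := by
    ext n
    simp
  map_add' f g := by
    ext n
    simp [mul_add]

@[simp] theorem rescaleU_coeff (ξ : Rˣ) (f : LaurentSeries R) (n : ℤ) :
    (rescaleU ξ f).coeff n = ((ξ ^ n : Rˣ) : R) * f.coeff n := rfl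

theorem rescaleU_one (f : LaurentSeries R) : rescaleU (1 : Rˣ) f = f := by
  ext n
  simp

theorem coeffMap_rescaleU {S : Type*} [CommRing S] (φ : R →+* S) (ξ : Rˣ)
    (f : LaurentSeries R) :
    coeffMap φ (rescaleU ξ f) = rescaleU (Units.map (φ : R →* S) ξ) (coeffMap φ f) := by
  ext n
  rw [coeffMap_coeff, rescaleU_coeff, rescaleU_coeff, coeffMap_coeff, map_mul, ← map_zpow,
    Units.coe_map]
  rfl

/-! ### Base change of the substitution and of the evaluation -/

theorem coeffMap_sub {S : Type*} [CommRing S] (φ : R →+* S) (m : ℕ) (f : LaurentSeries R) :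
    coeffMap φ (sub R m f) = sub S m (coeffMap φ f) := by
  by_cases hm : m = 0
  · subst hm
    unfold sub
    rw [dif_pos rfl, dif_pos rfl]
    rfl
  · haveI : NeZero m := ⟨hm⟩
    rw [Basic.sub_apply, Basic.sub_apply, coeffMap_qExpand]

theorem coeffMap_C {S : Type*} [CommRing S] (φ : R →+* S) (c : R) :
    coeffMap φ (HahnSeries.C c) = HahnSeries.C (φ c) := by
  rw [HahnSeries.C_apply, coeffMap_single, HahnSeries.C_apply]

theorem coeffMap_evalAt {S : Type*} [CommRing S] (φ : R →+* S) (x : LaurentSeries R)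
    (P : R[X]) : coeffMap φ (evalAt R x P) = evalAt S (coeffMap φ x) (P.map φ) := by
  induction P using Polynomial.induction_on' with
  | add p q hp hq => rw [map_add, map_add, hp, hq, Polynomial.map_add, map_add]
  | monomial n a =>
    rw [← Polynomial.C_mul_X_pow_eq_monomial]
    simp only [map_mul, map_pow, evalAt_X, evalAt_C, Polynomial.map_mul, Polynomial.map_pow,
      Polynomial.map_C, Polynomial.map_X, coeffMap_C]

/-- Base change of `P ↦ P(x)` as an identity of ring homomorphisms. -/
theorem coeffMap_comp_evalAt {S : Type*} [CommRing S] (φ : R →+* S) (x : LaurentSeries R) :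
    (coeffMap φ).comp (evalAt R x) = (evalAt S (coeffMap φ x)).comp (Polynomial.mapRingHom φ) :=
  RingHom.ext fun P => coeffMap_evalAt φ x P

theorem sub_comp_evalAt (m : ℕ) (x : LaurentSeries R) :
    (sub R m).comp (evalAt R x) = evalAt R (sub R m x) := by
  refine RingHom.ext fun P => ?_
  induction P using Polynomial.induction_on' with
  | add p q hp hq => rw [map_add, map_add, hp, hq]
  | monomial n a =>
    rw [← Polynomial.C_mul_X_pow_eq_monomial]
    simp only [RingHom.comp_apply, map_mul, map_pow, evalAt_X, evalAt_C, sub_C]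

variable (R)

/-! ### The series `J(t ^ m)` and `J(ξ t ^ m)` -/

/-- The series `J(t ^ m)` over a commutative ring. -/
noncomputable def JmR (m : ℕ) : LaurentSeries R := sub R m (jqModC R)

/-- The series `J(ξ t ^ m)` over a commutative ring, `ξ` a unit. -/
noncomputable def JxR (ξ : Rˣ) (m : ℕ) : LaurentSeries R := sub R m (rescaleU ξ (jqModC R))

theorem JxR_one (m : ℕ) : JxR R 1 m = JmR R m := by
  unfold JxR JmR
  rw [rescaleU_one]

variable {R}

theorem coeffMap_JmR {S : Type*} [CommRing S] (φ : R →+* S) (m : ℕ) :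
    coeffMap φ (JmR R m) = JmR S m := by
  unfold JmR
  rw [coeffMap_sub, coeffMap_jqModC]

theorem coeffMap_JxR {S : Type*} [CommRing S] (φ : R →+* S) (ξ : Rˣ) (m : ℕ) :
    coeffMap φ (JxR R ξ m) = JxR S (Units.map (φ : R →* S) ξ) m := by
  unfold JxR
  rw [coeffMap_sub, coeffMap_rescaleU, coeffMap_jqModC]

variable (R)

/-! ### The discriminant and the modular unit -/

/-- The inverse of the formal discriminant. -/
noncomputable def DeltaInvL : LaurentSeries R :=
  HahnSeries.single (-1 : ℤ) 1 *
    HahnSeries.ofPowerSeries ℤ R (dedekindEtaUnitInv.map (Int.castRingHom R))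

theorem DeltaL_mul_DeltaInvL : DeltaL R * DeltaInvL R = 1 := by
  unfold DeltaL DeltaInvL
  rw [mul_mul_mul_comm, HahnSeries.single_mul_single, ← map_mul, ← map_mul,
    dedekindEtaUnit_mul_inv, map_one, map_one, mul_one, mul_one, add_neg_cancel]
  rfl

/-- The modular unit `r ^ 12 Δ(t ^ r) / Δ(t)` over a commutative ring. -/
noncomputable def unitVR (r : ℕ) : LaurentSeries R :=
  HahnSeries.C ((r : R) ^ 12) * sub R r (DeltaL R) * DeltaInvL R

variable {R}

theorem coeffMap_ofPowerSeries_intCast {S : Type*} [CommRing S] (φ : R →+* S)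
    (P : PowerSeries ℤ) :
    coeffMap φ (HahnSeries.ofPowerSeries ℤ R (P.map (Int.castRingHom R))) =
      HahnSeries.ofPowerSeries ℤ S (P.map (Int.castRingHom S)) := by
  rw [ModularCurve.coeffMap_ofPowerSeries]
  congr 1
  ext n
  simp

theorem coeffMap_DeltaL {S : Type*} [CommRing S] (φ : R →+* S) :
    coeffMap φ (DeltaL R) = DeltaL S := by
  unfold DeltaL
  rw [map_mul, coeffMap_single, map_one, coeffMap_ofPowerSeries_intCast]

theorem coeffMap_DeltaInvL {S : Type*} [CommRing S] (φ : R →+* S) :
    coeffMap φ (DeltaInvL R) = DeltaInvL S := by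
  unfold DeltaInvL
  rw [map_mul, coeffMap_single, map_one, coeffMap_ofPowerSeries_intCast]

theorem coeffMap_unitVR {S : Type*} [CommRing S] (φ : R →+* S) (r : ℕ) :
    coeffMap φ (unitVR R r) = unitVR S r := by
  unfold unitVR
  rw [map_mul, map_mul, coeffMap_C, coeffMap_sub, coeffMap_DeltaL, coeffMap_DeltaInvL, map_pow,
    map_natCast]

end Ring

section Field

variable (k : Type*) [Field k]

theorem rescaleU_eq_rescale (ξ : kˣ) (f : LaurentSeries k) :
    rescaleU ξ f = Fermat.Agent.S24.LaurentRescale.rescale (ξ : k) ξ.ne_zero f := by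
  ext n
  rw [rescaleU_coeff, Fermat.Agent.S24.LaurentRescale.rescale_coeff, Units.val_zpow_eq_zpow_val]

theorem JmR_eq_Jm (m : ℕ) : JmR k m = Jm k m := rfl

theorem JxR_eq_Jx (ξ : kˣ) (m : ℕ) : JxR k ξ m = Jx k ξ m := by
  unfold JxR Jx
  rw [rescaleU_eq_rescale]

theorem DeltaInvL_eq_inv : DeltaInvL k = (DeltaL k)⁻¹ :=
  eq_inv_of_mul_eq_one_right (DeltaL_mul_DeltaInvL k)

theorem unitVR_eq_unitV (r : ℕ) : unitVR k r = unitV k r := by
  unfold unitVR unitV
  rw [DeltaInvL_eq_inv]

end Field

end Fermat.Agent.S28.Formal
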