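import Mathlib
import Fermat.Agent.S24.JqCriterion
import Fermat.Agent.S24.LaurentRescale
import Fermat.Agent.S28.Basic

/-!
# S28 (A1/A2): convergent Laurent series, complements

Complements to `S24.JqCriterion.LRepr` (Laurent series converging on the punctured unit disc):
negation, subtraction, rescaling `q ↦ ξ q` with `‖ξ‖ = 1`, the substitution `sub m`, coefficients
of products of linear factors, evaluation of polynomials, equality from equality of the
functions, the parametrisation of the punctured disc by the upper half plane, and the series of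
the discriminant and of its inverse.
-/

set_option autoImplicit false
set_option linter.style.haveILetI false

namespace Fermat.Agent.S28.LReprX

open Metric Filter Topology UpperHalfPlane ModularForm ModularCurve HahnSeries Polynomial
open Fermat.Agent.S24.DiscSeries Fermat.Agent.S24.JFunction Fermat.Agent.S24.JqExpansion
open Fermat.Agent.S24.JqCriterion
open Fermat.Agent.S28.Basic

local notation "𝕢" => Function.Periodic.qParam

/-! ### Calculus -/

theorem LRepr.congr {L : LaurentSeries ℂ} {f g : ℂ → ℂ} (h : LRepr L f)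
    (hfg : ∀ q : ℂ, q ≠ 0 → ‖q‖ < 1 → f q = g q) : LRepr L g := by
  obtain ⟨m, P, g', e, r, v⟩ := h
  exact ⟨m, P, g', e, r, fun q hq0 hq => by rw [v q hq0 hq, hfg q hq0 hq]⟩

theorem LRepr.neg {L : LaurentSeries ℂ} {f : ℂ → ℂ} (h : LRepr L f) :
    LRepr (-L) (fun q => -f q) := by
  have h1 := (lrepr_C (-1)).mul h
  have e : (HahnSeries.C (-1 : ℂ) : LaurentSeries ℂ) * L = -L := by
    rw [map_neg, map_one, neg_one_mul]
  rw [e] at h1
  exact LRepr.congr h1 fun q _ _ => by ring

theorem LRepr.sub {L₁ L₂ : LaurentSeries ℂ} {f₁ f₂ : ℂ → ℂ} (h₁ : LRepr L₁ f₁)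
    (h₂ : LRepr L₂ f₂) : LRepr (L₁ - L₂) (fun q => f₁ q - f₂ q) := by
  have h := h₁.add (LRepr.neg h₂)
  rw [← sub_eq_add_neg] at h
  exact LRepr.congr h fun q _ _ => by ring

/-- Two convergent Laurent series are equal as soon as the functions agree on the punctured
disc. -/
theorem LRepr.eq_of_forall {L₁ L₂ : LaurentSeries ℂ} {f₁ f₂ : ℂ → ℂ} (h₁ : LRepr L₁ f₁)
    (h₂ : LRepr L₂ f₂) (h : ∀ q : ℂ, q ≠ 0 → ‖q‖ < 1 → f₁ q = f₂ q) : L₁ = L₂ := by
  rw [← sub_eq_zero, (LRepr.sub h₁ h₂).eq_zero_iff]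
  intro q hq0 hq
  rw [h q hq0 hq, sub_self]

theorem lrepr_one : LRepr (1 : LaurentSeries ℂ) (fun _ => 1) := by
  have := lrepr_C 1
  rwa [map_one] at this

theorem LRepr.pow {L : LaurentSeries ℂ} {f : ℂ → ℂ} (h : LRepr L f) (n : ℕ) :
    LRepr (L ^ n) (fun q => f q ^ n) := by
  induction n with
  | zero =>
    simp only [pow_zero]
    exact lrepr_one
  | succ n ih =>
    simp only [pow_succ]
    exact ih.mul h

theorem lrepr_prod {ι : Type*} (s : Finset ι) (L : ι → LaurentSeries ℂ) (f : ι → ℂ → ℂ)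
    (h : ∀ i ∈ s, LRepr (L i) (f i)) : LRepr (∏ i ∈ s, L i) (fun q => ∏ i ∈ s, f i q) := by
  classical
  induction s using Finset.induction_on with
  | empty =>
    simp only [Finset.prod_empty]
    exact lrepr_one
  | insert a s ha ih =>
    simp only [Finset.prod_insert ha]
    exact (h a (Finset.mem_insert_self a s)).mul
      (ih fun i hi => h i (Finset.mem_insert_of_mem hi))

/-! ### Rescaling -/

theorem repr_rescale {P : PowerSeries ℂ} {g : ℂ → ℂ} (h : DRepr P g) {ξ : ℂ} (hξ : ‖ξ‖ = 1) :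
    DRepr (PowerSeries.rescale ξ P) (fun q => g (ξ * q)) := by
  intro q hq
  have hq' : ‖ξ * q‖ < 1 := by rw [norm_mul, hξ, one_mul]; exact hq
  have h1 := h (ξ * q) hq'
  have e : (fun n : ℕ => PowerSeries.coeff n (PowerSeries.rescale ξ P) * q ^ n) =
      fun n : ℕ => PowerSeries.coeff n P * (ξ * q) ^ n := by
    funext n
    rw [PowerSeries.coeff_rescale, mul_pow]
    ring
  rw [e]
  exact h1

theorem LRepr.rescale {L : LaurentSeries ℂ} {f : ℂ → ℂ} (h : LRepr L f) {ξ : ℂ} (hξ : ‖ξ‖ = 1)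
    (hξ0 : ξ ≠ 0) :
    LRepr (Fermat.Agent.S24.LaurentRescale.rescale ξ hξ0 L) (fun q => f (ξ * q)) := by
  obtain ⟨m, P, g, e, r, v⟩ := h
  refine ⟨m, PowerSeries.C (ξ ^ m)⁻¹ * PowerSeries.rescale ξ P,
    fun q => (ξ ^ m)⁻¹ * g (ξ * q), ?_, (repr_C _).mul (repr_rescale r hξ), fun q hq0 hq => ?_⟩
  · have h1 := congrArg (Fermat.Agent.S24.LaurentRescale.rescale ξ hξ0) e
    rw [map_mul, Fermat.Agent.S24.LaurentRescale.rescale_single',
      Fermat.Agent.S24.LaurentRescale.rescale_ofPowerSeries, mul_one, zpow_natCast] at h1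
    rw [map_mul, ← h1, HahnSeries.ofPowerSeries_C, ← mul_assoc, HahnSeries.C_apply,
      HahnSeries.single_mul_single, zero_add, inv_mul_cancel₀ (pow_ne_zero m hξ0)]
  · have hq' : ‖ξ * q‖ < 1 := by rw [norm_mul, hξ, one_mul]; exact hq
    simp only []
    rw [v (ξ * q) (mul_ne_zero hξ0 hq0) hq', mul_pow]
    field_simp

/-- The substitution `q ↦ q ^ m`. -/
theorem LRepr.subst {L : LaurentSeries ℂ} {f : ℂ → ℂ} (h : LRepr L f) {m : ℕ} (hm : m ≠ 0) :
    LRepr (Basic.sub ℂ m L) (fun q => f (q ^ m)) := by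
  haveI : NeZero m := ⟨hm⟩
  rw [Basic.sub_apply]
  exact h.qExpand m

/-! ### Polynomials -/

theorem lrepr_evalAt {J : LaurentSeries ℂ} {j : ℂ → ℂ} (h : LRepr J j) (P : ℂ[X]) :
    LRepr (evalAt ℂ J P) (fun q => P.eval (j q)) := by
  induction P using Polynomial.induction_on' with
  | add p q hp hq =>
    simp only [map_add, Polynomial.eval_add]
    exact hp.add hq
  | monomial n a =>
    rw [← Polynomial.C_mul_X_pow_eq_monomial]
    simp only [map_mul, map_pow, evalAt_X, evalAt_C, Polynomial.eval_mul, Polynomial.eval_C,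
      Polynomial.eval_pow, Polynomial.eval_X]
    exact (lrepr_C a).mul (LRepr.pow h n)

/-- Coefficients of products of linear factors. -/
theorem lrepr_prodCoeff {ι : Type*} (s : Finset ι) (L : ι → LaurentSeries ℂ) (f : ι → ℂ → ℂ)
    (h : ∀ i ∈ s, LRepr (L i) (f i)) (k : ℕ) :
    LRepr ((∏ i ∈ s, (X - Polynomial.C (L i)) : (LaurentSeries ℂ)[X]).coeff k)
      (fun q => (∏ i ∈ s, (X - Polynomial.C (f i q)) : ℂ[X]).coeff k) := by
  classical
  induction s using Finset.induction_on generalizing k with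
  | empty =>
    simp only [Finset.prod_empty, Polynomial.coeff_one]
    split_ifs
    · exact lrepr_one
    · have := lrepr_C 0
      rwa [map_zero] at this
  | insert a s ha ih =>
    have hs : ∀ i ∈ s, LRepr (L i) (f i) := fun i hi => h i (Finset.mem_insert_of_mem hi)
    have ha' := h a (Finset.mem_insert_self a s)
    rcases k with _ | k
    · have e1 : (∏ i ∈ insert a s, (X - Polynomial.C (L i)) : (LaurentSeries ℂ)[X]).coeff 0 =
          (-L a) * (∏ i ∈ s, (X - Polynomial.C (L i)) : (LaurentSeries ℂ)[X]).coeff 0 := by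
        rw [Finset.prod_insert ha, Polynomial.mul_coeff_zero]
        simp
      rw [e1]
      refine LRepr.congr ((LRepr.neg ha').mul (ih hs 0)) fun q _ _ => ?_
      rw [Finset.prod_insert ha, Polynomial.mul_coeff_zero]
      simp
    · have e1 : (∏ i ∈ insert a s, (X - Polynomial.C (L i)) : (LaurentSeries ℂ)[X]).coeff (k + 1) =
          (∏ i ∈ s, (X - Polynomial.C (L i)) : (LaurentSeries ℂ)[X]).coeff k -
            L a * (∏ i ∈ s, (X - Polynomial.C (L i)) : (LaurentSeries ℂ)[X]).coeff (k + 1) := by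
        rw [Finset.prod_insert ha, Polynomial.coeff_X_sub_C_mul]
      rw [e1]
      refine LRepr.congr (LRepr.sub (ih hs k) (ha'.mul (ih hs (k + 1)))) fun q _ _ => ?_
      rw [Finset.prod_insert ha, Polynomial.coeff_X_sub_C_mul]

/-! ### The punctured disc is parametrised by the upper half plane -/

theorem exists_qParam_eq {q : ℂ} (hq0 : q ≠ 0) (hq : ‖q‖ < 1) : ∃ w : ℍ, 𝕢 1 (w : ℂ) = q := by
  have him := Function.Periodic.im_invQParam_pos_of_norm_lt_one one_pos hq hq0
  exact ⟨⟨Function.Periodic.invQParam 1 q, him⟩,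
    Function.Periodic.qParam_right_inv one_ne_zero hq0⟩

theorem norm_qParam_lt_one (w : ℍ) : ‖𝕢 1 (w : ℂ)‖ < 1 :=
  Function.Periodic.norm_qParam_lt_one one_pos w.im_pos

theorem qParam_ne_zero (w : ℍ) : 𝕢 1 (w : ℂ) ≠ 0 := Function.Periodic.qParam_ne_zero _

/-- Equality of convergent Laurent series, tested on the upper half plane. -/
theorem LRepr.eq_of_forall_qParam {L₁ L₂ : LaurentSeries ℂ} {f₁ f₂ : ℂ → ℂ} (h₁ : LRepr L₁ f₁)
    (h₂ : LRepr L₂ f₂) (h : ∀ w : ℍ, f₁ (𝕢 1 (w : ℂ)) = f₂ (𝕢 1 (w : ℂ))) : L₁ = L₂ := by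
  refine LRepr.eq_of_forall h₁ h₂ fun q hq0 hq => ?_
  obtain ⟨w, rfl⟩ := exists_qParam_eq hq0 hq
  exact h w

end Fermat.Agent.S28.LReprX
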