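import Mathlib
import Fermat.Agent.S24.CharPoly
import Fermat.Agent.S16.Gr
import Fermat.Agent.S28.LReprX
import Fermat.Agent.S28.Formal

/-!
# S28 (A1/A2): the polynomial of the conjugates of a function of prime level

Let `r` be a prime and `Θ : ℍ → ℂ` a holomorphic function, invariant under `Γ₀(r)`, all of whose
translates are meromorphic at `i∞`.  Its conjugates are `Θ` and `Θ ∘ (S T^b)`, `b < r`.  If the
conjugates have convergent Laurent expansions `G i` in `s = e^{2πi z / r}` with coefficients in a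
subalgebra `O ⊆ ℂ`, then `∏_i (X - G i) = Φ(X, J(s^r))` for a monic `Φ ∈ O[Y][X]` of degree
`r + 1`.
-/

set_option autoImplicit false
set_option linter.style.haveILetI false
set_option linter.unusedSectionVars false

namespace Fermat.Agent.S28.ConjPoly

open UpperHalfPlane CongruenceSubgroup ModularForm Filter Topology Polynomial ModularCurve
open Fermat.Agent.S20
open Fermat.Agent.S24.CharPoly Fermat.Agent.S24.JqCriterion Fermat.Agent.S24.JFunction
open Fermat.Agent.S28.Basic Fermat.Agent.S28.Formal Fermat.Agent.S28.LReprX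
open scoped MatrixGroups ModularForm Manifold

local notation "Δ" => ModularForm.discriminant
local notation "𝕢" => Function.Periodic.qParam

attribute [local instance] Fermat.Agent.S20.Dual.fintypeQ

/-! ### Coset representatives -/

section Cosets

variable (r : ℕ) [Fact r.Prime] [NeZero r]

/-- The coset representatives `1`, `S T^b` (`b < r`) of `Γ₀(r) \ SL(2, ℤ)`. -/
noncomputable def rep : Option (Fin r) → SL(2, ℤ)
  | none => 1
  | some b => ModularGroup.S * ModularGroup.T ^ ((b : ℕ) : ℤ)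

@[simp] theorem rep_none : rep r none = 1 := rfl

@[simp] theorem rep_some (b : Fin r) :
    rep r (some b) = ModularGroup.S * ModularGroup.T ^ ((b : ℕ) : ℤ) := rfl

theorem ST_entries (b : ℤ) :
    (ModularGroup.S * ModularGroup.T ^ b) 1 0 = 1 ∧ (ModularGroup.S * ModularGroup.T ^ b) 1 1 = b := by
  simp only [Matrix.SpecialLinearGroup.coe_mul, ModularGroup.coe_T_zpow, ModularGroup.coe_S,
    Matrix.mul_apply, Fin.sum_univ_two]
  simp

theorem ST_notMem (b : ℤ) : ModularGroup.S * ModularGroup.T ^ b ∉ Gamma0 r := by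
  rw [Gamma0_mem, (ST_entries b).1]
  have h1 : ((1 : ℤ) : ZMod r) = 1 := by simp
  rw [h1]
  haveI : Fact (1 < r) := ⟨(Fact.out : r.Prime).one_lt⟩
  exact one_ne_zero

/-- The cosets of the representatives. -/
noncomputable def cls (i : Option (Fin r)) : Q r := QuotientGroup.mk (rep r i)⁻¹

theorem cls_injective : Function.Injective (cls r) := by
  intro i j h
  unfold cls at h
  rw [QuotientGroup.eq, inv_inv] at h
  rcases i with _ | b <;> rcases j with _ | c
  · rfl
  · exfalso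
    rw [rep_none, one_mul] at h
    have h' := inv_mem h
    rw [inv_inv, rep_some] at h'
    exact ST_notMem r _ h'
  · exfalso
    rw [rep_none, inv_one, mul_one] at h
    exact ST_notMem r _ h
  · rw [rep_some, rep_some, Gamma0_mem, Fermat.Agent.S16.Gr.entry_mul_ST_inv, (ST_entries _).1,
      (ST_entries _).2] at h
    have h1 : ((c : ℕ) : ZMod r) = ((b : ℕ) : ZMod r) := by
      push_cast at h
      linear_combination h
    have h2 := (ZMod.natCast_eq_natCast_iff' _ _ _).mp h1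
    rw [Nat.mod_eq_of_lt c.2, Nat.mod_eq_of_lt b.2] at h2
    exact congrArg some (Fin.ext h2.symm)

theorem cls_surjective : Function.Surjective (cls r) := by
  intro q
  obtain ⟨δ, rfl⟩ := QuotientGroup.mk_surjective q
  by_cases hδ : δ⁻¹ ∈ Gamma0 r
  · refine ⟨none, ?_⟩
    unfold cls
    rw [rep_none, inv_one, QuotientGroup.eq, inv_one, one_mul]
    have h' := inv_mem hδ
    rwa [inv_inv] at h'
  · obtain ⟨γ, hγ, i, hi, e⟩ := Fermat.Agent.S16.Gr.exists_mem_Gamma0_mul r δ⁻¹ hδ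
    refine ⟨some ⟨i, hi⟩, ?_⟩
    unfold cls
    rw [rep_some, QuotientGroup.eq, inv_inv]
    have : ModularGroup.S * ModularGroup.T ^ (((⟨i, hi⟩ : Fin r) : ℕ) : ℤ) * δ = γ⁻¹ := by
      have e' : δ = (γ * (ModularGroup.S * ModularGroup.T ^ (i : ℤ)))⁻¹ := by
        rw [← e, inv_inv]
      rw [e']
      group
    rw [this]
    exact inv_mem hγ

/-- The bijection between the index set of the conjugates and the coset space. -/
noncomputable def clsEquiv : Option (Fin r) ≃ Q r :=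
  Equiv.ofBijective (cls r) ⟨cls_injective r, cls_surjective r⟩

@[simp] theorem clsEquiv_apply (i : Option (Fin r)) : clsEquiv r i = cls r i := rfl

end Cosets

/-! ### The conjugates and their polynomial -/

section Analytic

variable (r : ℕ) [Fact r.Prime] [NeZero r]

/-- The conjugates `Θ`, `Θ ∘ (S T^b)`. -/
noncomputable def root (Θ : ℍ → ℂ) (i : Option (Fin r)) (z : ℍ) : ℂ := Θ (rep r i • z)

theorem root_none (Θ : ℍ → ℂ) (z : ℍ) : root r Θ none z = Θ z := by
  unfold root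
  rw [rep_none, one_smul]

theorem root_some (Θ : ℍ → ℂ) (b : Fin r) (z : ℍ) :
    root r Θ (some b) z = Θ ((ModularGroup.S * ModularGroup.T ^ ((b : ℕ) : ℤ)) • z) := rfl

variable {r}

theorem conj_cls {Θ : ℍ → ℂ} (hinv : ∀ γ ∈ Gamma0 r, ∀ z, Θ (γ • z) = Θ z)
    (i : Option (Fin r)) (z : ℍ) : conj r Θ (cls r i) z = root r Θ i z := by
  unfold cls root
  rw [conj_mk hinv, inv_inv]

theorem chi_eq_prod {Θ : ℍ → ℂ} (hinv : ∀ γ ∈ Gamma0 r, ∀ z, Θ (γ • z) = Θ z) (z : ℍ) :
    chi r Θ z = ∏ i : Option (Fin r), (X - C (root r Θ i z)) := by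
  unfold chi
  rw [← (clsEquiv r).prod_comp]
  refine Finset.prod_congr rfl fun i _ => ?_
  rw [clsEquiv_apply, conj_cls hinv]

/-- The coefficients of the polynomial of the conjugates are polynomials in `j`. -/
theorem exists_poly_coeff {Θ : ℍ → ℂ} (M : ℕ)
    (hmd : ∀ γ : SL(2, ℤ), MDiff (fun z : ℍ => Θ (γ • z)))
    (hinv : ∀ γ ∈ Gamma0 r, ∀ z, Θ (γ • z) = Θ z)
    (hmero : ∀ γ : SL(2, ℤ), Mero M (fun z : ℍ => Θ (γ • z))) (k : ℕ) :
    ∃ P : ℂ[X], ∀ z : ℍ,
      (∏ i : Option (Fin r), (X - C (root r Θ i z)) : ℂ[X]).coeff k = P.eval (jfun z) := by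
  classical
  have hgood := coeff_prod_good (Finset.univ : Finset (Q r)) (conj r Θ) M
    (fun q _ => ⟨hmd _, hmero _⟩) k
  have hinv' : ∀ (γ : SL(2, ℤ)) (z : ℍ), (chi r Θ (γ • z)).coeff k = (chi r Θ z).coeff k :=
    fun γ z => by rw [chi_smul hinv]
  have hfun : prodCoeff (Finset.univ : Finset (Q r)) (conj r Θ) k
      = fun z => (chi r Θ z).coeff k := rfl
  rw [hfun] at hgood
  obtain ⟨P, -, hP⟩ := Fermat.Agent.S24.PolyJ.exists_poly (M * (Finset.univ : Finset (Q r)).card)
    (f := fun z => (chi r Θ z).coeff k) hgood.1 hinv' hgood.2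
  refine ⟨P, fun z => ?_⟩
  rw [← chi_eq_prod hinv]
  exact hP z

end Analytic

/-! ### The formal identity -/

section Formal

variable (r : ℕ) [Fact r.Prime] [NeZero r]

omit [Fact r.Prime] in
theorem ofComplex_mul (w : ℍ) : ofComplex ((r : ℂ) * (w : ℂ)) = Fermat.Agent.S16.Gr.mulN r w := by
  have h : 0 < ((r : ℂ) * (w : ℂ)).im := (Fermat.Agent.S16.Gr.mulN r w).im_pos
  rw [ofComplex_apply_of_im_pos h]
  rfl

omit [Fact r.Prime] in
theorem jDisc_qParam_pow_eq (w : ℍ) :
    jDisc (𝕢 1 (w : ℂ) ^ r) = jfun (Fermat.Agent.S16.Gr.mulN r w) := by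
  rw [jDisc_qParam_pow, Jd_def, ofComplex_mul]

omit [Fact r.Prime] [NeZero r] in
theorem lrepr_JmR (m : ℕ) (hm : m ≠ 0) : LRepr (JmR ℂ m) (fun q => jDisc (q ^ m)) :=
  LRepr.subst lrepr_jqC hm

variable {r}

/-- The coefficients of the polynomial of the formal conjugates are polynomials in
`J(s ^ r)`. -/
theorem exists_poly_formal {Θ : ℍ → ℂ} (M : ℕ)
    (hmd : ∀ γ : SL(2, ℤ), MDiff (fun z : ℍ => Θ (γ • z)))
    (hinv : ∀ γ ∈ Gamma0 r, ∀ z, Θ (γ • z) = Θ z)
    (hmero : ∀ γ : SL(2, ℤ), Mero M (fun z : ℍ => Θ (γ • z)))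
    (F : Option (Fin r) → LaurentSeries ℂ) (f : Option (Fin r) → ℂ → ℂ)
    (hF : ∀ i, LRepr (F i) (f i))
    (hval : ∀ (i : Option (Fin r)) (w : ℍ),
      f i (𝕢 1 (w : ℂ)) = root r Θ i (Fermat.Agent.S16.Gr.mulN r w)) (k : ℕ) :
    ∃ P : ℂ[X], (∏ i : Option (Fin r), (X - C (F i)) : (LaurentSeries ℂ)[X]).coeff k =
      evalAt ℂ (JmR ℂ r) P := by
  obtain ⟨P, hP⟩ := exists_poly_coeff M hmd hinv hmero k
  refine ⟨P, ?_⟩
  have h1 := lrepr_prodCoeff (Finset.univ : Finset (Option (Fin r))) F f (fun i _ => hF i) k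
  have h2 := lrepr_evalAt (lrepr_JmR r (NeZero.ne r)) P
  refine LRepr.eq_of_forall_qParam h1 h2 fun w => ?_
  simp only [hval]
  rw [hP, jDisc_qParam_pow_eq]

end Formal

/-! ### Integrality -/

section Integral

variable {R : Type*} [CommRing R]

theorem coeff_JmR_pow {r : ℕ} (hr : r ≠ 0) {i d : ℕ} (hid : i ≤ d) :
    ((JmR R r) ^ i).coeff (-((r : ℤ) * d)) = if i = d then 1 else 0 := by
  have e : (JmR R r) ^ i = Basic.sub R r (jqModC R ^ i) := by
    unfold JmR
    rw [map_pow]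
  rw [e, show -((r : ℤ) * d) = (r : ℤ) * (-(d : ℤ)) by ring, Basic.sub_coeff_mul hr]
  split_ifs with h
  · subst h
    exact coeff_jqModC_pow_self R i
  · refine coeff_jqModC_pow_of_lt R ?_
    have := lt_of_le_of_ne hid h
    omega

/-- The leading coefficient of `P` is read off from the expansion of `P(J(t ^ r))`. -/
theorem coeff_evalAt_JmR {r : ℕ} (hr : r ≠ 0) (P : R[X]) {d : ℕ} (hd : P.natDegree ≤ d) :
    (evalAt R (JmR R r) P).coeff (-((r : ℤ) * d)) = P.coeff d := by
  unfold evalAt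
  rw [Polynomial.coe_eval₂RingHom, Polynomial.eval₂_eq_sum_range' _ (Nat.lt_succ_of_le hd),
    HahnSeries.coeff_sum, Finset.sum_eq_single d]
  · rw [HahnSeries.C_mul_eq_smul, HahnSeries.coeff_smul, coeff_JmR_pow hr le_rfl, if_pos rfl,
      smul_eq_mul, mul_one]
  · intro i hi hid
    have hi' := Finset.mem_range.mp hi
    rw [HahnSeries.C_mul_eq_smul, HahnSeries.coeff_smul, coeff_JmR_pow hr (by omega), if_neg hid,
      smul_zero]
  · intro h
    exact absurd (Finset.mem_range.mpr (Nat.lt_succ_self d)) h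

theorem coeff_JmR_pow_mem (O : Subalgebra ℤ ℂ) (r n : ℕ) (m : ℤ) :
    ((JmR ℂ r) ^ n).coeff m ∈ O := by
  have e : JmR ℂ r = coeffMap (Int.castRingHom ℂ) (JmR ℤ r) := (coeffMap_JmR _ r).symm
  rw [e, ← map_pow, coeffMap_coeff]
  exact intCast_mem O _

/-- If `P(J(t ^ r))` has coefficients in `O`, so has `P`. -/
theorem coeff_mem_of_evalAt (O : Subalgebra ℤ ℂ) {r : ℕ} (hr : r ≠ 0) :
    ∀ (n : ℕ) (P : ℂ[X]), P.natDegree = n →
      (∀ m : ℤ, (evalAt ℂ (JmR ℂ r) P).coeff m ∈ O) → ∀ i, P.coeff i ∈ O := by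
  intro n
  induction n using Nat.strong_induction_on with
  | _ n ih =>
    intro P hn h i
    have hlead : P.leadingCoeff ∈ O := by
      have h1 := h (-((r : ℤ) * n))
      rw [coeff_evalAt_JmR hr P (le_of_eq hn)] at h1
      rwa [Polynomial.leadingCoeff, hn]
    have hP := P.eraseLead_add_C_mul_X_pow
    have h1 : ∀ m : ℤ, (evalAt ℂ (JmR ℂ r) P.eraseLead).coeff m ∈ O := by
      intro m
      have e : evalAt ℂ (JmR ℂ r) P.eraseLead =
          evalAt ℂ (JmR ℂ r) P - HahnSeries.C P.leadingCoeff * (JmR ℂ r) ^ P.natDegree := by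
        have e2 := congrArg (evalAt ℂ (JmR ℂ r)) hP
        rw [map_add, map_mul, map_pow, evalAt_X, evalAt_C] at e2
        exact eq_sub_of_add_eq e2
      rw [e, HahnSeries.coeff_sub, HahnSeries.C_mul_eq_smul, HahnSeries.coeff_smul, smul_eq_mul]
      exact O.sub_mem (h m) (O.mul_mem hlead (coeff_JmR_pow_mem O r _ m))
    have h2 : ∀ i, P.eraseLead.coeff i ∈ O := by
      rcases P.eraseLead_natDegree_lt_or_eraseLead_eq_zero with hlt | h0
      · exact ih _ (hn ▸ hlt) P.eraseLead rfl h1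
      · intro i
        rw [h0, Polynomial.coeff_zero]
        exact O.zero_mem
    rw [← hP, Polynomial.coeff_add, Polynomial.coeff_C_mul_X_pow]
    refine O.add_mem (h2 i) ?_
    split_ifs
    · exact hlead
    · exact O.zero_mem

theorem exists_lift_of_evalAt (O : Subalgebra ℤ ℂ) {r : ℕ} (hr : r ≠ 0) (P : ℂ[X])
    (L : LaurentSeries O) (h : coeffMap (algebraMap O ℂ) L = evalAt ℂ (JmR ℂ r) P) :
    ∃ P' : O[X], evalAt O (JmR O r) P' = L := by
  have hc : ∀ i, P.coeff i ∈ O := by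
    refine coeff_mem_of_evalAt O hr _ P rfl fun m => ?_
    rw [← h, coeffMap_coeff]
    exact (L.coeff m).2
  have hl : P ∈ Polynomial.lifts (algebraMap O ℂ) := by
    rw [Polynomial.lifts_iff_coeff_lifts]
    exact fun n => ⟨⟨P.coeff n, hc n⟩, rfl⟩
  obtain ⟨P', hP'⟩ := (Polynomial.mem_lifts _).mp hl
  refine ⟨P', ?_⟩
  have hinj : Function.Injective (coeffMap (algebraMap O ℂ)) := by
    intro x y hxy
    ext k
    have := congrArg (fun z => HahnSeries.coeff z k) hxy
    simp only [coeffMap_coeff] at this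
    exact this
  apply hinj
  rw [h, coeffMap_evalAt, coeffMap_JmR, hP']

end Integral

/-! ### The main theorem -/

section Main

variable {r : ℕ} [Fact r.Prime] [NeZero r]

theorem monic_prodLin {A : Type*} [CommRing A] [Nontrivial A] (G : Option (Fin r) → A) :
    (∏ i : Option (Fin r), (X - C (G i)) : A[X]).Monic ∧
      (∏ i : Option (Fin r), (X - C (G i)) : A[X]).natDegree = r + 1 := by
  refine ⟨Polynomial.monic_prod_of_monic _ _ fun _ _ => Polynomial.monic_X_sub_C _, ?_⟩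
  rw [Polynomial.natDegree_prod_of_monic _ _ fun _ _ => Polynomial.monic_X_sub_C _]
  simp only [Polynomial.natDegree_X_sub_C, Finset.sum_const, Finset.card_univ, smul_eq_mul,
    mul_one, Fintype.card_option, Fintype.card_fin]

/-- **The polynomial of the conjugates.**  If the conjugates of `Θ` have convergent Laurent
expansions `G i` in `s = e^{2πi z / r}` with coefficients in `O`, then
`∏_i (X - G i) = Φ(X, J(s ^ r))` with `Φ ∈ O[Y][X]` monic of degree `r + 1`. -/
theorem exists_monic {Θ : ℍ → ℂ} (M : ℕ)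
    (hmd : ∀ γ : SL(2, ℤ), MDiff (fun z : ℍ => Θ (γ • z)))
    (hinv : ∀ γ ∈ Gamma0 r, ∀ z, Θ (γ • z) = Θ z)
    (hmero : ∀ γ : SL(2, ℤ), Mero M (fun z : ℍ => Θ (γ • z)))
    (O : Subalgebra ℤ ℂ) (G : Option (Fin r) → LaurentSeries O) (f : Option (Fin r) → ℂ → ℂ)
    (hG : ∀ i, LRepr (coeffMap (algebraMap O ℂ) (G i)) (f i))
    (hval : ∀ (i : Option (Fin r)) (w : ℍ),
      f i (𝕢 1 (w : ℂ)) = root r Θ i (Fermat.Agent.S16.Gr.mulN r w)) :
    ∃ Φ : O[X][X], Φ.Monic ∧ Φ.natDegree = r + 1 ∧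
      Φ.map (evalAt O (JmR O r)) = ∏ i : Option (Fin r), (X - C (G i)) := by
  classical
  have hr : r ≠ 0 := NeZero.ne r
  obtain ⟨hPm, hPd⟩ := monic_prodLin (r := r) G
  set Pr : (LaurentSeries O)[X] := ∏ i : Option (Fin r), (X - C (G i)) with hPr
  have hmap : Pr.map (coeffMap (algebraMap O ℂ)) =
      ∏ i : Option (Fin r), (X - C (coeffMap (algebraMap O ℂ) (G i))) := by
    rw [hPr, Polynomial.map_prod]
    refine Finset.prod_congr rfl fun i _ => ?_
    rw [Polynomial.map_sub, Polynomial.map_X, Polynomial.map_C]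
  have hcoef : ∀ k : ℕ, ∃ P' : O[X], evalAt O (JmR O r) P' = Pr.coeff k := by
    intro k
    obtain ⟨P, hP⟩ := exists_poly_formal M hmd hinv hmero
      (fun i => coeffMap (algebraMap O ℂ) (G i)) f hG hval k
    refine exists_lift_of_evalAt O hr P (Pr.coeff k) ?_
    rw [← hP, ← hmap, Polynomial.coeff_map]
  choose P' hP' using hcoef
  set L : O[X][X] := ∑ k ∈ Finset.range (r + 1), Polynomial.C (P' k) * X ^ k with hL
  have hLdeg : L.degree < ((r + 1 : ℕ) : WithBot ℕ) := by
    rw [Polynomial.degree_lt_iff_coeff_zero]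
    intro m hm
    rw [hL, Polynomial.finsetSum_coeff]
    refine Finset.sum_eq_zero fun i hi => ?_
    rw [Polynomial.coeff_C_mul_X_pow, if_neg]
    have := Finset.mem_range.mp hi
    omega
  refine ⟨X ^ (r + 1) + L, Polynomial.monic_X_pow_add hLdeg, ?_, ?_⟩
  · have h0 : L.degree < (X ^ (r + 1) : O[X][X]).degree := by
      rw [Polynomial.degree_X_pow]
      exact hLdeg
    rw [Polynomial.natDegree_add_eq_left_of_degree_lt h0, Polynomial.natDegree_X_pow]
  · have h2 := hPm.as_sum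
    rw [hPd] at h2
    rw [h2, Polynomial.map_add, Polynomial.map_pow, Polynomial.map_X, hL, Polynomial.map_sum]
    congr 1
    refine Finset.sum_congr rfl fun k _ => ?_
    rw [Polynomial.map_mul, Polynomial.map_C, Polynomial.map_pow, Polynomial.map_X, hP']

end Main

/-! ### Roots of unity -/

section Zeta

open Complex in
/-- The root of unity `e^{2πi / r}`. -/
noncomputable def zetaC (r : ℕ) : ℂ := Complex.exp (2 * Real.pi * Complex.I / r)

variable (r : ℕ) [NeZero r]

theorem isPrimitiveRoot_zetaC : IsPrimitiveRoot (zetaC r) r :=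
  Complex.isPrimitiveRoot_exp r (NeZero.ne r)

theorem zetaC_pow_self : zetaC r ^ r = 1 := (isPrimitiveRoot_zetaC r).pow_eq_one

theorem zetaC_ne_zero : zetaC r ≠ 0 := Complex.exp_ne_zero _

theorem norm_zetaC_pow (b : ℕ) : ‖zetaC r ^ b‖ = 1 := by
  rw [norm_pow]
  have h : ‖zetaC r‖ = 1 := by
    exact Complex.norm_eq_one_of_pow_eq_one (zetaC_pow_self r) (NeZero.ne r)
  rw [h, one_pow]

/-- `e^{2πi / r}` as an algebraic integer. -/
noncomputable def zetaO : integralClosure ℤ ℂ :=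
  ⟨zetaC r, (isPrimitiveRoot_zetaC r).isIntegral (NeZero.pos r)⟩

theorem zetaO_pow_self : zetaO r ^ r = 1 :=
  Subtype.ext (by
    rw [SubmonoidClass.coe_pow]
    exact zetaC_pow_self r)

/-- `e^{2πi / r}` as a unit of the ring of algebraic integers. -/
noncomputable def zetaU : (integralClosure ℤ ℂ)ˣ :=
  Units.ofPowEqOne (zetaO r) r (zetaO_pow_self r) (NeZero.ne r)

theorem coe_zetaU : (((zetaU r : (integralClosure ℤ ℂ)ˣ) : integralClosure ℤ ℂ) : ℂ) = zetaC r :=
  rfl

theorem isPrimitiveRoot_zetaU :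
    IsPrimitiveRoot ((zetaU r : (integralClosure ℤ ℂ)ˣ) : integralClosure ℤ ℂ) r := by
  refine IsPrimitiveRoot.of_map_of_injective (f := algebraMap (integralClosure ℤ ℂ) ℂ) ?_
    (FaithfulSMul.algebraMap_injective _ _)
  exact isPrimitiveRoot_zetaC r

theorem coe_map_zetaU_pow (b : ℕ) :
    ((Units.map ((algebraMap (integralClosure ℤ ℂ) ℂ : integralClosure ℤ ℂ →+* ℂ) :
      integralClosure ℤ ℂ →* ℂ) (zetaU r ^ b) : ℂˣ) : ℂ) = zetaC r ^ b := by
  rw [map_pow, Units.val_pow_eq_pow_val, Units.coe_map]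
  rfl

theorem qParam_divN_mulN (b : ℕ) (w : ℍ) :
    𝕢 1 ((Fermat.Agent.S16.Gr.divN r (b : ℤ) (Fermat.Agent.S16.Gr.mulN r w) : ℍ) : ℂ) =
      zetaC r ^ b * 𝕢 1 (w : ℂ) := by
  have hr : (r : ℂ) ≠ 0 := Nat.cast_ne_zero.mpr (NeZero.ne r)
  simp only [Function.Periodic.qParam, zetaC, ← Complex.exp_nat_mul, ← Complex.exp_add,
    Fermat.Agent.S16.Gr.coe_divN, Fermat.Agent.S16.Gr.coe_mulN]
  congr 1
  push_cast
  field_simp
  ring

theorem mulN_mulN (w : ℍ) :
    Fermat.Agent.S16.Gr.mulN r (Fermat.Agent.S16.Gr.mulN r w) =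
      @Fermat.Agent.S16.Gr.mulN (r ^ 2) ⟨pow_ne_zero 2 (NeZero.ne r)⟩ w := by
  apply UpperHalfPlane.ext
  simp only [Fermat.Agent.S16.Gr.coe_mulN]
  push_cast
  ring

end Zeta

end Fermat.Agent.S28.ConjPoly
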