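import Mathlib
import Fermat.Agent.S24.Distinct
import Fermat.Agent.S28.ConjPoly

/-!
# S28 (A1): the modular equation of prime level

For every prime `r` there is a monic `Φ ∈ O[Y][X]` of `X`-degree `r + 1`, `O` the ring of algebraic
integers in `ℂ`, with
`Φ(X, J(t ^ r)) = (X - J(t ^ (r ^ 2))) * ∏_{b < r} (X - J(ζ ^ b t))`
in `(LaurentSeries O)[X]`, `ζ = e^{2πi / r}`.
-/

set_option autoImplicit false
set_option linter.style.haveILetI false
set_option linter.unusedSectionVars false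

namespace Fermat.Agent.S28.ModEq

open UpperHalfPlane CongruenceSubgroup ModularForm Filter Topology Polynomial ModularCurve
open Fermat.Agent.S24.CharPoly Fermat.Agent.S24.JqCriterion Fermat.Agent.S24.JFunction
open Fermat.Agent.S24.Distinct
open Fermat.Agent.S28.Basic Fermat.Agent.S28.Formal Fermat.Agent.S28.LReprX
open Fermat.Agent.S28.ConjPoly Fermat.Agent.S16.Gr
open scoped MatrixGroups ModularForm Manifold

local notation "𝕢" => Function.Periodic.qParam
local notation "OO" => integralClosure ℤ ℂ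

section

variable (r : ℕ) [Fact r.Prime] [NeZero r]

/-- The formal conjugates of `J(t ^ r)`. -/
noncomputable def G : Option (Fin r) → LaurentSeries OO
  | none => JmR OO (r ^ 2)
  | some b => JxR OO (zetaU r ^ (b : ℕ)) 1

/-- The conjugates as functions on the punctured disc. -/
noncomputable def f : Option (Fin r) → ℂ → ℂ
  | none => fun q => jDisc (q ^ (r ^ 2))
  | some b => fun q => jDisc (zetaC r ^ (b : ℕ) * q)

theorem lrepr_G (i : Option (Fin r)) : LRepr (coeffMap (algebraMap OO ℂ) (G r i)) (f r i) := by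
  rcases i with _ | b
  · show LRepr (coeffMap (algebraMap OO ℂ) (JmR OO (r ^ 2))) (fun q => jDisc (q ^ (r ^ 2)))
    rw [coeffMap_JmR]
    exact lrepr_JmR _ (pow_ne_zero 2 (NeZero.ne r))
  · show LRepr (coeffMap (algebraMap OO ℂ) (JxR OO (zetaU r ^ (b : ℕ)) 1))
      (fun q => jDisc (zetaC r ^ (b : ℕ) * q))
    rw [coeffMap_JxR, JxR, Basic.sub_one, rescaleU_eq_rescale]
    have h := LRepr.rescale lrepr_jqC (ξ := zetaC r ^ (b : ℕ)) (norm_zetaC_pow r b)
      (pow_ne_zero _ (zetaC_ne_zero r))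
    simp only [coe_map_zetaU_pow]
    exact h

theorem JN_eq (z : ℍ) : JN r z = jfun (mulN r z) := by
  rw [JN_def, ofComplex_mul]

theorem root_JN_some (b : Fin r) (z : ℍ) :
    root r (JN r) (some b) z = jfun (divN r ((b : ℕ) : ℤ) z) := by
  rw [root_some, JN_eq, mul_smul, mulN_S_smul, jfun_smul, divN_T_zpow_smul]

theorem f_val (i : Option (Fin r)) (w : ℍ) :
    f r i (𝕢 1 (w : ℂ)) = root r (JN r) i (mulN r w) := by
  rcases i with _ | b
  · show jDisc (𝕢 1 (w : ℂ) ^ (r ^ 2)) = _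
    rw [root_none, JN_eq, mulN_mulN]
    haveI : NeZero (r ^ 2) := ⟨pow_ne_zero 2 (NeZero.ne r)⟩
    exact jDisc_qParam_pow_eq (r ^ 2) w
  · show jDisc (zetaC r ^ (b : ℕ) * 𝕢 1 (w : ℂ)) = _
    rw [root_JN_some, ← qParam_divN_mulN, jDisc_qParam]

theorem exists_modEq_aux :
    ∃ Φ : OO[X][X], Φ.Monic ∧ Φ.natDegree = r + 1 ∧
      Φ.map (evalAt OO (JmR OO r)) = ∏ i : Option (Fin r), (X - C (G r i)) := by
  have hr : 0 < r := NeZero.pos r
  exact exists_monic (Θ := JN r) r (fun γ => mdiff_JN_smul r hr γ)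
    (fun γ hγ z => JN_smul_of_mem_Gamma0 r hr hγ z)
    (fun γ => isBoundedAtImInfty_discriminant_pow_mul_JN r hr γ) OO (G r) (f r) (lrepr_G r)
    (f_val r)

end

/-- **(A1) The modular equation of prime level `r`**, over the ring of algebraic integers. -/
theorem exists_modEq (r : ℕ) (hr : r.Prime) :
    ∃ ζ : (integralClosure ℤ ℂ)ˣ, IsPrimitiveRoot (ζ : integralClosure ℤ ℂ) r ∧
      ∃ Φ : (integralClosure ℤ ℂ)[X][X], Φ.Monic ∧ Φ.natDegree = r + 1 ∧
        Φ.map (evalAt (integralClosure ℤ ℂ) (JmR (integralClosure ℤ ℂ) r)) =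
          (X - Polynomial.C (JmR (integralClosure ℤ ℂ) (r ^ 2))) *
            ∏ b ∈ Finset.range r, (X - Polynomial.C (JxR (integralClosure ℤ ℂ) (ζ ^ b) 1)) := by
  haveI : Fact r.Prime := ⟨hr⟩
  haveI : NeZero r := ⟨hr.ne_zero⟩
  obtain ⟨Φ, h1, h2, h3⟩ := exists_modEq_aux r
  refine ⟨zetaU r, isPrimitiveRoot_zetaU r, Φ, h1, h2, ?_⟩
  rw [h3, Fintype.prod_option]
  congr 1
  exact Fin.prod_univ_eq_prod_range
    (fun b : ℕ => (X - Polynomial.C (JxR (integralClosure ℤ ℂ) (zetaU r ^ b) 1) :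
      (LaurentSeries (integralClosure ℤ ℂ))[X])) r

end Fermat.Agent.S28.ModEq
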