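import Mathlib
import Fermat.Agent.S28.Basic
import Fermat.Agent.S28.Kbar

/-!
# S28 (Igusa), leaf (B1): reduction of the prime data modulo `ℓ`

A `PrimeData ℂ r` whose polynomials have algebraic integer coefficients (and whose unit constant
divides a power of `r`) reduces to a `PrimeData (kbar ℓ) r` for every prime `r ≠ ℓ`.
-/

set_option autoImplicit false
set_option linter.style.haveILetI false

namespace Fermat.Agent.S28.Reduce

open Polynomial ModularCurve Fermat.Agent.S28.Basic Fermat.Agent.S28.Kbar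

section Ring

variable {R S : Type*} [CommRing R] [CommRing S]

theorem coeffMap_injective {f : R →+* S} (hf : Function.Injective f) :
    Function.Injective (coeffMap f) := by
  intro x y h
  ext n
  apply hf
  have := congrArg (fun z : LaurentSeries S => z.coeff n) h
  simpa using this

theorem coeffMap_C (f : R →+* S) (a : R) :
    coeffMap f (HahnSeries.C a) = HahnSeries.C (f a) := by
  exact coeffMap_single f 0 a

theorem coeffMap_sub (f : R →+* S) (m : ℕ) (x : LaurentSeries R) :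
    coeffMap f (sub R m x) = sub S m (coeffMap f x) := by
  by_cases hm : m = 0
  · subst hm
    unfold sub
    rw [dif_pos rfl, dif_pos rfl]
    rfl
  · haveI : NeZero m := ⟨hm⟩
    rw [Basic.sub_apply, Basic.sub_apply, coeffMap_qExpand]

theorem coeffMap_DeltaL (f : R →+* S) : coeffMap f (DeltaL R) = DeltaL S := by
  unfold DeltaL
  rw [map_mul, coeffMap_single, map_one, coeffMap_ofPowerSeries,
    ← RingHom.comp_apply (PowerSeries.map f) (PowerSeries.map (Int.castRingHom R)),
    ← PowerSeries.map_comp, RingHom.ext_int (f.comp (Int.castRingHom R)) (Int.castRingHom S)]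

variable (R) in
/-- The inverse of the formal discriminant. -/
noncomputable def DeltaInv : LaurentSeries R :=
  HahnSeries.single (-1 : ℤ) 1 *
    HahnSeries.ofPowerSeries ℤ R (dedekindEtaUnitInv.map (Int.castRingHom R))

theorem coeffMap_DeltaInv (f : R →+* S) : coeffMap f (DeltaInv R) = DeltaInv S := by
  unfold DeltaInv
  rw [map_mul, coeffMap_single, map_one, coeffMap_ofPowerSeries,
    ← RingHom.comp_apply (PowerSeries.map f) (PowerSeries.map (Int.castRingHom R)),
    ← PowerSeries.map_comp, RingHom.ext_int (f.comp (Int.castRingHom R)) (Int.castRingHom S)]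

variable (R) in
theorem DeltaL_mul_DeltaInv : DeltaL R * DeltaInv R = 1 := by
  unfold DeltaL DeltaInv
  rw [mul_mul_mul_comm, HahnSeries.single_mul_single, ← map_mul, ← map_mul,
    dedekindEtaUnit_mul_inv]
  simp

variable (R) in
/-- The modular unit over a commutative ring. -/
noncomputable def unitVR (r : ℕ) : LaurentSeries R :=
  HahnSeries.C ((r : R) ^ 12) * sub R r (DeltaL R) * DeltaInv R

theorem coeffMap_unitVR (f : R →+* S) (r : ℕ) : coeffMap f (unitVR R r) = unitVR S r := by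
  unfold unitVR
  rw [map_mul, map_mul, coeffMap_C, coeffMap_sub, coeffMap_DeltaL, coeffMap_DeltaInv, map_pow,
    map_natCast]

/-- Rescaling by a unit. -/
noncomputable def rescaleU (u : Rˣ) (f : LaurentSeries R) : LaurentSeries R where
  coeff n := ((u ^ n : Rˣ) : R) * f.coeff n
  isPWO_support' := by
    refine f.isPWO_support.mono ?_
    intro n hn
    simp only [Function.mem_support, ne_eq] at hn
    simp only [HahnSeries.mem_support, ne_eq]
    exact fun h => hn (by rw [h, mul_zero])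

@[simp] theorem rescaleU_coeff (u : Rˣ) (f : LaurentSeries R) (n : ℤ) :
    (rescaleU u f).coeff n = ((u ^ n : Rˣ) : R) * f.coeff n := rfl

theorem coeffMap_rescaleU (f : R →+* S) (u : Rˣ) (x : LaurentSeries R) :
    coeffMap f (rescaleU u x) = rescaleU (Units.map (f : R →* S) u) (coeffMap f x) := by
  ext n
  rw [coeffMap_coeff, rescaleU_coeff, rescaleU_coeff, coeffMap_coeff, map_mul, ← map_zpow]
  rfl

variable (R) in
/-- `J(u t ^ m)` over a commutative ring, `u` a unit. -/
noncomputable def JxR (u : Rˣ) (m : ℕ) : LaurentSeries R := sub R m (rescaleU u (jqModC R))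

variable (R) in
/-- `J(t ^ m)` over a commutative ring. -/
noncomputable def JmR (m : ℕ) : LaurentSeries R := sub R m (jqModC R)

theorem coeffMap_JxR (f : R →+* S) (u : Rˣ) (m : ℕ) :
    coeffMap f (JxR R u m) = JxR S (Units.map (f : R →* S) u) m := by
  unfold JxR
  rw [coeffMap_sub, coeffMap_rescaleU, coeffMap_jqModC]

theorem coeffMap_JmR (f : R →+* S) (m : ℕ) : coeffMap f (JmR R m) = JmR S m := by
  unfold JmR
  rw [coeffMap_sub, coeffMap_jqModC]

theorem coeffMap_comp_evalAt (f : R →+* S) (x : LaurentSeries R) :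
    (coeffMap f).comp (evalAt R x) = (evalAt S (coeffMap f x)).comp (Polynomial.mapRingHom f) := by
  apply Polynomial.ringHom_ext
  · intro a
    simp
  · simp

end Ring

section Field

variable (k : Type*) [Field k]

theorem JmR_eq (m : ℕ) : JmR k m = Jm k m := rfl

theorem JxR_eq (ξ : kˣ) (m : ℕ) : JxR k ξ m = Jx k ξ m := by
  unfold JxR Jx
  congr 1
  ext n
  rw [rescaleU_coeff]
  show _ = (ξ : k) ^ n * _
  rw [Units.val_zpow_eq_zpow_val]

theorem unitVR_eq (r : ℕ) : unitVR k r = unitV k r := by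
  unfold unitVR unitV
  congr 1
  exact eq_inv_of_mul_eq_one_right (DeltaL_mul_DeltaInv k)

end Field

section Transfer

variable {R S : Type*} [CommRing R] [CommRing S]

theorem map_evalAt_map (f : R →+* S) (x : LaurentSeries R) (Φ : R[X][X]) :
    (Φ.map (Polynomial.mapRingHom f)).map (evalAt S (coeffMap f x)) =
      (Φ.map (evalAt R x)).map (coeffMap f) := by
  rw [Polynomial.map_map, Polynomial.map_map, coeffMap_comp_evalAt]

theorem eval_map_evalAt (f : R →+* S) (x y : LaurentSeries R) (Ψ : R[X][X]) :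
    ((Ψ.map (Polynomial.mapRingHom f)).map (evalAt S (coeffMap f x))).eval (coeffMap f y) =
      coeffMap f ((Ψ.map (evalAt R x)).eval y) := by
  rw [map_evalAt_map, Polynomial.eval_map, Polynomial.eval₂_at_apply]

theorem map_factor {A B : Type*} [CommRing A] [CommRing B] (g : A →+* B) (a : A) (b : ℕ → A)
    (r : ℕ) :
    ((X - Polynomial.C a) * ∏ i ∈ Finset.range r, (X - Polynomial.C (b i))).map g =
      (X - Polynomial.C (g a)) * ∏ i ∈ Finset.range r, (X - Polynomial.C (g (b i))) := by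
  simp [Polynomial.map_prod]

end Transfer

section Main

theorem exists_lift (Φ : ℂ[X][X]) (h : ∀ i j, (Φ.coeff i).coeff j ∈ integralClosure ℤ ℂ) :
    ∃ Φ' : OO[X][X], Φ'.map (Polynomial.mapRingHom incO) = Φ := by
  have h1 : Φ ∈ Polynomial.lifts (Polynomial.mapRingHom incO) := by
    rw [Polynomial.lifts_iff_coeff_lifts]
    intro i
    have h2 : Φ.coeff i ∈ Polynomial.lifts incO := by
      rw [Polynomial.lifts_iff_coeff_lifts]
      intro j
      exact ⟨⟨_, h i j⟩, rfl⟩
    exact (Polynomial.mem_lifts _).mp h2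
  exact (Polynomial.mem_lifts _).mp h1

theorem exists_unit {r : ℕ} (hr : 0 < r) (ζ : ℂˣ) (hζ : IsPrimitiveRoot (ζ : ℂ) r) :
    ∃ u : OOˣ, Units.map (incO : OO →* ℂ) u = ζ := by
  have h1 : (ζ : ℂ) ∈ integralClosure ℤ ℂ := hζ.isIntegral hr
  have h2 : ((ζ⁻¹ : ℂˣ) : ℂ) ∈ integralClosure ℤ ℂ := by
    have h3 : IsPrimitiveRoot ((ζ⁻¹ : ℂˣ) : ℂ) r := by
      rw [Units.val_inv_eq_inv_val]
      exact hζ.inv
    exact h3.isIntegral hr
  refine ⟨⟨⟨ζ, h1⟩, ⟨_, h2⟩, ?_, ?_⟩, ?_⟩
  · apply incO_injective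
    simp [incO_apply]
  · apply incO_injective
    simp [incO_apply]
  · ext
    rfl

variable (ℓ : ℕ) [Fact ℓ.Prime]

theorem isPrimitiveRoot_red {r : ℕ} (hr : r.Prime) (hrℓ : r ≠ ℓ) (u : OOˣ)
    (hu : IsPrimitiveRoot ((u : OO) : ℂ) r) :
    IsPrimitiveRoot ((Units.map (redO ℓ : OO →* kbar ℓ) u : (kbar ℓ)ˣ) : kbar ℓ) r := by
  have hu' : IsPrimitiveRoot (u : OO) r :=
    IsPrimitiveRoot.of_map_of_injective (f := incO) hu incO_injective
  haveI : Fact r.Prime := ⟨hr⟩
  rw [IsPrimitiveRoot.iff_orderOf]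
  have hpow : (redO ℓ (u : OO)) ^ r = 1 := by
    rw [← map_pow, hu'.pow_eq_one, map_one]
  refine orderOf_eq_prime hpow ?_
  intro h1
  obtain ⟨n, rfl⟩ : ∃ n, r = n + 1 := ⟨r - 1, by have := hr.pos; omega⟩
  have hprod := hu'.prod_one_sub_pow_eq_order
  have hprod' := congrArg (redO ℓ) hprod
  rw [map_prod] at hprod'
  have hn : 0 < n := by have := hr.two_le; omega
  have hzero : ∏ k ∈ Finset.range n, redO ℓ (1 - (u : OO) ^ (k + 1)) = 0 := by
    refine Finset.prod_eq_zero (Finset.mem_range.mpr hn) ?_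
    rw [map_sub, map_one, map_pow, zero_add, pow_one]
    have : redO ℓ (u : OO) = 1 := h1
    rw [this, sub_self]
  rw [hzero] at hprod'
  have h2 : ((n + 1 : ℕ) : kbar ℓ) = 0 := by
    rw [hprod']
    push_cast
    simp
  exact natCast_kbar_ne_zero ℓ hr hrℓ h2

/-- **Reduction of the prime data.** -/
theorem primeData {r : ℕ} (hr : r.Prime) (hrℓ : r ≠ ℓ) (P : PrimeData ℂ r)
    (hΦ : ∀ i j, (P.Φ.coeff i).coeff j ∈ integralClosure ℤ ℂ)
    (hΨ : ∀ i j, (P.Ψ.coeff i).coeff j ∈ integralClosure ℤ ℂ)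
    (hc : ∃ m : ℕ, ∃ d ∈ integralClosure ℤ ℂ, (P.Ψ.coeff 0).coeff 0 * d = (r : ℂ) ^ m) :
    Nonempty (PrimeData (kbar ℓ) r) := by
  obtain ⟨u, hu⟩ := exists_unit hr.pos P.ζ P.prim
  obtain ⟨Φ', hΦ'⟩ := exists_lift P.Φ hΦ
  obtain ⟨Ψ', hΨ'⟩ := exists_lift P.Ψ hΨ
  have hinj2 : Function.Injective (Polynomial.mapRingHom incO) :=
    Polynomial.map_injective _ incO_injective
  have hinjL : Function.Injective (coeffMap incO) := coeffMap_injective incO_injective
  have hmonicΦ' : Φ'.Monic :=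
    Polynomial.monic_of_injective hinj2 (by rw [hΦ']; exact P.monicΦ)
  have hmonicΨ' : Ψ'.Monic :=
    Polynomial.monic_of_injective hinj2 (by rw [hΨ']; exact P.monicΨ)
  have hdegΦ' : Φ'.natDegree = r + 1 := by
    rw [← Polynomial.natDegree_map_eq_of_injective hinj2, hΦ', P.natDegreeΦ]
  have hub : ∀ b : ℕ, Units.map (incO : OO →* ℂ) (u ^ b) = P.ζ ^ b := fun b => by
    rw [map_pow, hu]
  -- the modular equation over the algebraic integers
  have key : Φ'.map (evalAt OO (JmR OO r)) =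
      (X - Polynomial.C (JmR OO (r ^ 2))) *
        ∏ b ∈ Finset.range r, (X - Polynomial.C (JxR OO (u ^ b) 1)) := by
    apply Polynomial.map_injective _ hinjL
    rw [← map_evalAt_map, hΦ', coeffMap_JmR, JmR_eq, P.factor, map_factor, coeffMap_JmR, JmR_eq]
    congr 1
    refine Finset.prod_congr rfl fun b _ => ?_
    rw [coeffMap_JxR, hub, JxR_eq]
  -- the unit equation over the algebraic integers
  have keyΨ : (Ψ'.map (evalAt OO (JmR OO 1))).eval (unitVR OO r) = 0 := by
    apply hinjL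
    rw [← eval_map_evalAt, hΨ', coeffMap_JmR, JmR_eq, coeffMap_unitVR, unitVR_eq, P.rootΨ,
      map_zero]
  -- the constant term
  obtain ⟨c₀, hc₀, hcΨ⟩ := P.constΨ
  set c' : OO := (Ψ'.coeff 0).coeff 0 with hc'
  have hc'0 : incO c' = c₀ := by
    have h1 : (P.Ψ.coeff 0).coeff 0 = c₀ := by rw [hcΨ, Polynomial.coeff_C_zero]
    rw [← h1, ← hΨ', Polynomial.coeff_map, Polynomial.coe_mapRingHom, Polynomial.coeff_map]
  have hΨ'0 : Ψ'.coeff 0 = Polynomial.C c' := by
    apply Polynomial.map_injective _ incO_injective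
    have h2 : (Ψ'.coeff 0).map incO = P.Ψ.coeff 0 := by
      rw [← hΨ', Polynomial.coeff_map, Polynomial.coe_mapRingHom]
    rw [h2, hcΨ, Polynomial.map_C, hc'0]
  have hredc : redO ℓ c' ≠ 0 := by
    obtain ⟨m, d, hd, hcd⟩ := hc
    have h3 : c' * (⟨d, hd⟩ : OO) = ((r : ℕ) : OO) ^ m := by
      apply incO_injective
      rw [map_mul, hc'0, map_pow, map_natCast]
      have h1 : (P.Ψ.coeff 0).coeff 0 = c₀ := by rw [hcΨ, Polynomial.coeff_C_zero]
      rw [← h1]
      exact hcd
    intro h0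
    have h4 := congrArg (redO ℓ) h3
    rw [map_mul, h0, zero_mul, map_pow, map_natCast] at h4
    exact pow_ne_zero m (natCast_kbar_ne_zero ℓ hr hrℓ) h4.symm
  refine ⟨{
    ζ := Units.map (redO ℓ : OO →* kbar ℓ) u
    prim := isPrimitiveRoot_red ℓ hr hrℓ u (by
      have : ((u : OO) : ℂ) = (P.ζ : ℂ) := by rw [← hu]; rfl
      rw [this]; exact P.prim)
    Φ := Φ'.map (Polynomial.mapRingHom (redO ℓ))
    monicΦ := hmonicΦ'.map _
    natDegreeΦ := by rw [hmonicΦ'.natDegree_map, hdegΦ']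
    factor := ?_
    Ψ := Ψ'.map (Polynomial.mapRingHom (redO ℓ))
    monicΨ := hmonicΨ'.map _
    rootΨ := ?_
    constΨ := ⟨redO ℓ c', hredc, by
      rw [Polynomial.coeff_map, Polynomial.coe_mapRingHom, hΨ'0, Polynomial.map_C]⟩ }⟩
  · rw [← JmR_eq, ← coeffMap_JmR (redO ℓ), map_evalAt_map, key, map_factor, coeffMap_JmR, JmR_eq]
    congr 1
    refine Finset.prod_congr rfl fun b _ => ?_
    rw [coeffMap_JxR, map_pow, JxR_eq]
  · rw [← JmR_eq, ← coeffMap_JmR (redO ℓ), ← unitVR_eq, ← coeffMap_unitVR (redO ℓ),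
      eval_map_evalAt, keyΨ, map_zero]

end Main

end Fermat.Agent.S28.Reduce
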