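import Mathlib
import Fermat.Agent.S28.Basic
import Fermat.Agent.S28.Formal
import Fermat.Agent.S28.Kbar
import Fermat.Agent.S28.Reduce

/-!
# S28 (Igusa), leaf (B1): the field `kbar ℓ` carries prime data for every prime `r ≠ ℓ`

Relative to the modular equation (A1) and the unit equation (A2) over the ring of algebraic
integers, in the literal shapes of `ModEq.exists_modEq` and `UnitEq.exists_unitEq`.
-/

set_option autoImplicit false
set_option linter.style.haveILetI false

namespace Fermat.Agent.S28.PrimeField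

open Polynomial ModularCurve
open Fermat.Agent.S28.Basic Fermat.Agent.S28.Formal Fermat.Agent.S28.Kbar

/-- The shape of (A1): the modular equation of prime level `r` over the algebraic integers. -/
def ModEqStmt (r : ℕ) : Prop :=
  ∃ ζ : (integralClosure ℤ ℂ)ˣ, IsPrimitiveRoot (ζ : integralClosure ℤ ℂ) r ∧
    ∃ Φ : (integralClosure ℤ ℂ)[X][X], Φ.Monic ∧ Φ.natDegree = r + 1 ∧
      Φ.map (evalAt (integralClosure ℤ ℂ) (JmR (integralClosure ℤ ℂ) r)) =
        (X - Polynomial.C (JmR (integralClosure ℤ ℂ) (r ^ 2))) *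
          ∏ b ∈ Finset.range r, (X - Polynomial.C (JxR (integralClosure ℤ ℂ) (ζ ^ b) 1))

/-- The shape of (A2): the unit equation of prime level `r` over the algebraic integers. -/
def UnitEqStmt (r : ℕ) : Prop :=
  ∃ Ψ : (integralClosure ℤ ℂ)[X][X], Ψ.Monic ∧
    (Ψ.map (evalAt (integralClosure ℤ ℂ) (JmR (integralClosure ℤ ℂ) 1))).eval
        (unitVR (integralClosure ℤ ℂ) r) = 0 ∧
      ∃ c : integralClosure ℤ ℂ, c ∣ ((r : ℕ) : integralClosure ℤ ℂ) ^ 12 ∧
        Ψ.coeff 0 = Polynomial.C c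

/-- Base change of prime data along a ring homomorphism from the algebraic integers to a field
in which `r` is invertible. -/
theorem primeData_of_hom (k : Type*) [Field k] (φ : (integralClosure ℤ ℂ) →+* k) {r : ℕ}
    (hr : r.Prime) (hrk : ((r : ℕ) : k) ≠ 0) (hΦ : ModEqStmt r) (hΨ : UnitEqStmt r) :
    Nonempty (PrimeData k r) := by
  obtain ⟨u, hu, Φ', hmonicΦ', hdegΦ', key⟩ := hΦ
  obtain ⟨Ψ', hmonicΨ', keyΨ, c', ⟨d, hcd⟩, hΨ'0⟩ := hΨ
  have hredc : φ c' ≠ 0 := by
    intro h0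
    have h4 := congrArg φ hcd
    rw [map_mul, h0, zero_mul, map_pow, map_natCast] at h4
    exact pow_ne_zero 12 hrk h4
  -- the root of unity stays primitive
  have hprim : IsPrimitiveRoot ((Units.map (φ : (integralClosure ℤ ℂ) →* k) u : kˣ) : k) r := by
    haveI : Fact r.Prime := ⟨hr⟩
    rw [IsPrimitiveRoot.iff_orderOf]
    have hpow : (φ (u : integralClosure ℤ ℂ)) ^ r = 1 := by
      rw [← map_pow, hu.pow_eq_one, map_one]
    refine orderOf_eq_prime hpow ?_
    intro h1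
    obtain ⟨n, rfl⟩ : ∃ n, r = n + 1 := ⟨r - 1, by have := hr.pos; omega⟩
    have hprod := hu.prod_one_sub_pow_eq_order
    have hprod' := congrArg φ hprod
    rw [map_prod] at hprod'
    have hn : 0 < n := by have := hr.two_le; omega
    have hzero : ∏ j ∈ Finset.range n, φ (1 - (u : integralClosure ℤ ℂ) ^ (j + 1)) = 0 := by
      refine Finset.prod_eq_zero (Finset.mem_range.mpr hn) ?_
      rw [map_sub, map_one, map_pow, zero_add, pow_one]
      have : φ (u : integralClosure ℤ ℂ) = 1 := h1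
      rw [this, sub_self]
    rw [hzero] at hprod'
    apply hrk
    rw [hprod']
    push_cast
    simp
  refine ⟨{
    ζ := Units.map (φ : (integralClosure ℤ ℂ) →* k) u
    prim := hprim
    Φ := Φ'.map (Polynomial.mapRingHom φ)
    monicΦ := hmonicΦ'.map _
    natDegreeΦ := by rw [hmonicΦ'.natDegree_map, hdegΦ']
    factor := ?_
    Ψ := Ψ'.map (Polynomial.mapRingHom φ)
    monicΨ := hmonicΨ'.map _
    rootΨ := ?_
    constΨ := ⟨φ c', hredc, by
      rw [Polynomial.coeff_map, Polynomial.coe_mapRingHom, hΨ'0, Polynomial.map_C]⟩ }⟩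
  · rw [← JmR_eq_Jm, ← coeffMap_JmR φ, Reduce.map_evalAt_map, key, Reduce.map_factor,
      coeffMap_JmR, JmR_eq_Jm]
    congr 1
    refine Finset.prod_congr rfl fun b _ => ?_
    rw [coeffMap_JxR, map_pow, JxR_eq_Jx]
  · rw [← JmR_eq_Jm, ← coeffMap_JmR φ, ← unitVR_eq_unitV, ← coeffMap_unitVR φ,
      Reduce.eval_map_evalAt, keyΨ, map_zero]

/-- Prime data over `kbar ℓ` for a prime `r ≠ ℓ`. -/
theorem primeData_kbar (ℓ : ℕ) [Fact ℓ.Prime] {r : ℕ} (hr : r.Prime) (hrℓ : r ≠ ℓ)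
    (hΦ : ModEqStmt r) (hΨ : UnitEqStmt r) : Nonempty (PrimeData (kbar ℓ) r) :=
  primeData_of_hom (kbar ℓ) (redO ℓ) hr (natCast_kbar_ne_zero ℓ hr hrℓ) hΦ hΨ

/-- **(B1)**, relative to (A1) and (A2): an algebraically closed field of characteristic `ℓ`
carrying prime data for every prime `r ≠ ℓ`. -/
theorem exists_field_of (hΦ : ∀ r : ℕ, r.Prime → ModEqStmt r)
    (hΨ : ∀ r : ℕ, r.Prime → UnitEqStmt r) (ℓ : ℕ) [Fact ℓ.Prime] :
    ∃ (k : Type) (_ : Field k) (_ : CharP k ℓ) (_ : IsAlgClosed k),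
      ∀ r : ℕ, r.Prime → r ≠ ℓ → Nonempty (PrimeData k r) :=
  ⟨kbar ℓ, inferInstance, inferInstance, inferInstance, fun r hr hrℓ =>
    primeData_kbar ℓ hr hrℓ (hΦ r hr) (hΨ r hr)⟩

end Fermat.Agent.S28.PrimeField
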