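import Mathlib
import Fermat.Agent.S28.Basic

/-!
# S28: calculus of the derivation `theta = t d/dt` on Laurent series

`Basic.theta` multiplies the coefficient of `t ^ n` by `n`.  It is additive, kills constants,
satisfies the Leibniz rule, the chain rule for `t ↦ t ^ m` and for polynomials with constant
coefficients, and commutes with coefficient maps.
-/

set_option autoImplicit false

namespace Fermat.Agent.S28.Theta

open HahnSeries Polynomial ModularCurve Fermat.Agent.S28.Basic

variable {R : Type*} [CommRing R]

@[simp] theorem theta_zero : theta (0 : LaurentSeries R) = 0 := by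
  ext n; simp

theorem theta_add (f g : LaurentSeries R) : theta (f + g) = theta f + theta g := by
  ext n; simp [mul_add]

theorem theta_neg (f : LaurentSeries R) : theta (-f) = -theta f := by
  ext n; simp

theorem theta_sub (f g : LaurentSeries R) : theta (f - g) = theta f - theta g := by
  ext n; simp [mul_sub]

theorem theta_single (a : ℤ) (c : R) :
    theta (HahnSeries.single a c) = HahnSeries.single a ((a : R) * c) := by
  ext n
  rw [theta_coeff]
  rcases eq_or_ne n a with rfl | h
  · rw [coeff_single_same, coeff_single_same]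
  · rw [coeff_single_of_ne h, coeff_single_of_ne h, mul_zero]

@[simp] theorem theta_C (c : R) : theta (HahnSeries.C c : LaurentSeries R) = 0 := by
  rw [C_apply, theta_single]
  simp

@[simp] theorem theta_one : theta (1 : LaurentSeries R) = 0 := by
  rw [← map_one (HahnSeries.C : R →+* LaurentSeries R)]
  exact theta_C 1

@[simp] theorem theta_natCast (n : ℕ) : theta ((n : ℕ) : LaurentSeries R) = 0 := by
  rw [← map_natCast (HahnSeries.C : R →+* LaurentSeries R)]
  exact theta_C _

@[simp] theorem theta_intCast (n : ℤ) : theta ((n : ℤ) : LaurentSeries R) = 0 := by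
  rw [← map_intCast (HahnSeries.C : R →+* LaurentSeries R)]
  exact theta_C _

@[simp] theorem theta_ofNat (n : ℕ) [n.AtLeastTwo] :
    theta (OfNat.ofNat n : LaurentSeries R) = 0 :=
  theta_natCast n

theorem support_theta_subset (f : LaurentSeries R) : (theta f).support ⊆ f.support := by
  intro n hn
  simp only [HahnSeries.mem_support, theta_coeff, ne_eq] at hn ⊢
  exact fun h => hn (by rw [h, mul_zero])

/-- **The Leibniz rule.** -/
theorem theta_mul (f g : LaurentSeries R) : theta (f * g) = theta f * g + f * theta g := by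
  ext n
  rw [theta_coeff, HahnSeries.coeff_add, HahnSeries.coeff_mul,
    HahnSeries.coeff_mul_left' f.isPWO_support (support_theta_subset f),
    HahnSeries.coeff_mul_right' g.isPWO_support (support_theta_subset g), Finset.mul_sum,
    ← Finset.sum_add_distrib]
  refine Finset.sum_congr rfl fun ij hij => ?_
  have h : ij.1 + ij.2 = n := (Finset.mem_antidiagonal.mp hij).2.2
  rw [theta_coeff, theta_coeff, ← h]
  push_cast
  ring

theorem theta_pow (f : LaurentSeries R) (n : ℕ) :
    theta (f ^ (n + 1)) = ((n + 1 : ℕ) : LaurentSeries R) * f ^ n * theta f := by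
  induction n with
  | zero => simp
  | succ n ih =>
    rw [pow_succ, theta_mul, ih]
    push_cast
    ring

theorem theta_C_mul (c : R) (f : LaurentSeries R) :
    theta (HahnSeries.C c * f) = HahnSeries.C c * theta f := by
  rw [theta_mul, theta_C, zero_mul, zero_add]

/-- `theta` commutes with coefficient maps. -/
theorem theta_map {S : Type*} [CommRing S] (φ : R →+* S) (f : LaurentSeries R) :
    theta (f.map φ) = (theta f).map φ := by
  ext n
  simp [HahnSeries.map_coeff]

/-- **Chain rule** for the substitution `t ↦ t ^ m`. -/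
theorem theta_sub_pow {m : ℕ} (hm : m ≠ 0) (f : LaurentSeries R) :
    theta (sub R m f) = HahnSeries.C (m : R) * sub R m (theta f) := by
  ext n
  rw [theta_coeff, HahnSeries.C_mul_eq_smul, HahnSeries.coeff_smul, smul_eq_mul]
  by_cases hn : (m : ℤ) ∣ n
  · obtain ⟨k, rfl⟩ := hn
    rw [sub_coeff_mul hm, sub_coeff_mul hm, theta_coeff]
    push_cast
    ring
  · rw [sub_coeff_of_not_dvd hm _ hn, sub_coeff_of_not_dvd hm _ hn, mul_zero, mul_zero]

/-- **Chain rule** for polynomials with constant coefficients. -/
theorem theta_evalAt (x : LaurentSeries R) (P : R[X]) :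
    theta (evalAt R x P) = evalAt R x (Polynomial.derivative P) * theta x := by
  induction P using Polynomial.induction_on' with
  | add p q hp hq =>
    rw [map_add, theta_add, hp, hq, Polynomial.derivative_add, map_add, add_mul]
  | monomial n a =>
    rcases Nat.eq_zero_or_pos n with rfl | hn
    · rw [Polynomial.monomial_zero_left, evalAt_C, theta_C, Polynomial.derivative_C, map_zero,
        zero_mul]
    · obtain ⟨k, rfl⟩ : ∃ k, n = k + 1 := ⟨n - 1, by omega⟩
      rw [Polynomial.derivative_monomial, ← Polynomial.C_mul_X_pow_eq_monomial,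
        ← Polynomial.C_mul_X_pow_eq_monomial]
      simp only [map_mul, map_pow, evalAt_C, evalAt_X, Nat.add_sub_cancel]
      rw [theta_C_mul, theta_pow]
      simp only [map_natCast, Nat.cast_add, Nat.cast_one, map_add, map_one]
      ring

/-- `theta` of a power series: `X * d/dX`. -/
theorem theta_ofPowerSeries (P : PowerSeries R) :
    theta (HahnSeries.ofPowerSeries ℤ R P)
      = HahnSeries.ofPowerSeries ℤ R (PowerSeries.X * PowerSeries.derivative R P) := by
  ext n
  rw [theta_coeff]
  rcases lt_or_ge n 0 with hn | hn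
  · rw [ofPowerSeries_coeff_of_neg _ hn, ofPowerSeries_coeff_of_neg _ hn, mul_zero]
  · obtain ⟨m, rfl⟩ : ∃ m : ℕ, n = m := ⟨n.toNat, by omega⟩
    rw [ofPowerSeries_apply_coeff, ofPowerSeries_apply_coeff]
    rcases Nat.eq_zero_or_pos m with rfl | hm
    · simp
    · obtain ⟨k, rfl⟩ : ∃ k, m = k + 1 := ⟨m - 1, by omega⟩
      rw [PowerSeries.coeff_succ_X_mul, PowerSeries.coeff_derivative]
      push_cast
      ring

/-! ### Coefficient maps as ring homomorphisms -/

/-- The coefficient map `R((t)) → S((t))` attached to a ring homomorphism `R → S`. -/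
noncomputable def mapHom {S : Type*} [CommRing S] (φ : R →+* S) :
    LaurentSeries R →+* LaurentSeries S where
  toFun f := f.map φ
  map_one' := by
    rw [← map_one (HahnSeries.C : R →+* LaurentSeries R), HahnSeries.map_C, map_one, map_one]
  map_mul' _ _ := HahnSeries.map_mul φ.toNonUnitalRingHom
  map_zero' := by ext n; simp
  map_add' _ _ := by ext n; simp

@[simp] theorem mapHom_apply {S : Type*} [CommRing S] (φ : R →+* S) (f : LaurentSeries R) :
    mapHom φ f = f.map φ := rfl

theorem mapHom_coeff {S : Type*} [CommRing S] (φ : R →+* S) (f : LaurentSeries R) (n : ℤ) :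
    (mapHom φ f).coeff n = φ (f.coeff n) := rfl

theorem mapHom_C {S : Type*} [CommRing S] (φ : R →+* S) (c : R) :
    mapHom φ (HahnSeries.C c) = HahnSeries.C (φ c) :=
  HahnSeries.map_C c φ

theorem mapHom_single {S : Type*} [CommRing S] (φ : R →+* S) (a : ℤ) (c : R) :
    mapHom φ (HahnSeries.single a c) = HahnSeries.single a (φ c) := by
  ext n
  rw [mapHom_coeff]
  rcases eq_or_ne n a with rfl | h
  · rw [coeff_single_same, coeff_single_same]
  · rw [coeff_single_of_ne h, coeff_single_of_ne h, map_zero]

theorem mapHom_ofPowerSeries {S : Type*} [CommRing S] (φ : R →+* S) (P : PowerSeries R) :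
    mapHom φ (HahnSeries.ofPowerSeries ℤ R P) = HahnSeries.ofPowerSeries ℤ S (P.map φ) := by
  ext k
  rw [mapHom_coeff]
  rcases le_or_gt 0 k with hk | hk
  · lift k to ℕ using hk
    rw [HahnSeries.ofPowerSeries_apply_coeff, HahnSeries.ofPowerSeries_apply_coeff,
      PowerSeries.coeff_map]
  · rw [ofPowerSeries_coeff_of_neg _ hk, ofPowerSeries_coeff_of_neg _ hk, map_zero]

theorem mapHom_theta {S : Type*} [CommRing S] (φ : R →+* S) (f : LaurentSeries R) :
    mapHom φ (theta f) = theta (mapHom φ f) :=
  (theta_map φ f).symm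

theorem mapHom_jqModC {S : Type*} [CommRing S] (φ : R →+* S) :
    mapHom φ (jqModC R) = jqModC S :=
  map_jqModC φ

theorem mapHom_DeltaL {S : Type*} [CommRing S] (φ : R →+* S) :
    mapHom φ (DeltaL R) = DeltaL S := by
  rw [DeltaL, DeltaL, map_mul, mapHom_single, map_one, mapHom_ofPowerSeries]
  congr 2
  ext n
  simp [PowerSeries.coeff_map]

theorem mapHom_sub_pow {S : Type*} [CommRing S] (φ : R →+* S) (m : ℕ) (f : LaurentSeries R) :
    mapHom φ (sub R m f) = sub S m (mapHom φ f) := by
  by_cases hm : m = 0
  · subst hm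
    unfold sub
    rw [dif_pos rfl, dif_pos rfl]
    rfl
  · ext n
    rw [mapHom_coeff]
    by_cases hn : (m : ℤ) ∣ n
    · obtain ⟨k, rfl⟩ := hn
      rw [sub_coeff_mul hm, sub_coeff_mul hm, mapHom_coeff]
    · rw [sub_coeff_of_not_dvd hm _ hn, sub_coeff_of_not_dvd hm _ hn, map_zero]

end Fermat.Agent.S28.Theta
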