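import Mathlib
import Fermat.Prelude.Def_ModularCurve_X0
import Fermat.Prelude.Def_ModularCurve_JqCoeff
import Fermat.Agent.S20.Ramanujan
import Fermat.Agent.S24.DiscSeries
import Fermat.Agent.S24.JqExpansion
import Fermat.Agent.S28.Basic
import Fermat.Agent.S28.Theta

/-!
# S28, leaf (A3): the derivative formula `Δ j⁴ (j - 1728)³ = (θ j)⁶`

With `θ = t d/dt`, `J = jqModC R = t⁻¹ + 744 + ⋯` and `Δ = DeltaL R = t ∏ (1 - tⁿ)^24` we prove the
identity `Δ * J ^ 4 * (J - 1728) ^ 3 = (θ J) ^ 6` of formal Laurent series over every commutative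
ring `R`.  Over `ℤ` it follows from the two power series identities

* `E₄³ - E₆² = 1728 X ∏ (1 - Xⁿ)^24`,
* `3 E₆ θE₄ - 2 E₄ θE₆ = E₄³ - E₆²`   (Ramanujan, with `E₂` eliminated),

which are transferred from the analytic identities on the upper half plane.
-/

set_option autoImplicit false

namespace Fermat.Agent.S28.DerivEq

open Metric Filter Topology UpperHalfPlane ModularForm EisensteinSeries ModularCurve Derivative
open Fermat.Agent.S24.DiscSeries Fermat.Agent.S24.JFunction Fermat.Agent.S24.JqExpansion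
open Fermat.Agent.S20.Ramanujan Fermat.Agent.S28.Basic Fermat.Agent.S28.Theta
open scoped PowerSeries.WithPiTopology Manifold

local notation "𝕢" => Function.Periodic.qParam

/-! ### The formal Eisenstein series `E₆` -/

/-- The formal Eisenstein series `E₆ = 1 - 504 ∑ σ₅(n) Xⁿ`. -/
def eisenstein6 : PowerSeries ℤ :=
  PowerSeries.mk fun n => if n = 0 then 1 else -504 * ∑ d ∈ n.divisors, (d : ℤ) ^ 5

@[simp]
theorem constantCoeff_eisenstein6 : PowerSeries.constantCoeff eisenstein6 = 1 := by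
  rw [← PowerSeries.coeff_zero_eq_constantCoeff]
  simp [eisenstein6]

theorem qExpansion_E₆ : qExpansion 1 E₆ = toC eisenstein6 := by
  ext m
  rw [E_qExpansion_coeff (by norm_num : 3 ≤ 6) ⟨3, rfl⟩ m, coeff_toC, eisenstein6,
    PowerSeries.coeff_mk]
  split_ifs with hm
  · simp
  · have hb : bernoulli 6 = 1 / 42 := by decide +kernel
    rw [hb, ArithmeticFunction.sigma_apply]
    push_cast
    ring

/-- The function on the disc attached to `E₆`. -/
noncomputable def e6Fun : ℂ → ℂ := cuspFunction 1 E₆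

theorem e6Fun_qParam (τ : ℍ) : e6Fun (𝕢 1 τ) = E₆ τ :=
  SlashInvariantFormClass.eq_cuspFunction E₆ τ one_mem_strictPeriods_SL one_ne_zero

theorem repr_eisenstein6 : DRepr (toC eisenstein6) e6Fun := by
  rw [← qExpansion_E₆]
  intro q hq
  have h := hasSum_qExpansion_of_norm_lt (f := E₆) one_pos
    (SlashInvariantFormClass.periodic_comp_ofComplex E₆ one_mem_strictPeriods_SL)
    (ModularFormClass.holo E₆) (ModularFormClass.bdd_at_infty E₆) hq
  simpa [smul_eq_mul, e6Fun] using h

/-! ### Termwise differentiation -/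

/-- The derived series represents the derivative. -/
theorem repr_deriv {P : PowerSeries ℂ} {f : ℂ → ℂ} (h : DRepr P f) :
    DRepr (PowerSeries.derivative ℂ P) (deriv f) := by
  have hd : DifferentiableOn ℂ (deriv f) (ball 0 1) := h.differentiableOn.deriv isOpen_ball
  have hT := repr_taylor hd
  have : PowerSeries.derivative ℂ P = taylor (deriv f) := by
    ext n
    rw [PowerSeries.coeff_derivative, coeff_taylor, h.eq_taylor, coeff_taylor,
      ← iteratedDeriv_succ']
    have h1 : ((n + 1).factorial : ℂ) = (n + 1 : ℂ) * (n.factorial : ℂ) := by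
      rw [Nat.factorial_succ]; push_cast; ring
    have h2 : ((n.factorial : ℂ)) ≠ 0 := by exact_mod_cast n.factorial_ne_zero
    have h3 : (n + 1 : ℂ) ≠ 0 := by exact_mod_cast (Nat.succ_ne_zero n)
    rw [h1]
    field_simp
  rw [this]
  exact hT

/-- `X * P'` represents `q f'(q)`. -/
theorem repr_theta {P : PowerSeries ℂ} {f : ℂ → ℂ} (h : DRepr P f) :
    DRepr (PowerSeries.X * PowerSeries.derivative ℂ P) (fun q => q * deriv f q) :=
  repr_X.mul (repr_deriv h)

/-! ### The normalized derivative on the upper half plane and `q d/dq` -/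

theorem hasDerivAt_qParam (z : ℂ) :
    HasDerivAt (𝕢 1) (2 * Real.pi * Complex.I * 𝕢 1 z) z := by
  have h1 : HasDerivAt (fun w : ℂ => 2 * Real.pi * Complex.I * w / ((1 : ℝ) : ℂ))
      (2 * Real.pi * Complex.I) z := by
    simpa using ((hasDerivAt_id z).const_mul (2 * Real.pi * Complex.I))
  have h2 := h1.cexp
  have h3 : (fun w : ℂ => Complex.exp (2 * Real.pi * Complex.I * w / ((1 : ℝ) : ℂ))) = 𝕢 1 := by
    funext w
    rfl
  rw [h3] at h2
  have h4 : Complex.exp (2 * Real.pi * Complex.I * z / ((1 : ℝ) : ℂ)) * (2 * Real.pi * Complex.I)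
      = 2 * Real.pi * Complex.I * 𝕢 1 z := by
    rw [← h3]
    ring
  rw [h4] at h2
  exact h2

/-- If `F(τ) = f(q)` with `f` holomorphic on the disc, then `D F (τ) = q f'(q)`. -/
theorem D_eq_of_comp {F : ℍ → ℂ} {f : ℂ → ℂ} (hf : DifferentiableOn ℂ f (ball 0 1))
    (hF : ∀ τ : ℍ, F τ = f (𝕢 1 τ)) (τ : ℍ) :
    D F τ = 𝕢 1 τ * deriv f (𝕢 1 τ) := by
  have hq : ‖𝕢 1 (τ : ℂ)‖ < 1 := Function.Periodic.norm_qParam_lt_one one_pos τ.im_pos
  have hfd : DifferentiableAt ℂ f (𝕢 1 (τ : ℂ)) :=
    hf.differentiableAt (isOpen_ball.mem_nhds (by simpa using hq))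
  have hev : (F ∘ ofComplex) =ᶠ[𝓝 (τ : ℂ)] (f ∘ 𝕢 1) := by
    have hopen : {z : ℂ | 0 < z.im} ∈ 𝓝 (τ : ℂ) :=
      (isOpen_lt continuous_const Complex.continuous_im).mem_nhds τ.im_pos
    filter_upwards [hopen] with z hz
    rw [Function.comp_apply, Function.comp_apply, ofComplex_apply_of_im_pos hz, hF]
  have hcomp : HasDerivAt (f ∘ 𝕢 1)
      (deriv f (𝕢 1 (τ : ℂ)) * (2 * Real.pi * Complex.I * 𝕢 1 (τ : ℂ))) (τ : ℂ) :=
    hfd.hasDerivAt.comp (τ : ℂ) (hasDerivAt_qParam (τ : ℂ))
  rw [normalizedDerivOfComplex, hev.deriv_eq, hcomp.deriv]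
  have hpi : (2 * Real.pi * Complex.I : ℂ) ≠ 0 := by
    simp [Real.pi_ne_zero, Complex.I_ne_zero]
  field_simp

/-- Every point of the punctured disc is `𝕢 τ` for some `τ` in the upper half plane. -/
theorem exists_qParam_eq {q : ℂ} (hq0 : q ≠ 0) (hq : ‖q‖ < 1) : ∃ τ : ℍ, 𝕢 1 (τ : ℂ) = q := by
  have him : 0 < (Function.Periodic.invQParam 1 q).im := by
    rw [Function.Periodic.im_invQParam]
    have hlog : Real.log ‖q‖ < 0 := Real.log_neg (norm_pos_iff.mpr hq0) hq
    have hpi : 0 < 2 * Real.pi := by positivity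
    have : -1 / (2 * Real.pi) < 0 := div_neg_of_neg_of_pos (by norm_num) hpi
    exact mul_pos_of_neg_of_neg this hlog
  exact ⟨⟨Function.Periodic.invQParam 1 q, him⟩,
    Function.Periodic.qParam_right_inv one_ne_zero hq0⟩

theorem toC_injective : Function.Injective toC := by
  intro P Q h
  ext n
  have := congrArg (PowerSeries.coeff n) h
  rw [coeff_toC, coeff_toC] at this
  exact_mod_cast this

theorem toC_derivative (P : PowerSeries ℤ) :
    toC (PowerSeries.derivative ℤ P) = PowerSeries.derivative ℂ (toC P) := by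
  ext n
  simp [PowerSeries.coeff_derivative]

/-! ### The two power series identities -/

/-- `E₄³ - E₆² = 1728 X ∏ (1 - Xⁿ)^24` as formal power series over `ℤ`. -/
theorem eisenstein_cube_sub_sq :
    eisenstein4 ^ 3 - eisenstein6 ^ 2 = 1728 * (PowerSeries.X * dedekindEtaUnit) := by
  apply toC_injective
  have hL : DRepr (toC (eisenstein4 ^ 3 - eisenstein6 ^ 2))
      (fun q => e4Fun q ^ 3 - e6Fun q ^ 2) := by
    rw [map_sub, map_pow, map_pow]
    exact (repr_eisenstein4.pow 3).sub (repr_eisenstein6.pow 2)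
  have hR : DRepr (toC (1728 * (PowerSeries.X * dedekindEtaUnit)))
      (fun q => 1728 * (q * etaFun q ^ 24)) := by
    rw [map_mul, map_mul, PowerSeries.map_X]
    have h1728 : toC 1728 = PowerSeries.C (1728 : ℂ) := by
      rw [show (1728 : PowerSeries ℤ) = PowerSeries.C (1728 : ℤ) from by simp, PowerSeries.map_C]
      simp
    rw [h1728]
    exact (repr_C 1728).mul (repr_X.mul repr_dedekindEtaUnit)
  refine hL.unique' hR fun q hq0 hq => ?_
  obtain ⟨τ, rfl⟩ := exists_qParam_eq hq0 hq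
  rw [e4Fun_qParam, e6Fun_qParam, ← discriminant_eq_etaFun, discriminant_eq' τ]
  ring

/-- Ramanujan's identities with `E₂` eliminated:
`3 E₆ θE₄ - 2 E₄ θE₆ = E₄³ - E₆²`, `θ = X d/dX`. -/
theorem ramanujan_formal :
    3 * (eisenstein6 * (PowerSeries.X * PowerSeries.derivative ℤ eisenstein4))
      - 2 * (eisenstein4 * (PowerSeries.X * PowerSeries.derivative ℤ eisenstein6))
      = eisenstein4 ^ 3 - eisenstein6 ^ 2 := by
  apply toC_injective
  have h3 : toC 3 = PowerSeries.C (3 : ℂ) := by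
    rw [show (3 : PowerSeries ℤ) = PowerSeries.C (3 : ℤ) from by simp, PowerSeries.map_C]
    simp
  have h2 : toC 2 = PowerSeries.C (2 : ℂ) := by
    rw [show (2 : PowerSeries ℤ) = PowerSeries.C (2 : ℤ) from by simp, PowerSeries.map_C]
    simp
  have hL : DRepr (toC (3 * (eisenstein6 * (PowerSeries.X * PowerSeries.derivative ℤ eisenstein4))
      - 2 * (eisenstein4 * (PowerSeries.X * PowerSeries.derivative ℤ eisenstein6))))
      (fun q => 3 * (e6Fun q * (q * deriv e4Fun q)) - 2 * (e4Fun q * (q * deriv e6Fun q))) := by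
    simp only [map_sub, map_mul, PowerSeries.map_X, toC_derivative, h3, h2]
    exact ((repr_C 3).mul (repr_eisenstein6.mul (repr_theta repr_eisenstein4))).sub
      ((repr_C 2).mul (repr_eisenstein4.mul (repr_theta repr_eisenstein6)))
  have hR : DRepr (toC (eisenstein4 ^ 3 - eisenstein6 ^ 2))
      (fun q => e4Fun q ^ 3 - e6Fun q ^ 2) := by
    rw [map_sub, map_pow, map_pow]
    exact (repr_eisenstein4.pow 3).sub (repr_eisenstein6.pow 2)
  refine hL.unique' hR fun q hq0 hq => ?_
  obtain ⟨τ, rfl⟩ := exists_qParam_eq hq0 hq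
  have hD4 := D_eq_of_comp (F := E₄) repr_eisenstein4.differentiableOn
    (fun τ => (e4Fun_qParam τ).symm) τ
  have hD6 := D_eq_of_comp (F := E₆) repr_eisenstein6.differentiableOn
    (fun τ => (e6Fun_qParam τ).symm) τ
  rw [← hD4, ← hD6, D_E₄, D_E₆, e4Fun_qParam, e6Fun_qParam]
  ring

/-! ### The identity in Laurent series over `ℤ` -/

section LaurentZ

/-- The embedding `ℤ⟦X⟧ → ℤ((t))`. -/
local notation "ι" => HahnSeries.ofPowerSeries ℤ ℤ

theorem jNum_mul_dedekindEtaUnit : jNum * dedekindEtaUnit = eisenstein4 ^ 3 := by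
  rw [jNum, mul_assoc, mul_comm dedekindEtaUnitInv, dedekindEtaUnit_mul_inv, mul_one]

theorem map_id_int (P : PowerSeries ℤ) : P.map (Int.castRingHom ℤ) = P := by
  ext n
  simp

theorem jqModC_int : jqModC ℤ = HahnSeries.single (-1 : ℤ) 1 * ι jNum := by
  rw [jqModC, map_id_int]

theorem DeltaL_int : DeltaL ℤ = HahnSeries.single (1 : ℤ) 1 * ι dedekindEtaUnit := by
  rw [DeltaL, map_id_int]

theorem single_neg_one_mul_single_one :
    (HahnSeries.single (-1 : ℤ) (1 : ℤ) : LaurentSeries ℤ) * HahnSeries.single (1 : ℤ) 1 = 1 := by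
  rw [HahnSeries.single_mul_single]
  simp

/-- `J Δ = E₄³`. -/
theorem jq_mul_Delta : jqModC ℤ * DeltaL ℤ = ι eisenstein4 ^ 3 := by
  rw [jqModC_int, DeltaL_int, ← map_pow, ← jNum_mul_dedekindEtaUnit, map_mul]
  linear_combination (ι jNum * ι dedekindEtaUnit) * single_neg_one_mul_single_one

theorem DeltaL_int_ne_zero : DeltaL ℤ ≠ 0 := by
  intro h
  have := congrArg (fun f : LaurentSeries ℤ => f.coeff 1) h
  simp only [DeltaL_int, HahnSeries.coeff_single_mul, sub_self, HahnSeries.coeff_zero] at this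
  have h0 : (ι dedekindEtaUnit).coeff ((0 : ℕ) : ℤ) = 1 := by
    rw [HahnSeries.ofPowerSeries_apply_coeff, PowerSeries.coeff_zero_eq_constantCoeff,
      constantCoeff_dedekindEtaUnit]
  simp only [Nat.cast_zero] at h0
  rw [h0] at this
  simp at this

/-- `(θ J) Δ = - E₄² E₆`. -/
theorem theta_jq_mul_Delta :
    theta (jqModC ℤ) * DeltaL ℤ = -(ι eisenstein4 ^ 2 * ι eisenstein6) := by
  set a : LaurentSeries ℤ := ι eisenstein4 with ha
  set b : LaurentSeries ℤ := ι eisenstein6 with hb
  set h : LaurentSeries ℤ := ι dedekindEtaUnit with hh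
  set t : LaurentSeries ℤ := HahnSeries.single (1 : ℤ) 1 with ht
  have htX : ι PowerSeries.X = t := PowerSeries.coe_X
  -- the two identities, in Laurent series
  have I1 : a ^ 3 - b ^ 2 = 1728 * (t * h) := by
    have := congrArg ι eisenstein_cube_sub_sq
    simpa only [map_sub, map_pow, map_mul, htX, map_ofNat] using this
  have e4 : theta a = t * ι (PowerSeries.derivative ℤ eisenstein4) := by
    rw [ha, theta_ofPowerSeries, map_mul, htX]
  have e6 : theta b = t * ι (PowerSeries.derivative ℤ eisenstein6) := by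
    rw [hb, theta_ofPowerSeries, map_mul, htX]
  have I3 : 3 * (b * theta a) - 2 * (a * theta b) = a ^ 3 - b ^ 2 := by
    have := congrArg ι ramanujan_formal
    rw [e4, e6]
    simpa only [map_sub, map_pow, map_mul, htX, map_ofNat] using this
  have hθt : theta t = t := by
    rw [ht, theta_single]
    simp
  -- derivative of `I1`
  have dI1 : 3 * a ^ 2 * theta a - 2 * b * theta b = 1728 * (t * h + t * theta h) := by
    have := congrArg theta I1
    rw [theta_sub, show (3 : ℕ) = 2 + 1 from rfl, theta_pow, show (2 : ℕ) = 1 + 1 from rfl,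
      theta_pow, theta_mul, theta_ofNat, theta_mul, hθt] at this
    push_cast at this
    linear_combination this
  have hne : (1728 : LaurentSeries ℤ) * t ≠ 0 := by
    intro h0
    have := congrArg (fun f : LaurentSeries ℤ => f.coeff 1) h0
    rw [show (1728 : LaurentSeries ℤ) = HahnSeries.C (1728 : ℤ) from by simp] at this
    simp only [HahnSeries.C_mul_eq_smul, HahnSeries.coeff_smul, ht, HahnSeries.coeff_single_same,
      HahnSeries.coeff_zero, smul_eq_mul, mul_one] at this
    norm_num at this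
  have key1 : a * (theta h + h) = (3 * theta a + b) * h := by
    have : (1728 * t) * (a * (theta h + h) - (3 * theta a + b) * h) = 0 := by
      linear_combination (-a) * dI1 + (3 * theta a + b) * I1 + b * I3
    have := (mul_eq_zero.mp this).resolve_left hne
    exact sub_eq_zero.mp this
  -- `J Δ = a ^ 3`, `Δ = t h`
  have hΔ : DeltaL ℤ = t * h := DeltaL_int
  have hJΔ : jqModC ℤ * (t * h) = a ^ 3 := by rw [← hΔ]; exact jq_mul_Delta
  have dJΔ : theta (jqModC ℤ) * (t * h) + jqModC ℤ * (t * h + t * theta h)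
      = 3 * a ^ 2 * theta a := by
    have := congrArg theta hJΔ
    rw [theta_mul, theta_mul, hθt, show (3 : ℕ) = 2 + 1 from rfl, theta_pow] at this
    push_cast at this
    linear_combination this
  have hhne : h ≠ 0 := by
    intro h0
    apply DeltaL_int_ne_zero
    rw [hΔ, h0, mul_zero]
  have : (theta (jqModC ℤ) * (t * h) + a ^ 2 * b) * h = 0 := by
    linear_combination h * dJΔ - (theta h + h) * hJΔ - a ^ 2 * key1
  have := (mul_eq_zero.mp this).resolve_right hhne
  rw [hΔ]
  linear_combination this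

/-- **The derivative formula over `ℤ`**: `Δ j⁴ (j - 1728)³ = (θ j)⁶`. -/
theorem derivEq_int :
    DeltaL ℤ * jqModC ℤ ^ 4 * (jqModC ℤ - HahnSeries.C (1728 : ℤ)) ^ 3
      = theta (jqModC ℤ) ^ 6 := by
  set a : LaurentSeries ℤ := ι eisenstein4 with ha
  set b : LaurentSeries ℤ := ι eisenstein6 with hb
  have hC : (HahnSeries.C (1728 : ℤ) : LaurentSeries ℤ) = 1728 := by simp
  have I1 : a ^ 3 - b ^ 2 = 1728 * DeltaL ℤ := by
    have := congrArg ι eisenstein_cube_sub_sq
    rw [DeltaL_int, ← PowerSeries.coe_X]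
    simpa only [map_sub, map_pow, map_mul, map_ofNat] using this
  have h1 := jq_mul_Delta
  have h2 := theta_jq_mul_Delta
  rw [← ha] at h1
  rw [← ha, ← hb] at h2
  have hne : DeltaL ℤ ^ 6 ≠ 0 := pow_ne_zero _ DeltaL_int_ne_zero
  have : (DeltaL ℤ * jqModC ℤ ^ 4 * (jqModC ℤ - 1728) ^ 3 - theta (jqModC ℤ) ^ 6)
      * DeltaL ℤ ^ 6 = 0 := by
    have e1 : (jqModC ℤ - 1728) * DeltaL ℤ = b ^ 2 := by linear_combination h1 + I1
    have e2 : DeltaL ℤ * jqModC ℤ ^ 4 * (jqModC ℤ - 1728) ^ 3 * DeltaL ℤ ^ 6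
        = (jqModC ℤ * DeltaL ℤ) ^ 4 * ((jqModC ℤ - 1728) * DeltaL ℤ) ^ 3 := by ring
    have e3 : theta (jqModC ℤ) ^ 6 * DeltaL ℤ ^ 6 = (theta (jqModC ℤ) * DeltaL ℤ) ^ 6 := by
      ring
    rw [sub_mul, e2, e3, h1, e1, h2]
    ring
  rw [hC]
  exact sub_eq_zero.mp ((mul_eq_zero.mp this).resolve_right hne)

end LaurentZ

/-! ### The identity over every commutative ring -/

/-- **The derivative formula** `Δ j⁴ (j - 1728)³ = (θ j)⁶` over every commutative ring. -/
theorem derivEq (R : Type*) [CommRing R] :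
    DeltaL R * jqModC R ^ 4 * (jqModC R - HahnSeries.C (1728 : R)) ^ 3
      = theta (jqModC R) ^ 6 := by
  have h := congrArg (mapHom (Int.castRingHom R)) derivEq_int
  rw [map_mul, map_mul, map_pow, map_pow, map_pow, map_sub, mapHom_DeltaL, mapHom_jqModC,
    mapHom_C, mapHom_theta, mapHom_jqModC] at h
  have h1728 : (Int.castRingHom R) 1728 = (1728 : R) := by simp
  rw [h1728] at h
  exact h

/-- The derivative formula for `Jm k 1`. -/
theorem derivEq_Jm (k : Type*) [Field k] :
    DeltaL k * Jm k 1 ^ 4 * (Jm k 1 - HahnSeries.C (1728 : k)) ^ 3 = theta (Jm k 1) ^ 6 := by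
  rw [Jm_one]
  exact derivEq k

end Fermat.Agent.S28.DerivEq
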