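import Mathlib
import Fermat.Prelude.Def_ModularCurve_JqCoeff
import Fermat.Prelude.Def_ModularCurve_LaurentCoeff
import Fermat.Prelude.Thm_ModularCurve_coeff_jqModC_neg_one
import Fermat.Prelude.Thm_ModularCurve_coeff_jqModC_pow_self
import Fermat.Prelude.Thm_ModularCurve_coeff_jqModC_pow_of_lt
import Fermat.Agent.S28.Basic

/-!
# S28, leaf (B2): the prime case

For an arbitrary field `k` and `P : PrimeData k r` (`r ≥ 2`), the series `J(t^r)` is not a
rational function of `J(t)` (`Jm_notMem_adjoin`).  The derivative identity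
(D) `Δ J⁴ (J - 1728)³ = (θ J)⁶` is taken as a hypothesis.

Proof: otherwise `J(t^r) = p(J)` with `p` a polynomial (`k[J]` is integrally closed and `J(t^r)`
is a root of the monic `Φ(X, J)`); the chain rule gives `r (θJ)(t^r) = p'(J) θJ`, and (D) at `t`
and at `t^r` shows that the modular unit `v = r¹² Δ(t^r)/Δ(t)` is a rational function of `J`.  It
is integral over `k[J]`, hence a polynomial `V(J)`, and `Ψ(V, Y) = 0` makes `V` a divisor of the
constant `Ψ(0, Y) = c ≠ 0`: so `v` is a nonzero constant, but `v · Δ(t)` has no `t¹`-term.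

Also exported: the calculus of `θ` (`theta_mul'`, `theta_evalAt'`, `theta_subst'`),
`transcendental_jqModC`, `exists_eq_evalAt_of_integral`, `root_Jm`, `unitV_ne_C`.
-/

set_option autoImplicit false
set_option linter.style.haveILetI false

open HahnSeries Polynomial ModularCurve
open Fermat.Agent.S28.Basic

noncomputable section

namespace Fermat.Agent.S28.PrimeCase

/-! ### The derivation `θ = t d/dt` -/

section Theta

variable {R : Type*} [CommRing R]

theorem theta_zero' : theta (0 : LaurentSeries R) = 0 := by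
  ext n; simp

theorem theta_add' (x y : LaurentSeries R) : theta (x + y) = theta x + theta y := by
  ext n; simp [mul_add]

theorem theta_neg' (x : LaurentSeries R) : theta (-x) = -theta x := by
  ext n; simp

theorem theta_sub' (x y : LaurentSeries R) : theta (x - y) = theta x - theta y := by
  ext n; simp [mul_sub]

theorem theta_C' (c : R) : theta (HahnSeries.C c : LaurentSeries R) = 0 := by
  ext n
  rw [theta_coeff, HahnSeries.coeff_zero]
  by_cases hn : n = 0
  · subst hn; simp
  · rw [HahnSeries.C_apply, HahnSeries.coeff_single_of_ne hn, mul_zero]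

theorem theta_one' : theta (1 : LaurentSeries R) = 0 := by
  have := theta_C' (1 : R)
  rwa [map_one] at this

theorem support_theta_subset (x : LaurentSeries R) : (theta x).support ⊆ x.support := by
  intro n hn
  simp only [HahnSeries.mem_support, theta_coeff, ne_eq] at hn ⊢
  exact fun h => hn (by rw [h, mul_zero])

/-- Leibniz rule. -/
theorem theta_mul' (x y : LaurentSeries R) : theta (x * y) = theta x * y + x * theta y := by
  ext n
  rw [theta_coeff, HahnSeries.coeff_add, HahnSeries.coeff_mul,
    HahnSeries.coeff_mul_left' x.isPWO_support (support_theta_subset x),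
    HahnSeries.coeff_mul_right' y.isPWO_support (support_theta_subset y),
    Finset.mul_sum, ← Finset.sum_add_distrib]
  refine Finset.sum_congr rfl fun ij hij => ?_
  have h : ij.1 + ij.2 = n := (Finset.mem_antidiagonal.1 hij).2.2
  rw [theta_coeff, theta_coeff, ← h]
  push_cast
  ring

theorem theta_pow' (x : LaurentSeries R) (n : ℕ) :
    theta (x ^ (n + 1)) = ((n + 1 : ℕ) : LaurentSeries R) * x ^ n * theta x := by
  induction n with
  | zero => simp
  | succ n ih =>
    rw [pow_succ, theta_mul', ih]
    push_cast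
    ring

theorem theta_C_mul' (c : R) (x : LaurentSeries R) :
    theta (HahnSeries.C c * x) = HahnSeries.C c * theta x := by
  rw [theta_mul', theta_C', zero_mul, zero_add]

/-- Chain rule for polynomials with constant coefficients. -/
theorem theta_evalAt' (x : LaurentSeries R) (p : R[X]) :
    theta (evalAt R x p) = evalAt R x (derivative p) * theta x := by
  induction p using Polynomial.induction_on' with
  | add p q hp hq => rw [map_add, theta_add', hp, hq, derivative_add, map_add, add_mul]
  | monomial n a =>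
    rw [← C_mul_X_pow_eq_monomial, map_mul, map_pow, evalAt_C, evalAt_X, theta_C_mul']
    cases n with
    | zero => simp [theta_one']
    | succ n =>
      rw [theta_pow', derivative_C_mul, derivative_X_pow]
      simp only [map_mul, map_pow, evalAt_C, evalAt_X, Nat.add_sub_cancel, map_natCast]
      ring

/-- Chain rule for `t ↦ t ^ m`. -/
theorem theta_subst' {m : ℕ} (hm : m ≠ 0) (f : LaurentSeries R) :
    theta (sub R m f) = (m : LaurentSeries R) * sub R m (theta f) := by
  ext n
  have hcast : ((m : LaurentSeries R)) = HahnSeries.C (m : R) := by simp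
  rw [theta_coeff, hcast, HahnSeries.C_mul_eq_smul, HahnSeries.coeff_smul, smul_eq_mul]
  by_cases hn : (m : ℤ) ∣ n
  · obtain ⟨q, rfl⟩ := hn
    rw [sub_coeff_mul hm, sub_coeff_mul hm, theta_coeff]
    push_cast
    ring
  · rw [sub_coeff_of_not_dvd hm _ hn, sub_coeff_of_not_dvd hm _ hn, mul_zero, mul_zero]

end Theta


/-! ### `J` is transcendental and `k[J]` is integrally closed in `k(J)` -/

section Transc

variable (k : Type*) [Field k]

theorem evalAt_eq_aeval (x : LaurentSeries k) (p : k[X]) :
    evalAt k x p = Polynomial.aeval x p := by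
  have h : (HahnSeries.C : k →+* LaurentSeries k) = algebraMap k (LaurentSeries k) :=
    RingHom.ext fun c => by
      rw [ModularCurve.algebraMap_laurentSeries_eq_single]
      rfl
  rw [evalAt, Polynomial.coe_eval₂RingHom, Polynomial.aeval_def, h]

theorem coeff_C_mul (c : k) (x : LaurentSeries k) (n : ℤ) :
    (HahnSeries.C c * x).coeff n = c * x.coeff n := by
  rw [HahnSeries.C_mul_eq_smul, HahnSeries.coeff_smul, smul_eq_mul]

/-- The coefficient of `t ^ (-deg p)` of `p(J)` is the leading coefficient of `p`. -/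
theorem coeff_evalAt_jqModC (p : k[X]) :
    (evalAt k (jqModC k) p).coeff (-(p.natDegree : ℤ)) = p.leadingCoeff := by
  rw [evalAt, Polynomial.coe_eval₂RingHom, Polynomial.eval₂_eq_sum_range, HahnSeries.coeff_sum]
  rw [Finset.sum_range_succ, Finset.sum_eq_zero, zero_add]
  · change (HahnSeries.C (p.coeff p.natDegree) * jqModC k ^ p.natDegree).coeff _ = _
    rw [coeff_C_mul, coeff_jqModC_pow_self, mul_one]
    rfl
  · intro i hi
    change (HahnSeries.C (p.coeff i) * jqModC k ^ i).coeff _ = _
    rw [coeff_C_mul, coeff_jqModC_pow_of_lt, mul_zero]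
    have := Finset.mem_range.1 hi
    omega

theorem evalAt_jqModC_injective : Function.Injective (evalAt k (jqModC k)) := by
  rw [injective_iff_map_eq_zero]
  intro p hp
  have h := coeff_evalAt_jqModC k p
  rw [hp, HahnSeries.coeff_zero] at h
  exact Polynomial.leadingCoeff_eq_zero.1 h.symm

theorem transcendental_jqModC : Transcendental k (jqModC k) := by
  rw [transcendental_iff_injective]
  intro p q h
  apply evalAt_jqModC_injective k
  rw [evalAt_eq_aeval, evalAt_eq_aeval]
  exact h

/-- The embedding `k(X) → k((t))`, `X ↦ J`. -/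
def ratEmb : RatFunc k →+* LaurentSeries k :=
  IsFractionRing.lift (A := k[X]) (K := RatFunc k) (g := evalAt k (jqModC k))
    (evalAt_jqModC_injective k)

theorem ratEmb_algebraMap (p : k[X]) :
    ratEmb k (algebraMap k[X] (RatFunc k) p) = evalAt k (jqModC k) p :=
  IsFractionRing.lift_algebraMap _ _

theorem ratEmb_comp : (ratEmb k).comp (algebraMap k[X] (RatFunc k)) = evalAt k (jqModC k) :=
  RingHom.ext (ratEmb_algebraMap k)

/-- Every element of `k(J)` is in the image of `k(X)`. -/
theorem exists_ratEmb_eq {x : LaurentSeries k}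
    (hx : x ∈ IntermediateField.adjoin k {jqModC k}) : ∃ f : RatFunc k, ratEmb k f = x := by
  obtain ⟨a, b, rfl⟩ := IntermediateField.mem_adjoin_simple_iff k x |>.1 hx
  refine ⟨algebraMap k[X] (RatFunc k) a / algebraMap k[X] (RatFunc k) b, ?_⟩
  rw [map_div₀, ratEmb_algebraMap, ratEmb_algebraMap, evalAt_eq_aeval, evalAt_eq_aeval]

/-- **`k[J]` is integrally closed in `k(J)`.** -/
theorem exists_eq_evalAt_of_integral {x : LaurentSeries k}
    (hx : x ∈ IntermediateField.adjoin k {jqModC k}) (Q : k[X][X]) (hQ : Q.Monic)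
    (hroot : (Q.map (evalAt k (jqModC k))).eval x = 0) :
    ∃ p : k[X], x = evalAt k (jqModC k) p := by
  obtain ⟨f, rfl⟩ := exists_ratEmb_eq k hx
  have hint : IsIntegral k[X] f := by
    refine ⟨Q, hQ, ?_⟩
    apply (ratEmb k).injective
    rw [Polynomial.hom_eval₂, ratEmb_comp, map_zero, ← Polynomial.eval_map]
    exact hroot
  obtain ⟨p, rfl⟩ := IsIntegrallyClosed.isIntegral_iff.1 hint
  exact ⟨p, ratEmb_algebraMap k p⟩

/-- Elements `a(J) / b(J)` belong to `k(J)`. -/
theorem evalAt_mem_adjoin (p : k[X]) :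
    evalAt k (jqModC k) p ∈ IntermediateField.adjoin k {jqModC k} := by
  rw [evalAt_eq_aeval]
  exact IntermediateField.mem_adjoin_simple_iff k _ |>.2 ⟨p, 1, by simp⟩

end Transc


/-! ### Substitution and the modular equation -/

section Subst

variable (k : Type*) [Field k]

theorem sub_comp_evalAt {m : ℕ} (x : LaurentSeries k) :
    (sub k m).comp (evalAt k x) = evalAt k (sub k m x) := by
  refine Polynomial.ringHom_ext (fun c => ?_) ?_
  · rw [RingHom.comp_apply, evalAt_C, evalAt_C, sub_C]
  · rw [RingHom.comp_apply, evalAt_X, evalAt_X]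

theorem sub_evalAt {m : ℕ} (x : LaurentSeries k) (p : k[X]) :
    sub k m (evalAt k x p) = evalAt k (sub k m x) p := by
  rw [← sub_comp_evalAt, RingHom.comp_apply]

theorem sub_Jm {m n : ℕ} (hm : m ≠ 0) (hn : n ≠ 0) : sub k m (Jm k n) = Jm k (m * n) := by
  unfold Jm
  rw [Fermat.Agent.S28.Basic.sub_sub hm hn]

theorem Jm_one' : Jm k 1 = jqModC k := Jm_one k

theorem coeff_Jm {m : ℕ} (hm : m ≠ 0) : (Jm k m).coeff (-(m : ℤ)) = 1 := by
  have h := sub_coeff_mul hm (jqModC k) (-1)
  rw [coeff_jqModC_neg_one] at h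
  rw [← h, Jm]
  congr 1
  ring

theorem Jm_ne_C {m : ℕ} (hm : m ≠ 0) (c : k) : Jm k m ≠ HahnSeries.C c := by
  intro h
  have h1 := coeff_Jm k hm
  rw [h, HahnSeries.C_apply, HahnSeries.coeff_single_of_ne] at h1
  · exact zero_ne_one h1
  · simpa using hm

/-- `Φ(J(t^r), J(t)) = 0`. -/
theorem root_Jm {r : ℕ} (hr : r ≠ 0) (P : PrimeData k r) :
    (P.Φ.map (evalAt k (jqModC k))).eval (Jm k r) = 0 := by
  apply sub_injective (R := k) hr
  rw [map_zero, Polynomial.eval_map, Polynomial.hom_eval₂, sub_comp_evalAt, sub_Jm k hr hr,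
    ← Polynomial.eval_map, ← Jm_one', sub_Jm k hr one_ne_zero, mul_one, P.factor, ← pow_two,
    Polynomial.eval_mul, Polynomial.eval_sub, Polynomial.eval_X, Polynomial.eval_C, sub_self,
    zero_mul]

end Subst

/-! ### The modular unit is not constant -/

section Unit

variable (k : Type*) [Field k]

theorem coeff_DeltaL_one : (DeltaL k).coeff 1 = 1 := by
  rw [DeltaL, HahnSeries.coeff_single_mul, one_mul, sub_self,
    show (0 : ℤ) = ((0 : ℕ) : ℤ) from rfl, HahnSeries.ofPowerSeries_apply_coeff,
    PowerSeries.coeff_map, PowerSeries.coeff_zero_eq_constantCoeff,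
    constantCoeff_dedekindEtaUnit]
  simp

theorem DeltaL_ne_zero : DeltaL k ≠ 0 := by
  intro h
  have := coeff_DeltaL_one k
  rw [h, HahnSeries.coeff_zero] at this
  exact zero_ne_one this

theorem unitV_mul_DeltaL (r : ℕ) :
    unitV k r * DeltaL k = HahnSeries.C ((r : k) ^ 12) * sub k r (DeltaL k) := by
  rw [unitV, mul_assoc, inv_mul_cancel₀ (DeltaL_ne_zero k), mul_one]

theorem unitV_ne_C {r : ℕ} (hr : 2 ≤ r) (c : k) (hc : c ≠ 0) : unitV k r ≠ HahnSeries.C c := by
  intro h
  have h1 := unitV_mul_DeltaL k r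
  rw [h] at h1
  have h2 := congrArg (fun f => HahnSeries.coeff f 1) h1
  simp only [coeff_C_mul, coeff_DeltaL_one, mul_one] at h2
  rw [sub_coeff_of_not_dvd (by omega), mul_zero] at h2
  · exact hc h2
  · intro hdvd
    have := Int.le_of_dvd one_pos hdvd
    omega

end Unit


/-! ### The prime case -/

section Main

variable (k : Type*) [Field k]

theorem natCast_eq_C (n : ℕ) : ((n : LaurentSeries k)) = HahnSeries.C (n : k) := by
  rw [map_natCast]

/-- **Leaf (B2)**: `J(t^r)` is not a rational function of `J(t)`. -/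
theorem Jm_notMem_adjoin {r : ℕ} (hr : 2 ≤ r) (P : PrimeData k r)
    (hD : DeltaL k * jqModC k ^ 4 * (jqModC k - HahnSeries.C (1728 : k)) ^ 3 =
      theta (jqModC k) ^ 6) :
    Jm k r ∉ IntermediateField.adjoin k {jqModC k} := by
  intro hmem
  have hr0 : r ≠ 0 := by omega
  -- Step 1: `J(t^r) = p(J)`
  obtain ⟨p, hp⟩ := exists_eq_evalAt_of_integral k hmem P.Φ P.monicΦ (root_Jm k hr0 P)
  -- Step 2: the two chain rules
  have h1 : theta (Jm k r) = (r : LaurentSeries k) * sub k r (theta (jqModC k)) :=
    theta_subst' hr0 (jqModC k)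
  have h2 : theta (Jm k r) = evalAt k (jqModC k) (derivative p) * theta (jqModC k) := by
    rw [hp, theta_evalAt']
  -- Step 3: substitute `t ↦ t^r` in (D)
  have h3 : sub k r (DeltaL k) * Jm k r ^ 4 * (Jm k r - HahnSeries.C (1728 : k)) ^ 3 =
      sub k r (theta (jqModC k)) ^ 6 := by
    have := congrArg (sub k r) hD
    rw [map_mul, map_mul, map_pow, map_pow, map_sub, map_pow, sub_C] at this
    exact this
  -- Step 4: the unit is a rational function of `J`
  have h4 : unitV k r * (Jm k r ^ 4 * (Jm k r - HahnSeries.C (1728 : k)) ^ 3) =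
      HahnSeries.C ((r : k) ^ 6) * evalAt k (jqModC k) (derivative p) ^ 6 *
        (jqModC k ^ 4 * (jqModC k - HahnSeries.C (1728 : k)) ^ 3) := by
    apply mul_left_cancel₀ (DeltaL_ne_zero k)
    have e1 : (HahnSeries.C ((r : k) ^ 12) : LaurentSeries k) =
        HahnSeries.C ((r : k) ^ 6) * (r : LaurentSeries k) ^ 6 := by
      rw [natCast_eq_C, ← map_pow, ← map_mul, ← _root_.pow_add]
    calc DeltaL k * (unitV k r * (Jm k r ^ 4 * (Jm k r - HahnSeries.C (1728 : k)) ^ 3))
        = (unitV k r * DeltaL k) * (Jm k r ^ 4 * (Jm k r - HahnSeries.C (1728 : k)) ^ 3) := by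
          ring
      _ = HahnSeries.C ((r : k) ^ 12) *
            (sub k r (DeltaL k) * Jm k r ^ 4 * (Jm k r - HahnSeries.C (1728 : k)) ^ 3) := by
          rw [unitV_mul_DeltaL]; ring
      _ = HahnSeries.C ((r : k) ^ 6) *
            ((r : LaurentSeries k) * sub k r (theta (jqModC k))) ^ 6 := by
          rw [h3, e1]; ring
      _ = HahnSeries.C ((r : k) ^ 6) * evalAt k (jqModC k) (derivative p) ^ 6 *
            theta (jqModC k) ^ 6 := by
          rw [← h1, h2]; ring
      _ = DeltaL k * (HahnSeries.C ((r : k) ^ 6) * evalAt k (jqModC k) (derivative p) ^ 6 *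
            (jqModC k ^ 4 * (jqModC k - HahnSeries.C (1728 : k)) ^ 3)) := by
          rw [← hD]; ring
  have hden : Jm k r ^ 4 * (Jm k r - HahnSeries.C (1728 : k)) ^ 3 ≠ 0 := by
    refine mul_ne_zero (pow_ne_zero _ ?_) (pow_ne_zero _ (sub_ne_zero.2 (Jm_ne_C k hr0 _)))
    have := Jm_ne_C k hr0 0
    rwa [map_zero] at this
  have hV : unitV k r ∈ IntermediateField.adjoin k {jqModC k} := by
    have e : unitV k r = (HahnSeries.C ((r : k) ^ 6) * evalAt k (jqModC k) (derivative p) ^ 6 *
        (jqModC k ^ 4 * (jqModC k - HahnSeries.C (1728 : k)) ^ 3)) /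
          (Jm k r ^ 4 * (Jm k r - HahnSeries.C (1728 : k)) ^ 3) := by
      rw [eq_div_iff hden]; exact h4
    have hnum : HahnSeries.C ((r : k) ^ 6) * evalAt k (jqModC k) (derivative p) ^ 6 *
        (jqModC k ^ 4 * (jqModC k - HahnSeries.C (1728 : k)) ^ 3) =
        evalAt k (jqModC k) (Polynomial.C ((r : k) ^ 6) * derivative p ^ 6 *
          (Polynomial.X ^ 4 * (Polynomial.X - Polynomial.C (1728 : k)) ^ 3)) := by
      simp only [map_mul, map_pow, map_sub, evalAt_C, evalAt_X]
    have hdenom : Jm k r ^ 4 * (Jm k r - HahnSeries.C (1728 : k)) ^ 3 =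
        evalAt k (jqModC k) (p ^ 4 * (p - Polynomial.C (1728 : k)) ^ 3) := by
      simp only [map_mul, map_pow, map_sub, evalAt_C, ← hp]
    rw [e, hnum, hdenom]
    exact div_mem (evalAt_mem_adjoin k _) (evalAt_mem_adjoin k _)
  -- Step 5: the unit is a polynomial in `J`
  have hroot : (P.Ψ.map (evalAt k (jqModC k))).eval (unitV k r) = 0 := by
    have := P.rootΨ
    rwa [Jm_one'] at this
  obtain ⟨V, hVeq⟩ := exists_eq_evalAt_of_integral k hV P.Ψ P.monicΨ hroot
  -- Step 6: `Ψ(V, Y) = 0`, so `V` divides the constant term, a nonzero constant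
  have h7 : P.Ψ.eval V = 0 := by
    apply evalAt_jqModC_injective k
    rw [map_zero, ← Polynomial.eval₂_id, Polynomial.hom_eval₂, RingHom.comp_id, ← hVeq,
      ← Polynomial.eval_map]
    exact hroot
  obtain ⟨c, hc, hcoeff⟩ := P.constΨ
  have h8 : V ∣ Polynomial.C c := by
    have e := Polynomial.divX_mul_X_add P.Ψ
    have e2 := congrArg (Polynomial.eval V) e
    rw [Polynomial.eval_add, Polynomial.eval_mul, Polynomial.eval_X, Polynomial.eval_C, h7,
      hcoeff] at e2
    refine ⟨-(P.Ψ.divX.eval V), ?_⟩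
    linear_combination e2
  have hunit : IsUnit V := isUnit_of_dvd_unit h8 (Polynomial.isUnit_C.2 hc.isUnit)
  obtain ⟨c', hc', rfl⟩ := Polynomial.isUnit_iff.1 hunit
  exact unitV_ne_C k hr c' hc'.ne_zero (by rw [hVeq, evalAt_C])

end Main

end Fermat.Agent.S28.PrimeCase
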