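import Mathlib
import Fermat.Prelude.Def_ModularCurve_X0ModL
import Fermat.Agent.S28.Basic
import Fermat.Agent.S28.Formal
import Fermat.Agent.S28.PrimeCase
import Fermat.Agent.S28.DerivEq

/-!
# S28, leaf (B4): (STAR)

For an algebraically closed field `k`, a prime `r` not dividing `M`, and prime data for all
primes dividing `r M`, the series `J(q^r)` is not in the field `k(J(q^d) : d ∣ M)`
(`Jm_notMem_full`).

Proof, in the variable `t` with `q = t^(M r)`: let `F = k(J(q))` and `E = F(J(q^d) : d ∣ M)`.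
By the prime case (B2), `J(q^r) ∉ F`, and the orbit of the roots of the modular equation under
`t ↦ ω t` shows that `J(t^M)` is a root of the minimal polynomial of `J(q^r)` over `F`
(`conj_root`).  If `J(q^r) ∈ E` there is an `F`-embedding `σ` of `E` into an algebraic closure
of `k((t))` with `σ(J(q^r)) = J(t^M)`.  By induction on `d ∣ M`, using the substituted modular
equations of prime level, `σ(J(q^d)) = J(ξ t^m)` with `(M/d) r ∣ m`; hence `σ(E) ⊆ k((t^r))`,
but `J(t^M) ∉ k((t^r))`.
-/

set_option autoImplicit false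
set_option linter.style.haveILetI false

open HahnSeries Polynomial ModularCurve
open Fermat.Agent.S28.Basic Fermat.Agent.S28.Formal Fermat.Agent.S28.PrimeCase

noncomputable section

namespace Fermat.Agent.S28.Star

/-! ### Substitutions `t ↦ η t ^ m` -/

section Subst

variable (k : Type*) [Field k]

theorem rescaleU_rescaleU (ξ ξ' : kˣ) (f : LaurentSeries k) :
    rescaleU ξ (rescaleU ξ' f) = rescaleU (ξ * ξ') f := by
  ext n
  rw [rescaleU_coeff, rescaleU_coeff, rescaleU_coeff, ← mul_assoc, ← Units.val_mul, mul_zpow]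

theorem rescaleU_sub' (η : kˣ) {m : ℕ} (hm : m ≠ 0) (f : LaurentSeries k) :
    rescaleU η (sub k m f) = sub k m (rescaleU (η ^ m) f) := by
  ext n
  rw [rescaleU_coeff]
  by_cases hn : (m : ℤ) ∣ n
  · obtain ⟨q, rfl⟩ := hn
    rw [sub_coeff_mul hm, sub_coeff_mul hm, rescaleU_coeff, ← zpow_natCast, ← zpow_mul]
  · rw [sub_coeff_of_not_dvd hm _ hn, sub_coeff_of_not_dvd hm _ hn, mul_zero]

theorem rescaleU_C' (η : kˣ) (c : k) :
    rescaleU η (HahnSeries.C c : LaurentSeries k) = HahnSeries.C c := by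
  ext n
  rw [rescaleU_coeff]
  by_cases hn : n = 0
  · subst hn; simp
  · rw [HahnSeries.C_apply, HahnSeries.coeff_single_of_ne hn, mul_zero]

/-- The substitution `t ↦ η t ^ m`. -/
def psi (η : kˣ) (m : ℕ) : LaurentSeries k →+* LaurentSeries k :=
  (sub k m).comp (rescaleU η)

theorem psi_apply (η : kˣ) (m : ℕ) (f : LaurentSeries k) :
    psi k η m f = sub k m (rescaleU η f) := rfl

theorem psi_C (η : kˣ) (m : ℕ) (c : k) : psi k η m (HahnSeries.C c) = HahnSeries.C c := by
  rw [psi_apply, rescaleU_C', sub_C]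

theorem psi_JxR (η ξ : kˣ) {m a : ℕ} (hm : m ≠ 0) (ha : a ≠ 0) :
    psi k η m (JxR k ξ a) = JxR k (η ^ a * ξ) (m * a) := by
  rw [psi_apply, JxR, rescaleU_sub' k η ha, rescaleU_rescaleU, Basic.sub_sub hm ha, JxR]

theorem psi_comp_evalAt (η : kˣ) (m : ℕ) (x : LaurentSeries k) :
    (psi k η m).comp (evalAt k x) = evalAt k (psi k η m x) := by
  refine Polynomial.ringHom_ext (fun c => ?_) ?_
  · rw [RingHom.comp_apply, evalAt_C, evalAt_C, psi_C]
  · rw [RingHom.comp_apply, evalAt_X, evalAt_X]

theorem JxR_one' (m : ℕ) : JxR k 1 m = Jm k m := JxR_one k m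

/-- The modular equation of level `r`, after the substitution `t ↦ η t ^ m`. -/
theorem factor_subst {r : ℕ} (hr : r ≠ 0) (P : PrimeData k r) (η : kˣ) {m : ℕ} (hm : m ≠ 0) :
    P.Φ.map (evalAt k (JxR k (η ^ r) (m * r))) =
      (X - Polynomial.C (JxR k (η ^ r ^ 2) (m * r ^ 2))) *
        ∏ b ∈ Finset.range r, (X - Polynomial.C (JxR k (η * P.ζ ^ b) m)) := by
  have h := congrArg (Polynomial.map (psi k η m)) P.factor
  rw [Polynomial.map_map, psi_comp_evalAt, Polynomial.map_mul, Polynomial.map_sub,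
    Polynomial.map_X, Polynomial.map_C, Polynomial.map_prod] at h
  have e1 : psi k η m (Jm k r) = JxR k (η ^ r) (m * r) := by
    rw [← JxR_one', psi_JxR k η 1 hm hr, mul_one]
  have e2 : psi k η m (Jm k (r ^ 2)) = JxR k (η ^ r ^ 2) (m * r ^ 2) := by
    rw [← JxR_one', psi_JxR k η 1 hm (pow_ne_zero 2 hr), mul_one]
  have e3 : ∀ b, psi k η m (Jx k (P.ζ ^ b) 1) = JxR k (η * P.ζ ^ b) m := by
    intro b
    rw [← JxR_eq_Jx, psi_JxR k η _ hm one_ne_zero, pow_one, mul_one]
  rw [e1, e2] at h
  rw [h]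
  congr 1
  refine Finset.prod_congr rfl fun b _ => ?_
  rw [Polynomial.map_sub, Polynomial.map_X, Polynomial.map_C, e3]

end Subst


/-! ### The subfield `k((t^r))` -/

section Range

variable (k : Type*) [Field k]

theorem JxR_mem_range {r m : ℕ} (hr : r ≠ 0) (hm : m ≠ 0) (h : r ∣ m) (ξ : kˣ) :
    JxR k ξ m ∈ Set.range (sub k r) := by
  obtain ⟨c, rfl⟩ := h
  have hc : c ≠ 0 := fun h0 => hm (by rw [h0, mul_zero])
  exact ⟨sub k c (rescaleU ξ (jqModC k)), by rw [Basic.sub_sub hr hc]; rfl⟩

theorem Jm_notMem_range {r M : ℕ} (hr : r ≠ 0) (hM : M ≠ 0) (h : ¬ r ∣ M) :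
    Jm k M ∉ Set.range (sub k r) := by
  rintro ⟨f, hf⟩
  have h1 := coeff_Jm k hM
  rw [← hf, sub_coeff_of_not_dvd hr] at h1
  · exact zero_ne_one h1
  · intro hdvd
    apply h
    have := (Int.dvd_neg.1 hdvd)
    exact Int.natCast_dvd_natCast.1 this

theorem rescaleU_sub_of_pow_eq_one (ω : kˣ) {n : ℕ} (hn : n ≠ 0) (hω : ω ^ n = 1)
    (f : LaurentSeries k) : rescaleU ω (sub k n f) = sub k n f := by
  rw [rescaleU_sub' k ω hn, hω, rescaleU_one]

/-- The roots of the substituted modular equation. -/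
theorem root_cases {Ω : Type*} [Field Ω] (ι : LaurentSeries k →+* Ω) {r : ℕ} (hr : r ≠ 0)
    (P : PrimeData k r) (η : kˣ) {m : ℕ} (hm : m ≠ 0) (w : Ω)
    (hw : Polynomial.eval₂ (ι.comp (evalAt k (JxR k (η ^ r) (m * r)))) w P.Φ = 0) :
    w = ι (JxR k (η ^ r ^ 2) (m * r ^ 2)) ∨
      ∃ b ∈ Finset.range r, w = ι (JxR k (η * P.ζ ^ b) m) := by
  rw [← Polynomial.eval_map, ← Polynomial.map_map, factor_subst k hr P η hm, Polynomial.map_mul,
    Polynomial.eval_mul, Polynomial.map_sub, Polynomial.map_X, Polynomial.map_C,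
    Polynomial.eval_sub, Polynomial.eval_X, Polynomial.eval_C, Polynomial.map_prod,
    Polynomial.eval_prod] at hw
  rcases mul_eq_zero.1 hw with h | h
  · exact Or.inl (sub_eq_zero.1 h)
  · obtain ⟨b, hb, hb0⟩ := Finset.prod_eq_zero_iff.1 h
    refine Or.inr ⟨b, hb, ?_⟩
    rw [Polynomial.map_sub, Polynomial.map_X, Polynomial.map_C, Polynomial.eval_sub,
      Polynomial.eval_X, Polynomial.eval_C] at hb0
    exact sub_eq_zero.1 hb0

/-- Transfer of a bivariate polynomial relation along ring homomorphisms. -/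
theorem root_transfer {A Ω : Type*} [CommRing A] [Field Ω] (cA : k →+* A)
    (j : A →+* LaurentSeries k) (hj : Function.Injective j)
    (hjc : ∀ c, j (cA c) = HahnSeries.C c) (σ : A →+* Ω) (ι : LaurentSeries k →+* Ω)
    (hσc : ∀ c, σ (cA c) = ι (HahnSeries.C c)) (Φ : k[X][X]) (X' X0 : A) (y' : LaurentSeries k)
    (hroot : Polynomial.eval₂ (evalAt k (j X')) (j X0) Φ = 0) (hσ : σ X' = ι y') :
    Polynomial.eval₂ (ι.comp (evalAt k y')) (σ X0) Φ = 0 := by
  let eA : k[X] →+* A := Polynomial.eval₂RingHom cA X'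
  have h1 : j.comp eA = evalAt k (j X') := by
    refine Polynomial.ringHom_ext (fun c => ?_) ?_
    · simp [eA, hjc]
    · simp [eA]
  have h2 : σ.comp eA = ι.comp (evalAt k y') := by
    refine Polynomial.ringHom_ext (fun c => ?_) ?_
    · simp [eA, hσc]
    · simp [eA, hσ]
  have h3 : Polynomial.eval₂ eA X0 Φ = 0 := by
    apply hj
    rw [Polynomial.hom_eval₂, h1, map_zero]
    exact hroot
  have h4 := congrArg σ h3
  rwa [Polynomial.hom_eval₂, h2, map_zero] at h4

end Range


/-! ### The base field `F = k(J(t^n))` -/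

section Base

variable (k : Type*) [Field k]

theorem algebraMap_eq_C (c : k) :
    algebraMap k (LaurentSeries k) c = HahnSeries.C c := by
  rw [ModularCurve.algebraMap_laurentSeries_eq_single]
  rfl

/-- `sub k n` as a `k`-algebra homomorphism. -/
def subAlg (n : ℕ) : LaurentSeries k →ₐ[k] LaurentSeries k :=
  { sub k n with
    commutes' := fun c => by
      change sub k n (algebraMap k (LaurentSeries k) c) = algebraMap k (LaurentSeries k) c
      rw [algebraMap_eq_C, sub_C] }

@[simp] theorem subAlg_apply (n : ℕ) (f : LaurentSeries k) : subAlg k n f = sub k n f := rfl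

/-- The field `k(J(t^n))`. -/
def baseField (n : ℕ) : IntermediateField k (LaurentSeries k) :=
  IntermediateField.adjoin k {Jm k n}

theorem Jm_mem_baseField (n : ℕ) : Jm k n ∈ baseField k n :=
  IntermediateField.subset_adjoin k _ (Set.mem_singleton _)

theorem baseField_eq_map (n : ℕ) :
    baseField k n = (IntermediateField.adjoin k {jqModC k}).map (subAlg k n) := by
  rw [IntermediateField.adjoin_map, Set.image_singleton]
  rfl

/-- Elements of `k(J(t^n))` are series in `t^n`. -/
theorem baseField_le_range (n : ℕ) {x : LaurentSeries k} (hx : x ∈ baseField k n) :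
    x ∈ Set.range (sub k n) := by
  rw [baseField_eq_map] at hx
  obtain ⟨z, -, rfl⟩ := hx
  exact ⟨z, rfl⟩

/-- (B2) in the variable `t^n`. -/
theorem Jm_mul_notMem_baseField {r : ℕ} (hr : 2 ≤ r) (P : PrimeData k r) {n : ℕ} (hn : n ≠ 0) :
    Jm k (n * r) ∉ baseField k n := by
  intro h
  rw [baseField_eq_map] at h
  obtain ⟨z, hz, hzx⟩ := h
  have hz' : z = Jm k r := by
    apply sub_injective (R := k) hn
    rw [sub_Jm k hn (by omega)]
    exact hzx
  rw [hz'] at hz
  exact Jm_notMem_adjoin k hr P (Fermat.Agent.S28.DerivEq.derivEq k) hz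

end Base


/-! ### The conjugate root -/

section Conj

variable (k : Type*) [Field k]

/-- Evaluation of polynomials at `J(t^n)`, with values in the base field. -/
def evalF (n : ℕ) : k[X] →+* ↥(baseField k n) :=
  Polynomial.eval₂RingHom (algebraMap k ↥(baseField k n)) ⟨Jm k n, Jm_mem_baseField k n⟩

theorem algebraMap_comp_evalF (n : ℕ) :
    (algebraMap ↥(baseField k n) (LaurentSeries k)).comp (evalF k n) = evalAt k (Jm k n) := by
  refine Polynomial.ringHom_ext (fun c => ?_) ?_
  · rw [RingHom.comp_apply, evalAt_C]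
    simp only [evalF, Polynomial.coe_eval₂RingHom, Polynomial.eval₂_C]
    exact algebraMap_eq_C k c
  · rw [RingHom.comp_apply, evalAt_X]
    simp only [evalF, Polynomial.coe_eval₂RingHom, Polynomial.eval₂_X]
    rfl

variable [IsAlgClosed k]

/-- **The conjugate root**: `J(t^M)` is a root of the minimal polynomial of `J(t^(M r²))` over
`k(J(t^(M r)))`. -/
theorem conj_root {r M : ℕ} (hr : r.Prime) (hM : M ≠ 0) (P : PrimeData k r) :
    Polynomial.aeval (Jm k M) (minpoly ↥(baseField k (M * r)) (Jm k (M * r ^ 2))) = 0 := by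
  have hr0 : r ≠ 0 := hr.ne_zero
  have hn : M * r ≠ 0 := Nat.mul_ne_zero hM hr0
  -- the modular equation at `η = 1`
  have hfac := factor_subst k hr0 P 1 hM
  simp only [one_pow, one_mul, JxR_one'] at hfac
  have hΦF_map : (P.Φ.map (evalF k (M * r))).map
      (algebraMap ↥(baseField k (M * r)) (LaurentSeries k)) =
      P.Φ.map (evalAt k (Jm k (M * r))) := by
    rw [Polynomial.map_map, algebraMap_comp_evalF]
  have hΦF_root : Polynomial.aeval (Jm k (M * r ^ 2)) (P.Φ.map (evalF k (M * r))) = 0 := by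
    rw [Polynomial.aeval_def, Polynomial.eval₂_eq_eval_map, hΦF_map, hfac, Polynomial.eval_mul,
      Polynomial.eval_sub, Polynomial.eval_X, Polynomial.eval_C, sub_self, zero_mul]
  have hint : IsIntegral ↥(baseField k (M * r)) (Jm k (M * r ^ 2)) :=
    ⟨P.Φ.map (evalF k (M * r)), P.monicΦ.map _, by rwa [Polynomial.aeval_def] at hΦF_root⟩
  have hμdvd := minpoly.dvd ↥(baseField k (M * r)) (Jm k (M * r ^ 2)) hΦF_root
  have hμP_dvd : (minpoly ↥(baseField k (M * r)) (Jm k (M * r ^ 2))).map
      (algebraMap ↥(baseField k (M * r)) (LaurentSeries k)) ∣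
      (X - Polynomial.C (Jm k (M * r ^ 2))) *
        ∏ b ∈ Finset.range r, (X - Polynomial.C (JxR k (P.ζ ^ b) M)) := by
    rw [← hfac, ← hΦF_map]
    exact Polynomial.map_dvd _ hμdvd
  have hμP_root : ((minpoly ↥(baseField k (M * r)) (Jm k (M * r ^ 2))).map
      (algebraMap ↥(baseField k (M * r)) (LaurentSeries k))).eval (Jm k (M * r ^ 2)) = 0 := by
    rw [Polynomial.eval_map, ← Polynomial.aeval_def]
    exact minpoly.aeval _ _
  obtain ⟨ν, hν⟩ := Polynomial.dvd_iff_isRoot.2 hμP_root
  have hXne : (X - Polynomial.C (Jm k (M * r ^ 2)) : (LaurentSeries k)[X]) ≠ 0 :=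
    Polynomial.X_sub_C_ne_zero _
  have hν_dvd : ν ∣ ∏ b ∈ Finset.range r, (X - Polynomial.C (JxR k (P.ζ ^ b) M)) := by
    rw [hν] at hμP_dvd
    exact (mul_dvd_mul_iff_left hXne).1 hμP_dvd
  have hprod_ne : (∏ b ∈ Finset.range r, (X - Polynomial.C (JxR k (P.ζ ^ b) M)) :
      (LaurentSeries k)[X]) ≠ 0 :=
    Finset.prod_ne_zero_iff.2 fun b _ => Polynomial.X_sub_C_ne_zero _
  have hν0 : ν ≠ 0 := fun h => hprod_ne (by
    obtain ⟨c, hc⟩ := hν_dvd
    rw [hc, h, zero_mul])
  have hν_deg : ν.degree ≠ 0 := by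
    intro h0
    have hx_not : Jm k (M * r ^ 2) ∉
        (algebraMap ↥(baseField k (M * r)) (LaurentSeries k)).range := by
      rintro ⟨c, hc⟩
      apply Jm_mul_notMem_baseField k hr.two_le P hn
      have e : M * r * r = M * r ^ 2 := by ring
      rw [e, ← hc]
      exact c.2
    apply hx_not
    rw [← minpoly.natDegree_eq_one_iff]
    have h1 : ((minpoly ↥(baseField k (M * r)) (Jm k (M * r ^ 2))).map
        (algebraMap ↥(baseField k (M * r)) (LaurentSeries k))).natDegree = 1 := by
      rw [hν, Polynomial.natDegree_mul hXne hν0, Polynomial.natDegree_X_sub_C,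
        Polynomial.natDegree_eq_zero_iff_degree_le_zero.2 h0.le]
    rwa [Polynomial.natDegree_map] at h1
  have hν_splits : ν.Splits :=
    Polynomial.Splits.of_dvd (Polynomial.Splits.prod fun b _ => Polynomial.Splits.X_sub_C _)
      hprod_ne hν_dvd
  obtain ⟨w, hw⟩ := hν_splits.exists_eval_eq_zero hν_deg
  have hw' : Polynomial.eval w (∏ b ∈ Finset.range r,
      (X - Polynomial.C (JxR k (P.ζ ^ b) M))) = 0 := by
    obtain ⟨c, hc⟩ := hν_dvd
    rw [hc, Polynomial.eval_mul, hw, zero_mul]
  rw [Polynomial.eval_prod] at hw'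
  obtain ⟨b, -, hb0⟩ := Finset.prod_eq_zero_iff.1 hw'
  rw [Polynomial.eval_sub, Polynomial.eval_X, Polynomial.eval_C, sub_eq_zero] at hb0
  subst hb0
  have hμP_b : Polynomial.eval₂ (algebraMap ↥(baseField k (M * r)) (LaurentSeries k))
      (JxR k (P.ζ ^ b) M) (minpoly ↥(baseField k (M * r)) (Jm k (M * r ^ 2))) = 0 := by
    rw [Polynomial.eval₂_eq_eval_map, hν, Polynomial.eval_mul, hw, mul_zero]
  -- the automorphism `t ↦ ω t`
  obtain ⟨ω0, hω0⟩ := IsAlgClosed.exists_pow_nat_eq (((P.ζ ^ b)⁻¹ : kˣ) : k)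
    (Nat.pos_of_ne_zero hM)
  have hω0ne : ω0 ≠ 0 := by
    rintro rfl
    rw [zero_pow hM] at hω0
    exact (Units.ne_zero _) hω0.symm
  have hω : (Units.mk0 ω0 hω0ne) ^ M = (P.ζ ^ b)⁻¹ := Units.ext (by simpa using hω0)
  have hζr : P.ζ ^ r = 1 := Units.ext (by simpa using P.prim.pow_eq_one)
  have hωn : (Units.mk0 ω0 hω0ne) ^ (M * r) = 1 := by
    rw [pow_mul, hω, inv_pow, ← pow_mul, mul_comm b r, pow_mul, hζr, one_pow, inv_one]
  have hρy : rescaleU (Units.mk0 ω0 hω0ne) (JxR k (P.ζ ^ b) M) = Jm k M := by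
    have h := psi_JxR k (Units.mk0 ω0 hω0ne) (P.ζ ^ b) one_ne_zero hM
    rw [psi_apply, sub_one, hω, inv_mul_cancel, one_mul, JxR_one'] at h
    exact h
  have hρF : (rescaleU (Units.mk0 ω0 hω0ne)).comp
      (algebraMap ↥(baseField k (M * r)) (LaurentSeries k)) =
      algebraMap ↥(baseField k (M * r)) (LaurentSeries k) := by
    ext1 c
    obtain ⟨f, hf⟩ := baseField_le_range k (M * r) c.2
    change rescaleU (Units.mk0 ω0 hω0ne) (c : LaurentSeries k) = c
    rw [← hf, rescaleU_sub_of_pow_eq_one k _ hn hωn]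
  have h := congrArg (rescaleU (Units.mk0 ω0 hω0ne)) hμP_b
  rw [map_zero, Polynomial.hom_eval₂, hρF, hρy] at h
  rw [Polynomial.aeval_def]
  exact h

end Conj


/-! ### Integrality of the generators -/

section Integral

variable (k : Type*) [Field k]

/-- `Φ(J(t^(m r)), J(t^m)) = 0`. -/
theorem root_sub {r : ℕ} (hr : r ≠ 0) (P : PrimeData k r) {m : ℕ} (hm : m ≠ 0) :
    Polynomial.eval₂ (evalAt k (Jm k m)) (Jm k (m * r)) P.Φ = 0 := by
  have h := congrArg (sub k m) (root_Jm k hr P)
  rw [map_zero, Polynomial.eval_map, Polynomial.hom_eval₂, PrimeCase.sub_comp_evalAt,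
    sub_Jm k hm hr] at h
  exact h

/-- A root of a monic polynomial whose coefficients are polynomials in an integral element is
integral. -/
theorem isIntegral_of_root {F : Type*} [CommRing F] [Algebra F (LaurentSeries k)]
    (cF : k →+* F) (hc : ∀ c, algebraMap F (LaurentSeries k) (cF c) = HahnSeries.C c)
    (Φ : k[X][X]) (hΦ : Φ.Monic) (x' x : LaurentSeries k) (hx' : IsIntegral F x')
    (hroot : Polynomial.eval₂ (evalAt k x') x Φ = 0) : IsIntegral F x := by
  let IC := integralClosure F (LaurentSeries k)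
  let X' : IC := ⟨x', hx'⟩
  let e : k[X] →+* IC := Polynomial.eval₂RingHom ((algebraMap F IC).comp cF) X'
  have he : (algebraMap IC (LaurentSeries k)).comp e = evalAt k x' := by
    refine Polynomial.ringHom_ext (fun c => ?_) ?_
    · rw [RingHom.comp_apply, evalAt_C]
      simp only [e, Polynomial.coe_eval₂RingHom, Polynomial.eval₂_C, RingHom.comp_apply]
      rw [← IsScalarTower.algebraMap_apply F IC (LaurentSeries k)]
      exact hc c
    · rw [RingHom.comp_apply, evalAt_X]
      simp only [e, Polynomial.coe_eval₂RingHom, Polynomial.eval₂_X]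
      rfl
  have h1 : IsIntegral IC x := by
    refine ⟨Φ.map e, hΦ.map _, ?_⟩
    rw [Polynomial.eval₂_map, he]
    exact hroot
  exact isIntegral_trans x h1

end Integral


/-! ### The main argument -/

section Main

variable (k : Type*) [Field k]

/-- The generators `J(t^(n d))`, `d ∣ M`. -/
def gens (n M : ℕ) : Set (LaurentSeries k) := {z | ∃ d, d ∣ M ∧ z = Jm k (n * d)}

theorem algebraMap_base_C (n : ℕ) (c : k) :
    algebraMap ↥(baseField k n) (LaurentSeries k) (algebraMap k ↥(baseField k n) c) =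
      HahnSeries.C c :=
  algebraMap_eq_C k c

theorem isIntegral_gen {n M : ℕ} (hn : n ≠ 0) (hM : M ≠ 0)
    (PD : ∀ r' : ℕ, r'.Prime → r' ∣ M → PrimeData k r') :
    ∀ d, d ∣ M → IsIntegral ↥(baseField k n) (Jm k (n * d)) := by
  intro d
  induction d using Nat.strong_induction_on with
  | _ d ih =>
    intro hd
    by_cases h1 : d = 1
    · subst h1
      rw [mul_one]
      exact isIntegral_algebraMap (x := (⟨Jm k n, Jm_mem_baseField k n⟩ : ↥(baseField k n)))
    · have hd0 : d ≠ 0 := fun h0 => hM (by rw [h0] at hd; exact Nat.eq_zero_of_zero_dvd hd)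
      obtain ⟨p, hr', d', hd'⟩ : ∃ p, p.Prime ∧ ∃ d', d = p * d' :=
        ⟨_, Nat.minFac_prime h1, Nat.minFac_dvd d⟩
      have hpd : p ∣ d := Dvd.intro _ hd'.symm
      have hd'0 : d' ≠ 0 := fun h0 => hd0 (by rw [hd', h0, mul_zero])
      have hlt : d' < d := by
        rw [hd']
        exact lt_mul_of_one_lt_left (Nat.pos_of_ne_zero hd'0) hr'.one_lt
      have hd'M : d' ∣ M := (Dvd.intro_left _ hd'.symm).trans hd
      have ih' := ih d' hlt hd'M
      have hroot := root_sub k hr'.ne_zero (PD _ hr' (hpd.trans hd))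
        (Nat.mul_ne_zero hn hd'0)
      have e : n * d' * p = n * d := by rw [hd']; ring
      rw [e] at hroot
      exact isIntegral_of_root k (algebraMap k ↥(baseField k n)) (algebraMap_base_C k n) _
        (PD _ hr' (hpd.trans hd)).monicΦ _ _ ih' hroot

variable [IsAlgClosed k]

/-- **(STAR)** in the variable `t`, `q = t^(M r)`. -/
theorem star_t {r M : ℕ} (hr : r.Prime) (hM : M ≠ 0) (hrM : ¬ r ∣ M)
    (PD : ∀ r' : ℕ, r'.Prime → r' ∣ r * M → PrimeData k r') :
    Jm k (M * r ^ 2) ∉
      IntermediateField.adjoin ↥(baseField k (M * r)) (gens k (M * r) M) := by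
  intro hx
  have hr0 : r ≠ 0 := hr.ne_zero
  have hn : M * r ≠ 0 := Nat.mul_ne_zero hM hr0
  have hK : ∀ s ∈ gens k (M * r) M, IsIntegral ↥(baseField k (M * r)) s ∧
      ((minpoly ↥(baseField k (M * r)) s).map (algebraMap ↥(baseField k (M * r))
        (AlgebraicClosure (LaurentSeries k)))).Splits := by
    rintro s ⟨d, hd, rfl⟩
    exact ⟨isIntegral_gen k hn hM (fun r' h1 h2 => PD r' h1 (h2.trans (dvd_mul_left M r))) d hd,
      IsAlgClosed.splits _⟩
  have hy : Polynomial.aeval
      (algebraMap (LaurentSeries k) (AlgebraicClosure (LaurentSeries k)) (Jm k M))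
      (minpoly ↥(baseField k (M * r)) (Jm k (M * r ^ 2))) = 0 := by
    rw [Polynomial.aeval_algebraMap_apply, conj_root k hr hM (PD r hr (dvd_mul_right r M)),
      map_zero]
  obtain ⟨σ, hσ⟩ := IntermediateField.exists_algHom_adjoin_of_splits_of_aeval hK hx hy
  -- constants
  have hσF : ∀ c : ↥(baseField k (M * r)),
      σ (algebraMap ↥(baseField k (M * r))
        ↥(IntermediateField.adjoin ↥(baseField k (M * r)) (gens k (M * r) M)) c) =
        algebraMap (LaurentSeries k) (AlgebraicClosure (LaurentSeries k))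
          (c : LaurentSeries k) := by
    intro c
    rw [σ.commutes]
    rfl
  -- Step B: the images of the generators
  have hB : ∀ d, ∀ e, M = d * e →
      ∀ hd : Jm k (M * r * d) ∈
        IntermediateField.adjoin ↥(baseField k (M * r)) (gens k (M * r) M),
      ∃ ξ : kˣ, ∃ m : ℕ, m ≠ 0 ∧ e * r ∣ m ∧
        σ ⟨Jm k (M * r * d), hd⟩ =
          algebraMap (LaurentSeries k) (AlgebraicClosure (LaurentSeries k)) (JxR k ξ m) := by
    intro d
    induction d using Nat.strong_induction_on with
    | _ d ih =>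
      intro e hde hd
      by_cases h1 : d = 1
      · subst h1
        refine ⟨1, M * r, hn, ?_, ?_⟩
        · rw [one_mul] at hde
          rw [← hde]
        · have := hσF ⟨Jm k (M * r), Jm_mem_baseField k (M * r)⟩
          rw [JxR_one']
          rw [← this]
          congr 1
          apply Subtype.ext
          change Jm k (M * r * 1) = Jm k (M * r)
          rw [mul_one]
      · have hd0 : d ≠ 0 := fun h0 => hM (by rw [hde, h0, zero_mul])
        obtain ⟨p, hr', d', hd'⟩ : ∃ p, p.Prime ∧ ∃ d', d = p * d' :=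
          ⟨_, Nat.minFac_prime h1, Nat.minFac_dvd d⟩
        have hpd : p ∣ d := Dvd.intro _ hd'.symm
        have hd'0 : d' ≠ 0 := fun h0 => hd0 (by rw [hd', h0, mul_zero])
        have hlt : d' < d := by
          rw [hd']
          exact lt_mul_of_one_lt_left (Nat.pos_of_ne_zero hd'0) hr'.one_lt
        have hdM : d ∣ M := Dvd.intro _ hde.symm
        have hd'M : d' ∣ M := (Dvd.intro_left _ hd'.symm).trans hdM
        have hmem' : Jm k (M * r * d') ∈
            IntermediateField.adjoin ↥(baseField k (M * r)) (gens k (M * r) M) :=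
          IntermediateField.subset_adjoin _ _ ⟨d', hd'M, rfl⟩
        obtain ⟨ξ, m, hm0, hm, hσ'⟩ := ih d' hlt (p * e)
          (by rw [hde, hd']; ring) hmem'
        -- `m = m' * r'`
        have hr'm : p ∣ m :=
          (Dvd.intro _ (mul_assoc _ _ _).symm).trans hm
        obtain ⟨m', hm'⟩ := hr'm
        have hm'0 : m' ≠ 0 := fun h0 => hm0 (by rw [hm', h0, mul_zero])
        have hem' : e * r ∣ m' := by
          rw [hm', mul_assoc] at hm
          exact (Nat.mul_dvd_mul_iff_left hr'.pos).1 hm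
        -- a root `η` of `ξ`
        obtain ⟨η0, hη0⟩ := IsAlgClosed.exists_pow_nat_eq (ξ : k) hr'.pos
        have hη0ne : η0 ≠ 0 := by
          rintro rfl
          rw [zero_pow hr'.ne_zero] at hη0
          exact (Units.ne_zero _) hη0.symm
        have hη : (Units.mk0 η0 hη0ne) ^ (p) = ξ := Units.ext (by simpa using hη0)
        have hPD := PD _ hr' (hpd.trans (hdM.trans (dvd_mul_left M r)))
        have hroot := root_sub k hr'.ne_zero hPD (Nat.mul_ne_zero hn hd'0)
        have e1 : M * r * d' * p = M * r * d := by rw [hd']; ring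
        rw [e1] at hroot
        have ht := root_transfer k
          ((algebraMap ↥(baseField k (M * r))
            ↥(IntermediateField.adjoin ↥(baseField k (M * r)) (gens k (M * r) M))).comp
              (algebraMap k ↥(baseField k (M * r))))
          (algebraMap ↥(IntermediateField.adjoin ↥(baseField k (M * r)) (gens k (M * r) M))
            (LaurentSeries k))
          (algebraMap ↥(IntermediateField.adjoin ↥(baseField k (M * r)) (gens k (M * r) M))
            (LaurentSeries k)).injective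
          (fun c => algebraMap_eq_C k c)
          (σ : ↥(IntermediateField.adjoin ↥(baseField k (M * r)) (gens k (M * r) M)) →+*
            AlgebraicClosure (LaurentSeries k))
          (algebraMap (LaurentSeries k) (AlgebraicClosure (LaurentSeries k)))
          (fun c => by
            rw [RingHom.comp_apply]
            change σ _ = _
            rw [hσF]
            congr 1
            exact algebraMap_eq_C k c)
          hPD.Φ ⟨Jm k (M * r * d'), hmem'⟩ ⟨Jm k (M * r * d), hd⟩ (JxR k ξ m) hroot hσ'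
        have e2 : JxR k ξ m = JxR k ((Units.mk0 η0 hη0ne) ^ (p))
            (m' * p) := by
          rw [hη, hm', mul_comm]
        rw [e2] at ht
        rcases root_cases k _ hr'.ne_zero hPD _ hm'0 _ ht with h | ⟨b, -, h⟩
        · refine ⟨_, _, ?_, ?_, h⟩
          · exact Nat.mul_ne_zero hm'0 (pow_ne_zero 2 hr'.ne_zero)
          · exact hem'.trans (dvd_mul_right _ _)
        · exact ⟨_, _, hm'0, hem', h⟩
  -- Step C: the image of `σ` lies in `k((t^r))`
  have hC : ∀ z (hz : z ∈ IntermediateField.adjoin ↥(baseField k (M * r)) (gens k (M * r) M)),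
      σ ⟨z, hz⟩ ∈ ((algebraMap (LaurentSeries k) (AlgebraicClosure (LaurentSeries k))).comp
        (sub k r)).fieldRange := by
    intro z hz
    induction hz using IntermediateField.adjoin_induction with
    | mem z hz =>
      obtain ⟨d, ⟨e, hde⟩, rfl⟩ := hz
      obtain ⟨ξ, m, hm0, hm, hσ'⟩ := hB d e hde
        (IntermediateField.subset_adjoin _ _ ⟨d, ⟨e, hde⟩, rfl⟩)
      rw [hσ']
      obtain ⟨f, hf⟩ := JxR_mem_range k hr0 hm0 ((dvd_mul_left r e).trans hm) ξ
      exact ⟨f, by rw [RingHom.comp_apply, hf]⟩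
    | algebraMap c =>
      obtain ⟨f, hf⟩ := baseField_le_range k (M * r) c.2
      refine ⟨sub k M f, ?_⟩
      rw [RingHom.comp_apply, Basic.sub_sub hr0 hM, mul_comm r M, hf]
      exact (hσF c).symm
    | add x y hx hy hx' hy' =>
      have : (⟨x + y, add_mem hx hy⟩ :
          ↥(IntermediateField.adjoin ↥(baseField k (M * r)) (gens k (M * r) M))) =
          ⟨x, hx⟩ + ⟨y, hy⟩ := rfl
      rw [this, map_add]
      exact add_mem hx' hy'
    | inv x hx hx' =>
      have : (⟨x⁻¹, inv_mem hx⟩ :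
          ↥(IntermediateField.adjoin ↥(baseField k (M * r)) (gens k (M * r) M))) =
          (⟨x, hx⟩)⁻¹ := rfl
      rw [this, map_inv₀]
      exact inv_mem hx'
    | mul x y hx hy hx' hy' =>
      have : (⟨x * y, mul_mem hx hy⟩ :
          ↥(IntermediateField.adjoin ↥(baseField k (M * r)) (gens k (M * r) M))) =
          ⟨x, hx⟩ * ⟨y, hy⟩ := rfl
      rw [this, map_mul]
      exact mul_mem hx' hy'
  -- Step D
  have hD := hC _ hx
  rw [hσ] at hD
  obtain ⟨f, hf⟩ := hD
  rw [RingHom.comp_apply] at hf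
  have hf' := (algebraMap (LaurentSeries k) (AlgebraicClosure (LaurentSeries k))).injective hf
  exact Jm_notMem_range k hr0 hM hrM ⟨f, hf'⟩

/-- **Leaf (B4), (STAR)**: for a prime `r` not dividing `M`, the series `J(q^r)` does not belong
to the field `k(J(q^d) : d ∣ M)`. -/
theorem Jm_notMem_full {r M : ℕ} [NeZero M] (hr : r.Prime) (hrM : ¬ r ∣ M)
    (PD : ∀ r' : ℕ, r'.Prime → r' ∣ r * M → Nonempty (PrimeData k r')) :
    Jm k r ∉ modularFunctionFieldFullC k M := by
  intro h
  have hM : M ≠ 0 := NeZero.ne M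
  have hr0 : r ≠ 0 := hr.ne_zero
  have hn : M * r ≠ 0 := Nat.mul_ne_zero hM hr0
  have h1 : subAlg k (M * r) (Jm k r) ∈
      (modularFunctionFieldFullC k M).map (subAlg k (M * r)) := ⟨_, h, rfl⟩
  rw [modularFunctionFieldFullC, IntermediateField.adjoin_map] at h1
  have h2 : ∀ z ∈ IntermediateField.adjoin k (⇑(subAlg k (M * r)) '' divisorExpansionsC k M),
      z ∈ IntermediateField.adjoin ↥(baseField k (M * r)) (gens k (M * r) M) := by
    intro z hz
    induction hz using IntermediateField.adjoin_induction with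
    | mem z hz =>
      obtain ⟨y, ⟨d, hne, hd, rfl⟩, rfl⟩ := hz
      haveI := hne
      refine IntermediateField.subset_adjoin _ _ ⟨d, hd, ?_⟩
      rw [subAlg_apply, ← Basic.sub_apply, Basic.sub_sub hn (NeZero.ne d)]
      rfl
    | algebraMap c =>
      exact (IntermediateField.adjoin ↥(baseField k (M * r)) (gens k (M * r) M)).algebraMap_mem
        (algebraMap k ↥(baseField k (M * r)) c)
    | add x y _ _ hx hy => exact add_mem hx hy
    | inv x _ hx => exact inv_mem hx
    | mul x y _ _ hx hy => exact mul_mem hx hy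
  have h3 := h2 _ h1
  rw [subAlg_apply, sub_Jm k hn hr0] at h3
  have e : M * r * r = M * r ^ 2 := by ring
  rw [e] at h3
  exact star_t k hr hM hrM (fun r' h1 h2 => (PD r' h1 h2).some) h3

end Main

end Fermat.Agent.S28.Star
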