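import Mathlib
import Fermat.Agent.S28.Star
import Fermat.Agent.S28.DegreeL

/-!
# S28, leaf (B4): (STAR) in the shape consumed by `DegreeL`

`Star.Jm_notMem_full` fed with prime data for all primes `r ≠ ℓ` is literally
`DegreeL.StarStmt k ℓ`.
-/

set_option autoImplicit false

namespace Fermat.Agent.S28.StarFinal

open Fermat.Agent.S28.Basic

/-- **(B4)** in the shape of `DegreeL.StarStmt`. -/
theorem starStmt (k : Type*) [Field k] [IsAlgClosed k] (ℓ : ℕ)
    (hPD : ∀ r : ℕ, r.Prime → r ≠ ℓ → Nonempty (PrimeData k r)) :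
    Fermat.Agent.S28.DegreeL.StarStmt k ℓ := by
  intro r M _ hr hrℓ hrM hℓM
  refine Fermat.Agent.S28.Star.Jm_notMem_full k hr hrM ?_
  intro r' hr' hdvd
  refine hPD r' hr' ?_
  rintro rfl
  rcases (Nat.Prime.dvd_mul hr').1 hdvd with h | h
  · exact hrℓ ((Nat.prime_dvd_prime_iff_eq hr' hr).1 h).symm
  · exact hℓM h

end Fermat.Agent.S28.StarFinal
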