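import Mathlib

/-!
# S28 (B5), part 1: generic field theory for the tower

`k ⊆ E ⊆ P` fields, `τ : E → P` a `k`-embedding, `x ∈ P` algebraic over `E`.

* `adj E x` : the field `E(x)` as an intermediate field of `P / k`;
* `exists_extend` : extension of `τ` to `E(x)` with a prescribed image `y` of `x` (any root of
  the image of the minimal polynomial);
* `exists_root_of_dvd` : a monic divisor of `(X - A) ∏ (X - R b)` other than `1` and `X - A` has
  one of the `R b` as a root;
* `eval_apply_of_map_eq` : roots of a polynomial with coefficients fixed by `σ` are permuted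
  by `σ`;
* `roots_of_dvd` : the cyclic argument: if the image under `τ` of the minimal polynomial of `x`
  divides `(X - A) ∏_{b < r} (X - R b)`, is not `X - A`, and `σ` fixes `τ E` and maps `R b` to
  `R (b + 1)`, then every `R b` is a root of it;
* `indep_pow` : the first powers of `x` are linearly independent over `E`.
-/

set_option autoImplicit false

namespace Fermat.Agent.S28.TowerExt

open Polynomial IntermediateField

section Roots

variable {P : Type*} [Field P]

/-- A monic divisor `g ≠ 1` of `(X - A) ∏ (X - R b)` other than `X - A` has some `R b` as a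
root. -/
theorem exists_root_of_dvd {ι : Type*} (s : Finset ι) (R : ι → P) (A : P) (g : P[X])
    (hg : g.Monic) (hdeg : g ≠ 1)
    (hdvd : g ∣ (X - C A) * ∏ b ∈ s, (X - C (R b))) (hne : g ≠ X - C A) :
    ∃ b ∈ s, g.eval (R b) = 0 := by
  by_contra hcon
  push Not at hcon
  have hcop : IsCoprime g (∏ b ∈ s, (X - C (R b))) := by
    refine IsCoprime.prod_right fun b hb => ?_
    rw [isCoprime_comm]
    refine (Polynomial.irreducible_X_sub_C (R b)).coprime_iff_not_dvd.mpr ?_
    rw [Polynomial.dvd_iff_isRoot]
    exact hcon b hb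
  have hdvd' : g ∣ X - C A := hcop.dvd_of_dvd_mul_right hdvd
  obtain ⟨h, hh⟩ := hdvd'
  have hirr := Polynomial.irreducible_X_sub_C A
  rcases hirr.isUnit_or_isUnit hh with hu | hu
  · exact hdeg (hg.eq_one_of_isUnit hu)
  · apply hne
    refine Polynomial.eq_of_monic_of_associated hg (Polynomial.monic_X_sub_C A) ?_
    exact ⟨hu.unit, by rw [IsUnit.unit_spec, ← hh]⟩

/-- Roots of a polynomial with `σ`-fixed coefficients are permuted by `σ`. -/
theorem eval_apply_of_map_eq (σ : P →+* P) (g : P[X]) (hσ : g.map σ = g) {ρ : P}
    (hρ : g.eval ρ = 0) : g.eval (σ ρ) = 0 := by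
  have h := Polynomial.eval₂_at_apply (p := g) σ ρ
  rw [← Polynomial.eval_map, hσ, hρ, map_zero] at h
  exact h

/-- A polynomial with `n` distinct roots has degree at least `n`. -/
theorem le_natDegree_of_roots {ι : Type*} [Fintype ι] (g : P[X]) (hg : g ≠ 0) (ρ : ι → P)
    (hinj : Function.Injective ρ) (hroot : ∀ i, g.eval (ρ i) = 0) :
    Fintype.card ι ≤ g.natDegree := by
  classical
  have h := Polynomial.card_le_degree_of_subset_roots (p := g)
    (Z := Finset.univ.image ρ) (by
      intro a ha
      rw [Finset.mem_val, Finset.mem_image] at ha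
      obtain ⟨i, _, rfl⟩ := ha
      rw [Polynomial.mem_roots hg]
      exact hroot i)
  rwa [Finset.card_image_of_injective _ hinj, Finset.card_univ] at h

end Roots

section Ext

variable {k P : Type*} [Field k] [Field P] [Algebra k P]

/-- The field `E(x)`, as an intermediate field of `P / k`. -/
def adj (E : IntermediateField k P) (x : P) : IntermediateField k P :=
  (IntermediateField.adjoin E {x}).restrictScalars k

theorem le_adj (E : IntermediateField k P) (x : P) : E ≤ adj E x := by
  intro a ha
  exact (IntermediateField.adjoin E {x}).algebraMap_mem ⟨a, ha⟩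

theorem mem_adj (E : IntermediateField k P) (x : P) : x ∈ adj E x :=
  IntermediateField.mem_adjoin_simple_self E x

theorem adj_le {E T : IntermediateField k P} {x : P} (h : E ≤ T) (hx : x ∈ T) :
    adj E x ≤ T := by
  have h1 : IntermediateField.adjoin E {x} ≤ IntermediateField.extendScalars h := by
    rw [IntermediateField.adjoin_le_iff]
    rintro y rfl
    exact hx
  intro a ha
  exact h1 ha

/-- **Extension with a prescribed root.** -/
theorem exists_extend (E : IntermediateField k P) (τ : E →ₐ[k] P) (x y : P)
    (hx : IsIntegral E x) (hy : ((minpoly E x).map τ.toRingHom).eval y = 0) :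
    ∃ τ' : adj E x →ₐ[k] P,
      (∀ (a : P) (ha : a ∈ E), τ' ⟨a, le_adj E x ha⟩ = τ ⟨a, ha⟩) ∧
      τ' ⟨x, mem_adj E x⟩ = y ∧
      ∀ z, ∃ g : E[X], τ' z = (g.map τ.toRingHom).eval y := by
  have hy' : (minpoly E x).eval₂ (τ.toRingHom) y = 0 := by
    rw [← Polynomial.eval_map]; exact hy
  let e := IntermediateField.adjoinRootEquivAdjoin E hx
  let L : AdjoinRoot (minpoly E x) →+* P := AdjoinRoot.lift τ.toRingHom y hy'
  let φ : (IntermediateField.adjoin E {x}) →+* P := L.comp (e.symm : _ →+* _)
  have hφa : ∀ a : E, φ (algebraMap E _ a) = τ a := by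
    intro a
    show L (e.symm (algebraMap E _ a)) = τ a
    rw [AlgEquiv.commutes]
    exact AdjoinRoot.lift_of hy'
  have hφx : φ (AdjoinSimple.gen E x) = y := by
    show L (e.symm (AdjoinSimple.gen E x)) = y
    have : e.symm (AdjoinSimple.gen E x) = AdjoinRoot.root (minpoly E x) := by
      rw [AlgEquiv.symm_apply_eq]
      exact (IntermediateField.adjoinRootEquivAdjoin_apply_root E hx).symm
    rw [this]
    exact AdjoinRoot.lift_root hy'
  let τ₀ : ((IntermediateField.adjoin E {x}).restrictScalars k : IntermediateField k P) →ₐ[k] P :=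
    { toRingHom := φ
      commutes' := fun c => by
        have h1 : (algebraMap k ((IntermediateField.adjoin E {x}).restrictScalars k) c) =
            algebraMap E (IntermediateField.adjoin E {x}) (algebraMap k E c) := rfl
        show φ _ = _
        rw [h1, hφa]
        exact τ.commutes c }
  refine ⟨τ₀, ?_, ?_, ?_⟩
  · intro a ha
    exact hφa ⟨a, ha⟩
  · exact hφx
  · intro z
    obtain ⟨g, hg⟩ := AdjoinRoot.mk_surjective (e.symm z)
    refine ⟨g, ?_⟩
    show L (e.symm z) = _
    rw [← hg, Polynomial.eval_map]
    exact AdjoinRoot.lift_mk hy' g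

/-- The image of the minimal polynomial of `x` is not `X - A` unless `x ∈ E` and `τ x = A`. -/
theorem map_minpoly_ne (E : IntermediateField k P) (τ : E →ₐ[k] P) (x A : P)
    (h : ∀ a : E, (a : P) = x → τ a ≠ A) :
    (minpoly E x).map τ.toRingHom ≠ X - C A := by
  intro heq
  have hdeg : (minpoly E x).natDegree = 1 := by
    have := congrArg Polynomial.natDegree heq
    rwa [Polynomial.natDegree_map, Polynomial.natDegree_X_sub_C] at this
  obtain ⟨a, ha⟩ := (minpoly.natDegree_eq_one_iff).mp hdeg
  have hm : minpoly E x = X - C a := by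
    rw [← ha]
    exact minpoly.eq_X_sub_C P a
  rw [hm, Polynomial.map_sub, Polynomial.map_X, Polynomial.map_C] at heq
  have h2 : τ a = A := by
    have := congrArg (fun p => Polynomial.coeff p 0) heq
    simpa using this
  exact h a ha h2

/-- **The cyclic argument.** -/
theorem roots_of_dvd (E : IntermediateField k P) (τ : E →ₐ[k] P) (σ : P →+* P)
    (hσ : ∀ a : E, σ (τ a) = τ a) (x : P) (hx : IsIntegral E x) (r : ℕ) (A : P) (R : ℕ → P)
    (hdvd : (minpoly E x).map τ.toRingHom ∣ (X - C A) * ∏ b ∈ Finset.range r, (X - C (R b)))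
    (hne : ∀ a : E, (a : P) = x → τ a ≠ A)
    (hσR : ∀ b, σ (R b) = R (b + 1)) (hper : ∀ b, R (b + r) = R b) (b : ℕ) :
    ((minpoly E x).map τ.toRingHom).eval (R b) = 0 := by
  set g := (minpoly E x).map τ.toRingHom with hg
  have hmonic : g.Monic := (minpoly.monic hx).map _
  have hg1 : g ≠ 1 := by
    intro h1
    have := congrArg Polynomial.natDegree h1
    rw [hg, Polynomial.natDegree_map, Polynomial.natDegree_one] at this
    exact (minpoly.natDegree_pos hx).ne' this
  obtain ⟨b0, hb0r, hb0⟩ := exists_root_of_dvd (Finset.range r) R A g hmonic hg1 hdvd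
    (map_minpoly_ne E τ x A hne)
  have hfix : g.map σ = g := by
    ext n
    rw [Polynomial.coeff_map, hg, Polynomial.coeff_map]
    exact hσ _
  have hall : ∀ j, g.eval (R (b0 + j)) = 0 := by
    intro j
    induction j with
    | zero => exact hb0
    | succ j ih =>
      have := eval_apply_of_map_eq σ g hfix ih
      rwa [hσR] at this
  have hper' : ∀ N b, R (b + r * N) = R b := by
    intro N
    induction N with
    | zero => intro b; rw [mul_zero, add_zero]
    | succ N ih =>
      intro b
      rw [Nat.mul_succ, ← add_assoc, hper, ih]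
  have h := hall (b + (r - 1) * b0)
  have hr : r ≠ 0 := by
    rintro rfl
    simp at hb0r
  have : b0 + (b + (r - 1) * b0) = b + r * b0 := by
    obtain ⟨s, rfl⟩ : ∃ s, r = s + 1 := ⟨r - 1, by omega⟩
    simp only [Nat.add_sub_cancel]
    ring
  rw [this, hper'] at h
  exact h

/-- The first powers of `x` are linearly independent over `E`. -/
theorem indep_pow (E : IntermediateField k P) (x : P) (n : ℕ)
    (hn : n ≤ (minpoly E x).natDegree) :
    LinearIndependent E (fun i : Fin n => x ^ (i : ℕ)) := by
  have h := linearIndependent_pow (K := E) x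
  exact h.comp (Fin.castLE hn) (Fin.castLE_injective hn)

end Ext

end Fermat.Agent.S28.TowerExt
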