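import Mathlib
import Fermat.Prelude.Def_ModularCurve_X0ModL
import Fermat.Agent.S28.Basic
import Fermat.Agent.S28.Formal
import Fermat.Agent.S28.PrimeCase
import Fermat.Agent.S28.Star
import Fermat.Agent.S28.DegreeLDescent
import Fermat.Agent.S28.DegreeL
import Fermat.Agent.S28.TowerExt

/-!
# S28 (B5): the prime power tower

`towerStmt` : for an algebraically closed field `k` with prime data for a prime `r`, and any
intermediate field `B` of `k((t)) / k` with `J(t) ∈ B` and `J(t^r) ∉ B`, the field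
`B(J(t^r), …, J(t^(r^e)))` contains `(r + 1) r^(e - 1)` elements linearly independent over `B`.

Proof.  Apply `t ↦ t^(r^e)`; so `B ⊆ k((q))`, `q = t^(r^e)`, `x_i = J(q^(r^i))`,
`y_i = J(q^(1/r^i))`.  By induction on `i` one constructs `E_i = B(x_1, …, x_i)` together with a
`k`-embedding `τ_i : E_i → k((q^(1/r^i)))` with `τ_i x_i = y_i`, `τ_i x_(i-1) = y_(i-1)`.
The minimal polynomial `m` of `x_(i+1)` over `E_i` divides `Φ(X, x_i)`, so `τ_i m` divides
`Φ(X, y_i) = (X - y_(i-1)) ∏_b (X - J(ζ^b s))`, `s = q^(1/r^(i+1))`; it is not `X - y_(i-1)`,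
so it has a root `J(ζ^b s)`, and then all of them, because the automorphism `s ↦ ζ s` fixes
`k((s^r)) ⊇ τ_i E_i` (`core_step`).  Hence `deg m ≥ r` (`≥ r + 1` for `i = 0`, where `x_1` itself
is one more root), the powers of `x_(i+1)` are independent over `E_i`, and `τ_i` extends by
`x_(i+1) ↦ y_(i+1) = J(s)`.
-/

set_option autoImplicit false
set_option linter.style.haveILetI false

open HahnSeries Polynomial ModularCurve
open Fermat.Agent.S28.Basic Fermat.Agent.S28.Formal Fermat.Agent.S28.PrimeCase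
open Fermat.Agent.S28.Star Fermat.Agent.S28.TowerExt Fermat.Agent.S28.DegreeLDescent

noncomputable section

namespace Fermat.Agent.S28.Tower

/-! ### Series -/

section Series

variable (k : Type*) [Field k]

/-- The coefficient of `t^(-c)` in `J(ξ t^c)`. -/
theorem coeff_JxR (ξ : kˣ) {c : ℕ} (hc : c ≠ 0) :
    (JxR k ξ c).coeff (-(c : ℤ)) = ((ξ⁻¹ : kˣ) : k) := by
  have h := sub_coeff_mul hc (rescaleU ξ (jqModC k)) (-1)
  rw [rescaleU_coeff, coeff_jqModC_neg_one, mul_one, zpow_neg_one] at h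
  rw [← h, JxR]
  congr 1
  ring

theorem JxR_inj {ξ ξ' : kˣ} {c : ℕ} (hc : c ≠ 0) (h : JxR k ξ c = JxR k ξ' c) : ξ = ξ' := by
  have h1 := coeff_JxR k ξ hc
  rw [h, coeff_JxR k ξ' hc] at h1
  exact inv_injective (Units.ext h1.symm)

theorem Jm_ne_JxR {r : ℕ} (hr : 2 ≤ r) (ξ : kˣ) {c : ℕ} (hc : c ≠ 0) :
    Jm k (c * r ^ 2) ≠ JxR k ξ c := by
  intro h
  have h1 := coeff_JxR k ξ hc
  rw [← h, Jm, sub_coeff_of_not_dvd] at h1
  · exact (Units.ne_zero _) h1.symm
  · exact Nat.mul_ne_zero hc (pow_ne_zero 2 (by omega))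
  · intro hdvd
    have h2 := Int.natCast_dvd_natCast.1 (Int.dvd_neg.1 hdvd)
    have h3 : c * r ^ 2 ≤ c := Nat.le_of_dvd (Nat.pos_of_ne_zero hc) h2
    have h4 : 4 ≤ r ^ 2 := by nlinarith
    have hc' : 0 < c := Nat.pos_of_ne_zero hc
    nlinarith

theorem rescaleU_JxR (ω ξ : kˣ) {c : ℕ} (hc : c ≠ 0) :
    rescaleU ω (JxR k ξ c) = JxR k (ω ^ c * ξ) c := by
  rw [JxR, rescaleU_sub' k ω hc, rescaleU_rescaleU, JxR]

theorem Jm_inj {m n : ℕ} (hm : m ≠ 0) (hn : n ≠ 0) (h : Jm k m = Jm k n) : m = n := by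
  by_contra hmn
  rcases Nat.lt_or_gt_of_ne hmn with hlt | hlt
  · have h1 := coeff_Jm k hm
    rw [h, Jm, sub_coeff_of_not_dvd hn] at h1
    · exact zero_ne_one h1
    · intro hdvd
      have h2 := Int.natCast_dvd_natCast.1 (Int.dvd_neg.1 hdvd)
      have := Nat.le_of_dvd (Nat.pos_of_ne_zero hm) h2
      omega
  · have h1 := coeff_Jm k hn
    rw [← h, Jm, sub_coeff_of_not_dvd hm] at h1
    · exact zero_ne_one h1
    · intro hdvd
      have h2 := Int.natCast_dvd_natCast.1 (Int.dvd_neg.1 hdvd)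
      have := Nat.le_of_dvd (Nat.pos_of_ne_zero hn) h2
      omega

theorem mem_range_of_eval {c r : ℕ} (hc : c ≠ 0) (hr : r ≠ 0)
    (g : (LaurentSeries k)[X]) (hg : ∀ n, g.coeff n ∈ Set.range (sub k (c * r))) :
    g.eval (Jm k c) ∈ Set.range (sub k c) := by
  have hmem : ∀ z, z ∈ Set.range (sub k c) ↔ z ∈ (sub k c).range := fun z => Iff.rfl
  rw [hmem, Polynomial.eval_eq_sum_range]
  refine Subring.sum_mem _ fun n _ => ?_
  refine Subring.mul_mem _ ?_ (Subring.pow_mem _ (RingHom.mem_range.mpr ⟨jqModC k, rfl⟩) _)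
  obtain ⟨f, hf⟩ := hg n
  exact RingHom.mem_range.mpr ⟨sub k r f, by rw [Basic.sub_sub hc hr, hf]⟩

theorem zeta_pow_inj {r : ℕ} (P : PrimeData k r) {i j : ℕ} (hi : i < r) (hj : j < r)
    (h : P.ζ ^ i = P.ζ ^ j) : i = j := by
  refine P.prim.pow_inj hi hj ?_
  have := congrArg (fun u : kˣ => (u : k)) h
  simpa using this

end Series

/-! ### The core step -/

section Core

variable (k : Type*) [Field k]

/-- Evaluation of polynomials at an element of an intermediate field. -/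
def evE (E : IntermediateField k (LaurentSeries k)) (xi : E) : k[X] →+* E :=
  Polynomial.eval₂RingHom (algebraMap k E) xi

theorem algebraMap_comp_evE (E : IntermediateField k (LaurentSeries k)) (xi : E) :
    (algebraMap E (LaurentSeries k)).comp (evE k E xi) = evalAt k (xi : LaurentSeries k) := by
  refine Polynomial.ringHom_ext (fun c => ?_) ?_
  · rw [RingHom.comp_apply, evalAt_C]
    simp only [evE, Polynomial.coe_eval₂RingHom, Polynomial.eval₂_C]
    exact algebraMap_eq_C k c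
  · rw [RingHom.comp_apply, evalAt_X]
    simp only [evE, Polynomial.coe_eval₂RingHom, Polynomial.eval₂_X]
    rfl

theorem hom_comp_evE (E : IntermediateField k (LaurentSeries k)) (xi : E)
    (τ : E →ₐ[k] LaurentSeries k) :
    τ.toRingHom.comp (evE k E xi) = evalAt k (τ xi) := by
  refine Polynomial.ringHom_ext (fun c => ?_) ?_
  · rw [RingHom.comp_apply, evalAt_C]
    simp only [evE, Polynomial.coe_eval₂RingHom, Polynomial.eval₂_C]
    have := τ.commutes c
    rw [algebraMap_eq_C] at this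
    exact this
  · rw [RingHom.comp_apply, evalAt_X]
    simp only [evE, Polynomial.coe_eval₂RingHom, Polynomial.eval₂_X]
    rfl

theorem isIntegral_of_root' {r : ℕ} (P : PrimeData k r)
    (E : IntermediateField k (LaurentSeries k)) (xi : E) (x : LaurentSeries k)
    (hroot : Polynomial.eval₂ (evalAt k (xi : LaurentSeries k)) x P.Φ = 0) :
    IsIntegral E x := by
  refine ⟨P.Φ.map (evE k E xi), P.monicΦ.map _, ?_⟩
  rw [Polynomial.eval₂_map, algebraMap_comp_evE]
  exact hroot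

theorem minpoly_dvd {r : ℕ} (P : PrimeData k r)
    (E : IntermediateField k (LaurentSeries k)) (xi : E) (x : LaurentSeries k)
    (hroot : Polynomial.eval₂ (evalAt k (xi : LaurentSeries k)) x P.Φ = 0) :
    minpoly E x ∣ P.Φ.map (evE k E xi) := by
  refine minpoly.dvd E x ?_
  rw [Polynomial.aeval_def, Polynomial.eval₂_map, algebraMap_comp_evE]
  exact hroot

variable [IsAlgClosed k]

/-- **The core step**: all the series `J(ζ^b t^c)` are roots of the image of the minimal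
polynomial. -/
theorem core_step {r : ℕ} (hr : r.Prime) (P : PrimeData k r) {c : ℕ} (hc : c ≠ 0)
    (E : IntermediateField k (LaurentSeries k)) (τ : E →ₐ[k] LaurentSeries k)
    (hτ : ∀ a : E, τ a ∈ Set.range (sub k (c * r)))
    (xi : E) (hτxi : τ xi = Jm k (c * r))
    (x : LaurentSeries k)
    (hroot : Polynomial.eval₂ (evalAt k (xi : LaurentSeries k)) x P.Φ = 0)
    (hne : ∀ a : E, (a : LaurentSeries k) = x → τ a ≠ Jm k (c * r ^ 2)) (b : ℕ) :
    ((minpoly E x).map τ.toRingHom).eval (JxR k (P.ζ ^ b) c) = 0 := by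
  have hr0 : r ≠ 0 := hr.ne_zero
  have hint := isIntegral_of_root' k P E xi x hroot
  -- the root of unity
  obtain ⟨ω0, hω0⟩ := IsAlgClosed.exists_pow_nat_eq (P.ζ : k) (Nat.pos_of_ne_zero hc)
  have hω0ne : ω0 ≠ 0 := by
    rintro rfl
    rw [zero_pow hc] at hω0
    exact P.ζ.ne_zero hω0.symm
  let ω : kˣ := Units.mk0 ω0 hω0ne
  have hω : ω ^ c = P.ζ := Units.ext (by simpa [ω] using hω0)
  have hζr : P.ζ ^ r = 1 := Units.ext (by simpa using P.prim.pow_eq_one)
  have hωcr : ω ^ (c * r) = 1 := by rw [pow_mul, hω, hζr]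
  -- divisibility
  have hdvd : (minpoly E x).map τ.toRingHom ∣
      (X - Polynomial.C (Jm k (c * r ^ 2))) *
        ∏ b ∈ Finset.range r, (X - Polynomial.C (JxR k (P.ζ ^ b) c)) := by
    have h1 := Polynomial.map_dvd τ.toRingHom (minpoly_dvd k P E xi x hroot)
    rw [Polynomial.map_map, hom_comp_evE, hτxi] at h1
    have h2 := factor_subst k hr0 P 1 hc
    rw [one_pow, one_pow, JxR_one', JxR_one'] at h2
    rw [h2] at h1
    simpa using h1
  refine roots_of_dvd E τ (rescaleU ω) ?_ x hint r (Jm k (c * r ^ 2))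
    (fun b => JxR k (P.ζ ^ b) c) hdvd hne ?_ ?_ b
  · intro a
    obtain ⟨f, hf⟩ := hτ a
    rw [← hf]
    exact rescaleU_sub_of_pow_eq_one k ω (Nat.mul_ne_zero hc hr0) hωcr f
  · intro b
    show rescaleU ω (JxR k (P.ζ ^ b) c) = JxR k (P.ζ ^ (b + 1)) c
    rw [rescaleU_JxR k ω _ hc, hω, pow_succ, mul_comm]
  · intro b
    show JxR k (P.ζ ^ (b + r)) c = JxR k (P.ζ ^ b) c
    rw [_root_.pow_add, hζr, mul_one]

/-- **The stage**: extension of the embedding, and the degree. -/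
theorem stage {r : ℕ} (hr : r.Prime) (P : PrimeData k r) {c : ℕ} (hc : c ≠ 0)
    (E : IntermediateField k (LaurentSeries k)) (τ : E →ₐ[k] LaurentSeries k)
    (hτ : ∀ a : E, τ a ∈ Set.range (sub k (c * r)))
    (xi : E) (hτxi : τ xi = Jm k (c * r))
    (x : LaurentSeries k)
    (hroot : Polynomial.eval₂ (evalAt k (xi : LaurentSeries k)) x P.Φ = 0)
    (hne : ∀ a : E, (a : LaurentSeries k) = x → τ a ≠ Jm k (c * r ^ 2)) :
    r ≤ (minpoly E x).natDegree ∧
    ∃ τ' : adj E x →ₐ[k] LaurentSeries k,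
      (∀ (a : LaurentSeries k) (ha : a ∈ E), τ' ⟨a, le_adj E x ha⟩ = τ ⟨a, ha⟩) ∧
      τ' ⟨x, mem_adj E x⟩ = Jm k c ∧
      ∀ z, τ' z ∈ Set.range (sub k c) := by
  have hr0 : r ≠ 0 := hr.ne_zero
  have hint := isIntegral_of_root' k P E xi x hroot
  have hroots := core_step k hr P hc E τ hτ xi hτxi x hroot hne
  have hmne : (minpoly E x).map τ.toRingHom ≠ 0 :=
    ((minpoly.monic hint).map _).ne_zero
  constructor
  · have h := le_natDegree_of_roots ((minpoly E x).map τ.toRingHom) hmne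
      (fun i : Fin r => JxR k (P.ζ ^ (i : ℕ)) c) ?_ (fun i => hroots i)
    · rwa [Fintype.card_fin, Polynomial.natDegree_map] at h
    · intro i j hij
      exact Fin.ext (zeta_pow_inj k P i.2 j.2 (JxR_inj k hc hij))
  · have hy : ((minpoly E x).map τ.toRingHom).eval (Jm k c) = 0 := by
      have := hroots 0
      rwa [pow_zero, JxR_one'] at this
    obtain ⟨τ', h1, h2, h3⟩ := exists_extend E τ x (Jm k c) hint hy
    refine ⟨τ', h1, h2, fun z => ?_⟩
    obtain ⟨g, hg⟩ := h3 z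
    rw [hg]
    refine mem_range_of_eval k hc hr0 _ fun n => ?_
    rw [Polynomial.coeff_map]
    exact hτ _

/-- The degree at stage `0`. -/
theorem stage_zero {r : ℕ} (hr : r.Prime) (P : PrimeData k r) {c : ℕ} (hc : c ≠ 0)
    (B : IntermediateField k (LaurentSeries k))
    (hB : ∀ a ∈ B, a ∈ Set.range (sub k (c * r)))
    (hJ : Jm k (c * r) ∈ B) (hx : Jm k (c * r ^ 2) ∉ B) :
    r + 1 ≤ (minpoly B (Jm k (c * r ^ 2))).natDegree := by
  have hr0 : r ≠ 0 := hr.ne_zero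
  have hroot : Polynomial.eval₂ (evalAt k (Jm k (c * r))) (Jm k (c * r ^ 2)) P.Φ = 0 := by
    have := root_sub k hr0 P (Nat.mul_ne_zero hc hr0)
    rwa [mul_assoc, ← pow_two] at this
  have hint := isIntegral_of_root' k P B ⟨_, hJ⟩ _ hroot
  have hroots := core_step k hr P hc B B.val (fun a => hB a a.2) ⟨_, hJ⟩ rfl _ hroot
    (fun a ha => absurd (ha ▸ a.2) hx)
  have hmne : (minpoly B (Jm k (c * r ^ 2))).map B.val.toRingHom ≠ 0 :=
    ((minpoly.monic hint).map _).ne_zero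
  have h := le_natDegree_of_roots ((minpoly B (Jm k (c * r ^ 2))).map B.val.toRingHom) hmne
    (fun i : Option (Fin r) => i.elim (Jm k (c * r ^ 2)) (fun i => JxR k (P.ζ ^ (i : ℕ)) c))
    ?_ ?_
  · rwa [Fintype.card_option, Fintype.card_fin, Polynomial.natDegree_map] at h
  · rintro (_ | i) (_ | j) hij
    · rfl
    · exact absurd hij (Jm_ne_JxR k hr.two_le _ hc)
    · exact absurd hij.symm (Jm_ne_JxR k hr.two_le _ hc)
    · exact congrArg some (Fin.ext (zeta_pow_inj k P i.2 j.2 (JxR_inj k hc hij)))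
  · rintro (_ | i)
    · show Polynomial.eval (Jm k (c * r ^ 2)) _ = 0
      rw [Polynomial.eval_map]
      exact minpoly.aeval B _
    · exact hroots i

/-- `stage`, with the exponents as parameters. -/
theorem stage' {r : ℕ} (hr : r.Prime) (P : PrimeData k r) {c cr crr : ℕ} (hc : c ≠ 0)
    (hcr : c * r = cr) (hcrr : c * r ^ 2 = crr)
    (E : IntermediateField k (LaurentSeries k)) (τ : E →ₐ[k] LaurentSeries k)
    (hτ : ∀ a : E, τ a ∈ Set.range (sub k cr))
    (xi : E) (hτxi : τ xi = Jm k cr)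
    (x : LaurentSeries k)
    (hroot : Polynomial.eval₂ (evalAt k (xi : LaurentSeries k)) x P.Φ = 0)
    (hne : ∀ a : E, (a : LaurentSeries k) = x → τ a ≠ Jm k crr) :
    r ≤ (minpoly E x).natDegree ∧
    ∃ τ' : adj E x →ₐ[k] LaurentSeries k,
      (∀ (a : LaurentSeries k) (ha : a ∈ E), τ' ⟨a, le_adj E x ha⟩ = τ ⟨a, ha⟩) ∧
      τ' ⟨x, mem_adj E x⟩ = Jm k c ∧
      ∀ z, τ' z ∈ Set.range (sub k c) := by
  subst hcr hcrr
  exact stage k hr P hc E τ hτ xi hτxi x hroot hne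

/-- `stage_zero`, with the exponents as parameters. -/
theorem stage_zero' {r : ℕ} (hr : r.Prime) (P : PrimeData k r) {c cr crr : ℕ} (hc : c ≠ 0)
    (hcr : c * r = cr) (hcrr : c * r ^ 2 = crr)
    (B : IntermediateField k (LaurentSeries k))
    (hB : ∀ a ∈ B, a ∈ Set.range (sub k cr))
    (hJ : Jm k cr ∈ B) (hx : Jm k crr ∉ B) :
    r + 1 ≤ (minpoly B (Jm k crr)).natDegree := by
  subst hcr hcrr
  exact stage_zero k hr P hc B hB hJ hx

end Core

/-! ### The induction -/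

section Induction

variable (k : Type*) [Field k] [IsAlgClosed k]

/-- The invariant of the induction: at level `j + 1`, with `e = j + 1 + f`. -/
def Inv (B T : IntermediateField k (LaurentSeries k)) (r e j f : ℕ) : Prop :=
  ∃ (E : IntermediateField k (LaurentSeries k)) (τ : E →ₐ[k] LaurentSeries k)
    (w : Fin ((r + 1) * r ^ j) → LaurentSeries k),
    B ≤ E ∧ E ≤ T ∧ (∀ a : E, τ a ∈ Set.range (sub k (r ^ f))) ∧
    (∃ h : Jm k (r ^ (e + j + 1)) ∈ E, τ ⟨_, h⟩ = Jm k (r ^ f)) ∧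
    (∃ h : Jm k (r ^ (e + j)) ∈ E, τ ⟨_, h⟩ = Jm k (r ^ (f + 1))) ∧
    (∀ b, w b ∈ E) ∧ LinearIndependent B w

omit [IsAlgClosed k] in
theorem root_pow {r : ℕ} (hr : r.Prime) (P : PrimeData k r) (n : ℕ) :
    Polynomial.eval₂ (evalAt k (Jm k (r ^ n))) (Jm k (r ^ (n + 1))) P.Φ = 0 := by
  have := root_sub k hr.ne_zero P (pow_ne_zero n hr.ne_zero)
  rwa [← pow_succ] at this

theorem inv_zero {r : ℕ} (hr : r.Prime) (P : PrimeData k r)
    (B T : IntermediateField k (LaurentSeries k)) (e f : ℕ) (hef : e = f + 1)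
    (hB : ∀ a ∈ B, a ∈ Set.range (sub k (r ^ e)))
    (hJ : Jm k (r ^ e) ∈ B) (hx : Jm k (r ^ (e + 1)) ∉ B)
    (hBT : B ≤ T) (hT : Jm k (r ^ (e + 1)) ∈ T) : Inv k B T r e 0 f := by
  have hr0 : r ≠ 0 := hr.ne_zero
  have hc : r ^ f ≠ 0 := pow_ne_zero f hr0
  have e1 : r ^ f * r = r ^ e := by rw [hef, pow_succ]
  have e2 : r ^ f * r ^ 2 = r ^ (e + 1) := by rw [hef]; ring
  have hdeg := stage_zero' k hr P hc e1 e2 B hB hJ hx
  obtain ⟨-, τ', h1, h2, h3⟩ := stage' k hr P hc e1 e2 B B.val (fun a => hB a a.2) ⟨_, hJ⟩ rfl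
    (Jm k (r ^ (e + 1))) (root_pow k hr P e) (fun a ha => absurd (ha ▸ a.2) hx)
  refine ⟨adj B (Jm k (r ^ (e + 1))), τ', fun i => Jm k (r ^ (e + 1)) ^ (i : ℕ),
    le_adj _ _, adj_le hBT hT, h3, ⟨mem_adj _ _, h2⟩, ⟨le_adj _ _ hJ, ?_⟩, fun b => ?_, ?_⟩
  · refine (h1 _ hJ).trans ?_
    rw [← hef]
    rfl
  · exact pow_mem (mem_adj _ _) _
  · exact indep_pow B _ _ (by simpa using hdeg)

theorem inv_succ {r : ℕ} (hr : r.Prime) (P : PrimeData k r)
    (B T : IntermediateField k (LaurentSeries k)) (e j f : ℕ)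
    (h : Inv k B T r e j (f + 1)) (hT : Jm k (r ^ (e + j + 2)) ∈ T) :
    Inv k B T r e (j + 1) f := by
  have hr0 : r ≠ 0 := hr.ne_zero
  have hc : r ^ f ≠ 0 := pow_ne_zero f hr0
  have e1 : r ^ f * r = r ^ (f + 1) := by rw [pow_succ]
  have e2 : r ^ f * r ^ 2 = r ^ (f + 1 + 1) := by ring
  obtain ⟨E, τ, w, hBE, hET, hτ, ⟨hl, hτl⟩, ⟨hp, hτp⟩, hwE, hwi⟩ := h
  have hne : ∀ a : E, (a : LaurentSeries k) = Jm k (r ^ (e + j + 2)) →
      τ a ≠ Jm k (r ^ (f + 1 + 1)) := by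
    intro a ha hτa
    rw [← hτp] at hτa
    have h1 := τ.toRingHom.injective hτa
    have h2 : Jm k (r ^ (e + j + 2)) = Jm k (r ^ (e + j)) := by
      rw [← ha, h1]
    have h3 := Jm_inj k (pow_ne_zero _ hr0) (pow_ne_zero _ hr0) h2
    have h4 := Nat.pow_right_injective hr.two_le h3
    omega
  obtain ⟨hdeg, τ', h1, h2, h3⟩ := stage' k hr P hc e1 e2 E τ hτ ⟨_, hl⟩ hτl
    (Jm k (r ^ (e + j + 2))) (root_pow k hr P (e + j + 1)) hne
  have hpow := indep_pow E (Jm k (r ^ (e + j + 2))) r hdeg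
  have hprod := indep_mul B E w hwE hwi _ hpow hBE
  have hcard : (r + 1) * r ^ (j + 1) = (r + 1) * r ^ j * r := by ring
  refine ⟨adj E (Jm k (r ^ (e + j + 2))), τ',
    fun i => w (finProdFinEquiv.symm (Fin.cast hcard i)).1 *
      Jm k (r ^ (e + j + 2)) ^ ((finProdFinEquiv.symm (Fin.cast hcard i)).2 : ℕ),
    hBE.trans (le_adj _ _), adj_le hET hT, h3, ⟨mem_adj _ _, h2⟩, ⟨le_adj _ _ hl, ?_⟩,
    fun b => ?_, ?_⟩
  · exact (h1 _ hl).trans hτl
  · exact mul_mem (le_adj _ _ (hwE _)) (pow_mem (mem_adj _ _) _)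
  · exact hprod.comp (fun i => finProdFinEquiv.symm (Fin.cast hcard i))
      (finProdFinEquiv.symm.injective.comp (Fin.cast_injective hcard))

theorem inv_all {r : ℕ} (hr : r.Prime) (P : PrimeData k r)
    (B T : IntermediateField k (LaurentSeries k)) (e : ℕ)
    (hB : ∀ a ∈ B, a ∈ Set.range (sub k (r ^ e)))
    (hJ : Jm k (r ^ e) ∈ B) (hx : Jm k (r ^ (e + 1)) ∉ B)
    (hBT : B ≤ T) (hT : ∀ i, 1 ≤ i → i ≤ e → Jm k (r ^ (e + i)) ∈ T) :
    ∀ j f, j + 1 + f = e → Inv k B T r e j f := by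
  intro j
  induction j with
  | zero =>
    intro f hf
    exact inv_zero k hr P B T e f (by omega) hB hJ hx hBT (hT 1 le_rfl (by omega))
  | succ j ih =>
    intro f hf
    exact inv_succ k hr P B T e j f (ih (f + 1) (by omega)) (hT (j + 2) (by omega) (by omega))

/-- **The tower, scaled**: `B ⊆ k((t^(r^e)))`, `J(t^(r^e)) ∈ B`, `J(t^(r^(e+1))) ∉ B`. -/
theorem tower_scaled {r : ℕ} (hr : r.Prime) (P : PrimeData k r)
    (B T : IntermediateField k (LaurentSeries k)) (e : ℕ) (he : 1 ≤ e)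
    (hB : ∀ a ∈ B, a ∈ Set.range (sub k (r ^ e)))
    (hJ : Jm k (r ^ e) ∈ B) (hx : Jm k (r ^ (e + 1)) ∉ B)
    (hBT : B ≤ T) (hT : ∀ i, 1 ≤ i → i ≤ e → Jm k (r ^ (e + i)) ∈ T) :
    ∃ w : Fin ((r + 1) * r ^ (e - 1)) → LaurentSeries k,
      (∀ b, w b ∈ T) ∧ LinearIndependent B w := by
  obtain ⟨E, τ, w, -, hET, -, -, -, hwE, hwi⟩ :=
    inv_all k hr P B T e hB hJ hx hBT hT (e - 1) 0 (by omega)
  exact ⟨w, fun b => hET (hwE b), hwi⟩

/-- **(B5), the tower**: for a field `B ∋ J(t)` with `J(t^r) ∉ B`, the field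
`B(J(t^r), …, J(t^(r^e)))` contains `(r + 1) r^(e - 1)` elements linearly independent over
`B`. -/
theorem tower {r : ℕ} (hr : r.Prime) (P : PrimeData k r) (e : ℕ) (he : 1 ≤ e)
    (B : IntermediateField k (LaurentSeries k)) (hJ : jqModC k ∈ B) (hB : Jm k r ∉ B) :
    ∃ w : Fin ((r + 1) * r ^ (e - 1)) → LaurentSeries k,
      (∀ b, w b ∈ B ⊔ IntermediateField.adjoin k ((fun i => Jm k (r ^ i)) '' Set.Icc 1 e)) ∧
      LinearIndependent B w := by
  have hr0 : r ≠ 0 := hr.ne_zero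
  have hn : r ^ e ≠ 0 := pow_ne_zero e hr0
  set T0 : IntermediateField k (LaurentSeries k) :=
    B ⊔ IntermediateField.adjoin k ((fun i => Jm k (r ^ i)) '' Set.Icc 1 e) with hT0
  have hsubJm : ∀ m, m ≠ 0 → subAlg k (r ^ e) (Jm k m) = Jm k (r ^ e * m) := fun m hm => by
    rw [subAlg_apply, sub_Jm k hn hm]
  have c1 : ∀ a ∈ B.map (subAlg k (r ^ e)), a ∈ Set.range (sub k (r ^ e)) := by
    intro a ha
    obtain ⟨z, -, rfl⟩ := (IntermediateField.mem_map _).mp ha
    exact ⟨z, rfl⟩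
  have c2 : Jm k (r ^ e) ∈ B.map (subAlg k (r ^ e)) :=
    (IntermediateField.mem_map _).mpr ⟨jqModC k, hJ, rfl⟩
  have c3 : Jm k (r ^ (e + 1)) ∉ B.map (subAlg k (r ^ e)) := by
    intro h
    obtain ⟨z, hz, hzx⟩ := (IntermediateField.mem_map _).mp h
    have hz' : z = Jm k r := by
      apply sub_injective (R := k) hn
      rw [sub_Jm k hn hr0, ← pow_succ]
      exact hzx
    exact hB (hz' ▸ hz)
  have c4 : B.map (subAlg k (r ^ e)) ≤ T0.map (subAlg k (r ^ e)) :=
    IntermediateField.map_mono _ le_sup_left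
  have c5 : ∀ i, 1 ≤ i → i ≤ e → Jm k (r ^ (e + i)) ∈ T0.map (subAlg k (r ^ e)) := by
    intro i hi1 hie
    refine (IntermediateField.mem_map _).mpr ⟨Jm k (r ^ i), ?_, ?_⟩
    · exact (le_sup_right : _ ≤ T0)
        (IntermediateField.subset_adjoin k _ ⟨i, ⟨hi1, hie⟩, rfl⟩)
    · rw [hsubJm _ (pow_ne_zero i hr0), ← _root_.pow_add]
  obtain ⟨w', hw'T, hw'i⟩ := tower_scaled k hr P (B.map (subAlg k (r ^ e)))
    (T0.map (subAlg k (r ^ e))) e he c1 c2 c3 c4 c5
  have hex : ∀ b, ∃ z ∈ T0, subAlg k (r ^ e) z = w' b := fun b =>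
    (IntermediateField.mem_map _).mp (hw'T b)
  choose w hwT hw using hex
  refine ⟨w, hwT, ?_⟩
  rw [li_iff] at hw'i ⊢
  intro c hc hsum i
  have h1 := hw'i (fun i => subAlg k (r ^ e) (c i))
    (fun i => (IntermediateField.mem_map _).mpr ⟨c i, hc i, rfl⟩) (by
      have := congrArg (subAlg k (r ^ e)) hsum
      rw [map_sum, map_zero] at this
      rw [← this]
      refine Finset.sum_congr rfl fun i _ => ?_
      rw [map_mul, hw]) i
  exact sub_injective (R := k) hn (h1.trans (map_zero _).symm)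

/-- **(B5)** in the form consumed by `DegreeL.exists_indep_of`. -/
theorem towerStmt (ℓ : ℕ) (hPD : ∀ r : ℕ, r.Prime → r ≠ ℓ → Nonempty (PrimeData k r)) :
    Fermat.Agent.S28.DegreeL.TowerStmt k ℓ := by
  intro r e hr hrℓ he B hJ hB
  obtain ⟨P⟩ := hPD r hr hrℓ
  exact tower k hr P e he B hJ hB

end Induction

end Fermat.Agent.S28.Tower
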