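import Mathlib
import Fermat.Agent.S28.ConjPoly

/-!
# S28 (A2): the unit equation of prime level

For every prime `r` there is a monic `Ψ ∈ O[Y][X]`, `O` the ring of algebraic integers in `ℂ`,
with `Ψ(v, J(t)) = 0` for the modular unit `v = r ^ 12 Δ(t ^ r) / Δ(t)`, whose constant term
`Ψ(0, Y)` is a constant dividing `r ^ 12`.
-/

set_option autoImplicit false
set_option linter.style.haveILetI false
set_option linter.unusedSectionVars false

namespace Fermat.Agent.S28.UnitEq

open UpperHalfPlane CongruenceSubgroup ModularForm Filter Topology Polynomial ModularCurve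
open Fermat.Agent.S24.CharPoly Fermat.Agent.S24.JqCriterion Fermat.Agent.S24.JFunction
open Fermat.Agent.S24.DiscSeries Fermat.Agent.S24.JqExpansion
open Fermat.Agent.S28.Basic Fermat.Agent.S28.Formal Fermat.Agent.S28.LReprX
open Fermat.Agent.S28.ConjPoly Fermat.Agent.S16.Gr
open scoped MatrixGroups ModularForm Manifold

local notation "Δ" => ModularForm.discriminant
local notation "𝕢" => Function.Periodic.qParam
local notation "OO" => integralClosure ℤ ℂ

/-! ### The modular unit as a function on the upper half plane -/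

section Analytic

variable (r : ℕ) [Fact r.Prime] [NeZero r]

/-- The modular unit `r ^ 12 Δ(r z) / Δ(z)`. -/
noncomputable def unitFun (z : ℍ) : ℂ := (r : ℂ) ^ 12 * Δ (mulN r z) / Δ z

theorem mdiff_discriminant_mulN : MDiff (fun z : ℍ => Δ (mulN r z)) :=
  mdiff_comp (Δ : ℍ → ℂ) Fermat.Agent.S20.Div.mdiff_discriminant (mulN r)
    (fun w => (r : ℂ) * w) (by fun_prop) (fun z => rfl)

theorem mdiff_unitFun : MDiff (unitFun r) := by
  have h1 : MDiff (fun z : ℍ => (r : ℂ) ^ 12 * Δ (mulN r z)) :=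
    mdifferentiable_const.mul (mdiff_discriminant_mulN r)
  exact Fermat.Agent.S20.Div.mdiff_div h1 Fermat.Agent.S20.Div.mdiff_discriminant
    discriminant_ne_zero

theorem mdiff_unitFun_smul (γ : SL(2, ℤ)) : MDiff (fun z : ℍ => unitFun r (γ • z)) := by
  have h : MDiff (unitFun r ∣[(0 : ℤ)] γ) := (mdiff_unitFun r).slash (0 : ℤ) _
  have e : (unitFun r ∣[(0 : ℤ)] γ) = fun z : ℍ => unitFun r (γ • z) := by
    ext z
    rw [SL_slash_apply]
    simp
  rwa [e] at h

theorem unitFun_smul_of_mem {γ : SL(2, ℤ)} (hγ : γ ∈ Gamma0 r) (z : ℍ) :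
    unitFun r (γ • z) = unitFun r z := by
  rw [Gamma0_mem] at hγ
  obtain ⟨c', hc⟩ := (ZMod.intCast_zmod_eq_zero_iff_dvd _ _).mp hγ
  unfold unitFun
  rw [mulN_smul r γ c' hc z, discriminant_smul, discriminant_smul γ z]
  have e10 : (companion r γ c' hc) 1 0 = c' := rfl
  have e11 : (companion r γ c' hc) 1 1 = γ 1 1 := rfl
  have hcc : (γ 1 0 : ℂ) = r * c' := by exact_mod_cast congrArg (Int.cast : ℤ → ℂ) hc
  have h1 := SL_denom_ne_zero γ z
  have hΔ := discriminant_ne_zero z
  rw [e10, e11, coe_mulN]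
  rw [hcc] at h1 ⊢
  have h2 : (c' : ℂ) * ((r : ℂ) * (z : ℂ)) + (γ 1 1 : ℂ) = (r : ℂ) * c' * z + γ 1 1 := by ring
  rw [h2]
  field_simp

theorem discriminant_T_zpow_smul (i : ℤ) (z : ℍ) : Δ (ModularGroup.T ^ i • z) = Δ z := by
  rw [discriminant_smul]
  simp [ModularGroup.coe_T_zpow]

theorem unitFun_ST_smul (i : ℤ) (z : ℍ) :
    unitFun r ((ModularGroup.S * ModularGroup.T ^ i) • z) = Δ (divN r i z) / Δ z := by
  have hr : (r : ℂ) ≠ 0 := Nat.cast_ne_zero.mpr (NeZero.ne r)
  unfold unitFun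
  rw [mul_smul, mulN_S_smul, divN_T_zpow_smul, discriminant_smul, discriminant_smul,
    discriminant_T_zpow_smul, S_entries.1, S_entries.2]
  have hΔ := discriminant_ne_zero z
  have hw : ((ModularGroup.T ^ i • z : ℍ) : ℂ) = (z : ℂ) + i := by
    rw [UpperHalfPlane.modular_T_zpow_smul, UpperHalfPlane.coe_vadd]
    push_cast
    ring
  have hw0 : (z : ℂ) + i ≠ 0 := by
    rw [← hw]
    exact UpperHalfPlane.ne_zero _
  rw [hw, coe_divN]
  simp only [Int.cast_one, Int.cast_zero, one_mul, add_zero]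
  field_simp

theorem isBoundedAtImInfty_discriminant_mulN :
    IsBoundedAtImInfty (fun z : ℍ => Δ (mulN r z)) := by
  have h := bdd_discriminant
  rw [UpperHalfPlane.isBoundedAtImInfty_iff] at h ⊢
  obtain ⟨M, A, hMA⟩ := h
  refine ⟨M, max A 0, fun z hz => hMA _ ?_⟩
  have hr : (1 : ℝ) ≤ r := by exact_mod_cast NeZero.pos r
  have him : (mulN r z).im = r * z.im := by
    change ((r : ℂ) * (z : ℂ)).im = r * z.im
    simp
  rw [him]
  have h0 : 0 ≤ z.im := le_trans (le_max_right A 0) hz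
  have hA : A ≤ z.im := le_trans (le_max_left A 0) hz
  nlinarith

theorem isBoundedAtImInfty_discriminant_divN (i : ℤ) :
    IsBoundedAtImInfty (fun z : ℍ => Δ (divN r i z)) := by
  have h := bdd_discriminant
  rw [UpperHalfPlane.isBoundedAtImInfty_iff] at h ⊢
  obtain ⟨M, A, hMA⟩ := h
  refine ⟨M, r * A, fun z hz => hMA _ ?_⟩
  have hr : (0 : ℝ) < r := by exact_mod_cast NeZero.pos r
  rw [im_divN, le_div_iff₀ hr]
  linarith

theorem mero_unitFun_smul (γ : SL(2, ℤ)) : Mero 1 (fun z : ℍ => unitFun r (γ • z)) := by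
  unfold Mero
  have hr : (r : ℂ) ≠ 0 := Nat.cast_ne_zero.mpr (NeZero.ne r)
  by_cases hγ : γ ∈ Gamma0 r
  · have e : (fun z : ℍ => Δ z ^ 1 * unitFun r (γ • z)) =
        fun z : ℍ => (r : ℂ) ^ 12 * Δ (mulN r z) := by
      funext z
      rw [unitFun_smul_of_mem r hγ, unitFun, pow_one]
      have hΔ := discriminant_ne_zero z
      field_simp
    rw [e]
    exact (Filter.const_boundedAtFilter _ ((r : ℂ) ^ 12)).mul
      (isBoundedAtImInfty_discriminant_mulN r)
  · obtain ⟨γ₀, hγ₀, i, -, e⟩ := exists_mem_Gamma0_mul r γ hγ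
    have e' : (fun z : ℍ => Δ z ^ 1 * unitFun r (γ • z)) =
        fun z : ℍ => Δ (divN r (i : ℤ) z) := by
      funext z
      rw [e, mul_smul, unitFun_smul_of_mem r hγ₀, unitFun_ST_smul, pow_one]
      have hΔ := discriminant_ne_zero z
      field_simp
    rw [e']
    exact isBoundedAtImInfty_discriminant_divN r i

theorem root_unitFun_some (b : Fin r) (z : ℍ) :
    root r (unitFun r) (some b) z = Δ (divN r ((b : ℕ) : ℤ) z) / Δ z := by
  rw [root_some, unitFun_ST_smul]

end Analytic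

/-! ### The expansions of the discriminant -/

section Expansions

/-- The discriminant as a function on the unit disc. -/
noncomputable def deltaDisc (q : ℂ) : ℂ := q * etaFun q ^ 24

theorem deltaDisc_qParam (τ : ℍ) : deltaDisc (𝕢 1 (τ : ℂ)) = Δ τ :=
  (discriminant_eq_etaFun τ).symm

theorem lrepr_DeltaL : LRepr (DeltaL ℂ) deltaDisc := by
  refine ⟨0, PowerSeries.X * toC dedekindEtaUnit, deltaDisc, ?_,
    repr_X.mul repr_dedekindEtaUnit, fun q _ _ => by simp⟩
  rw [Nat.cast_zero, HahnSeries.single_zero_one, one_mul, map_mul, HahnSeries.ofPowerSeries_X]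
  rfl

theorem lrepr_DeltaInvL : LRepr (DeltaInvL ℂ) (fun q => (deltaDisc q)⁻¹) := by
  refine ⟨1, toC dedekindEtaUnitInv, fun q => (etaFun q ^ 24)⁻¹, ?_, repr_dedekindEtaUnitInv,
    fun q hq0 hq => ?_⟩
  · unfold DeltaInvL
    rw [← mul_assoc, HahnSeries.single_mul_single, Nat.cast_one, add_neg_cancel, mul_one,
      HahnSeries.single_zero_one, one_mul]
  · have hη : etaFun q ^ 24 ≠ 0 := pow_ne_zero _ (etaFun_ne_zero hq)
    simp only [deltaDisc, pow_one]
    field_simp

theorem qParam_pow (n : ℕ) [NeZero n] (w : ℍ) :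
    𝕢 1 (w : ℂ) ^ n = 𝕢 1 ((mulN n w : ℍ) : ℂ) := by
  simp only [Function.Periodic.qParam, ← Complex.exp_nat_mul, coe_mulN]
  congr 1
  push_cast
  ring

theorem deltaDisc_qParam_pow (n : ℕ) [NeZero n] (w : ℍ) :
    deltaDisc (𝕢 1 (w : ℂ) ^ n) = Δ (mulN n w) := by
  rw [qParam_pow, deltaDisc_qParam]

variable (r : ℕ) [Fact r.Prime] [NeZero r]

/-- The formal conjugates of the modular unit (in the variable `s`, `t = s ^ r`). -/
noncomputable def G : Option (Fin r) → LaurentSeries OO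
  | none => HahnSeries.C ((r : OO) ^ 12) * Basic.sub OO (r ^ 2) (DeltaL OO) *
      Basic.sub OO r (DeltaInvL OO)
  | some b => rescaleU (zetaU r ^ (b : ℕ)) (DeltaL OO) * Basic.sub OO r (DeltaInvL OO)

/-- The conjugates as functions on the punctured disc. -/
noncomputable def f : Option (Fin r) → ℂ → ℂ
  | none => fun q => (r : ℂ) ^ 12 * deltaDisc (q ^ (r ^ 2)) * (deltaDisc (q ^ r))⁻¹
  | some b => fun q => deltaDisc (zetaC r ^ (b : ℕ) * q) * (deltaDisc (q ^ r))⁻¹

theorem lrepr_G (i : Option (Fin r)) : LRepr (coeffMap (algebraMap OO ℂ) (G r i)) (f r i) := by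
  have hr : r ≠ 0 := NeZero.ne r
  rcases i with _ | b
  · show LRepr (coeffMap (algebraMap OO ℂ) (HahnSeries.C ((r : OO) ^ 12) *
      Basic.sub OO (r ^ 2) (DeltaL OO) * Basic.sub OO r (DeltaInvL OO)))
      (fun q => (r : ℂ) ^ 12 * deltaDisc (q ^ (r ^ 2)) * (deltaDisc (q ^ r))⁻¹)
    rw [map_mul, map_mul, coeffMap_C, coeffMap_sub, coeffMap_sub, coeffMap_DeltaL,
      coeffMap_DeltaInvL, map_pow, map_natCast]
    exact ((lrepr_C _).mul (LRepr.subst lrepr_DeltaL (pow_ne_zero 2 hr))).mul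
      (LRepr.subst lrepr_DeltaInvL hr)
  · show LRepr (coeffMap (algebraMap OO ℂ) (rescaleU (zetaU r ^ (b : ℕ)) (DeltaL OO) *
      Basic.sub OO r (DeltaInvL OO)))
      (fun q => deltaDisc (zetaC r ^ (b : ℕ) * q) * (deltaDisc (q ^ r))⁻¹)
    rw [map_mul, coeffMap_rescaleU, coeffMap_sub, coeffMap_DeltaL, coeffMap_DeltaInvL,
      rescaleU_eq_rescale]
    have h := LRepr.rescale lrepr_DeltaL (ξ := zetaC r ^ (b : ℕ)) (norm_zetaC_pow r b)
      (pow_ne_zero _ (zetaC_ne_zero r))
    simp only [coe_map_zetaU_pow]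
    exact h.mul (LRepr.subst lrepr_DeltaInvL hr)

theorem f_val (i : Option (Fin r)) (w : ℍ) :
    f r i (𝕢 1 (w : ℂ)) = root r (unitFun r) i (mulN r w) := by
  rcases i with _ | b
  · show (r : ℂ) ^ 12 * deltaDisc (𝕢 1 (w : ℂ) ^ (r ^ 2)) * (deltaDisc (𝕢 1 (w : ℂ) ^ r))⁻¹ = _
    haveI : NeZero (r ^ 2) := ⟨pow_ne_zero 2 (NeZero.ne r)⟩
    rw [root_none, unitFun, mulN_mulN, deltaDisc_qParam_pow, deltaDisc_qParam_pow]
    rfl
  · show deltaDisc (zetaC r ^ (b : ℕ) * 𝕢 1 (w : ℂ)) * (deltaDisc (𝕢 1 (w : ℂ) ^ r))⁻¹ = _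
    rw [root_unitFun_some, ← qParam_divN_mulN, deltaDisc_qParam, deltaDisc_qParam_pow]
    rfl

theorem exists_unitEq_aux :
    ∃ Ψ : OO[X][X], Ψ.Monic ∧ Ψ.natDegree = r + 1 ∧
      Ψ.map (evalAt OO (JmR OO r)) = ∏ i : Option (Fin r), (X - C (G r i)) :=
  exists_monic (Θ := unitFun r) 1 (fun γ => mdiff_unitFun_smul r γ)
    (fun _ hγ z => unitFun_smul_of_mem r hγ z) (fun γ => mero_unitFun_smul r γ) OO (G r) (f r)
    (lrepr_G r) (f_val r)

end Expansions

/-! ### Leading terms -/

section Lead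

variable {R : Type*} [CommRing R]

/-- `F = c t ^ n + higher terms`. -/
def IsLead (n : ℤ) (c : R) (F : LaurentSeries R) : Prop :=
  F.coeff n = c ∧ ∀ m < n, F.coeff m = 0

theorem IsLead.mul {n n' : ℤ} {c c' : R} {F F' : LaurentSeries R} (h : IsLead n c F)
    (h' : IsLead n' c' F') : IsLead (n + n') (c * c') (F * F') := by
  constructor
  · rw [HahnSeries.coeff_mul, Finset.sum_eq_single (n, n')]
    · rw [h.1, h'.1]
    · intro b hb hne
      obtain ⟨-, -, h3⟩ := Finset.mem_antidiagonal.mp hb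
      by_cases hb1 : b.1 < n
      · rw [h.2 _ hb1, zero_mul]
      · by_cases hb2 : b.2 < n'
        · rw [h'.2 _ hb2, mul_zero]
        · exfalso
          apply hne
          ext
          · show b.1 = n
            omega
          · show b.2 = n'
            omega
    · intro hnot
      by_contra hne
      apply hnot
      rw [Finset.mem_antidiagonal]
      refine ⟨?_, ?_, rfl⟩
      · rw [HahnSeries.mem_support]
        intro h0
        exact hne (by rw [h0, zero_mul])
      · rw [HahnSeries.mem_support]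
        intro h0
        exact hne (by rw [h0, mul_zero])
  · intro m hm
    rw [HahnSeries.coeff_mul]
    refine Finset.sum_eq_zero fun b hb => ?_
    obtain ⟨-, -, h3⟩ := Finset.mem_antidiagonal.mp hb
    by_cases hb1 : b.1 < n
    · rw [h.2 _ hb1, zero_mul]
    · have hb2 : b.2 < n' := by omega
      rw [h'.2 _ hb2, mul_zero]

theorem IsLead.neg {n : ℤ} {c : R} {F : LaurentSeries R} (h : IsLead n c F) :
    IsLead n (-c) (-F) := by
  constructor
  · rw [HahnSeries.coeff_neg, h.1]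
  · intro m hm
    rw [HahnSeries.coeff_neg, h.2 m hm, neg_zero]

theorem isLead_single (n : ℤ) (c : R) : IsLead n c (HahnSeries.single n c) := by
  constructor
  · exact HahnSeries.coeff_single_same n c
  · intro m hm
    exact HahnSeries.coeff_single_of_ne hm.ne

theorem isLead_C (c : R) : IsLead 0 c (HahnSeries.C c : LaurentSeries R) := by
  rw [HahnSeries.C_apply]
  exact isLead_single 0 c

theorem isLead_ofPowerSeries (P : PowerSeries R) :
    IsLead 0 (PowerSeries.constantCoeff P) (HahnSeries.ofPowerSeries ℤ R P) := by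
  constructor
  · have := HahnSeries.ofPowerSeries_apply_coeff (Γ := ℤ) P 0
    rw [Nat.cast_zero] at this
    rw [this, PowerSeries.coeff_zero_eq_constantCoeff]
  · intro m hm
    exact ofPowerSeries_coeff_of_neg P hm

theorem IsLead.subst {n : ℤ} {c : R} {F : LaurentSeries R} (h : IsLead n c F) {m : ℕ}
    (hm : m ≠ 0) : IsLead ((m : ℤ) * n) c (Basic.sub R m F) := by
  constructor
  · rw [Basic.sub_coeff_mul hm, h.1]
  · intro k hk
    by_cases hdvd : (m : ℤ) ∣ k
    · obtain ⟨k', rfl⟩ := hdvd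
      rw [Basic.sub_coeff_mul hm]
      refine h.2 k' ?_
      have hm' : (0 : ℤ) < m := by exact_mod_cast Nat.pos_of_ne_zero hm
      exact lt_of_mul_lt_mul_left hk hm'.le
    · exact Basic.sub_coeff_of_not_dvd hm F hdvd

theorem IsLead.rescaleU {n : ℤ} {c : R} {F : LaurentSeries R} (h : IsLead n c F) (ξ : Rˣ) :
    IsLead n (((ξ ^ n : Rˣ) : R) * c) (Formal.rescaleU ξ F) := by
  constructor
  · rw [rescaleU_coeff, h.1]
  · intro m hm
    rw [rescaleU_coeff, h.2 m hm, mul_zero]

variable (R)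

theorem isLead_DeltaL : IsLead 1 1 (DeltaL R) := by
  have h := (isLead_single (1 : ℤ) (1 : R)).mul
    (isLead_ofPowerSeries (dedekindEtaUnit.map (Int.castRingHom R)))
  have e : PowerSeries.constantCoeff (dedekindEtaUnit.map (Int.castRingHom R)) = 1 := by
    rw [← PowerSeries.coeff_zero_eq_constantCoeff, PowerSeries.coeff_map,
      PowerSeries.coeff_zero_eq_constantCoeff, constantCoeff_dedekindEtaUnit]
    simp
  rw [e, add_zero, mul_one] at h
  exact h

theorem isLead_DeltaInvL : IsLead (-1) 1 (DeltaInvL R) := by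
  have h := (isLead_single (-1 : ℤ) (1 : R)).mul
    (isLead_ofPowerSeries (dedekindEtaUnitInv.map (Int.castRingHom R)))
  have e : PowerSeries.constantCoeff (dedekindEtaUnitInv.map (Int.castRingHom R)) = 1 := by
    rw [← PowerSeries.coeff_zero_eq_constantCoeff, PowerSeries.coeff_map,
      PowerSeries.coeff_zero_eq_constantCoeff, constantCoeff_dedekindEtaUnitInv]
    simp
  rw [e, add_zero, mul_one] at h
  exact h

variable {R}

theorem isLead_prod {ι : Type*} (s : Finset ι) (n : ι → ℤ) (c : ι → R)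
    (F : ι → LaurentSeries R) (h : ∀ i ∈ s, IsLead (n i) (c i) (F i)) :
    IsLead (∑ i ∈ s, n i) (∏ i ∈ s, c i) (∏ i ∈ s, F i) := by
  classical
  induction s using Finset.induction_on with
  | empty =>
    simp only [Finset.sum_empty, Finset.prod_empty]
    have := isLead_C (1 : R)
    rwa [map_one] at this
  | insert a s ha ih =>
    simp only [Finset.sum_insert ha, Finset.prod_insert ha]
    exact (h a (Finset.mem_insert_self a s)).mul
      (ih fun i hi => h i (Finset.mem_insert_of_mem hi))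

end Lead

/-! ### The unit equation -/

section Final

variable (r : ℕ) [Fact r.Prime] [NeZero r]

/-- The unit `∏_b (-ζ ^ b)`. -/
noncomputable def lcUnit : OOˣ := ∏ b : Fin r, -(zetaU r ^ (b : ℕ))

theorem isLead_G_none :
    IsLead ((r : ℤ) ^ 2 - r) ((r : OO) ^ 12) (G r none) := by
  have hr : r ≠ 0 := NeZero.ne r
  have h := ((isLead_C ((r : OO) ^ 12)).mul ((isLead_DeltaL OO).subst (pow_ne_zero 2 hr))).mul
    ((isLead_DeltaInvL OO).subst hr)
  have e1 : (0 : ℤ) + ((r ^ 2 : ℕ) : ℤ) * 1 + (r : ℤ) * (-1) = (r : ℤ) ^ 2 - r := by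
    push_cast
    ring
  rw [e1, mul_one, mul_one] at h
  exact h

theorem isLead_G_some (b : Fin r) :
    IsLead (1 - (r : ℤ)) ((zetaU r ^ (b : ℕ) : OOˣ) : OO) (G r (some b)) := by
  have hr : r ≠ 0 := NeZero.ne r
  have h := ((isLead_DeltaL OO).rescaleU (zetaU r ^ (b : ℕ))).mul ((isLead_DeltaInvL OO).subst hr)
  have e1 : (1 : ℤ) + (r : ℤ) * (-1) = 1 - (r : ℤ) := by ring
  rw [e1, mul_one, mul_one, zpow_one] at h
  exact h

theorem isLead_prod_neg_G :
    IsLead 0 (-((r : OO) ^ 12) * ((lcUnit r : OOˣ) : OO)) (∏ i : Option (Fin r), -(G r i)) := by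
  have h := (isLead_G_none r).neg.mul
    (isLead_prod (Finset.univ : Finset (Fin r)) _ _ _ fun b _ => (isLead_G_some r b).neg)
  rw [Fintype.prod_option]
  have e1 : (r : ℤ) ^ 2 - r + ∑ _b : Fin r, (1 - (r : ℤ)) = 0 := by
    rw [Finset.sum_const, Finset.card_univ, Fintype.card_fin, nsmul_eq_mul]
    ring
  have e2 : (∏ b : Fin r, -((zetaU r ^ (b : ℕ) : OOˣ) : OO)) = ((lcUnit r : OOˣ) : OO) := by
    unfold lcUnit
    rw [Units.coe_prod]
    refine Finset.prod_congr rfl fun b _ => ?_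
    rw [Units.val_neg]
  rw [e1, e2] at h
  exact h

theorem G_none_eq : G r none = Basic.sub OO r (unitVR OO r) := by
  have hr : r ≠ 0 := NeZero.ne r
  show HahnSeries.C ((r : OO) ^ 12) * Basic.sub OO (r ^ 2) (DeltaL OO) *
      Basic.sub OO r (DeltaInvL OO) = _
  unfold unitVR
  rw [map_mul, map_mul, Basic.sub_C, Basic.sub_sub hr hr, pow_two]

theorem evalAt_JmR_eq :
    evalAt OO (JmR OO r) = (Basic.sub OO r).comp (evalAt OO (JmR OO 1)) := by
  have hr : r ≠ 0 := NeZero.ne r
  rw [sub_comp_evalAt]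
  congr 1
  unfold JmR
  rw [Basic.sub_sub hr one_ne_zero, mul_one]

/-- **(A2) The unit equation of prime level `r`**, over the ring of algebraic integers. -/
theorem exists_unitEq_O :
    ∃ Ψ : OO[X][X], Ψ.Monic ∧
      (Ψ.map (evalAt OO (JmR OO 1))).eval (unitVR OO r) = 0 ∧
      ∃ c : OO, c ∣ (r : OO) ^ 12 ∧ Ψ.coeff 0 = Polynomial.C c := by
  have hr : r ≠ 0 := NeZero.ne r
  obtain ⟨Ψ, hm, -, hfac⟩ := exists_unitEq_aux r
  refine ⟨Ψ, hm, ?_, -((r : OO) ^ 12) * ((lcUnit r : OOˣ) : OO), ?_, ?_⟩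
  · -- the root
    have h1 := hfac
    rw [evalAt_JmR_eq, ← Polynomial.map_map] at h1
    have h2 := congrArg (Polynomial.eval (G r none)) h1
    rw [Polynomial.eval_prod,
      Finset.prod_eq_zero (Finset.mem_univ (none : Option (Fin r))) (by simp), G_none_eq,
      Polynomial.eval_map_apply] at h2
    exact Basic.sub_injective hr (by rw [h2, map_zero])
  · -- the constant divides `r ^ 12`
    refine ⟨-(((lcUnit r)⁻¹ : OOˣ) : OO), ?_⟩
    have hu : ((lcUnit r : OOˣ) : OO) * (((lcUnit r)⁻¹ : OOˣ) : OO) = 1 := Units.mul_inv _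
    linear_combination (-((r : OO) ^ 12)) * hu
  · -- the constant term is constant
    have h0 : evalAt OO (JmR OO r) (Ψ.coeff 0) = ∏ i : Option (Fin r), -(G r i) := by
      have h1 := congrArg (fun p : (LaurentSeries OO)[X] => p.coeff 0) hfac
      simp only [Polynomial.coeff_map] at h1
      rw [h1, Polynomial.coeff_zero_eq_eval_zero, Polynomial.eval_prod]
      refine Finset.prod_congr rfl fun i _ => ?_
      simp
    have hlead := isLead_prod_neg_G r
    rw [← h0] at hlead
    have hD : (Ψ.coeff 0).natDegree = 0 := by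
      by_contra hne
      have h1 := coeff_evalAt_JmR hr (Ψ.coeff 0) le_rfl
      have hneg : -((r : ℤ) * ((Ψ.coeff 0).natDegree : ℤ)) < 0 := by
        have h2 : (0 : ℤ) < (r : ℤ) * ((Ψ.coeff 0).natDegree : ℤ) := by
          have := Nat.pos_of_ne_zero hr
          have := Nat.pos_of_ne_zero hne
          positivity
        omega
      rw [hlead.2 _ hneg] at h1
      have h3 : Ψ.coeff 0 = 0 := Polynomial.leadingCoeff_eq_zero.mp h1.symm
      rw [h3, Polynomial.natDegree_zero] at hne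
      exact hne rfl
    have h1 := coeff_evalAt_JmR hr (Ψ.coeff 0) (le_of_eq hD)
    rw [Nat.cast_zero, mul_zero, neg_zero, hlead.1] at h1
    rw [Polynomial.eq_C_of_natDegree_eq_zero hD, ← h1]

end Final

/-- **(A2) The unit equation of prime level `r`**, over the ring of algebraic integers. -/
theorem exists_unitEq (r : ℕ) (hr : r.Prime) :
    ∃ Ψ : (integralClosure ℤ ℂ)[X][X], Ψ.Monic ∧
      (Ψ.map (evalAt (integralClosure ℤ ℂ) (JmR (integralClosure ℤ ℂ) 1))).eval
          (unitVR (integralClosure ℤ ℂ) r) = 0 ∧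
      ∃ c : integralClosure ℤ ℂ, c ∣ (r : integralClosure ℤ ℂ) ^ 12 ∧
        Ψ.coeff 0 = Polynomial.C c := by
  haveI : Fact r.Prime := ⟨hr⟩
  haveI : NeZero r := ⟨hr.ne_zero⟩
  exact exists_unitEq_O r

end Fermat.Agent.S28.UnitEq
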