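import Mathlib
import Fermat.Agent.S24.Degree
import Fermat.Agent.S24.DegreeDescent
import Fermat.Agent.S20.Cosets

/-!
# S28, leaf (A4): the degree of the function field of `X₀(N)` over `ℚ(j)` is at most `ψ(N)`

In the shape consumed by the valuation argument: `ψ(N)` elements of `modularFunctionFieldFull N`
which are linearly independent over `ℚ(j)` span `modularFunctionFieldFull N` over `ℚ(j)`.

Proof: linear independence over `ℚ(j)` of `w_i` is linear independence over `ℚ` of the
`j^a w_i`; this is preserved by the extension of the coefficients to `ℚ̄`; hence the `w_i` stay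
linearly independent over `ℚ̄(j)`, where the degree is `[SL₂(ℤ) : Γ₀(N)] = ψ(N)` (S24, S20).
-/

set_option autoImplicit false
set_option linter.style.haveILetI false

namespace Fermat.Agent.S28.DegreeZero

open ModularCurve IntermediateField Polynomial

/-! ### Linear independence over `k(x)` and over `k` -/

section Algebra

variable {k E : Type*} [Field k] [Field E] [Algebra k E]

theorem linearIndependent_pow_of_transcendental {x : E} (hx : Transcendental k x) :
    LinearIndependent k (fun a : ℕ => x ^ a) := by
  have h1 : LinearIndependent k (fun a : ℕ => (Polynomial.X : k[X]) ^ a) := by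
    have := (Polynomial.basisMonomials k).linearIndependent
    convert this using 1
    funext a
    simp [Polynomial.X_pow_eq_monomial]
  have h2 := h1.map' (Polynomial.aeval x).toLinearMap
    (LinearMap.ker_eq_bot.mpr (transcendental_iff_injective.mp hx))
  have h3 : (fun a : ℕ => x ^ a) =
      (Polynomial.aeval x).toLinearMap ∘ fun a : ℕ => (Polynomial.X : k[X]) ^ a := by
    funext a
    simp
  rw [h3]
  exact h2

/-- If `x` is transcendental over `k` and `w` is linearly independent over `k(x)`, then the
products `x^a w_i` are linearly independent over `k`. -/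
theorem linearIndependent_pow_mul {x : E} (hx : Transcendental k x) {I : Type*} (w : I → E)
    (hw : LinearIndependent k⟮x⟯ w) :
    LinearIndependent k (fun p : ℕ × I => x ^ p.1 * w p.2) := by
  have hb : LinearIndependent k (fun a : ℕ => (AdjoinSimple.gen k x) ^ a) := by
    have h1 := linearIndependent_pow_of_transcendental hx
    refine LinearIndependent.of_comp (k⟮x⟯.val.toLinearMap) ?_
    have h3 : (k⟮x⟯.val.toLinearMap) ∘ (fun a : ℕ => (AdjoinSimple.gen k x) ^ a) =
        fun a : ℕ => x ^ a := by
      funext a
      simp
    rw [h3]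
    exact h1
  have h4 := linearIndependent_smul hb hw
  have h5 : (fun p : ℕ × I => x ^ p.1 * w p.2) =
      fun p : ℕ × I => (AdjoinSimple.gen k x) ^ p.1 • w p.2 := by
    funext p
    rw [IntermediateField.smul_def]
    simp
  rw [h5]
  exact h4

/-- If the products `x^a w_i` are linearly independent over `k`, then `w` is linearly
independent over `k(x)`. -/
theorem linearIndependent_adjoin_of_pow_mul {x : E} {I : Type*} [Fintype I] (w : I → E)
    (hw : LinearIndependent k (fun p : ℕ × I => x ^ p.1 * w p.2)) :
    LinearIndependent k⟮x⟯ w := by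
  classical
  open IntermediateField.algebraAdjoinAdjoin in
  rw [← LinearIndependent.iff_fractionRing (Algebra.adjoin k {x}) k⟮x⟯]
  rw [Fintype.linearIndependent_iff]
  intro g hg i
  -- the coefficients are polynomials in `x`
  have hP : ∀ j, ∃ P : k[X], (g j : E) = Polynomial.aeval x P := by
    intro j
    obtain ⟨P, hP⟩ : (g j : E) ∈ (Polynomial.aeval x : k[X] →ₐ[k] E).range := by
      rw [← Algebra.adjoin_singleton_eq_range_aeval]
      exact (g j).2
    exact ⟨P, hP.symm⟩
  choose P hP using hP
  obtain ⟨d, hd⟩ : ∃ d : ℕ, ∀ j, (P j).natDegree < d :=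
    ⟨(Finset.univ.sup fun j => (P j).natDegree) + 1, fun j =>
      Nat.lt_succ_of_le (Finset.le_sup (f := fun j => (P j).natDegree) (Finset.mem_univ j))⟩
  have hrel : ∑ p ∈ Finset.range d ×ˢ (Finset.univ : Finset I),
      (P p.2).coeff p.1 • (x ^ p.1 * w p.2) = 0 := by
    rw [Finset.sum_product, Finset.sum_comm]
    have h1 : ∀ j, ∑ a ∈ Finset.range d, (P j).coeff a • (x ^ a * w j) = g j • w j := by
      intro j
      have h2 : g j • w j = (g j : E) * w j := rfl
      rw [h2, hP j, Polynomial.aeval_eq_sum_range' (hd j), Finset.sum_mul]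
      refine Finset.sum_congr rfl fun a _ => ?_
      rw [smul_mul_assoc]
    rw [Finset.sum_congr rfl fun j _ => h1 j]
    exact hg
  have hzero := (linearIndependent_iff'.mp hw) _ (fun p => (P p.2).coeff p.1) hrel
  have hPi : P i = 0 := by
    ext a
    rw [Polynomial.coeff_zero]
    by_cases ha : a < d
    · exact hzero (a, i) (Finset.mem_product.mpr ⟨Finset.mem_range.mpr ha, Finset.mem_univ i⟩)
    · exact Polynomial.coeff_eq_zero_of_natDegree_lt (lt_of_lt_of_le (hd i) (not_lt.mp ha))
  apply Subtype.ext
  rw [hP i, hPi, map_zero]
  rfl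

end Algebra

/-! ### Two module structures with the same scalar multiplication -/

theorem linearIndependent_of_smul_eq {ι R M : Type*} [Semiring R] [AddCommMonoid M]
    (m1 m2 : Module R M)
    (h : ∀ (c : R) (x : M), (letI := m1; c • x) = (letI := m2; c • x))
    (v : ι → M) (hv : @LinearIndependent ι R M v _ _ m1) :
    @LinearIndependent ι R M v _ _ m2 := by
  have h12 : m1 = m2 := Module.ext' m1 m2 h
  subst h12
  exact hv

/-- On Laurent series the module structure of the algebra and the coefficientwise module
structure have the same linearly independent families. -/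
theorem linearIndependent_algebra_iff {L : Type*} [Field L] {ι : Type*}
    (v : ι → LaurentSeries L) :
    @LinearIndependent ι L (LaurentSeries L) v _ _ Algebra.toModule ↔
      @LinearIndependent ι L (LaurentSeries L) v _ _ HahnSeries.instModule := by
  constructor
  · refine linearIndependent_of_smul_eq _ _ (fun c x => ?_) v
    rw [Algebra.smul_def]
    exact Fermat.Agent.S24.DegreeBridge.algebraMap_mul_eq_smul c x
  · refine linearIndependent_of_smul_eq _ _ (fun c x => ?_) v
    rw [Algebra.smul_def]
    exact (Fermat.Agent.S24.DegreeBridge.algebraMap_mul_eq_smul c x).symm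

/-! ### The function field of `X₀(N)` -/

section Modular

open Fermat.Agent.S24.Eval Fermat.Agent.S24.Degree Fermat.Agent.S20

theorem coeffEmb_algebraMap (c : ℚ) :
    coeffEmb KK (algebraMap ℚ (LaurentSeries ℚ) c) =
      algebraMap KK (LaurentSeries KK) (algebraMap ℚ KK c) := by
  rw [algebraMap_laurentSeries_eq_single, algebraMap_laurentSeries_eq_single, coeffEmb,
    coeffMap_single]

theorem coeffEmb_aeval (x : LaurentSeries ℚ) (p : ℚ[X]) :
    coeffEmb KK (Polynomial.aeval x p) =
      Polynomial.aeval (coeffEmb KK x) (p.map (algebraMap ℚ KK)) := by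
  rw [Polynomial.aeval_def, Polynomial.aeval_def, Polynomial.eval₂_map, Polynomial.hom_eval₂]
  congr 1
  exact RingHom.ext fun c => coeffEmb_algebraMap c

/-- `j` is transcendental over `ℚ`. -/
theorem transcendental_jq : Transcendental ℚ jq := by
  rw [transcendental_iff]
  intro p hp
  have h1 : Polynomial.aeval (jF 1) (p.map (algebraMap ℚ KK)) = 0 := by
    apply incl_injective 1
    rw [map_zero, ← Polynomial.aeval_algHom_apply]
    have h2 : incl 1 (jF 1) = coeffEmb KK jq := coe_jF 1
    rw [h2, ← coeffEmb_aeval, hp, map_zero]
  have h3 := (transcendental_iff.mp (transcendental_jF 1)) _ h1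
  exact Polynomial.map_injective _ (algebraMap ℚ KK).injective (by rw [h3, Polynomial.map_zero])

variable (N : ℕ) [NeZero N]

/-- At most `ψ(N)` elements of the function field of `X₀(N)` over `ℚ` are linearly independent
over `ℚ(j)`. -/
theorem card_le_of_linearIndependent {I : Type*} [Fintype I] (w : I → LaurentSeries ℚ)
    (hw : ∀ i, w i ∈ modularFunctionFieldFull N) (hli : LinearIndependent ℚ⟮jq⟯ w) :
    Fintype.card I ≤ dedekindPsi N := by
  have h1 := (linearIndependent_algebra_iff _).mp
    (linearIndependent_pow_mul transcendental_jq w hli)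
  have h2 := (linearIndependent_algebra_iff _).mpr
    (Fermat.Agent.S24.DegreeDescent.linearIndependent_coeffMap (algebraMap ℚ KK) _ h1)
  let W : I → FF N := fun i => ⟨coeffEmb KK (w i), coeffEmb_mem_laurentBaseChange KK (hw i)⟩
  have h3 : LinearIndependent KK (fun p : ℕ × I => (jF N) ^ p.1 * W p.2) := by
    have h4 : (incl N).toLinearMap ∘ (fun p : ℕ × I => (jF N) ^ p.1 * W p.2) =
        fun p : ℕ × I => coeffMap (algebraMap ℚ KK) (jq ^ p.1 * w p.2) := by
      funext p
      have h5 : incl N (jF N) = coeffEmb KK jq := coe_jF N
      have h6 : incl N (W p.2) = coeffEmb KK (w p.2) := rfl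
      show incl N ((jF N) ^ p.1 * W p.2) = coeffEmb KK (jq ^ p.1 * w p.2)
      rw [map_mul, map_pow, map_mul, map_pow, h5, h6]
    have h5 : @LinearIndependent (ℕ × I) KK (LaurentSeries KK)
        ((incl N).toLinearMap ∘ (fun p : ℕ × I => (jF N) ^ p.1 * W p.2)) _ _
        Algebra.toModule := by
      rw [h4]
      exact h2
    letI : Module KK (LaurentSeries KK) := Algebra.toModule
    exact LinearIndependent.of_comp (incl N).toLinearMap h5
  have h4 := linearIndependent_adjoin_of_pow_mul W h3
  have := finiteDimensional_jF N
  calc Fintype.card I ≤ Module.finrank KK⟮jF N⟯ (FF N) := h4.fintype_card_le_finrank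
    _ ≤ Nat.card (Q N) := finrank_jF_le N
    _ = dedekindPsi N := Fermat.Agent.S20.Cosets.card_Q N

/-- **(A4)** `ψ(N)` elements of the function field of `X₀(N)` over `ℚ` which are linearly
independent over `ℚ(j)` span it over `ℚ(j)`. -/
theorem span_eq (v : Fin (dedekindPsi N) → LaurentSeries ℚ)
    (hv : ∀ i, v i ∈ modularFunctionFieldFull N)
    (hli : LinearIndependent (IntermediateField.adjoin ℚ {jq}) v) :
    ∀ x ∈ modularFunctionFieldFull N,
      x ∈ Submodule.span (IntermediateField.adjoin ℚ {jq}) (Set.range v) := by
  intro x hx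
  by_contra hcon
  have h1 : LinearIndependent ℚ⟮jq⟯
      (fun o => Option.casesOn' o x v : Option (Fin (dedekindPsi N)) → LaurentSeries ℚ) :=
    linearIndependent_option'.mpr ⟨hli, hcon⟩
  have h2 := card_le_of_linearIndependent N _ (fun o => by
    cases o with
    | none => exact hx
    | some i => exact hv i) h1
  rw [Fintype.card_option, Fintype.card_fin] at h2
  omega

end Modular

end Fermat.Agent.S28.DegreeZero
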