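import Mathlib
import Fermat.Prelude.Def_ModularCurve_IgusaScheme
import Fermat.Prelude.Def_ModularCurve_X0ModL

/-!
# S28 (Igusa), leaf C1: the valuation ring of `ℓ`-integral Laurent series

* `resZ ℓ : ℤ_(ℓ) →+* ZMod ℓ`, kernel `ℓ ℤ_(ℓ)`;
* `incl`, `red` : the coefficient maps `ℤ_(ℓ)((q)) → ℚ((q))`, `ℤ_(ℓ)((q)) → 𝔽_ℓ((q))`;
* `VV ℓ` : the subring of `ℚ((q))` of all `a / b`, `a, b ∈ ℤ_(ℓ)((q))`, `red b ≠ 0`;
* `rhoV ℓ : VV ℓ →+* 𝔽_ℓ((q))` with kernel `ℓ VV`;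
* normal form `x = ℓ ^ s * u`, `u` a unit of `VV ℓ`, for `x ≠ 0` in the fraction field.
-/

set_option autoImplicit false
set_option linter.style.haveILetI false
set_option linter.unusedSectionVars false

namespace Fermat.Agent.S28.Val

open HahnSeries ModularCurve

variable (ℓ : ℕ) [Fact ℓ.Prime]

/-- the ring `ℤ_(ℓ)` -/
abbrev Zl (ℓ : ℕ) : Type := ↥(GaloisRep.ratLocalizedAt ℓ)

theorem mem_ratLoc_iff (q : ℚ) : q ∈ GaloisRep.ratLocalizedAt ℓ ↔ q.den.Coprime ℓ := Iff.rfl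

theorem den_ne_zero_zmod (q : Zl ℓ) : ((q : ℚ).den : ZMod ℓ) ≠ 0 := by
  intro h
  rw [ZMod.natCast_eq_zero_iff] at h
  have hq : (q : ℚ).den.Coprime ℓ := q.2
  have h1 : ℓ ∣ Nat.gcd (q : ℚ).den ℓ := Nat.dvd_gcd h dvd_rfl
  rw [hq] at h1
  exact (Fact.out : ℓ.Prime).one_lt.ne' (Nat.dvd_one.mp h1)

/-- The residue map `ℤ_(ℓ) → 𝔽_ℓ`. -/
noncomputable def resZ : Zl ℓ →+* ZMod ℓ where
  toFun q := ((q : ℚ) : ZMod ℓ)
  map_one' := by simp
  map_mul' a b := by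
    show (((a * b : Zl ℓ) : ℚ) : ZMod ℓ) = _
    rw [Subring.coe_mul]
    exact Rat.cast_mul_of_ne_zero (den_ne_zero_zmod ℓ a) (den_ne_zero_zmod ℓ b)
  map_zero' := by simp
  map_add' a b := by
    show (((a + b : Zl ℓ) : ℚ) : ZMod ℓ) = _
    rw [Subring.coe_add]
    exact Rat.cast_add_of_ne_zero (den_ne_zero_zmod ℓ a) (den_ne_zero_zmod ℓ b)

theorem resZ_apply (q : Zl ℓ) : resZ ℓ q = ((q : ℚ) : ZMod ℓ) := rfl

theorem natCast_mem' (n : ℕ) : (n : ℚ) ∈ GaloisRep.ratLocalizedAt ℓ :=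
  _root_.natCast_mem (GaloisRep.ratLocalizedAt ℓ) n

theorem intCast_mem' (n : ℤ) : (n : ℚ) ∈ GaloisRep.ratLocalizedAt ℓ :=
  _root_.intCast_mem (GaloisRep.ratLocalizedAt ℓ) n

/-- division by `ℓ` inside `ℤ_(ℓ)` when the numerator is divisible by `ℓ` -/
theorem div_mem_of_dvd_num {q : ℚ} (hq : q ∈ GaloisRep.ratLocalizedAt ℓ) (h : (ℓ : ℤ) ∣ q.num) :
    q / ℓ ∈ GaloisRep.ratLocalizedAt ℓ := by
  obtain ⟨m, hm⟩ := h
  have hℓ : (ℓ : ℚ) ≠ 0 := by exact_mod_cast (Fact.out : ℓ.Prime).ne_zero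
  have hden : (q.den : ℚ) ≠ 0 := by exact_mod_cast q.den_ne_zero
  have h1 : q / ℓ = Rat.divInt m q.den := by
    rw [Rat.divInt_eq_div]
    conv_lhs => rw [← Rat.num_div_den q, hm]
    push_cast
    field_simp
  rw [h1, mem_ratLoc_iff]
  have h2 : ((Rat.divInt m q.den).den : ℤ) ∣ (q.den : ℤ) := Rat.den_dvd m q.den
  have h3 : (Rat.divInt m q.den).den ∣ q.den := by exact_mod_cast h2
  exact Nat.Coprime.coprime_dvd_left h3 hq

theorem resZ_eq_zero_iff (q : Zl ℓ) : resZ ℓ q = 0 ↔ ∃ q' : Zl ℓ, q = (ℓ : Zl ℓ) * q' := by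
  constructor
  · intro h
    rw [resZ_apply, Rat.cast_def, div_eq_zero_iff] at h
    rcases h with h | h
    · have h1 : (ℓ : ℤ) ∣ (q : ℚ).num := (ZMod.intCast_zmod_eq_zero_iff_dvd _ _).mp h
      refine ⟨⟨(q : ℚ) / ℓ, div_mem_of_dvd_num ℓ q.2 h1⟩, Subtype.ext ?_⟩
      have hℓ : (ℓ : ℚ) ≠ 0 := by exact_mod_cast (Fact.out : ℓ.Prime).ne_zero
      push_cast
      field_simp
    · exact absurd h (den_ne_zero_zmod ℓ q)
  · rintro ⟨q', rfl⟩
    rw [map_mul, map_natCast, ZMod.natCast_self, zero_mul]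


/-! ### Laurent series with `ℓ`-integral coefficients -/

/-- the inclusion `ℤ_(ℓ)((q)) → ℚ((q))` -/
noncomputable def incl : LaurentSeries (Zl ℓ) →+* LaurentSeries ℚ :=
  coeffMap (GaloisRep.ratLocalizedAt ℓ).subtype

/-- the reduction `ℤ_(ℓ)((q)) → 𝔽_ℓ((q))` -/
noncomputable def red : LaurentSeries (Zl ℓ) →+* LaurentSeries (ZMod ℓ) :=
  coeffMap (resZ ℓ)

@[simp] theorem incl_coeff (a : LaurentSeries (Zl ℓ)) (n : ℤ) :
    (incl ℓ a).coeff n = ((a.coeff n : Zl ℓ) : ℚ) := rfl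

@[simp] theorem red_coeff (a : LaurentSeries (Zl ℓ)) (n : ℤ) :
    (red ℓ a).coeff n = resZ ℓ (a.coeff n) := rfl

theorem incl_injective : Function.Injective (incl ℓ) := by
  intro a b h
  ext n
  have := congrArg (fun x => x.coeff n) h
  simpa using this

theorem incl_eq_zero_iff (a : LaurentSeries (Zl ℓ)) : incl ℓ a = 0 ↔ a = 0 :=
  ⟨fun h => incl_injective ℓ (by rw [h, map_zero]), fun h => by rw [h, map_zero]⟩

theorem natCast_eq_C {R : Type*} [CommRing R] (n : ℕ) :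
    (n : LaurentSeries R) = HahnSeries.C (n : R) := by
  rw [map_natCast]

theorem coeff_natCast_mul {R : Type*} [CommRing R] (n : ℕ) (a : LaurentSeries R) (m : ℤ) :
    ((n : LaurentSeries R) * a).coeff m = (n : R) * a.coeff m := by
  rw [natCast_eq_C, HahnSeries.C_mul_eq_smul, HahnSeries.coeff_smul, smul_eq_mul]

theorem coeff_natCast_pow_mul {R : Type*} [CommRing R] (n s : ℕ) (a : LaurentSeries R) (m : ℤ) :
    ((n : LaurentSeries R) ^ s * a).coeff m = (n : R) ^ s * a.coeff m := by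
  rw [← Nat.cast_pow, coeff_natCast_mul, Nat.cast_pow]

/-- division by `ℓ` of the elements in the kernel of `resZ` -/
noncomputable def divL : ZeroHom (Zl ℓ) (Zl ℓ) where
  toFun q := if h : resZ ℓ q = 0 then Classical.choose ((resZ_eq_zero_iff ℓ q).mp h) else 0
  map_zero' := by
    have h : resZ ℓ (0 : Zl ℓ) = 0 := map_zero _
    rw [dif_pos h]
    have h1 := Classical.choose_spec ((resZ_eq_zero_iff ℓ 0).mp h)
    have hℓ : (ℓ : Zl ℓ) ≠ 0 := by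
      intro h0
      have := congrArg (Subtype.val) h0
      simp only [Subring.coe_natCast, ZeroMemClass.coe_zero, Nat.cast_eq_zero] at this
      exact (Fact.out : ℓ.Prime).ne_zero this
    rcases mul_eq_zero.mp h1.symm with h2 | h2
    · exact absurd h2 hℓ
    · exact h2

theorem mul_divL {q : Zl ℓ} (h : resZ ℓ q = 0) : (ℓ : Zl ℓ) * divL ℓ q = q := by
  show (ℓ : Zl ℓ) * (if h : resZ ℓ q = 0 then _ else 0) = q
  rw [dif_pos h]
  exact (Classical.choose_spec ((resZ_eq_zero_iff ℓ q).mp h)).symm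

theorem red_eq_zero_iff (a : LaurentSeries (Zl ℓ)) :
    red ℓ a = 0 ↔ ∃ a', a = (ℓ : LaurentSeries (Zl ℓ)) * a' := by
  constructor
  · intro h
    refine ⟨a.map (divL ℓ), ?_⟩
    ext n
    rw [coeff_natCast_mul, HahnSeries.map_coeff]
    have hn : resZ ℓ (a.coeff n) = 0 := by
      have := congrArg (fun x => x.coeff n) h
      simpa using this
    exact congrArg Subtype.val (mul_divL ℓ hn).symm
  · rintro ⟨a', rfl⟩
    rw [map_mul, map_natCast]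
    have : ((ℓ : ℕ) : LaurentSeries (ZMod ℓ)) = 0 := by
      rw [natCast_eq_C, ZMod.natCast_self, map_zero]
    rw [this, zero_mul]

theorem natCast_ne_zero_Zl : (ℓ : Zl ℓ) ≠ 0 := by
  intro h0
  have := congrArg (Subtype.val) h0
  simp only [Subring.coe_natCast, ZeroMemClass.coe_zero, Nat.cast_eq_zero] at this
  exact (Fact.out : ℓ.Prime).ne_zero this

theorem pow_le_natAbs_num {q d : ℚ} {k : ℕ} (hq : q ≠ 0) (hd : d.den.Coprime ℓ)
    (h : q = (ℓ : ℚ) ^ k * d) : ℓ ^ k ≤ q.num.natAbs := by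
  have hnum : q.num ≠ 0 := Rat.num_ne_zero.mpr hq
  have h3 : (q.num : ℚ) * d.den = (ℓ : ℚ) ^ k * d.num * q.den := by
    have hcd : (q.den : ℚ) ≠ 0 := by exact_mod_cast q.den_ne_zero
    have hdd : (d.den : ℚ) ≠ 0 := by exact_mod_cast d.den_ne_zero
    have e1 : (q.num : ℚ) = q * q.den := (Rat.mul_den_eq_num q).symm
    have e2 : (d.num : ℚ) = d * d.den := (Rat.mul_den_eq_num d).symm
    rw [e1, e2, h]
    ring
  have h4 : (q.num : ℤ) * d.den = (ℓ : ℤ) ^ k * d.num * q.den := by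
    exact_mod_cast h3
  have h5 : ((ℓ : ℤ) ^ k) ∣ q.num * d.den :=
    ⟨d.num * q.den, by rw [h4]; ring⟩
  have hcop : IsCoprime ((ℓ : ℤ) ^ k) (d.den : ℤ) := by
    apply IsCoprime.pow_left
    rw [Int.isCoprime_iff_gcd_eq_one, Int.gcd_natCast_natCast, Nat.coprime_comm.mp hd]
  have h6 : ((ℓ : ℤ) ^ k) ∣ q.num := hcop.dvd_of_dvd_mul_right h5
  have h7 : ((ℓ : ℤ) ^ k).natAbs ≤ q.num.natAbs :=
    Int.natAbs_le_of_dvd_ne_zero h6 hnum
  rwa [Int.natAbs_pow, Int.natAbs_natCast] at h7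

theorem finiteMultiplicity (a : LaurentSeries (Zl ℓ)) (ha : a ≠ 0) :
    FiniteMultiplicity (ℓ : LaurentSeries (Zl ℓ)) a := by
  obtain ⟨m, hm⟩ : ∃ m, a.coeff m ≠ 0 := by
    by_contra hcon
    exact ha (HahnSeries.ext (funext fun n => by
      by_contra hn
      exact hcon ⟨n, hn⟩))
  have hc0 : ((a.coeff m : Zl ℓ) : ℚ) ≠ 0 := fun h => hm (Subtype.ext h)
  refine ⟨((a.coeff m : Zl ℓ) : ℚ).num.natAbs, ?_⟩
  rintro ⟨b, hb⟩
  have h1 : a.coeff m = (ℓ : Zl ℓ) ^ (((a.coeff m : Zl ℓ) : ℚ).num.natAbs + 1) * b.coeff m := by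
    conv_lhs => rw [hb]
    rw [coeff_natCast_pow_mul]
  have h2 : ((a.coeff m : Zl ℓ) : ℚ) =
      (ℓ : ℚ) ^ (((a.coeff m : Zl ℓ) : ℚ).num.natAbs + 1) * ((b.coeff m : Zl ℓ) : ℚ) := by
    conv_lhs => rw [h1]
    push_cast
    rfl
  have h7 := pow_le_natAbs_num ℓ hc0 (b.coeff m).2 h2
  have h8 : ((a.coeff m : Zl ℓ) : ℚ).num.natAbs + 1 <
      ℓ ^ (((a.coeff m : Zl ℓ) : ℚ).num.natAbs + 1) :=
    Nat.lt_pow_self (Fact.out : ℓ.Prime).one_lt
  omega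

/-- normal form in `ℤ_(ℓ)((q))`: `a = ℓ ^ s * a'` with `red a' ≠ 0` -/
theorem exists_normal (a : LaurentSeries (Zl ℓ)) (ha : a ≠ 0) :
    ∃ (s : ℕ) (a' : LaurentSeries (Zl ℓ)), a = (ℓ : LaurentSeries (Zl ℓ)) ^ s * a' ∧
      red ℓ a' ≠ 0 := by
  obtain ⟨c, hc, hnd⟩ := (finiteMultiplicity ℓ a ha).exists_eq_pow_mul_and_not_dvd
  refine ⟨_, c, hc, fun h => hnd ?_⟩
  obtain ⟨a', ha'⟩ := (red_eq_zero_iff ℓ c).mp h
  exact ⟨a', ha'⟩


/-! ### The valuation ring `VV` and its residue map -/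

theorem red_mul_ne_zero {b b' : LaurentSeries (Zl ℓ)} (hb : red ℓ b ≠ 0) (hb' : red ℓ b' ≠ 0) :
    red ℓ (b * b') ≠ 0 := by
  rw [map_mul]
  exact mul_ne_zero hb hb'

theorem ne_zero_of_red_ne_zero {b : LaurentSeries (Zl ℓ)} (hb : red ℓ b ≠ 0) : b ≠ 0 := by
  rintro rfl
  exact hb (map_zero _)

theorem incl_ne_zero_of_red {b : LaurentSeries (Zl ℓ)} (hb : red ℓ b ≠ 0) : incl ℓ b ≠ 0 :=
  fun h => ne_zero_of_red_ne_zero ℓ hb ((incl_eq_zero_iff ℓ b).mp h)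

/-- The subring of `ℚ((q))` of quotients `a / b` with `a, b ∈ ℤ_(ℓ)((q))`, `b ≢ 0 mod ℓ`. -/
noncomputable def VV : Subring (LaurentSeries ℚ) where
  carrier := {x | ∃ a b : LaurentSeries (Zl ℓ), red ℓ b ≠ 0 ∧ x * incl ℓ b = incl ℓ a}
  mul_mem' := by
    rintro x y ⟨a, b, hb, h⟩ ⟨a', b', hb', h'⟩
    refine ⟨a * a', b * b', red_mul_ne_zero ℓ hb hb', ?_⟩
    rw [map_mul, map_mul, ← h, ← h']
    ring
  one_mem' := ⟨1, 1, by rw [map_one]; exact one_ne_zero, by rw [map_one, mul_one]⟩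
  add_mem' := by
    rintro x y ⟨a, b, hb, h⟩ ⟨a', b', hb', h'⟩
    refine ⟨a * b' + a' * b, b * b', red_mul_ne_zero ℓ hb hb', ?_⟩
    rw [map_add, map_mul, map_mul, map_mul, ← h, ← h']
    ring
  zero_mem' := ⟨0, 1, by rw [map_one]; exact one_ne_zero, by rw [map_zero, zero_mul]⟩
  neg_mem' := by
    rintro x ⟨a, b, hb, h⟩
    exact ⟨-a, b, hb, by rw [map_neg, ← h]; ring⟩

theorem mem_VV_iff (x : LaurentSeries ℚ) :
    x ∈ VV ℓ ↔ ∃ a b : LaurentSeries (Zl ℓ), red ℓ b ≠ 0 ∧ x * incl ℓ b = incl ℓ a := Iff.rfl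

theorem incl_mem_VV (a : LaurentSeries (Zl ℓ)) : incl ℓ a ∈ VV ℓ :=
  ⟨a, 1, by rw [map_one]; exact one_ne_zero, by rw [map_one, mul_one]⟩

/-- the value of the residue map computed from a representation -/
theorem red_div_eq {x : LaurentSeries ℚ} {a b a' b' : LaurentSeries (Zl ℓ)}
    (hb : red ℓ b ≠ 0) (h : x * incl ℓ b = incl ℓ a)
    (hb' : red ℓ b' ≠ 0) (h' : x * incl ℓ b' = incl ℓ a') :
    red ℓ a * (red ℓ b)⁻¹ = red ℓ a' * (red ℓ b')⁻¹ := by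
  have h1 : a * b' = a' * b := by
    apply incl_injective ℓ
    rw [map_mul, map_mul, ← h, ← h']
    ring
  have h2 : red ℓ a * red ℓ b' = red ℓ a' * red ℓ b := by
    rw [← map_mul, ← map_mul, h1]
  field_simp
  rw [h2]
  ring

/-- the residue map as a function -/
noncomputable def rhoFun (x : VV ℓ) : LaurentSeries (ZMod ℓ) :=
  red ℓ (Classical.choose x.2) * (red ℓ (Classical.choose (Classical.choose_spec x.2)))⁻¹

theorem rhoFun_eq (x : VV ℓ) {a b : LaurentSeries (Zl ℓ)} (hb : red ℓ b ≠ 0)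
    (h : (x : LaurentSeries ℚ) * incl ℓ b = incl ℓ a) :
    rhoFun ℓ x = red ℓ a * (red ℓ b)⁻¹ := by
  have hs := Classical.choose_spec (Classical.choose_spec x.2)
  exact red_div_eq ℓ hs.1 hs.2 hb h

theorem exists_rep (x : VV ℓ) :
    ∃ a b : LaurentSeries (Zl ℓ), red ℓ b ≠ 0 ∧ (x : LaurentSeries ℚ) * incl ℓ b = incl ℓ a :=
  x.2

/-- **The residue map** `VV → 𝔽_ℓ((q))`. -/
noncomputable def rhoV : VV ℓ →+* LaurentSeries (ZMod ℓ) where
  toFun := rhoFun ℓ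
  map_one' := by
    rw [rhoFun_eq ℓ 1 (a := 1) (b := 1) (by rw [map_one]; exact one_ne_zero)
      (by rw [map_one, mul_one]; rfl)]
    rw [map_one, inv_one, mul_one]
  map_mul' := by
    intro x y
    obtain ⟨a, b, hb, h⟩ := exists_rep ℓ x
    obtain ⟨a', b', hb', h'⟩ := exists_rep ℓ y
    rw [rhoFun_eq ℓ x hb h, rhoFun_eq ℓ y hb' h',
      rhoFun_eq ℓ (x * y) (a := a * a') (b := b * b')
        (red_mul_ne_zero ℓ hb hb') (by
          rw [Subring.coe_mul, map_mul, map_mul, ← h, ← h']; ring)]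
    rw [map_mul, map_mul, mul_inv]
    ring
  map_zero' := by
    rw [rhoFun_eq ℓ 0 (a := 0) (b := 1) (by rw [map_one]; exact one_ne_zero)
      (by rw [map_zero, map_one, mul_one]; rfl)]
    rw [map_zero, zero_mul]
  map_add' := by
    intro x y
    obtain ⟨a, b, hb, h⟩ := exists_rep ℓ x
    obtain ⟨a', b', hb', h'⟩ := exists_rep ℓ y
    rw [rhoFun_eq ℓ x hb h, rhoFun_eq ℓ y hb' h',
      rhoFun_eq ℓ (x + y) (a := a * b' + a' * b) (b := b * b')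
        (red_mul_ne_zero ℓ hb hb') (by
          rw [Subring.coe_add, map_add, map_mul, map_mul, map_mul, ← h, ← h']; ring)]
    rw [map_add, map_mul, map_mul, map_mul]
    field_simp

theorem rhoV_eq (x : VV ℓ) {a b : LaurentSeries (Zl ℓ)} (hb : red ℓ b ≠ 0)
    (h : (x : LaurentSeries ℚ) * incl ℓ b = incl ℓ a) :
    rhoV ℓ x = red ℓ a * (red ℓ b)⁻¹ := rhoFun_eq ℓ x hb h

theorem rhoV_incl (a : LaurentSeries (Zl ℓ)) : rhoV ℓ ⟨incl ℓ a, incl_mem_VV ℓ a⟩ = red ℓ a := by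
  rw [rhoV_eq ℓ _ (a := a) (b := 1) (by rw [map_one]; exact one_ne_zero)
    (by rw [map_one, mul_one]), map_one, inv_one, mul_one]

theorem natCast_ne_zero_Q : ((ℓ : ℕ) : LaurentSeries ℚ) ≠ 0 := by
  intro h
  have h1 := congrArg (fun x => x.coeff 0) h
  simp only [natCast_eq_C, HahnSeries.coeff_zero] at h1
  rw [HahnSeries.C_apply, HahnSeries.coeff_single_same] at h1
  exact (Fact.out : ℓ.Prime).ne_zero (by exact_mod_cast h1)

theorem incl_natCast (n : ℕ) : incl ℓ (n : LaurentSeries (Zl ℓ)) = (n : LaurentSeries ℚ) :=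
  map_natCast _ n

/-- the kernel of the residue map is `ℓ VV` -/
theorem rhoV_eq_zero_iff (x : VV ℓ) : rhoV ℓ x = 0 ↔ ∃ y : VV ℓ, x = (ℓ : VV ℓ) * y := by
  constructor
  · intro h0
    obtain ⟨x, a, b, hb, h⟩ := x
    rw [rhoV_eq ℓ ⟨x, a, b, hb, h⟩ hb h, mul_eq_zero, inv_eq_zero] at h0
    rcases h0 with h0 | h0
    · obtain ⟨a', rfl⟩ := (red_eq_zero_iff ℓ a).mp h0
      have hℓ := natCast_ne_zero_Q ℓ
      have hy : (x / (ℓ : LaurentSeries ℚ)) * incl ℓ b = incl ℓ a' := by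
        rw [map_mul, incl_natCast] at h
        field_simp
        rw [h]
      refine ⟨⟨x / (ℓ : LaurentSeries ℚ), a', b, hb, hy⟩, Subtype.ext ?_⟩
      show x = (ℓ : LaurentSeries ℚ) * (x / (ℓ : LaurentSeries ℚ))
      rw [mul_div_cancel₀ _ hℓ]
    · exact absurd h0 hb
  · rintro ⟨y, rfl⟩
    rw [map_mul, map_natCast]
    have : ((ℓ : ℕ) : LaurentSeries (ZMod ℓ)) = 0 := by
      rw [natCast_eq_C, ZMod.natCast_self, map_zero]
    rw [this, zero_mul]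

/-- units: `u ∈ VV` with nonzero residue has its inverse in `VV` -/
theorem inv_mem_VV {u : LaurentSeries ℚ} (hu : u ∈ VV ℓ) (h : rhoV ℓ ⟨u, hu⟩ ≠ 0) :
    u⁻¹ ∈ VV ℓ := by
  obtain ⟨a, b, hb, hab⟩ := hu
  rw [rhoV_eq ℓ ⟨u, a, b, hb, hab⟩ hb hab] at h
  have ha : red ℓ a ≠ 0 := fun h0 => h (by rw [h0, zero_mul])
  have hb0 := incl_ne_zero_of_red ℓ hb
  have ha0 := incl_ne_zero_of_red ℓ ha
  have hu0 : u ≠ 0 := by
    rintro rfl
    rw [zero_mul] at hab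
    exact ha0 hab.symm
  refine ⟨b, a, ha, ?_⟩
  rw [← hab]
  field_simp

/-- normal form in the fraction field of `ℤ_(ℓ)((q))` -/
theorem exists_normal_form {x : LaurentSeries ℚ} (hx : x ≠ 0)
    (hfrac : ∃ a b : LaurentSeries (Zl ℓ), b ≠ 0 ∧ x * incl ℓ b = incl ℓ a) :
    ∃ (s : ℤ) (u : LaurentSeries ℚ) (hu : u ∈ VV ℓ), rhoV ℓ ⟨u, hu⟩ ≠ 0 ∧
      x = (ℓ : LaurentSeries ℚ) ^ s * u := by
  obtain ⟨a, b, hb, hab⟩ := hfrac
  have hb0 : incl ℓ b ≠ 0 := fun h => hb ((incl_eq_zero_iff ℓ b).mp h)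
  have ha : a ≠ 0 := by
    rintro rfl
    rw [map_zero] at hab
    rcases mul_eq_zero.mp hab with h | h
    · exact hx h
    · exact hb0 h
  obtain ⟨s, a', rfl, ha'⟩ := exists_normal ℓ a ha
  obtain ⟨t, b', rfl, hb'⟩ := exists_normal ℓ b hb
  have hℓ := natCast_ne_zero_Q ℓ
  have hb'0 := incl_ne_zero_of_red ℓ hb'
  have hu : incl ℓ a' / incl ℓ b' ∈ VV ℓ := ⟨a', b', hb', by field_simp⟩
  refine ⟨(s : ℤ) - t, incl ℓ a' / incl ℓ b', hu, ?_, ?_⟩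
  · rw [rhoV_eq ℓ _ (a := a') (b := b') hb' (by field_simp)]
    exact mul_ne_zero ha' (inv_ne_zero hb')
  · rw [map_mul, map_mul, map_pow, map_pow, incl_natCast] at hab
    rw [zpow_sub₀ hℓ, zpow_natCast, zpow_natCast]
    field_simp
    linear_combination hab


/-! ### The function field lies in the fraction field of `ℤ_(ℓ)((q))` -/

/-- `x` is a quotient of two `ℓ`-integral Laurent series -/
def IsFrac (x : LaurentSeries ℚ) : Prop :=
  ∃ a b : LaurentSeries (Zl ℓ), b ≠ 0 ∧ x * incl ℓ b = incl ℓ a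

theorem isFrac_incl (a : LaurentSeries (Zl ℓ)) : IsFrac ℓ (incl ℓ a) :=
  ⟨a, 1, one_ne_zero, by rw [map_one, mul_one]⟩

theorem IsFrac.add {x y : LaurentSeries ℚ} (hx : IsFrac ℓ x) (hy : IsFrac ℓ y) :
    IsFrac ℓ (x + y) := by
  obtain ⟨a, b, hb, h⟩ := hx
  obtain ⟨a', b', hb', h'⟩ := hy
  refine ⟨a * b' + a' * b, b * b', mul_ne_zero hb hb', ?_⟩
  rw [map_add, map_mul, map_mul, map_mul, ← h, ← h']
  ring

theorem IsFrac.mul {x y : LaurentSeries ℚ} (hx : IsFrac ℓ x) (hy : IsFrac ℓ y) :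
    IsFrac ℓ (x * y) := by
  obtain ⟨a, b, hb, h⟩ := hx
  obtain ⟨a', b', hb', h'⟩ := hy
  refine ⟨a * a', b * b', mul_ne_zero hb hb', ?_⟩
  rw [map_mul, map_mul, ← h, ← h']
  ring

theorem IsFrac.inv {x : LaurentSeries ℚ} (hx : IsFrac ℓ x) : IsFrac ℓ x⁻¹ := by
  obtain ⟨a, b, hb, h⟩ := hx
  by_cases hx0 : x = 0
  · rw [hx0, inv_zero]
    exact ⟨0, 1, one_ne_zero, by rw [map_zero, zero_mul]⟩
  · have hb0 : incl ℓ b ≠ 0 := fun h0 => hb ((incl_eq_zero_iff ℓ b).mp h0)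
    have ha : a ≠ 0 := by
      rintro rfl
      rw [map_zero] at h
      rcases mul_eq_zero.mp h with h1 | h1
      · exact hx0 h1
      · exact hb0 h1
    refine ⟨b, a, ha, ?_⟩
    rw [← h]
    field_simp

theorem isFrac_algebraMap (r : ℚ) : IsFrac ℓ (algebraMap ℚ (LaurentSeries ℚ) r) := by
  have hinj : Function.Injective (algebraMap ℚ (LaurentSeries ℚ)) :=
    (algebraMap ℚ (LaurentSeries ℚ)).injective
  have hden : ((r.den : ℕ) : LaurentSeries ℚ) ≠ 0 := by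
    rw [← map_natCast (algebraMap ℚ (LaurentSeries ℚ))]
    intro h0
    rw [← map_zero (algebraMap ℚ (LaurentSeries ℚ))] at h0
    exact r.den_ne_zero (by exact_mod_cast hinj h0)
  refine ⟨((r.num : ℤ) : LaurentSeries (Zl ℓ)), ((r.den : ℕ) : LaurentSeries (Zl ℓ)), ?_, ?_⟩
  · intro h0
    apply hden
    rw [← incl_natCast ℓ, h0, map_zero]
  · rw [incl_natCast, show incl ℓ ((r.num : ℤ) : LaurentSeries (Zl ℓ)) = ((r.num : ℤ) : LaurentSeries ℚ)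
      from map_intCast _ _]
    rw [← map_natCast (algebraMap ℚ (LaurentSeries ℚ)), ← map_intCast (algebraMap ℚ (LaurentSeries ℚ)),
      ← map_mul, Rat.mul_den_eq_num]

theorem incl_jqNModC (d : ℕ) [NeZero d] : incl ℓ (jqNModC (Zl ℓ) d) = qExpand ℚ d jq := by
  show coeffMap _ (jqNModC (Zl ℓ) d) = _
  rw [coeffMap_jqNModC]
  rfl

theorem red_jqNModC (d : ℕ) [NeZero d] : red ℓ (jqNModC (Zl ℓ) d) = jqNModC (ZMod ℓ) d := by
  show coeffMap _ (jqNModC (Zl ℓ) d) = _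
  rw [coeffMap_jqNModC]

theorem incl_jqModC : incl ℓ (jqModC (Zl ℓ)) = jq := by
  show coeffMap _ (jqModC (Zl ℓ)) = _
  rw [coeffMap_jqModC]
  rfl

theorem red_jqModC : red ℓ (jqModC (Zl ℓ)) = jqModC (ZMod ℓ) := by
  show coeffMap _ (jqModC (Zl ℓ)) = _
  rw [coeffMap_jqModC]

theorem isFrac_of_mem_full (N : ℕ) [NeZero N] {x : LaurentSeries ℚ}
    (hx : x ∈ modularFunctionFieldFull N) : IsFrac ℓ x := by
  unfold modularFunctionFieldFull at hx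
  induction hx using IntermediateField.adjoin_induction with
  | mem y hy =>
    obtain ⟨d, hd, -, rfl⟩ := hy
    haveI := hd
    rw [← incl_jqNModC ℓ d]
    exact isFrac_incl ℓ _
  | algebraMap r => exact isFrac_algebraMap ℓ r
  | add y z _ _ hy hz => exact hy.add ℓ hz
  | inv y _ hy => exact hy.inv ℓ
  | mul y z _ _ hy hz => exact hy.mul ℓ hz

/-- normal form for the elements of the function field -/
theorem exists_normal_form_full (N : ℕ) [NeZero N] {x : LaurentSeries ℚ}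
    (hx : x ∈ modularFunctionFieldFull N) (hx0 : x ≠ 0) :
    ∃ (s : ℤ) (u : LaurentSeries ℚ) (hu : u ∈ VV ℓ), rhoV ℓ ⟨u, hu⟩ ≠ 0 ∧
      x = (ℓ : LaurentSeries ℚ) ^ s * u :=
  exists_normal_form ℓ hx0 (isFrac_of_mem_full ℓ N hx)

/-- powers of `ℓ` with nonnegative exponent times elements of `VV` are in `VV` -/
theorem zpow_mul_mem_VV {s : ℤ} (hs : 0 ≤ s) {u : LaurentSeries ℚ} (hu : u ∈ VV ℓ) :
    (ℓ : LaurentSeries ℚ) ^ s * u ∈ VV ℓ := by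
  obtain ⟨n, rfl⟩ := Int.eq_ofNat_of_zero_le hs
  rw [zpow_natCast]
  exact (VV ℓ).mul_mem ((VV ℓ).pow_mem (natCast_mem _ ℓ) n) hu

/-- if `ℓ ^ s * u ∈ VV` with `u` a unit of `VV`, then `s ≥ 0` -/
theorem nonneg_of_zpow_mul_mem {s : ℤ} {u : LaurentSeries ℚ} (hu : u ∈ VV ℓ)
    (hρ : rhoV ℓ ⟨u, hu⟩ ≠ 0) (h : (ℓ : LaurentSeries ℚ) ^ s * u ∈ VV ℓ) : 0 ≤ s := by
  by_contra hs
  push Not at hs
  obtain ⟨n, hn⟩ : ∃ n : ℕ, -s = (n : ℤ) + 1 := ⟨(-s - 1).toNat, by omega⟩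
  have hℓ := natCast_ne_zero_Q ℓ
  -- `u = ℓ ^ (n+1) * (ℓ ^ s * u)`
  have h1 : u = (ℓ : LaurentSeries ℚ) * ((ℓ : LaurentSeries ℚ) ^ n * ((ℓ : LaurentSeries ℚ) ^ s * u)) := by
    have hs' : s = -((n : ℤ) + 1) := by omega
    rw [hs', zpow_neg, ← mul_assoc, ← mul_assoc, ← pow_succ']
    rw [show ((ℓ : LaurentSeries ℚ) ^ ((n : ℤ) + 1)) = (ℓ : LaurentSeries ℚ) ^ (n + 1) by
      rw [← zpow_natCast]; push_cast; rfl]
    rw [mul_inv_cancel₀ (pow_ne_zero _ hℓ), one_mul]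
  have h2 : (ℓ : LaurentSeries ℚ) ^ n * ((ℓ : LaurentSeries ℚ) ^ s * u) ∈ VV ℓ :=
    (VV ℓ).mul_mem ((VV ℓ).pow_mem (natCast_mem _ ℓ) n) h
  apply hρ
  rw [rhoV_eq_zero_iff]
  exact ⟨⟨_, h2⟩, Subtype.ext h1⟩

end Fermat.Agent.S28.Val
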