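import Mathlib
import Fermat.Prelude.Thm_ModularCurve_coeff_jqModC_pow_self
import Fermat.Prelude.Thm_ModularCurve_coeff_jqModC_pow_of_lt
import Fermat.Agent.S28.Basic
import Fermat.Agent.S28.Val

/-!
# S28 (Igusa): polynomials in `j` with `ℓ`-integral coefficients

* `evalAt_ne_zero` : `j` is transcendental (over every nontrivial commutative ring);
* `exists_normal_poly` : `P = ℓ ^ s * P'` with `P' mod ℓ ≠ 0`, for `0 ≠ P ∈ ℤ_(ℓ)[X]`;
* `K1_rep` : every element of `ℚ(j)` is `P(j) / Q(j)` with `P, Q ∈ ℤ_(ℓ)[X]`;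
* `exists_normal_form_K1` : the normal form `c = ℓ ^ s * u` in `ℚ(j)`, with the residue of the
  unit `u` in `𝔽_ℓ(j̄)`.
-/

set_option autoImplicit false
set_option linter.style.haveILetI false
set_option linter.unusedSectionVars false

namespace Fermat.Agent.S28.PolyJ

open HahnSeries ModularCurve Polynomial IntermediateField
open Fermat.Agent.S28.Basic Fermat.Agent.S28.Val

/-! ### `j` is transcendental -/

section Transcendental

variable {R : Type*} [CommRing R]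

theorem coeff_evalAt_jq (P : R[X]) :
    (evalAt R (jqModC R) P).coeff (-(P.natDegree : ℤ)) = P.leadingCoeff := by
  unfold evalAt
  rw [Polynomial.coe_eval₂RingHom, Polynomial.eval₂_eq_sum_range, HahnSeries.coeff_sum]
  rw [Finset.sum_eq_single P.natDegree]
  · rw [HahnSeries.C_mul_eq_smul, HahnSeries.coeff_smul, coeff_jqModC_pow_self, smul_eq_mul,
      mul_one]
    rfl
  · intro i hi hne
    rw [HahnSeries.C_mul_eq_smul, HahnSeries.coeff_smul, coeff_jqModC_pow_of_lt, smul_zero]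
    have := Finset.mem_range.mp hi
    omega
  · intro h
    exact absurd (Finset.mem_range.mpr (Nat.lt_succ_self _)) h

theorem evalAt_ne_zero {P : R[X]} (hP : P ≠ 0) : evalAt R (jqModC R) P ≠ 0 := by
  intro h
  have h1 := coeff_evalAt_jq P
  rw [h, HahnSeries.coeff_zero] at h1
  exact hP (Polynomial.leadingCoeff_eq_zero.mp h1.symm)

end Transcendental

variable (ℓ : ℕ) [Fact ℓ.Prime]

/-- evaluation at `j` of polynomials over `ℤ_(ℓ)` -/
noncomputable abbrev evZ : (Zl ℓ)[X] →+* LaurentSeries (Zl ℓ) := evalAt (Zl ℓ) (jqModC (Zl ℓ))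

/-- evaluation at `j̄` of polynomials over `𝔽_ℓ` -/
noncomputable abbrev evB : (ZMod ℓ)[X] →+* LaurentSeries (ZMod ℓ) :=
  evalAt (ZMod ℓ) (jqModC (ZMod ℓ))

theorem coeffMap_C {R S : Type*} [CommRing R] [CommRing S] (f : R →+* S) (c : R) :
    coeffMap f (HahnSeries.C c) = HahnSeries.C (f c) := by
  rw [HahnSeries.C_apply, HahnSeries.C_apply, coeffMap_single]

theorem coeffMap_evalAt {R S : Type*} [CommRing R] [CommRing S] (f : R →+* S)
    (x : LaurentSeries R) (P : R[X]) :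
    coeffMap f (evalAt R x P) = evalAt S (coeffMap f x) (P.map f) := by
  unfold evalAt
  rw [Polynomial.coe_eval₂RingHom, Polynomial.coe_eval₂RingHom, Polynomial.eval₂_map,
    Polynomial.hom_eval₂]
  congr 1
  ext c : 1
  exact coeffMap_C f c

theorem red_evZ (P : (Zl ℓ)[X]) : red ℓ (evZ ℓ P) = evB ℓ (P.map (resZ ℓ)) := by
  show coeffMap _ _ = _
  rw [coeffMap_evalAt, coeffMap_jqModC]

theorem evZ_X : evZ ℓ Polynomial.X = jqModC (Zl ℓ) := evalAt_X _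

theorem evZ_ne_zero {P : (Zl ℓ)[X]} (hP : P ≠ 0) : evZ ℓ P ≠ 0 := evalAt_ne_zero hP

theorem evB_ne_zero {P : (ZMod ℓ)[X]} (hP : P ≠ 0) : evB ℓ P ≠ 0 := evalAt_ne_zero hP

/-! ### Normal form of polynomials -/

theorem map_resZ_eq_zero_iff (P : (Zl ℓ)[X]) :
    P.map (resZ ℓ) = 0 ↔ (ℓ : (Zl ℓ)[X]) ∣ P := by
  constructor
  · intro h
    have h1 : P ∈ RingHom.ker (Polynomial.mapRingHom (resZ ℓ)) := h
    rw [Polynomial.ker_mapRingHom] at h1
    have hker : RingHom.ker (resZ ℓ) = Ideal.span {(ℓ : Zl ℓ)} := by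
      ext q
      rw [RingHom.mem_ker, resZ_eq_zero_iff, Ideal.mem_span_singleton]
      exact ⟨fun ⟨q', h⟩ => ⟨q', h⟩, fun ⟨q', h⟩ => ⟨q', h⟩⟩
    rw [hker, Ideal.map_span, Set.image_singleton, Ideal.mem_span_singleton] at h1
    rwa [map_natCast] at h1
  · rintro ⟨Q, rfl⟩
    rw [Polynomial.map_mul, Polynomial.map_natCast]
    have : ((ℓ : ℕ) : (ZMod ℓ)[X]) = 0 := by
      rw [← map_natCast (Polynomial.C : ZMod ℓ →+* (ZMod ℓ)[X]), ZMod.natCast_self, map_zero]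
    rw [this, zero_mul]

theorem exists_normal_poly (P : (Zl ℓ)[X]) (hP : P ≠ 0) :
    ∃ (s : ℕ) (P' : (Zl ℓ)[X]), P = (ℓ : (Zl ℓ)[X]) ^ s * P' ∧ P'.map (resZ ℓ) ≠ 0 := by
  have hfin : FiniteMultiplicity (ℓ : (Zl ℓ)[X]) P := by
    obtain ⟨n, hn⟩ := finiteMultiplicity ℓ (evZ ℓ P) (evZ_ne_zero ℓ hP)
    refine ⟨n, fun h => hn ?_⟩
    obtain ⟨Q, hQ⟩ := h
    exact ⟨evZ ℓ Q, by rw [hQ, map_mul, map_pow, map_natCast]⟩
  obtain ⟨c, hc, hnd⟩ := hfin.exists_eq_pow_mul_and_not_dvd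
  exact ⟨_, c, hc, fun h => hnd ((map_resZ_eq_zero_iff ℓ c).mp h)⟩


/-! ### The field `ℚ(j)` -/

/-- `K₁ = ℚ(j)` -/
noncomputable abbrev K1 : IntermediateField ℚ (LaurentSeries ℚ) :=
  IntermediateField.adjoin ℚ {jq}

/-- `K̄₁ = 𝔽_ℓ(j̄)` -/
noncomputable abbrev K1b : IntermediateField (ZMod ℓ) (LaurentSeries (ZMod ℓ)) :=
  IntermediateField.adjoin (ZMod ℓ) {jqModC (ZMod ℓ)}

theorem C_eq_algebraMap {k : Type*} [Field k] (a : k) :
    (HahnSeries.C a : LaurentSeries k) = algebraMap k (LaurentSeries k) a := by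
  rw [algebraMap_laurentSeries_eq_single, HahnSeries.C_apply]

theorem evB_mem_K1b (P : (ZMod ℓ)[X]) : evB ℓ P ∈ K1b ℓ := by
  induction P using Polynomial.induction_on' with
  | add p q hp hq =>
    rw [map_add]
    exact add_mem hp hq
  | monomial n a =>
    rw [← Polynomial.C_mul_X_pow_eq_monomial, map_mul, map_pow, evalAt_C, evalAt_X,
      C_eq_algebraMap]
    exact mul_mem (IntermediateField.algebraMap_mem _ a)
      (pow_mem (IntermediateField.subset_adjoin _ _ (Set.mem_singleton _)) n)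

theorem K1_rep {c : LaurentSeries ℚ} (hc : c ∈ K1) :
    ∃ P Q : (Zl ℓ)[X], Q ≠ 0 ∧ c * incl ℓ (evZ ℓ Q) = incl ℓ (evZ ℓ P) := by
  induction hc using IntermediateField.adjoin_induction with
  | mem y hy =>
    rw [Set.mem_singleton_iff] at hy
    subst hy
    exact ⟨Polynomial.X, 1, one_ne_zero, by
      rw [map_one, map_one, mul_one, evZ_X, incl_jqModC]⟩
  | algebraMap r =>
    have hinj : Function.Injective (algebraMap ℚ (LaurentSeries ℚ)) :=
      (algebraMap ℚ (LaurentSeries ℚ)).injective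
    have hden : ((r.den : ℕ) : LaurentSeries ℚ) ≠ 0 := by
      rw [← map_natCast (algebraMap ℚ (LaurentSeries ℚ))]
      intro h0
      rw [← map_zero (algebraMap ℚ (LaurentSeries ℚ))] at h0
      exact r.den_ne_zero (by exact_mod_cast hinj h0)
    refine ⟨((r.num : ℤ) : (Zl ℓ)[X]), ((r.den : ℕ) : (Zl ℓ)[X]), ?_, ?_⟩
    · intro h0
      apply hden
      rw [← incl_natCast ℓ, ← map_natCast (evZ ℓ), h0, map_zero, map_zero]
    · rw [map_natCast, map_intCast, incl_natCast, map_intCast]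
      rw [← map_natCast (algebraMap ℚ (LaurentSeries ℚ)),
        ← map_intCast (algebraMap ℚ (LaurentSeries ℚ)), ← map_mul, Rat.mul_den_eq_num]
  | add y z _ _ hy hz =>
    obtain ⟨P, Q, hQ, h⟩ := hy
    obtain ⟨P', Q', hQ', h'⟩ := hz
    refine ⟨P * Q' + P' * Q, Q * Q', mul_ne_zero hQ hQ', ?_⟩
    simp only [map_add, map_mul]
    rw [← h, ← h']
    ring
  | inv y _ hy =>
    obtain ⟨P, Q, hQ, h⟩ := hy
    by_cases hy0 : y = 0
    · rw [hy0, inv_zero]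
      exact ⟨0, 1, one_ne_zero, by rw [map_zero, map_zero, zero_mul]⟩
    · have hQ0 : incl ℓ (evZ ℓ Q) ≠ 0 := fun h0 =>
        evZ_ne_zero ℓ hQ ((incl_eq_zero_iff ℓ _).mp h0)
      have hP : P ≠ 0 := by
        rintro rfl
        rw [map_zero, map_zero] at h
        rcases mul_eq_zero.mp h with h1 | h1
        · exact hy0 h1
        · exact hQ0 h1
      refine ⟨Q, P, hP, ?_⟩
      rw [← h]
      field_simp
  | mul y z _ _ hy hz =>
    obtain ⟨P, Q, hQ, h⟩ := hy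
    obtain ⟨P', Q', hQ', h'⟩ := hz
    refine ⟨P * P', Q * Q', mul_ne_zero hQ hQ', ?_⟩
    simp only [map_mul]
    rw [← h, ← h']
    ring

/-- normal form in `ℚ(j)`: `c = ℓ ^ s * u`, `u` a unit of `VV` with residue in `𝔽_ℓ(j̄)` -/
theorem exists_normal_form_K1 {c : LaurentSeries ℚ} (hc : c ∈ K1) (hc0 : c ≠ 0) :
    ∃ (s : ℤ) (u : LaurentSeries ℚ) (hu : u ∈ VV ℓ), rhoV ℓ ⟨u, hu⟩ ≠ 0 ∧
      rhoV ℓ ⟨u, hu⟩ ∈ K1b ℓ ∧ c = (ℓ : LaurentSeries ℚ) ^ s * u := by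
  obtain ⟨P, Q, hQ, h⟩ := K1_rep ℓ hc
  have hQ0 : incl ℓ (evZ ℓ Q) ≠ 0 := fun h0 =>
    evZ_ne_zero ℓ hQ ((incl_eq_zero_iff ℓ _).mp h0)
  have hP : P ≠ 0 := by
    rintro rfl
    rw [map_zero, map_zero] at h
    rcases mul_eq_zero.mp h with h1 | h1
    · exact hc0 h1
    · exact hQ0 h1
  obtain ⟨s, P', rfl, hP'⟩ := exists_normal_poly ℓ P hP
  obtain ⟨t, Q', rfl, hQ'⟩ := exists_normal_poly ℓ Q hQ
  have hℓ := natCast_ne_zero_Q ℓ
  have hrQ : red ℓ (evZ ℓ Q') ≠ 0 := by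
    rw [red_evZ]
    exact evB_ne_zero ℓ hQ'
  have hrP : red ℓ (evZ ℓ P') ≠ 0 := by
    rw [red_evZ]
    exact evB_ne_zero ℓ hP'
  have hQ'0 := incl_ne_zero_of_red ℓ hrQ
  have hu : incl ℓ (evZ ℓ P') / incl ℓ (evZ ℓ Q') ∈ VV ℓ :=
    ⟨evZ ℓ P', evZ ℓ Q', hrQ, by field_simp⟩
  have hρ : rhoV ℓ ⟨_, hu⟩ = evB ℓ (P'.map (resZ ℓ)) * (evB ℓ (Q'.map (resZ ℓ)))⁻¹ := by
    rw [rhoV_eq ℓ _ (a := evZ ℓ P') (b := evZ ℓ Q') hrQ (by field_simp), red_evZ, red_evZ]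
  refine ⟨(s : ℤ) - t, incl ℓ (evZ ℓ P') / incl ℓ (evZ ℓ Q'), hu, ?_, ?_, ?_⟩
  · rw [hρ]
    exact mul_ne_zero (evB_ne_zero ℓ hP') (inv_ne_zero (evB_ne_zero ℓ hQ'))
  · rw [hρ]
    exact mul_mem (evB_mem_K1b ℓ _) (inv_mem (evB_mem_K1b ℓ _))
  · simp only [map_mul, map_pow, map_natCast, incl_natCast] at h
    rw [zpow_sub₀ hℓ, zpow_natCast, zpow_natCast]
    field_simp
    linear_combination h

end Fermat.Agent.S28.PolyJ
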