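import Mathlib
import Fermat.Agent.S28.PolyJ

/-!
# S28 (Igusa), leaf C2: the key claim

Let `x₁, …, xₙ ∈ VV` have residues which are linearly independent over `𝔽_ℓ(j̄)`.  Then

* `linearIndependent_of_residue` : the `xᵢ` are linearly independent over `ℚ(j)`;
* `coeff_mem_VV` : if `∑ cᵢ xᵢ ∈ VV` with `cᵢ ∈ ℚ(j)`, then all `cᵢ ∈ VV`.
-/

set_option autoImplicit false
set_option linter.style.haveILetI false
set_option linter.unusedSectionVars false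

namespace Fermat.Agent.S28.IntegralW

open HahnSeries ModularCurve Polynomial IntermediateField
open Fermat.Agent.S28.Basic Fermat.Agent.S28.Val Fermat.Agent.S28.PolyJ

variable (ℓ : ℕ) [Fact ℓ.Prime]

/-- scaling a family of elements of `ℚ(j)`, not all zero, into `VV` with a unit among them -/
theorem exists_scaling {n : ℕ} (c : Fin n → LaurentSeries ℚ) (hc : ∀ i, c i ∈ K1)
    (hne : ∃ i, c i ≠ 0) :
    ∃ (m : ℤ) (hV : ∀ i, (ℓ : LaurentSeries ℚ) ^ (-m) * c i ∈ VV ℓ),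
      (∀ i, rhoV ℓ ⟨_, hV i⟩ ∈ K1b ℓ) ∧ (∃ i, rhoV ℓ ⟨_, hV i⟩ ≠ 0) ∧
      (0 ≤ m → ∀ i, c i ∈ VV ℓ) := by
  classical
  have hℓ := natCast_ne_zero_Q ℓ
  -- normal forms
  have hnf : ∀ i, c i ≠ 0 → ∃ (s : ℤ) (u : LaurentSeries ℚ) (hu : u ∈ VV ℓ),
      rhoV ℓ ⟨u, hu⟩ ≠ 0 ∧ rhoV ℓ ⟨u, hu⟩ ∈ K1b ℓ ∧ c i = (ℓ : LaurentSeries ℚ) ^ s * u :=
    fun i hi => exists_normal_form_K1 ℓ (hc i) hi
  let s : Fin n → ℤ := fun i => if h : c i ≠ 0 then Classical.choose (hnf i h) else 0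
  have hs : ∀ i (h : c i ≠ 0), ∃ (u : LaurentSeries ℚ) (hu : u ∈ VV ℓ),
      rhoV ℓ ⟨u, hu⟩ ≠ 0 ∧ rhoV ℓ ⟨u, hu⟩ ∈ K1b ℓ ∧ c i = (ℓ : LaurentSeries ℚ) ^ (s i) * u := by
    intro i h
    have := Classical.choose_spec (hnf i h)
    simp only [s, dif_pos h]
    exact this
  set S : Finset (Fin n) := Finset.univ.filter (fun i => c i ≠ 0) with hS
  have hSne : S.Nonempty := by
    obtain ⟨i, hi⟩ := hne
    exact ⟨i, by simp [hS, hi]⟩
  obtain ⟨i₁, hi₁, hmin⟩ := Finset.exists_min_image S s hSne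
  have hi₁' : c i₁ ≠ 0 := by simpa [hS] using hi₁
  have hV : ∀ i, (ℓ : LaurentSeries ℚ) ^ (-(s i₁)) * c i ∈ VV ℓ := by
    intro i
    by_cases hi : c i = 0
    · rw [hi, mul_zero]
      exact (VV ℓ).zero_mem
    · obtain ⟨u, hu, -, -, hcu⟩ := hs i hi
      have hle : s i₁ ≤ s i := hmin i (by simp [hS, hi])
      rw [hcu, ← mul_assoc, ← zpow_add₀ hℓ]
      exact zpow_mul_mem_VV ℓ (by omega) hu
  refine ⟨s i₁, hV, ?_, ⟨i₁, ?_⟩, ?_⟩
  · intro i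
    by_cases hi : c i = 0
    · have : (⟨_, hV i⟩ : VV ℓ) = 0 := Subtype.ext (by
        show (ℓ : LaurentSeries ℚ) ^ (-(s i₁)) * c i = 0
        rw [hi, mul_zero])
      rw [this, map_zero]
      exact zero_mem _
    · obtain ⟨u, hu, hρ, hK, hcu⟩ := hs i hi
      have hle : s i₁ ≤ s i := hmin i (by simp [hS, hi])
      obtain ⟨d, hd⟩ : ∃ d : ℕ, s i - s i₁ = d := ⟨(s i - s i₁).toNat, by omega⟩
      have h1 : (⟨_, hV i⟩ : VV ℓ) = (ℓ : VV ℓ) ^ d * ⟨u, hu⟩ := by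
        apply Subtype.ext
        show (ℓ : LaurentSeries ℚ) ^ (-(s i₁)) * c i = (ℓ : LaurentSeries ℚ) ^ d * u
        rw [hcu, ← mul_assoc, ← zpow_add₀ hℓ, ← zpow_natCast, ← hd]
        congr 2
        ring
      rw [h1, map_mul, map_pow]
      exact mul_mem (pow_mem (by rw [map_natCast]; exact _root_.natCast_mem _ ℓ) d) hK
  · obtain ⟨u, hu, hρ, hK, hcu⟩ := hs i₁ hi₁'
    have h1 : (⟨_, hV i₁⟩ : VV ℓ) = ⟨u, hu⟩ := by
      apply Subtype.ext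
      show (ℓ : LaurentSeries ℚ) ^ (-(s i₁)) * c i₁ = u
      rw [hcu, ← mul_assoc, ← zpow_add₀ hℓ, neg_add_cancel, zpow_zero, one_mul]
    rw [h1]
    exact hρ
  · intro hm i
    by_cases hi : c i = 0
    · rw [hi]
      exact (VV ℓ).zero_mem
    · obtain ⟨u, hu, -, -, hcu⟩ := hs i hi
      have hle : s i₁ ≤ s i := hmin i (by simp [hS, hi])
      rw [hcu]
      exact zpow_mul_mem_VV ℓ (by omega) hu

variable {ℓ}

/-- the contradiction at the heart of the key claim -/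
theorem not_all_zero_of_residue {n : ℕ} (x : Fin n → LaurentSeries ℚ) (hxV : ∀ i, x i ∈ VV ℓ)
    (hli : LinearIndependent (K1b ℓ) (fun i => rhoV ℓ ⟨x i, hxV i⟩))
    (c' : Fin n → LaurentSeries ℚ) (hc' : ∀ i, c' i ∈ VV ℓ)
    (hK : ∀ i, rhoV ℓ ⟨c' i, hc' i⟩ ∈ K1b ℓ)
    (hsum : ∀ h : (∑ i, c' i * x i) ∈ VV ℓ, rhoV ℓ ⟨_, h⟩ = 0) :
    ∀ i, rhoV ℓ ⟨c' i, hc' i⟩ = 0 := by
  have hmem : (∑ i, c' i * x i) ∈ VV ℓ :=
    (VV ℓ).sum_mem fun i _ => (VV ℓ).mul_mem (hc' i) (hxV i)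
  have h0 := hsum hmem
  have h1 : (⟨_, hmem⟩ : VV ℓ) = ∑ i, (⟨c' i, hc' i⟩ : VV ℓ) * ⟨x i, hxV i⟩ := by
    apply Subtype.ext
    rw [AddSubmonoidClass.coe_finset_sum]
    rfl
  rw [h1, map_sum] at h0
  simp only [map_mul] at h0
  rw [Fintype.linearIndependent_iff] at hli
  intro i
  have h2 := hli (fun i => ⟨rhoV ℓ ⟨c' i, hc' i⟩, hK i⟩) (by
    rw [← h0]
    exact Finset.sum_congr rfl fun i _ => rfl) i
  exact congrArg Subtype.val h2

/-- **Key claim, part 1**: linear independence over `ℚ(j)`. -/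
theorem linearIndependent_of_residue {n : ℕ} (x : Fin n → LaurentSeries ℚ)
    (hxV : ∀ i, x i ∈ VV ℓ)
    (hli : LinearIndependent (K1b ℓ) (fun i => rhoV ℓ ⟨x i, hxV i⟩)) :
    LinearIndependent (K1) x := by
  rw [Fintype.linearIndependent_iff]
  intro g hg
  by_contra hcon
  push Not at hcon
  obtain ⟨i₀, hi₀⟩ := hcon
  have hne : ∃ i, ((g i : K1) : LaurentSeries ℚ) ≠ 0 :=
    ⟨i₀, fun h => hi₀ (Subtype.ext h)⟩
  obtain ⟨m, hV, hK, ⟨i₁, hi₁⟩, -⟩ :=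
    exists_scaling ℓ (fun i => ((g i : K1) : LaurentSeries ℚ)) (fun i => (g i).2) hne
  have hsum0 : (∑ i, ((ℓ : LaurentSeries ℚ) ^ (-m) * ((g i : K1) : LaurentSeries ℚ)) * x i) = 0 := by
    have : (∑ i, ((g i : K1) : LaurentSeries ℚ) * x i) = 0 := hg
    simp only [mul_assoc]
    rw [← Finset.mul_sum, this, mul_zero]
  have := not_all_zero_of_residue x hxV hli _ hV hK (fun h => by
    have h1 : (⟨_, h⟩ : VV ℓ) = 0 := Subtype.ext hsum0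
    rw [h1, map_zero]) i₁
  exact hi₁ this

/-- **Key claim, part 2**: the coefficients of an element of `VV` are in `VV`. -/
theorem coeff_mem_VV {n : ℕ} (x : Fin n → LaurentSeries ℚ) (hxV : ∀ i, x i ∈ VV ℓ)
    (hli : LinearIndependent (K1b ℓ) (fun i => rhoV ℓ ⟨x i, hxV i⟩))
    (c : Fin n → LaurentSeries ℚ) (hc : ∀ i, c i ∈ K1)
    (hy : (∑ i, c i * x i) ∈ VV ℓ) : ∀ i, c i ∈ VV ℓ := by
  by_cases hne : ∃ i, c i ≠ 0
  · obtain ⟨m, hV, hK, ⟨i₁, hi₁⟩, hm⟩ := exists_scaling ℓ c hc hne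
    by_cases hm0 : 0 ≤ m
    · exact hm hm0
    · exfalso
      push Not at hm0
      have hℓ := natCast_ne_zero_Q ℓ
      obtain ⟨d, hd⟩ : ∃ d : ℕ, -m = (d : ℤ) + 1 := ⟨(-m - 1).toNat, by omega⟩
      have hsum : (∑ i, ((ℓ : LaurentSeries ℚ) ^ (-m) * c i) * x i) =
          (ℓ : LaurentSeries ℚ) * ((ℓ : LaurentSeries ℚ) ^ d * ∑ i, c i * x i) := by
        simp only [mul_assoc]
        rw [← Finset.mul_sum, hd, zpow_add₀ hℓ, zpow_one, zpow_natCast]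
        ring
      have := not_all_zero_of_residue x hxV hli _ hV hK (fun h => by
        rw [rhoV_eq_zero_iff]
        refine ⟨⟨_, (VV ℓ).mul_mem ((VV ℓ).pow_mem (natCast_mem _ ℓ) d) hy⟩, Subtype.ext ?_⟩
        exact hsum) i₁
      exact hi₁ this
  · push Not at hne
    intro i
    rw [hne i]
    exact (VV ℓ).zero_mem

end Fermat.Agent.S28.IntegralW
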