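import Mathlib
import Fermat.Agent.S28.IntegralW

/-!
# S28 (Igusa): polynomials in a generator `g ∈ VV` with transcendental residue

For `g ∈ VV` whose residue `ḡ` is transcendental over `𝔽_ℓ`:

* `evgV g hg : ℤ_(ℓ)[X] →+* VV`, `P ↦ P(g)`, with residue `P̄(ḡ)`;
* `mem_poly` : `ℚ[g] ∩ VV = ℤ_(ℓ)[g]`;
* `mem_VV_of_integral` : `VV` is integrally closed in the fraction field.
-/

set_option autoImplicit false
set_option linter.style.haveILetI false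
set_option linter.unusedSectionVars false

namespace Fermat.Agent.S28.Gen

open HahnSeries ModularCurve Polynomial IntermediateField
open Fermat.Agent.S28.Basic Fermat.Agent.S28.Val Fermat.Agent.S28.PolyJ

variable (ℓ : ℕ) [Fact ℓ.Prime]

/-- constants: `ℤ_(ℓ) → VV` -/
noncomputable def cV : Zl ℓ →+* VV ℓ :=
  ((incl ℓ).comp (HahnSeries.C : Zl ℓ →+* LaurentSeries (Zl ℓ))).codRestrict (VV ℓ)
    (fun c => incl_mem_VV ℓ _)

theorem coe_cV (c : Zl ℓ) : ((cV ℓ c : VV ℓ) : LaurentSeries ℚ) = HahnSeries.C (c : ℚ) := by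
  show incl ℓ (HahnSeries.C c) = _
  exact coeffMap_C _ c

theorem rhoV_cV (c : Zl ℓ) : rhoV ℓ (cV ℓ c) = HahnSeries.C (resZ ℓ c) := by
  have h : cV ℓ c = ⟨incl ℓ (HahnSeries.C c), incl_mem_VV ℓ _⟩ := rfl
  rw [h, rhoV_incl]
  exact coeffMap_C _ c

variable {ℓ}

/-- evaluation at `g ∈ VV` of polynomials over `ℤ_(ℓ)`, with values in `VV` -/
noncomputable def evgV (g : LaurentSeries ℚ) (hg : g ∈ VV ℓ) : (Zl ℓ)[X] →+* VV ℓ :=
  Polynomial.eval₂RingHom (cV ℓ) ⟨g, hg⟩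

/-- evaluation at `g` with values in `ℚ((q))` -/
noncomputable def evg (g : LaurentSeries ℚ) (hg : g ∈ VV ℓ) : (Zl ℓ)[X] →+* LaurentSeries ℚ :=
  (VV ℓ).subtype.comp (evgV g hg)

theorem evg_mem (g : LaurentSeries ℚ) (hg : g ∈ VV ℓ) (P : (Zl ℓ)[X]) : evg g hg P ∈ VV ℓ :=
  (evgV g hg P).2

theorem evg_X (g : LaurentSeries ℚ) (hg : g ∈ VV ℓ) : evg g hg Polynomial.X = g := by
  simp [evg, evgV]

theorem evg_C (g : LaurentSeries ℚ) (hg : g ∈ VV ℓ) (c : Zl ℓ) :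
    evg g hg (Polynomial.C c) = HahnSeries.C (c : ℚ) := by
  simp only [evg, evgV, RingHom.coe_comp, Function.comp_apply, Polynomial.coe_eval₂RingHom,
    Polynomial.eval₂_C]
  exact coe_cV ℓ c

/-- the residue of `P(g)` is `P̄(ḡ)` -/
theorem rhoV_evgV (g : LaurentSeries ℚ) (hg : g ∈ VV ℓ) (P : (Zl ℓ)[X]) :
    rhoV ℓ (evgV g hg P) = evalAt (ZMod ℓ) (rhoV ℓ ⟨g, hg⟩) (P.map (resZ ℓ)) := by
  have h : (rhoV ℓ).comp (evgV g hg) =
      (evalAt (ZMod ℓ) (rhoV ℓ ⟨g, hg⟩)).comp (Polynomial.mapRingHom (resZ ℓ)) := by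
    apply Polynomial.ringHom_ext
    · intro c
      simp only [RingHom.coe_comp, Function.comp_apply, evgV, Polynomial.coe_eval₂RingHom,
        Polynomial.eval₂_C, Polynomial.coe_mapRingHom, Polynomial.map_C, evalAt_C]
      exact rhoV_cV ℓ c
    · simp only [RingHom.coe_comp, Function.comp_apply, evgV, Polynomial.coe_eval₂RingHom,
        Polynomial.eval₂_X, Polynomial.coe_mapRingHom, Polynomial.map_X, evalAt_X]
  exact congrArg (fun f => f P) h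

theorem natCast_eq_C' (n : ℕ) : ((n : ℕ) : LaurentSeries ℚ) = HahnSeries.C (n : ℚ) := by
  rw [map_natCast]

/-- every element of `ℚ[g]` is `P(g) / D` with `P ∈ ℤ_(ℓ)[X]` and `D` a positive integer -/
theorem Qg_rep (g : LaurentSeries ℚ) (hg : g ∈ VV ℓ) {c : LaurentSeries ℚ}
    (hc : c ∈ Algebra.adjoin ℚ {g}) :
    ∃ (D : ℕ) (P : (Zl ℓ)[X]), D ≠ 0 ∧ c * (D : LaurentSeries ℚ) = evg g hg P := by
  induction hc using Algebra.adjoin_induction with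
  | mem y hy =>
    rw [Set.mem_singleton_iff] at hy
    subst hy
    exact ⟨1, Polynomial.X, one_ne_zero, by rw [Nat.cast_one, mul_one, evg_X]⟩
  | algebraMap r =>
    refine ⟨r.den, Polynomial.C ((r.num : ℤ) : Zl ℓ), r.den_ne_zero, ?_⟩
    rw [evg_C, ← map_natCast (algebraMap ℚ (LaurentSeries ℚ)), ← map_mul, Rat.mul_den_eq_num,
      PolyJ.C_eq_algebraMap]
    congr 1
  | add y z _ _ hy hz =>
    obtain ⟨D, P, hD, h⟩ := hy
    obtain ⟨D', P', hD', h'⟩ := hz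
    refine ⟨D * D', Polynomial.C (D' : Zl ℓ) * P + Polynomial.C (D : Zl ℓ) * P',
      Nat.mul_ne_zero hD hD', ?_⟩
    rw [map_add, map_mul, map_mul, evg_C, evg_C, ← h, ← h']
    push_cast
    rw [← natCast_eq_C', ← natCast_eq_C']
    ring
  | mul y z _ _ hy hz =>
    obtain ⟨D, P, hD, h⟩ := hy
    obtain ⟨D', P', hD', h'⟩ := hz
    refine ⟨D * D', P * P', Nat.mul_ne_zero hD hD', ?_⟩
    rw [map_mul, ← h, ← h']
    push_cast
    ring

/-- a positive integer prime to `ℓ` is a unit of `ℤ_(ℓ)` -/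
theorem exists_inv_natCast {D : ℕ} (hD : ¬ ℓ ∣ D) : ∃ e : Zl ℓ, (e : ℚ) * D = 1 := by
  have hD0 : D ≠ 0 := fun h => hD (h ▸ dvd_zero _)
  have hDq : (D : ℚ) ≠ 0 := by exact_mod_cast hD0
  have hmem : (1 / (D : ℚ)) ∈ GaloisRep.ratLocalizedAt ℓ := by
    rw [mem_ratLoc_iff]
    have h1 : (1 / (D : ℚ)) = Rat.divInt 1 D := by
      rw [Rat.divInt_eq_div]
      push_cast
      rfl
    rw [h1]
    have h2 : ((Rat.divInt 1 D).den : ℤ) ∣ (D : ℤ) := Rat.den_dvd 1 D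
    have h3 : (Rat.divInt 1 D).den ∣ D := by exact_mod_cast h2
    have hcop : D.Coprime ℓ :=
      (Nat.coprime_comm.mp ((Nat.Prime.coprime_iff_not_dvd (Fact.out : ℓ.Prime)).mpr hD))
    exact Nat.Coprime.coprime_dvd_left h3 hcop
  exact ⟨⟨_, hmem⟩, by
    show 1 / (D : ℚ) * D = 1
    field_simp⟩


/-- **`ℚ[g] ∩ VV = ℤ_(ℓ)[g]`** for `g ∈ VV` with transcendental residue -/
theorem mem_poly (g : LaurentSeries ℚ) (hg : g ∈ VV ℓ)
    (hT : ∀ P : (ZMod ℓ)[X], P ≠ 0 → evalAt (ZMod ℓ) (rhoV ℓ ⟨g, hg⟩) P ≠ 0)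
    {c : LaurentSeries ℚ} (hc : c ∈ Algebra.adjoin ℚ {g}) (hV : c ∈ VV ℓ) :
    ∃ P : (Zl ℓ)[X], c = evg g hg P := by
  by_cases hc0 : c = 0
  · exact ⟨0, by rw [hc0, map_zero]⟩
  obtain ⟨D, P, hD, h⟩ := Qg_rep g hg hc
  have hℓ := natCast_ne_zero_Q ℓ
  have hDq : (D : LaurentSeries ℚ) ≠ 0 := by
    rw [natCast_eq_C']
    intro h0
    have h1 := congrArg (fun x => x.coeff 0) h0
    simp only [HahnSeries.coeff_zero] at h1
    rw [HahnSeries.C_apply, HahnSeries.coeff_single_same] at h1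
    exact hD (by exact_mod_cast h1)
  have hP : P ≠ 0 := by
    rintro rfl
    rw [map_zero] at h
    rcases mul_eq_zero.mp h with h1 | h1
    · exact hc0 h1
    · exact hDq h1
  obtain ⟨s, P', rfl, hP'⟩ := exists_normal_poly ℓ P hP
  obtain ⟨a, D', hD', rfl⟩ := Nat.exists_eq_pow_mul_and_not_dvd hD ℓ
    (Fact.out : ℓ.Prime).one_lt.ne'
  obtain ⟨e, he⟩ := exists_inv_natCast (ℓ := ℓ) hD'
  have hD'q : (D' : LaurentSeries ℚ) ≠ 0 := by
    intro h0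
    apply hDq
    push_cast
    rw [h0, mul_zero]
  have heL : (HahnSeries.C (e : ℚ) : LaurentSeries ℚ) * (D' : LaurentSeries ℚ) = 1 := by
    rw [natCast_eq_C', ← map_mul, he, map_one]
  -- the unit `u = e * P'(g)`
  set P'' : (Zl ℓ)[X] := Polynomial.C e * P' with hP''
  have hu : evg g hg P'' ∈ VV ℓ := evg_mem g hg P''
  have hres : resZ ℓ e ≠ 0 := by
    intro h0
    obtain ⟨e', he'⟩ := (resZ_eq_zero_iff ℓ e).mp h0
    have h1 : ((ℓ : ℚ) * (e' : ℚ)) * D' = 1 := by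
      rw [← he]
      congr 1
      rw [he']
      push_cast
      rfl
    -- `ℓ * (e' * D') = 1` in `ℤ_(ℓ)`, so `resZ` of `1` is `0`
    have h2 : (1 : Zl ℓ) = (ℓ : Zl ℓ) * (e' * (D' : Zl ℓ)) := by
      apply Subtype.ext
      push_cast
      rw [← h1]
      ring
    have h3 := congrArg (resZ ℓ) h2
    rw [map_one, map_mul, map_natCast, ZMod.natCast_self, zero_mul] at h3
    exact one_ne_zero h3
  have hρ : rhoV ℓ ⟨_, hu⟩ ≠ 0 := by
    have h1 : (⟨_, hu⟩ : VV ℓ) = evgV g hg P'' := rfl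
    rw [h1, rhoV_evgV]
    apply hT
    rw [hP'', Polynomial.map_mul, Polynomial.map_C]
    exact mul_ne_zero (by rwa [Ne, Polynomial.C_eq_zero]) hP'
  have hc_eq : c = (ℓ : LaurentSeries ℚ) ^ ((s : ℤ) - a) * evg g hg P'' := by
    rw [hP'', map_mul, evg_C]
    simp only [map_mul, map_pow, map_natCast] at h
    push_cast at h
    rw [zpow_sub₀ hℓ, zpow_natCast, zpow_natCast]
    have h4 : (HahnSeries.C (e : ℚ) : LaurentSeries ℚ) = (D' : LaurentSeries ℚ)⁻¹ :=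
      eq_inv_of_mul_eq_one_left heL
    rw [h4]
    field_simp
    linear_combination h
  have hsa : 0 ≤ (s : ℤ) - a := nonneg_of_zpow_mul_mem ℓ hu hρ (hc_eq ▸ hV)
  obtain ⟨d, hd⟩ : ∃ d : ℕ, (s : ℤ) - a = d := ⟨((s : ℤ) - a).toNat, by omega⟩
  refine ⟨(ℓ : (Zl ℓ)[X]) ^ d * P'', ?_⟩
  rw [hc_eq, hd, zpow_natCast]
  simp only [map_mul, map_pow, map_natCast]

/-- `VV` is integrally closed in the fraction field -/
theorem mem_VV_of_integral {x : LaurentSeries ℚ} (hx : IsFrac ℓ x) (p : (VV ℓ)[X])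
    (hp : p.Monic) (h : Polynomial.eval₂ (VV ℓ).subtype x p = 0) : x ∈ VV ℓ := by
  by_cases hx0 : x = 0
  · rw [hx0]
    exact (VV ℓ).zero_mem
  obtain ⟨s, u, hu, hρ, hxu⟩ := exists_normal_form ℓ hx0 hx
  by_cases hs : 0 ≤ s
  · rw [hxu]
    exact zpow_mul_mem_VV ℓ hs hu
  exfalso
  push Not at hs
  have hℓ := natCast_ne_zero_Q ℓ
  have hu0 : u ≠ 0 := by
    rintro rfl
    rw [mul_zero] at hxu
    exact hx0 hxu
  -- `x⁻¹ = ℓ * z` with `z ∈ VV`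
  obtain ⟨d, hd⟩ : ∃ d : ℕ, -s = (d : ℤ) + 1 := ⟨(-s - 1).toNat, by omega⟩
  have hz : (ℓ : LaurentSeries ℚ) ^ d * u⁻¹ ∈ VV ℓ :=
    (VV ℓ).mul_mem ((VV ℓ).pow_mem (natCast_mem _ ℓ) d) (inv_mem_VV ℓ hu hρ)
  have hxinv : x⁻¹ = (ℓ : LaurentSeries ℚ) * ((ℓ : LaurentSeries ℚ) ^ d * u⁻¹) := by
    have hs' : s = -((d : ℤ) + 1) := by omega
    rw [hxu, hs', mul_inv, ← zpow_neg, neg_neg, zpow_add₀ hℓ, zpow_one, zpow_natCast]
    ring
  -- the equation `1 = - x⁻¹ * w`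
  set n := p.natDegree with hn
  have hsum : x ^ n + ∑ i ∈ Finset.range n, ((p.coeff i : VV ℓ) : LaurentSeries ℚ) * x ^ i = 0 := by
    have h1 := hp.as_sum
    rw [h1, Polynomial.eval₂_add, Polynomial.eval₂_pow, Polynomial.eval₂_X,
      Polynomial.eval₂_finsetSum] at h
    rw [← h]
    congr 1
    refine Finset.sum_congr rfl fun i _ => ?_
    rw [Polynomial.eval₂_mul, Polynomial.eval₂_C, Polynomial.eval₂_pow, Polynomial.eval₂_X]
    rfl
  set w : LaurentSeries ℚ :=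
    ∑ i ∈ Finset.range n, ((p.coeff i : VV ℓ) : LaurentSeries ℚ) * (x⁻¹) ^ (n - 1 - i) with hw
  have hwV : w ∈ VV ℓ := by
    refine (VV ℓ).sum_mem fun i _ => (VV ℓ).mul_mem (p.coeff i).2 ?_
    rw [hxinv]
    exact (VV ℓ).pow_mem ((VV ℓ).mul_mem (natCast_mem _ ℓ) hz) _
  have h1 : (1 : LaurentSeries ℚ) = -(x⁻¹ * w) := by
    have h2 : (x⁻¹) ^ n * (x ^ n + ∑ i ∈ Finset.range n,
        ((p.coeff i : VV ℓ) : LaurentSeries ℚ) * x ^ i) = 0 := by rw [hsum, mul_zero]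
    rw [mul_add, ← mul_pow, inv_mul_cancel₀ hx0, one_pow, Finset.mul_sum] at h2
    have h3 : ∑ i ∈ Finset.range n, (x⁻¹) ^ n * (((p.coeff i : VV ℓ) : LaurentSeries ℚ) * x ^ i)
        = x⁻¹ * w := by
      rw [hw, Finset.mul_sum]
      refine Finset.sum_congr rfl fun i hi => ?_
      have hi' : i < n := Finset.mem_range.mp hi
      have e1 : n = (n - 1 - i) + 1 + i := by omega
      conv_lhs => rw [e1]
      rw [_root_.pow_add, pow_succ]
      have e2 : (x⁻¹) ^ i * x ^ i = 1 := by rw [← mul_pow, inv_mul_cancel₀ hx0, one_pow]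
      calc x⁻¹ ^ (n - 1 - i) * x⁻¹ * x⁻¹ ^ i * (((p.coeff i : VV ℓ) : LaurentSeries ℚ) * x ^ i)
          = x⁻¹ * (((p.coeff i : VV ℓ) : LaurentSeries ℚ) * x⁻¹ ^ (n - 1 - i)) *
              (x⁻¹ ^ i * x ^ i) := by ring
        _ = _ := by rw [e2, mul_one]
    rw [h3] at h2
    linear_combination h2
  have h4 : (1 : VV ℓ) = (ℓ : VV ℓ) * (-(⟨_, hz⟩ * ⟨w, hwV⟩)) := by
    apply Subtype.ext
    show (1 : LaurentSeries ℚ) = (ℓ : LaurentSeries ℚ) *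
      (-(((ℓ : LaurentSeries ℚ) ^ d * u⁻¹) * w))
    rw [h1, hxinv]
    ring
  have h5 : rhoV ℓ 1 = 0 := (rhoV_eq_zero_iff ℓ 1).mpr ⟨_, h4⟩
  rw [map_one] at h5
  exact one_ne_zero h5

end Fermat.Agent.S28.Gen
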