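import Mathlib
import Fermat.Agent.S28.Gen

/-!
# S28 (Igusa): lifting residues, and the module `W = F ∩ VV`

* `exists_lift_residue` : every element of `𝔽_ℓ(j̄(q^d) : d ∣ N)` is the residue of an element of
  `F ∩ VV`, `F = ℚ(j(q^d) : d ∣ N)`;
* `exists_coeffs` : given the degree data, there are `x₁, …, xₙ ∈ F ∩ VV` such that every element
  of `F ∩ VV` is a combination `∑ cᵢ xᵢ` with `cᵢ ∈ ℚ(j) ∩ VV`.
-/

set_option autoImplicit false
set_option linter.style.haveILetI false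
set_option linter.unusedSectionVars false

namespace Fermat.Agent.S28.Lift

open HahnSeries ModularCurve Polynomial IntermediateField
open Fermat.Agent.S28.Basic Fermat.Agent.S28.Val Fermat.Agent.S28.PolyJ
open Fermat.Agent.S28.IntegralW

variable (N : ℕ) [NeZero N] (ℓ : ℕ) [Fact ℓ.Prime]

theorem K1_le_full : (K1 : IntermediateField ℚ (LaurentSeries ℚ)) ≤ modularFunctionFieldFull N := by
  rw [IntermediateField.adjoin_le_iff]
  rintro x hx
  rw [Set.mem_singleton_iff] at hx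
  subst hx
  have h := jqd_mem_full N (one_dvd N)
  rwa [qExpand_one_apply] at h

theorem exists_lift_residue {y : LaurentSeries (ZMod ℓ)}
    (hy : y ∈ modularFunctionFieldFullC (ZMod ℓ) N) :
    ∃ (x : LaurentSeries ℚ) (_ : x ∈ modularFunctionFieldFull N) (hxV : x ∈ VV ℓ),
      rhoV ℓ ⟨x, hxV⟩ = y := by
  unfold modularFunctionFieldFullC at hy
  induction hy using IntermediateField.adjoin_induction with
  | mem z hz =>
    obtain ⟨d, hd, hdN, rfl⟩ := hz
    haveI := hd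
    refine ⟨incl ℓ (jqNModC (Zl ℓ) d), ?_, incl_mem_VV ℓ _, ?_⟩
    · rw [incl_jqNModC]
      exact jqd_mem_full N hdN
    · rw [rhoV_incl, red_jqNModC]
      rfl
  | algebraMap a =>
    refine ⟨((a.val : ℕ) : LaurentSeries ℚ), _root_.natCast_mem _ _, _root_.natCast_mem _ _, ?_⟩
    have h1 : (⟨((a.val : ℕ) : LaurentSeries ℚ), _root_.natCast_mem _ _⟩ : VV ℓ) =
        ((a.val : ℕ) : VV ℓ) := rfl
    rw [h1, map_natCast, ← map_natCast (algebraMap (ZMod ℓ) (LaurentSeries (ZMod ℓ))),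
      ZMod.natCast_zmod_val]
  | add z w _ _ hz hw =>
    obtain ⟨x, hxF, hxV, hx⟩ := hz
    obtain ⟨x', hxF', hxV', hx'⟩ := hw
    refine ⟨x + x', add_mem hxF hxF', (VV ℓ).add_mem hxV hxV', ?_⟩
    have h1 : (⟨x + x', (VV ℓ).add_mem hxV hxV'⟩ : VV ℓ) = ⟨x, hxV⟩ + ⟨x', hxV'⟩ := rfl
    rw [h1, map_add, hx, hx']
  | inv z _ hz =>
    obtain ⟨x, hxF, hxV, hx⟩ := hz
    by_cases hz0 : z = 0
    · refine ⟨0, zero_mem _, (VV ℓ).zero_mem, ?_⟩
      have h1 : (⟨0, (VV ℓ).zero_mem⟩ : VV ℓ) = 0 := rfl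
      rw [h1, map_zero, hz0, inv_zero]
    · have hρ : rhoV ℓ ⟨x, hxV⟩ ≠ 0 := by rw [hx]; exact hz0
      have hx0 : x ≠ 0 := by
        rintro rfl
        apply hρ
        have h1 : (⟨0, hxV⟩ : VV ℓ) = 0 := rfl
        rw [h1, map_zero]
      have hinv := inv_mem_VV ℓ hxV hρ
      refine ⟨x⁻¹, inv_mem hxF, hinv, ?_⟩
      have h1 : (⟨x, hxV⟩ : VV ℓ) * ⟨x⁻¹, hinv⟩ = 1 :=
        Subtype.ext (mul_inv_cancel₀ hx0)
      have h2 := congrArg (rhoV ℓ) h1
      rw [map_mul, map_one, hx] at h2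
      exact eq_inv_of_mul_eq_one_right h2
  | mul z w _ _ hz hw =>
    obtain ⟨x, hxF, hxV, hx⟩ := hz
    obtain ⟨x', hxF', hxV', hx'⟩ := hw
    refine ⟨x * x', mul_mem hxF hxF', (VV ℓ).mul_mem hxV hxV', ?_⟩
    have h1 : (⟨x * x', (VV ℓ).mul_mem hxV hxV'⟩ : VV ℓ) = ⟨x, hxV⟩ * ⟨x', hxV'⟩ := rfl
    rw [h1, map_mul, hx, hx']

/-- **The degree data**: the characteristic-`ℓ` lower bound (B6) and the characteristic-`0`
upper bound (A4) for the degree of `X₀(N)` over the `j`-line. -/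
structure DegreeData : Prop where
  exists_indep : ∃ v : Fin (dedekindPsi N) → LaurentSeries (ZMod ℓ),
    (∀ i, v i ∈ modularFunctionFieldFullC (ZMod ℓ) N) ∧ LinearIndependent (K1b ℓ) v
  span_of_indep : ∀ v : Fin (dedekindPsi N) → LaurentSeries ℚ,
    (∀ i, v i ∈ modularFunctionFieldFull N) → LinearIndependent K1 v →
      ∀ x ∈ modularFunctionFieldFull N, x ∈ Submodule.span K1 (Set.range v)

variable {N ℓ}

/-- a basis of `F` over `ℚ(j)` such that `F ∩ VV` is the span of the basis over `ℚ(j) ∩ VV` -/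
theorem exists_coeffs (h : DegreeData N ℓ) :
    ∃ x : Fin (dedekindPsi N) → LaurentSeries ℚ, (∀ i, x i ∈ modularFunctionFieldFull N) ∧
      (∀ i, x i ∈ VV ℓ) ∧
      ∀ y ∈ modularFunctionFieldFull N, y ∈ VV ℓ →
        ∃ c : Fin (dedekindPsi N) → LaurentSeries ℚ, (∀ i, c i ∈ K1) ∧ (∀ i, c i ∈ VV ℓ) ∧
          y = ∑ i, c i * x i := by
  obtain ⟨v, hvF, hvli⟩ := h.exists_indep
  choose x hxF hxV hx using fun i => exists_lift_residue N ℓ (hvF i)
  have hli : LinearIndependent (K1b ℓ) (fun i => rhoV ℓ ⟨x i, hxV i⟩) := by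
    have : (fun i => rhoV ℓ ⟨x i, hxV i⟩) = v := funext hx
    rw [this]
    exact hvli
  have hliK := linearIndependent_of_residue x hxV hli
  refine ⟨x, hxF, hxV, fun y hyF hyV => ?_⟩
  have hspan := h.span_of_indep x hxF hliK y hyF
  rw [Submodule.mem_span_range_iff_exists_fun] at hspan
  obtain ⟨c, hc⟩ := hspan
  have hy : y = ∑ i, ((c i : K1) : LaurentSeries ℚ) * x i := by
    rw [← hc]
    rfl
  refine ⟨fun i => ((c i : K1) : LaurentSeries ℚ), fun i => (c i).2, ?_, hy⟩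
  exact coeff_mem_VV x hxV hli _ (fun i => (c i).2) (hy ▸ hyV)

end Fermat.Agent.S28.Lift
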