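import Mathlib
import Fermat.Agent.S28.Lift

/-!
# S28 (Igusa): the minimal polynomial argument

Let `g ∈ VV` be a generator of `ℚ(j)` over `ℚ` with transcendental residue, and let
`F = ℚ(j(q^d) : d ∣ N)`.  If `y ∈ F ∩ VV` is integral over `ℚ[g]`, then `y` is a root of a monic
polynomial with coefficients in `ℤ_(ℓ)[g]`:

* `y` is integral over `O = ℚ(g) ∩ VV`, because `F ∩ VV` is a finitely generated `O`-module
  (`Lift.exists_coeffs`);
* so the coefficients of the minimal polynomial of `y` over `ℚ(g)` are integral over `O` and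
  over `ℚ[g]`, hence lie in `VV ∩ ℚ[g] = ℤ_(ℓ)[g]` (`Gen.mem_VV_of_integral`, `Gen.mem_poly`).
-/

set_option autoImplicit false
set_option linter.style.haveILetI false
set_option linter.unusedSectionVars false

namespace Fermat.Agent.S28.Minpoly

open HahnSeries ModularCurve Polynomial IntermediateField
open Fermat.Agent.S28.Basic Fermat.Agent.S28.Val Fermat.Agent.S28.PolyJ
open Fermat.Agent.S28.IntegralW Fermat.Agent.S28.Gen Fermat.Agent.S28.Lift
open scoped IntermediateField.algebraAdjoinAdjoin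

variable (N : ℕ) [NeZero N] (ℓ : ℕ) [Fact ℓ.Prime] (g : LaurentSeries ℚ)

/-- the field `ℚ(g)` -/
noncomputable abbrev Kg : IntermediateField ℚ (LaurentSeries ℚ) := IntermediateField.adjoin ℚ {g}

/-- the ring `ℚ[g]` -/
noncomputable abbrev Qg : Subalgebra ℚ (LaurentSeries ℚ) := Algebra.adjoin ℚ {g}

/-- the valuation ring `O = ℚ(g) ∩ VV` of `ℚ(g)` -/
noncomputable def Og : Subring ↥(Kg g) :=
  (VV ℓ).comap (algebraMap ↥(Kg g) (LaurentSeries ℚ))

theorem mem_Og (c : ↥(Kg g)) : c ∈ Og ℓ g ↔ (c : LaurentSeries ℚ) ∈ VV ℓ := Iff.rfl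

instance isScalarTower_Og : IsScalarTower ↥(Og ℓ g) ↥(Kg g) (LaurentSeries ℚ) :=
  IsScalarTower.of_algebraMap_eq (fun _ => rfl)

theorem algebraMap_Og (c : ↥(Og ℓ g)) :
    algebraMap ↥(Og ℓ g) (LaurentSeries ℚ) c = ((c : ↥(Kg g)) : LaurentSeries ℚ) := rfl

/-- `ℚ[g]` is integrally closed when `g` is transcendental -/
theorem isIntegrallyClosed_Qg (hTr : Transcendental ℚ g) : IsIntegrallyClosed ↥(Qg g) := by
  have hinj : Function.Injective (Polynomial.aeval (R := ℚ) g) :=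
    transcendental_iff_injective.mp hTr
  have e1 : ℚ[X] ≃ₐ[ℚ] ↥(Polynomial.aeval (R := ℚ) g).range := AlgEquiv.ofInjective _ hinj
  have e2 : ↥(Polynomial.aeval (R := ℚ) g).range ≃ₐ[ℚ] ↥(Qg g) :=
    Subalgebra.equivOfEq _ _ (Algebra.adjoin_singleton_eq_range_aeval ℚ g).symm
  exact IsIntegrallyClosed.of_equiv (e1.trans e2).toRingEquiv

variable {N ℓ g}

theorem Kg_le_full (hgF : g ∈ modularFunctionFieldFull N) : Kg g ≤ modularFunctionFieldFull N := by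
  rw [IntermediateField.adjoin_le_iff]
  rintro x hx
  rw [Set.mem_singleton_iff] at hx
  subst hx
  exact hgF

/-- `F ∩ VV` as a subalgebra over `O` -/
noncomputable def Wg (hgF : g ∈ modularFunctionFieldFull N) :
    Subalgebra ↥(Og ℓ g) (LaurentSeries ℚ) where
  carrier := {y | y ∈ modularFunctionFieldFull N ∧ y ∈ VV ℓ}
  mul_mem' := fun ha hb => ⟨mul_mem ha.1 hb.1, (VV ℓ).mul_mem ha.2 hb.2⟩
  add_mem' := fun ha hb => ⟨add_mem ha.1 hb.1, (VV ℓ).add_mem ha.2 hb.2⟩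
  algebraMap_mem' := fun c => ⟨Kg_le_full hgF c.1.2, c.2⟩

/-- the finiteness hypothesis: `F ∩ VV` is spanned over `ℚ(g) ∩ VV` by finitely many elements -/
def FiniteW (N : ℕ) [NeZero N] (ℓ : ℕ) [Fact ℓ.Prime] (g : LaurentSeries ℚ) : Prop :=
  ∃ (n : ℕ) (x : Fin n → LaurentSeries ℚ), (∀ i, x i ∈ modularFunctionFieldFull N) ∧
    (∀ i, x i ∈ VV ℓ) ∧
    ∀ y ∈ modularFunctionFieldFull N, y ∈ VV ℓ →
      ∃ c : Fin n → LaurentSeries ℚ, (∀ i, c i ∈ Kg g) ∧ (∀ i, c i ∈ VV ℓ) ∧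
        y = ∑ i, c i * x i

theorem Wg_fg (hgF : g ∈ modularFunctionFieldFull N) (HW : FiniteW N ℓ g) :
    (Wg (ℓ := ℓ) hgF).toSubmodule.FG := by
  obtain ⟨n, x, hxF, hxV, hy⟩ := HW
  refine Submodule.fg_def.mpr ⟨Set.range x, Set.finite_range x, le_antisymm ?_ ?_⟩
  · rw [Submodule.span_le]
    rintro _ ⟨i, rfl⟩
    exact ⟨hxF i, hxV i⟩
  · intro y hy'
    obtain ⟨c, hcK, hcV, rfl⟩ := hy y hy'.1 hy'.2
    refine Submodule.sum_mem _ fun i _ => ?_
    have h1 : c i * x i = (⟨⟨c i, hcK i⟩, hcV i⟩ : Og ℓ g) • x i := rfl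
    rw [h1]
    exact Submodule.smul_mem _ _ (Submodule.subset_span ⟨i, rfl⟩)

/-- **the minimal polynomial argument** -/
theorem exists_monic (hg : g ∈ VV ℓ) (hgF : g ∈ modularFunctionFieldFull N)
    (hT : ∀ P : (ZMod ℓ)[X], P ≠ 0 → evalAt (ZMod ℓ) (rhoV ℓ ⟨g, hg⟩) P ≠ 0)
    (hTr : Transcendental ℚ g) (HW : FiniteW N ℓ g)
    {y : LaurentSeries ℚ} (hyF : y ∈ modularFunctionFieldFull N) (hyV : y ∈ VV ℓ)
    (hyI : IsIntegral ↥(Qg g) y) :
    ∃ M : (Zl ℓ)[X][X], M.Monic ∧ Polynomial.eval₂ (evg g hg) y M = 0 := by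
  have hO : IsIntegral ↥(Og ℓ g) y :=
    IsIntegral.of_mem_of_fg (Wg hgF) (Wg_fg hgF HW) y ⟨hyF, hyV⟩
  have hK : IsIntegral ↥(Kg g) y := hO.tower_top
  have hmonic : (minpoly ↥(Kg g) y).Monic := minpoly.monic hK
  -- the coefficients are integral over `O`
  have h1 : ∀ n, IsIntegral ↥(Og ℓ g) ((minpoly ↥(Kg g) y).coeff n) := by
    obtain ⟨f, hf, hfy⟩ := hO
    have hdvd : minpoly ↥(Kg g) y ∣ f.map (algebraMap ↥(Og ℓ g) ↥(Kg g)) := by
      apply minpoly.dvd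
      rw [Polynomial.aeval_map_algebraMap, Polynomial.aeval_def]
      exact hfy
    have h := integralClosure.mem_lifts_of_monic_of_dvd_map ↥(Kg g) hf hmonic hdvd
    rw [Polynomial.lifts_iff_coeff_lifts] at h
    intro n
    obtain ⟨z, hz⟩ := h n
    rw [← hz]
    exact z.2
  -- the coefficients are integral over `ℚ[g]`
  have h2 : ∀ n, IsIntegral ↥(Qg g) ((minpoly ↥(Kg g) y).coeff n) := by
    obtain ⟨f, hf, hfy⟩ := hyI
    have hdvd : minpoly ↥(Kg g) y ∣ f.map (algebraMap ↥(Qg g) ↥(Kg g)) := by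
      apply minpoly.dvd
      rw [Polynomial.aeval_map_algebraMap, Polynomial.aeval_def]
      exact hfy
    have h := integralClosure.mem_lifts_of_monic_of_dvd_map ↥(Kg g) hf hmonic hdvd
    rw [Polynomial.lifts_iff_coeff_lifts] at h
    intro n
    obtain ⟨z, hz⟩ := h n
    rw [← hz]
    exact z.2
  -- hence they are in `VV`
  have h3 : ∀ n, (((minpoly ↥(Kg g) y).coeff n : ↥(Kg g)) : LaurentSeries ℚ) ∈ VV ℓ := by
    intro n
    obtain ⟨p, hp, hpy⟩ := h1 n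
    let φ : ↥(Og ℓ g) →+* ↥(VV ℓ) :=
      ((algebraMap ↥(Og ℓ g) (LaurentSeries ℚ))).codRestrict (VV ℓ) (fun c => c.2)
    refine mem_VV_of_integral
      (isFrac_of_mem_full ℓ N (Kg_le_full hgF ((minpoly ↥(Kg g) y).coeff n).2))
      (p.map φ) (hp.map φ) ?_
    rw [Polynomial.eval₂_map]
    have h4 : (VV ℓ).subtype.comp φ =
        (algebraMap ↥(Kg g) (LaurentSeries ℚ)).comp (algebraMap ↥(Og ℓ g) ↥(Kg g)) := rfl
    rw [h4]
    have h5 := Polynomial.hom_eval₂ p (algebraMap ↥(Og ℓ g) ↥(Kg g))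
      (algebraMap ↥(Kg g) (LaurentSeries ℚ)) ((minpoly ↥(Kg g) y).coeff n)
    rw [hpy, map_zero] at h5
    exact h5.symm
  -- and in `ℚ[g]`
  haveI := isIntegrallyClosed_Qg g hTr
  have h4 : ∀ n, (((minpoly ↥(Kg g) y).coeff n : ↥(Kg g)) : LaurentSeries ℚ) ∈ Qg g := by
    intro n
    obtain ⟨c, hc⟩ := (IsIntegrallyClosed.isIntegral_iff (R := ↥(Qg g)) (K := ↥(Kg g))).mp (h2 n)
    rw [← hc]
    exact c.2
  -- so they are polynomials in `g` over `ℤ_(ℓ)`
  have h5 : (minpoly ↥(Kg g) y).map (algebraMap ↥(Kg g) (LaurentSeries ℚ)) ∈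
      Polynomial.lifts (evg g hg) := by
    rw [Polynomial.lifts_iff_coeff_lifts]
    intro n
    rw [Polynomial.coeff_map]
    obtain ⟨P, hP⟩ := mem_poly g hg hT (h4 n) (h3 n)
    exact ⟨P, hP.symm⟩
  obtain ⟨M, hM, -, hMm⟩ := Polynomial.lifts_and_degree_eq_and_monic h5
    (hmonic.map (algebraMap ↥(Kg g) (LaurentSeries ℚ)))
  refine ⟨M, hMm, ?_⟩
  rw [← Polynomial.eval_map, hM, Polynomial.eval_map, ← Polynomial.aeval_def]
  exact minpoly.aeval _ _

end Fermat.Agent.S28.Minpoly
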