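import Mathlib
import Fermat.Prelude.Def_GaloisRep_Flat
import Fermat.Prelude.Def_ModularCurve_LaurentCoeff

/-!
# S28, leaf (C4): tensoring with a field of characteristic `ℓ`

`ℤ_(ℓ) = GaloisRep.ratLocalizedAt ℓ`.  If `A` is a commutative `ℤ_(ℓ)`-algebra and
`ρ : A →+* 𝔽_ℓ((q))` is a ring homomorphism whose kernel is contained in `ℓ A`, then for every
field `K` of characteristic `ℓ` (with any `ℤ_(ℓ)`-algebra structure) the ring `A ⊗_{ℤ_(ℓ)} K`
embeds into `K((q))`, hence is a domain (`isDomain_tensor`).  Without the kernel hypothesis it is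
still nontrivial (`nontrivial_tensor`).

* `ringHom_ext` : ring homomorphisms out of `ℤ_(ℓ)` are unique;
* `Phi` : the comparison map `a ⊗ c ↦ c · ρ(a)`;
* `exists_finsupp` : every element of `A ⊗ K` is `∑ aᵢ ⊗ bᵢ` over an `𝔽_ℓ`-basis `b` of `K`;
* `Phi_injective`, `isDomain_tensor`, `nontrivial_tensor`.
-/

set_option autoImplicit false
set_option linter.style.haveILetI false

open scoped TensorProduct

noncomputable section

namespace Fermat.Agent.S28.Tensor

section Base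

variable (ℓ : ℕ)

theorem natCast_inv_mem {d : ℕ} (hd : d.Coprime ℓ) :
    ((d : ℚ)⁻¹) ∈ GaloisRep.ratLocalizedAt ℓ := by
  change ((d : ℚ)⁻¹).den.Coprime ℓ
  rw [Rat.inv_natCast_den]
  split_ifs with h
  · exact Nat.coprime_one_left ℓ
  · exact hd

/-- Every element of `ℤ_(ℓ)` is `n / d` with `d` invertible. -/
theorem exists_eq_mul (x : ↥(GaloisRep.ratLocalizedAt ℓ)) :
    ∃ (n : ℤ) (y : ↥(GaloisRep.ratLocalizedAt ℓ)), x = (n : ↥(GaloisRep.ratLocalizedAt ℓ)) * y ∧
      ∃ d : ℕ, y * (d : ↥(GaloisRep.ratLocalizedAt ℓ)) = 1 := by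
  refine ⟨x.1.num, ⟨(x.1.den : ℚ)⁻¹, natCast_inv_mem ℓ x.2⟩, ?_, x.1.den, ?_⟩
  · apply Subtype.ext
    push_cast
    rw [← div_eq_mul_inv, Rat.num_div_den]
  · apply Subtype.ext
    push_cast
    exact inv_mul_cancel₀ (Nat.cast_ne_zero.2 x.1.den_ne_zero)

/-- Ring homomorphisms out of `ℤ_(ℓ)` are unique. -/
theorem ringHom_ext {S : Type*} [Ring S] (f g : ↥(GaloisRep.ratLocalizedAt ℓ) →+* S) : f = g := by
  ext x
  obtain ⟨n, y, rfl, d, hd⟩ := exists_eq_mul ℓ x
  have hy : f y = g y := by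
    have h1 : f y * (d : S) = 1 := by
      have := congrArg f hd
      simpa using this
    have h2 : (d : S) * g y = 1 := by
      have := congrArg g hd
      rw [mul_comm] at this
      simpa using this
    calc f y = f y * ((d : S) * g y) := by rw [h2, mul_one]
      _ = (f y * (d : S)) * g y := by rw [mul_assoc]
      _ = g y := by rw [h1, one_mul]
  rw [map_mul, map_mul, hy, map_intCast, map_intCast]

end Base


section Main

variable {ℓ : ℕ} [Fact ℓ.Prime] {A : Type*} [CommRing A] [Algebra ↥(GaloisRep.ratLocalizedAt ℓ) A]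
  (ρ : A →+* LaurentSeries (ZMod ℓ))
  (K : Type*) [Field K] [CharP K ℓ] [Algebra ↥(GaloisRep.ratLocalizedAt ℓ) K]

/-- The canonical map `𝔽_ℓ → K`. -/
def iota : ZMod ℓ →+* K := ZMod.castHom (dvd_refl ℓ) K

/-- `a ↦ ρ(a)` with coefficients pushed to `K`, as an algebra map over `ℤ_(ℓ)`. -/
def leftHom : A →ₐ[↥(GaloisRep.ratLocalizedAt ℓ)] LaurentSeries K :=
  { (ModularCurve.coeffMap (iota (ℓ := ℓ) K)).comp ρ with
    commutes' := fun r => by
      have h := ringHom_ext ℓ
        (((ModularCurve.coeffMap (iota (ℓ := ℓ) K)).comp ρ).comp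
          (algebraMap ↥(GaloisRep.ratLocalizedAt ℓ) A))
        (algebraMap ↥(GaloisRep.ratLocalizedAt ℓ) (LaurentSeries K))
      exact congrArg (fun φ => φ r) h }

theorem leftHom_apply (a : A) :
    leftHom ρ K a = ModularCurve.coeffMap (iota (ℓ := ℓ) K) (ρ a) := rfl

/-- The constants, as an algebra map over `ℤ_(ℓ)`. -/
def rightHom : K →ₐ[↥(GaloisRep.ratLocalizedAt ℓ)] LaurentSeries K :=
  { (HahnSeries.C : K →+* LaurentSeries K) with
    commutes' := fun r => by
      have h := ringHom_ext ℓ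
        ((HahnSeries.C : K →+* LaurentSeries K).comp
          (algebraMap ↥(GaloisRep.ratLocalizedAt ℓ) K))
        (algebraMap ↥(GaloisRep.ratLocalizedAt ℓ) (LaurentSeries K))
      exact congrArg (fun φ => φ r) h }

omit [Fact ℓ.Prime] [CharP K ℓ] in
theorem rightHom_apply (c : K) : rightHom (ℓ := ℓ) K c = HahnSeries.C c := rfl

/-- The comparison map `A ⊗ K → K((q))`. -/
def Phi : A ⊗[↥(GaloisRep.ratLocalizedAt ℓ)] K →ₐ[↥(GaloisRep.ratLocalizedAt ℓ)] LaurentSeries K :=
  Algebra.TensorProduct.productMap (leftHom ρ K) (rightHom K)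

theorem Phi_tmul (a : A) (c : K) :
    Phi ρ K (a ⊗ₜ c) = ModularCurve.coeffMap (iota (ℓ := ℓ) K) (ρ a) * HahnSeries.C c := by
  simp [Phi, leftHom_apply, rightHom_apply]

theorem Phi_tmul_coeff (a : A) (c : K) (n : ℤ) :
    (Phi ρ K (a ⊗ₜ c)).coeff n = iota (ℓ := ℓ) K ((ρ a).coeff n) * c := by
  rw [Phi_tmul, mul_comm, HahnSeries.C_mul_eq_smul, HahnSeries.coeff_smul, smul_eq_mul, mul_comm]
  rfl

include ρ in
/-- If `A` maps to `𝔽_ℓ((q))` at all, then `A ⊗ K` is nontrivial. -/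
theorem nontrivial_tensor : Nontrivial (A ⊗[↥(GaloisRep.ratLocalizedAt ℓ)] K) := by
  refine ⟨⟨0, 1, fun h => ?_⟩⟩
  have := congrArg (Phi ρ K) h
  rw [map_zero, map_one] at this
  exact zero_ne_one this

section Basis

variable {I : Type*} (b : letI := ZMod.algebra K ℓ; Module.Basis I (ZMod ℓ) K)

omit [Algebra ↥(GaloisRep.ratLocalizedAt ℓ) A] [Algebra ↥(GaloisRep.ratLocalizedAt ℓ) K] in
theorem zmod_smul_eq (c : ZMod ℓ) (x : K) :
    (letI := ZMod.algebra K ℓ; c • x) = iota (ℓ := ℓ) K c * x := by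
  letI := ZMod.algebra K ℓ
  rw [Algebra.smul_def]
  rfl

omit [Algebra ↥(GaloisRep.ratLocalizedAt ℓ) A] [Algebra ↥(GaloisRep.ratLocalizedAt ℓ) K] in
theorem zmod_smul_eq_nsmul (c : ZMod ℓ) (x : K) :
    (letI := ZMod.algebra K ℓ; c • x) = c.val • x := by
  letI := ZMod.algebra K ℓ
  conv_lhs => rw [← ZMod.natCast_zmod_val c]
  rw [Nat.cast_smul_eq_nsmul]

/-- Every element of `A ⊗ K` is a finite sum `∑ aᵢ ⊗ bᵢ` over the basis. -/
theorem exists_finsupp (x : A ⊗[↥(GaloisRep.ratLocalizedAt ℓ)] K) :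
    ∃ a : I →₀ A, x = a.sum (fun i ai => ai ⊗ₜ[↥(GaloisRep.ratLocalizedAt ℓ)] b i) := by
  letI := ZMod.algebra K ℓ
  induction x using TensorProduct.induction_on with
  | zero => exact ⟨0, by simp⟩
  | tmul a c =>
    refine ⟨(b.repr c).mapRange (fun t => t.val • a) (by simp), ?_⟩
    rw [Finsupp.sum_mapRange_index (by intro i; simp)]
    conv_lhs => rw [← b.linearCombination_repr c, Finsupp.linearCombination_apply]
    rw [Finsupp.sum, TensorProduct.tmul_sum, Finsupp.sum]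
    refine Finset.sum_congr rfl fun i _ => ?_
    rw [zmod_smul_eq_nsmul, TensorProduct.smul_tmul]
  | add x y hx hy =>
    obtain ⟨a, rfl⟩ := hx
    obtain ⟨a', rfl⟩ := hy
    refine ⟨a + a', ?_⟩
    rw [Finsupp.sum_add_index']
    · intro i; simp
    · intro i u v; rw [TensorProduct.add_tmul]

end Basis

/-- **Injectivity of the comparison map**: if the kernel of `ρ` is contained in `ℓ A`, then
`A ⊗ K → K((q))` is injective. -/
theorem Phi_injective (hρ : ∀ a : A, ρ a = 0 → ∃ a' : A, a = (ℓ : A) * a') :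
    Function.Injective (Phi ρ K) := by
  letI := ZMod.algebra K ℓ
  rw [injective_iff_map_eq_zero]
  intro x hx
  let b := Module.Basis.ofVectorSpace (ZMod ℓ) K
  obtain ⟨a, rfl⟩ := exists_finsupp K b x
  rw [Finsupp.sum]
  refine Finset.sum_eq_zero fun i hi => ?_
  have hcoef : ∀ n : ℤ, ∑ j ∈ a.support, ((ρ (a j)).coeff n) • b j = 0 := by
    intro n
    have h1 := congrArg (fun f => HahnSeries.coeff f n) hx
    simp only [Finsupp.sum, map_sum, HahnSeries.coeff_sum, Phi_tmul_coeff,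
      HahnSeries.coeff_zero] at h1
    rw [← h1]
    refine Finset.sum_congr rfl fun j _ => ?_
    exact zmod_smul_eq K _ _
  have hzero : ρ (a i) = 0 := by
    ext n
    exact linearIndependent_iff'.1 b.linearIndependent a.support
      (fun j => (ρ (a j)).coeff n) (hcoef n) i hi
  obtain ⟨a', ha'⟩ := hρ _ hzero
  rw [ha', ← nsmul_eq_mul, TensorProduct.smul_tmul]
  have h0 : (ℓ • b i) = 0 := by rw [nsmul_eq_mul, CharP.cast_eq_zero, zero_mul]
  rw [h0, TensorProduct.tmul_zero]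

/-- **Leaf (C4)**: if `ρ : A → 𝔽_ℓ((q))` is a ring homomorphism whose kernel is contained in
`ℓ A`, then `A ⊗_{ℤ_(ℓ)} K` is a domain for every field `K` of characteristic `ℓ`. -/
theorem isDomain_tensor (hρ : ∀ a : A, ρ a = 0 → ∃ a' : A, a = (ℓ : A) * a') :
    IsDomain (A ⊗[↥(GaloisRep.ratLocalizedAt ℓ)] K) :=
  (Phi_injective ρ K hρ).isDomain (Phi ρ K).toRingHom

end Main

end Fermat.Agent.S28.Tensor
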