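import Mathlib
import Fermat.Prelude.Def_ModularCurve_IgusaScheme
import Fermat.Agent.S28.Minpoly
import Fermat.Agent.S28.PrimeCase
import Fermat.Agent.S28.DegreeZero
import Fermat.Agent.S28.Tensor

/-!
# S28 (Igusa): the reduction maps on the chart algebras

For a generator `g` of `ℚ(j)` (`g = j` or `g = j⁻¹`) the chart algebra `A = chartAlg N ℓ {g}`
(the integral closure of `ℤ_(ℓ)[g]` in `F`) lies in the valuation ring `VV`, and the residue map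
`ρ : A → 𝔽_ℓ((q))` has kernel `ℓ A`: if `ρ a = 0` then `a = ℓ y` with `y ∈ F ∩ VV` integral over
`ℚ[g]`, so `y` is integral over `ℤ_(ℓ)[g]` by the minimal polynomial argument (`Minpoly`).
-/

set_option autoImplicit false
set_option linter.style.haveILetI false
set_option linter.unusedSectionVars false

namespace Fermat.Agent.S28.Chart

open HahnSeries ModularCurve ModularCurve.IgusaScheme Polynomial IntermediateField
open Fermat.Agent.S28.Basic Fermat.Agent.S28.Val Fermat.Agent.S28.PolyJ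
open Fermat.Agent.S28.IntegralW Fermat.Agent.S28.Gen Fermat.Agent.S28.Lift
open Fermat.Agent.S28.Minpoly

variable (N : ℕ) [NeZero N] (ℓ : ℕ) [Fact ℓ.Prime]

/-- the function field `F` -/
abbrev FF : Type := ↥(modularFunctionFieldFull N)

/-- the base ring `ℤ_(ℓ)[g] ⊆ F` -/
noncomputable abbrev AdjF (gF : FF N) : Subalgebra (Zl ℓ) (FF N) :=
  Algebra.adjoin (Zl ℓ) {gF}

variable {N ℓ}

theorem coe_algebraMap_Zl (c : Zl ℓ) :
    ((algebraMap (Zl ℓ) (FF N) c : FF N) : LaurentSeries ℚ) = HahnSeries.C (c : ℚ) := by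
  have h := Fermat.Agent.S28.Tensor.ringHom_ext ℓ
    ((algebraMap (FF N) (LaurentSeries ℚ)).comp (algebraMap (Zl ℓ) (FF N)))
    ((HahnSeries.C : ℚ →+* LaurentSeries ℚ).comp (GaloisRep.ratLocalizedAt ℓ).subtype)
  exact congrArg (fun f => f c) h

theorem coe_mem_of_mem_adjoin {gF : FF N} (hg : (gF : LaurentSeries ℚ) ∈ VV ℓ) {a : FF N}
    (ha : a ∈ AdjF N ℓ gF) :
    (a : LaurentSeries ℚ) ∈ VV ℓ ∧ (a : LaurentSeries ℚ) ∈ Qg (gF : LaurentSeries ℚ) := by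
  induction ha using Algebra.adjoin_induction with
  | mem x hx =>
    rw [Set.mem_singleton_iff] at hx
    subst hx
    exact ⟨hg, Algebra.subset_adjoin rfl⟩
  | algebraMap c =>
    refine ⟨?_, ?_⟩
    · rw [coe_algebraMap_Zl, ← coe_cV]
      exact (cV ℓ c).2
    · rw [coe_algebraMap_Zl, PolyJ.C_eq_algebraMap]
      exact Subalgebra.algebraMap_mem (Qg (gF : LaurentSeries ℚ)) (c : ℚ)
  | add x y _ _ hx hy => exact ⟨(VV ℓ).add_mem hx.1 hy.1, add_mem hx.2 hy.2⟩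
  | mul x y _ _ hx hy => exact ⟨(VV ℓ).mul_mem hx.1 hy.1, mul_mem hx.2 hy.2⟩

/-- the inclusion `ℤ_(ℓ)[g] → ℚ((q))` -/
noncomputable def coeAdj (gF : FF N) : ↥(AdjF N ℓ gF) →+* LaurentSeries ℚ :=
  (algebraMap (FF N) (LaurentSeries ℚ)).comp (algebraMap ↥(AdjF N ℓ gF) (FF N))

theorem coeAdj_apply (gF : FF N) (a : ↥(AdjF N ℓ gF)) :
    coeAdj (ℓ := ℓ) gF a = ((a : FF N) : LaurentSeries ℚ) := rfl

/-- elements of the chart algebra are in `VV` and integral over `ℚ[g]` -/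
theorem coe_mem_of_mem_chartAlg {gF : FF N} (hg : (gF : LaurentSeries ℚ) ∈ VV ℓ) {x : FF N}
    (hx : x ∈ chartAlg N ℓ {gF}) :
    (x : LaurentSeries ℚ) ∈ VV ℓ ∧ IsIntegral ↥(Qg (gF : LaurentSeries ℚ)) (x : LaurentSeries ℚ) := by
  rw [mem_chartAlg_iff] at hx
  obtain ⟨p, hp, hpx⟩ := hx
  have key : Polynomial.eval₂ (coeAdj (ℓ := ℓ) gF) (x : LaurentSeries ℚ) p = 0 := by
    have h5 := Polynomial.hom_eval₂ p (algebraMap ↥(AdjF N ℓ gF) (FF N))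
      (algebraMap (FF N) (LaurentSeries ℚ)) x
    rw [hpx, map_zero] at h5
    exact h5.symm
  refine ⟨?_, ?_⟩
  · let ψ : ↥(AdjF N ℓ gF) →+* ↥(VV ℓ) :=
      (coeAdj (ℓ := ℓ) gF).codRestrict (VV ℓ) (fun a => (coe_mem_of_mem_adjoin hg a.2).1)
    refine mem_VV_of_integral (isFrac_of_mem_full ℓ N x.2) (p.map ψ) (hp.map ψ) ?_
    rw [Polynomial.eval₂_map]
    exact key
  · let ψ : ↥(AdjF N ℓ gF) →+* ↥(Qg (gF : LaurentSeries ℚ)) :=
      (coeAdj (ℓ := ℓ) gF).codRestrict (Qg (gF : LaurentSeries ℚ))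
        (fun a => (coe_mem_of_mem_adjoin hg a.2).2)
    refine ⟨p.map ψ, hp.map ψ, ?_⟩
    rw [Polynomial.eval₂_map]
    exact key

/-- evaluation of polynomials over `ℤ_(ℓ)` at `g`, with values in `ℤ_(ℓ)[g] ⊆ F` -/
noncomputable def chi (gF : FF N) : (Zl ℓ)[X] →+* ↥(AdjF N ℓ gF) :=
  (Polynomial.aeval (⟨gF, Algebra.subset_adjoin rfl⟩ : ↥(AdjF N ℓ gF))).toRingHom

theorem coeAdj_comp_chi {gF : FF N} (hg : (gF : LaurentSeries ℚ) ∈ VV ℓ) :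
    (coeAdj (ℓ := ℓ) gF).comp (chi gF) = evg (gF : LaurentSeries ℚ) hg := by
  apply Polynomial.ringHom_ext
  · intro c
    rw [evg_C, RingHom.comp_apply, coeAdj_apply]
    have h1 : chi (ℓ := ℓ) gF (Polynomial.C c) = algebraMap (Zl ℓ) ↥(AdjF N ℓ gF) c := by
      simp [chi]
    rw [h1]
    exact coe_algebraMap_Zl c
  · rw [evg_X, RingHom.comp_apply, coeAdj_apply]
    simp [chi]

/-- a root in `F` of a monic polynomial over `ℤ_(ℓ)[g]` is in the chart algebra -/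
theorem mem_chartAlg_of_monic {gF : FF N} (hg : (gF : LaurentSeries ℚ) ∈ VV ℓ) {y : FF N}
    (M : (Zl ℓ)[X][X]) (hM : M.Monic)
    (hy : Polynomial.eval₂ (evg (gF : LaurentSeries ℚ) hg) (y : LaurentSeries ℚ) M = 0) :
    y ∈ chartAlg N ℓ {gF} := by
  rw [mem_chartAlg_iff]
  refine ⟨M.map (chi gF), hM.map _, ?_⟩
  rw [Polynomial.eval₂_map]
  apply (algebraMap (FF N) (LaurentSeries ℚ)).injective
  rw [map_zero, Polynomial.hom_eval₂, ← RingHom.comp_assoc]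
  have h1 : (algebraMap (FF N) (LaurentSeries ℚ)).comp (algebraMap ↥(AdjF N ℓ gF) (FF N)) =
      coeAdj (ℓ := ℓ) gF := rfl
  rw [h1, coeAdj_comp_chi hg]
  exact hy

/-- the inclusion of the chart algebra in `VV` -/
noncomputable def iotaA {gF : FF N} (hg : (gF : LaurentSeries ℚ) ∈ VV ℓ) :
    ↥(chartAlg N ℓ {gF}) →+* ↥(VV ℓ) :=
  ((algebraMap (FF N) (LaurentSeries ℚ)).comp
    (algebraMap ↥(chartAlg N ℓ {gF}) (FF N))).codRestrict (VV ℓ)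
    (fun a => (coe_mem_of_mem_chartAlg hg a.2).1)

theorem coe_iotaA {gF : FF N} (hg : (gF : LaurentSeries ℚ) ∈ VV ℓ) (a : ↥(chartAlg N ℓ {gF})) :
    ((iotaA hg a : VV ℓ) : LaurentSeries ℚ) = ((a : FF N) : LaurentSeries ℚ) := rfl

/-- the reduction map on the chart algebra -/
noncomputable def rhoA {gF : FF N} (hg : (gF : LaurentSeries ℚ) ∈ VV ℓ) :
    ↥(chartAlg N ℓ {gF}) →+* LaurentSeries (ZMod ℓ) :=
  (rhoV ℓ).comp (iotaA hg)

theorem rhoA_apply {gF : FF N} (hg : (gF : LaurentSeries ℚ) ∈ VV ℓ) (a : ↥(chartAlg N ℓ {gF})) :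
    rhoA hg a = rhoV ℓ ⟨((a : FF N) : LaurentSeries ℚ), (coe_mem_of_mem_chartAlg hg a.2).1⟩ := rfl

/-- **the kernel of the reduction map is `ℓ A`** -/
theorem rhoA_eq_zero {gF : FF N} (hg : (gF : LaurentSeries ℚ) ∈ VV ℓ)
    (hT : ∀ P : (ZMod ℓ)[X], P ≠ 0 →
      evalAt (ZMod ℓ) (rhoV ℓ ⟨(gF : LaurentSeries ℚ), hg⟩) P ≠ 0)
    (hTr : Transcendental ℚ (gF : LaurentSeries ℚ))
    (HW : FiniteW N ℓ (gF : LaurentSeries ℚ))
    (a : ↥(chartAlg N ℓ {gF})) (ha : rhoA hg a = 0) :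
    ∃ a' : ↥(chartAlg N ℓ {gF}), a = (ℓ : ↥(chartAlg N ℓ {gF})) * a' := by
  obtain ⟨y, hy⟩ := (rhoV_eq_zero_iff ℓ (iotaA hg a)).mp ha
  have hy' : ((a : FF N) : LaurentSeries ℚ) = (ℓ : LaurentSeries ℚ) * (y : LaurentSeries ℚ) := by
    have h1 := congrArg (fun z : VV ℓ => (z : LaurentSeries ℚ)) hy
    simpa [coe_iotaA] using h1
  have hℓ := natCast_ne_zero_Q ℓ
  have hℓF : ((ℓ : ℕ) : FF N) ≠ 0 := by
    intro h0
    apply hℓ
    have h1 := congrArg (fun z : FF N => (z : LaurentSeries ℚ)) h0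
    simpa using h1
  -- the quotient `y = a / ℓ` as an element of `F`
  set yF : FF N := ((ℓ : ℕ) : FF N)⁻¹ * (a : FF N) with hyF
  have hyL : (yF : LaurentSeries ℚ) = (y : LaurentSeries ℚ) := by
    have h1 : (yF : LaurentSeries ℚ) =
        ((ℓ : ℕ) : LaurentSeries ℚ)⁻¹ * ((a : FF N) : LaurentSeries ℚ) := by
      rw [hyF]
      push_cast
      rfl
    rw [h1, hy', ← mul_assoc, inv_mul_cancel₀ hℓ, one_mul]
  have hyV : (yF : LaurentSeries ℚ) ∈ VV ℓ := by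
    rw [hyL]
    exact y.2
  have hyI : IsIntegral ↥(Qg (gF : LaurentSeries ℚ)) (yF : LaurentSeries ℚ) := by
    have h1 : (yF : LaurentSeries ℚ) =
        ((ℓ : ℕ) : LaurentSeries ℚ)⁻¹ * ((a : FF N) : LaurentSeries ℚ) := by
      rw [hyF]
      push_cast
      rfl
    rw [h1]
    refine IsIntegral.mul ?_ (coe_mem_of_mem_chartAlg hg a.2).2
    have hmem : ((ℓ : ℕ) : LaurentSeries ℚ)⁻¹ ∈ Qg (gF : LaurentSeries ℚ) := by
      have h2 := Subalgebra.algebraMap_mem (Qg (gF : LaurentSeries ℚ)) ((ℓ : ℚ)⁻¹)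
      rwa [map_inv₀, map_natCast] at h2
    exact isIntegral_algebraMap (R := ↥(Qg (gF : LaurentSeries ℚ)))
      (x := (⟨_, hmem⟩ : ↥(Qg (gF : LaurentSeries ℚ))))
  obtain ⟨M, hM, hMy⟩ := exists_monic hg gF.2 hT hTr HW yF.2 hyV hyI
  have hmem : yF ∈ chartAlg N ℓ {gF} := mem_chartAlg_of_monic hg M hM hMy
  refine ⟨⟨yF, hmem⟩, ?_⟩
  apply Subtype.ext
  show (a : FF N) = ((ℓ : ↥(chartAlg N ℓ {gF})) : FF N) * yF
  have h3 : (((ℓ : ℕ) : ↥(chartAlg N ℓ {gF})) : FF N) = ((ℓ : ℕ) : FF N) := by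
    push_cast
    rfl
  rw [h3, hyF, ← mul_assoc, mul_inv_cancel₀ hℓF, one_mul]

/-! ### The two generators `j` and `j⁻¹` -/

variable (N ℓ)

theorem jq_mem_VV : (jq : LaurentSeries ℚ) ∈ VV ℓ := by
  rw [← incl_jqModC ℓ]
  exact incl_mem_VV ℓ _

theorem rhoV_jq : rhoV ℓ ⟨jq, jq_mem_VV ℓ⟩ = jqModC (ZMod ℓ) := by
  have h : (⟨jq, jq_mem_VV ℓ⟩ : VV ℓ) = ⟨incl ℓ (jqModC (Zl ℓ)), incl_mem_VV ℓ _⟩ :=
    Subtype.ext (incl_jqModC ℓ).symm
  rw [h, rhoV_incl, red_jqModC]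

theorem jqModC_ne_zero' : jqModC (ZMod ℓ) ≠ 0 := by
  have h := evalAt_ne_zero (R := ZMod ℓ) (P := Polynomial.X) Polynomial.X_ne_zero
  rwa [evalAt_X] at h

theorem jqInv_mem_VV : (jq : LaurentSeries ℚ)⁻¹ ∈ VV ℓ :=
  inv_mem_VV ℓ (jq_mem_VV ℓ) (by rw [rhoV_jq]; exact jqModC_ne_zero' ℓ)

theorem rhoV_jqInv : rhoV ℓ ⟨jq⁻¹, jqInv_mem_VV ℓ⟩ = (jqModC (ZMod ℓ))⁻¹ := by
  have h1 : (⟨jq, jq_mem_VV ℓ⟩ : VV ℓ) * ⟨jq⁻¹, jqInv_mem_VV ℓ⟩ = 1 :=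
    Subtype.ext (mul_inv_cancel₀ jq_ne_zero)
  have h2 := congrArg (rhoV ℓ) h1
  rw [map_mul, map_one, rhoV_jq] at h2
  exact eq_inv_of_mul_eq_one_right h2

theorem hT_jq (P : (ZMod ℓ)[X]) (hP : P ≠ 0) :
    evalAt (ZMod ℓ) (rhoV ℓ ⟨jq, jq_mem_VV ℓ⟩) P ≠ 0 := by
  rw [rhoV_jq]
  exact evalAt_ne_zero hP

theorem hT_jqInv (P : (ZMod ℓ)[X]) (hP : P ≠ 0) :
    evalAt (ZMod ℓ) (rhoV ℓ ⟨jq⁻¹, jqInv_mem_VV ℓ⟩) P ≠ 0 := by
  rw [rhoV_jqInv, Fermat.Agent.S28.PrimeCase.evalAt_eq_aeval]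
  intro h0
  have h1 : Transcendental (ZMod ℓ) (jqModC (ZMod ℓ))⁻¹ := by
    intro halg
    exact Fermat.Agent.S28.PrimeCase.transcendental_jqModC (ZMod ℓ) (IsAlgebraic.inv_iff.mp halg)
  exact hP ((transcendental_iff.mp h1) P h0)

theorem transcendental_jqInv : Transcendental ℚ (jq : LaurentSeries ℚ)⁻¹ := by
  intro halg
  exact Fermat.Agent.S28.DegreeZero.transcendental_jq (IsAlgebraic.inv_iff.mp halg)

variable {N ℓ}

theorem finiteW_jq (h : DegreeData N ℓ) : FiniteW N ℓ jq := by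
  obtain ⟨x, hxF, hxV, hx⟩ := exists_coeffs h
  exact ⟨_, x, hxF, hxV, hx⟩

theorem finiteW_jqInv (h : DegreeData N ℓ) : FiniteW N ℓ (jq : LaurentSeries ℚ)⁻¹ := by
  obtain ⟨x, hxF, hxV, hx⟩ := exists_coeffs h
  refine ⟨_, x, hxF, hxV, fun y hyF hyV => ?_⟩
  obtain ⟨c, hcK, hcV, hy⟩ := hx y hyF hyV
  refine ⟨c, fun i => ?_, hcV, hy⟩
  have hle : (K1 : IntermediateField ℚ (LaurentSeries ℚ)) ≤ Kg (jq : LaurentSeries ℚ)⁻¹ := by
    rw [IntermediateField.adjoin_le_iff]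
    rintro z hz
    rw [Set.mem_singleton_iff] at hz
    subst hz
    have h1 : (jq : LaurentSeries ℚ)⁻¹ ∈ Kg (jq : LaurentSeries ℚ)⁻¹ :=
      IntermediateField.subset_adjoin ℚ _ (Set.mem_singleton _)
    have h2 := inv_mem h1
    rwa [inv_inv] at h2
  exact hle (hcK i)

theorem coe_jFull_inv : (((jFull N)⁻¹ : FF N) : LaurentSeries ℚ) = (jq : LaurentSeries ℚ)⁻¹ := rfl

/-- **the reduction maps on the two chart algebras** -/
theorem exists_rho (h : DegreeData N ℓ) :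
    ∃ (ρFin : ↥(chartAlgFin N ℓ) →+* LaurentSeries (ZMod ℓ))
      (ρInf : ↥(chartAlgInf N ℓ) →+* LaurentSeries (ZMod ℓ)),
      (∀ a : ↥(chartAlgFin N ℓ), ρFin a = 0 → ∃ a', a = (ℓ : ↥(chartAlgFin N ℓ)) * a') ∧
      ρFin (jChartFin N ℓ) ≠ 0 ∧
      (∀ a : ↥(chartAlgInf N ℓ), ρInf a = 0 → ∃ a', a = (ℓ : ↥(chartAlgInf N ℓ)) * a') := by
  have hgF : ((jFull N : FF N) : LaurentSeries ℚ) ∈ VV ℓ := jq_mem_VV ℓ
  have hgI : (((jFull N)⁻¹ : FF N) : LaurentSeries ℚ) ∈ VV ℓ := jqInv_mem_VV ℓ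
  refine ⟨rhoA hgF, rhoA hgI, ?_, ?_, ?_⟩
  · exact rhoA_eq_zero hgF (hT_jq ℓ) Fermat.Agent.S28.DegreeZero.transcendental_jq
      (finiteW_jq h)
  · rw [rhoA_apply]
    show rhoV ℓ ⟨jq, jq_mem_VV ℓ⟩ ≠ 0
    rw [rhoV_jq]
    exact jqModC_ne_zero' ℓ
  · exact rhoA_eq_zero hgI (hT_jqInv ℓ) transcendental_jqInv (finiteW_jqInv h)

end Fermat.Agent.S28.Chart
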