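import Mathlib
import Fermat.Prelude.Def_ModularCurve_IgusaScheme

set_option autoImplicit false

open AlgebraicGeometry CategoryTheory CategoryTheory.Limits ModularCurve ModularCurve.IgusaScheme
open scoped TensorProduct

noncomputable section

namespace Fermat.Agent.S28.Glue

universe u

/-- A scheme covered by integral open subschemes which pairwise meet is integral. -/
theorem isIntegral_of_openCover {X : Scheme.{u}} (𝒰 : X.OpenCover) [Nonempty 𝒰.I₀]
    (h1 : ∀ i, IsIntegral (𝒰.X i))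
    (h2 : ∀ i j, (Set.range (𝒰.f i) ∩ Set.range (𝒰.f j)).Nonempty) : IsIntegral X := by
  have : IsReduced X := IsReduced.of_openCover X 𝒰
  have : IrreducibleSpace X := by
    have : PreirreducibleSpace X := by
      refine PreirreducibleSpace.of_forall_nonempty_inter ?_
      intro U V hU hV hUne hVne
      obtain ⟨x, hx⟩ := hUne
      obtain ⟨y, hy⟩ := hVne
      obtain ⟨i, a, rfl⟩ := 𝒰.exists_eq x
      obtain ⟨j, b, rfl⟩ := 𝒰.exists_eq y
      -- first: U ∩ range (f j) is nonempty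
      have hopen : ∀ k, IsOpen (Set.range (𝒰.f k)) := fun k => (𝒰.f k).isOpenEmbedding.isOpen_range
      have hcont : ∀ k, Continuous (𝒰.f k) := fun k => (𝒰.f k).continuous
      obtain ⟨z, hz⟩ := h2 i j
      obtain ⟨c, rfl⟩ := hz.1
      have h3 : ((𝒰.f i) ⁻¹' U ∩ (𝒰.f i) ⁻¹' (Set.range (𝒰.f j))).Nonempty :=
        nonempty_preirreducible_inter (hU.preimage (hcont i)) ((hopen j).preimage (hcont i))
          ⟨a, hx⟩ ⟨c, hz.2⟩
      obtain ⟨d, hd1, hd2⟩ := h3
      obtain ⟨e, he⟩ := hd2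
      have h4 : ((𝒰.f j) ⁻¹' U ∩ (𝒰.f j) ⁻¹' V).Nonempty :=
        nonempty_preirreducible_inter (hU.preimage (hcont j)) (hV.preimage (hcont j))
          ⟨e, by simpa [he] using hd1⟩ ⟨b, hy⟩
      obtain ⟨w, hw1, hw2⟩ := h4
      exact ⟨_, hw1, hw2⟩
    obtain ⟨i⟩ := ‹Nonempty 𝒰.I₀›
    have : Nonempty (𝒰.X i) := inferInstance
    exact ⟨Nonempty.map (𝒰.f i) inferInstance⟩
  exact isIntegral_of_irreducibleSpace_of_isReduced X

/-- Two-piece version. -/
theorem isIntegral_of_two {X U V : Scheme.{u}} (f : U ⟶ X) (g : V ⟶ X)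
    [IsOpenImmersion f] [IsOpenImmersion g] [IsIntegral U] [IsIntegral V]
    (hcov : ∀ x : X, x ∈ Set.range f ∨ x ∈ Set.range g)
    (hne : (Set.range f ∩ Set.range g).Nonempty) : IsIntegral X := by
  let 𝒰 : X.OpenCover := Scheme.Cover.mkOfCovers Bool (fun b => cond b U V)
    (fun b => match b with
      | true => f
      | false => g)
    (fun x => by
      rcases hcov x with ⟨y, hy⟩ | ⟨y, hy⟩
      · exact ⟨true, y, hy⟩
      · exact ⟨false, y, hy⟩)
    (fun b => by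
      cases b
      · exact (inferInstance : IsOpenImmersion g)
      · exact (inferInstance : IsOpenImmersion f))
  have : Nonempty 𝒰.I₀ := ⟨true⟩
  refine isIntegral_of_openCover 𝒰 ?_ ?_
  · intro b
    cases b
    · exact (inferInstance : IsIntegral V)
    · exact (inferInstance : IsIntegral U)
  · intro b c
    have hU : (Set.range f).Nonempty := hne.mono Set.inter_subset_left
    have hV : (Set.range g).Nonempty := hne.mono Set.inter_subset_right
    cases b <;> cases c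
    · change (Set.range g ∩ Set.range g).Nonempty
      rw [Set.inter_self]; exact hV
    · change (Set.range g ∩ Set.range f).Nonempty
      rw [Set.inter_comm]; exact hne
    · change (Set.range f ∩ Set.range g).Nonempty
      exact hne
    · change (Set.range f ∩ Set.range f).Nonempty
      rw [Set.inter_self]; exact hU


section Igusa

variable (N : ℕ) [NeZero N] (ℓ : ℕ) [Fact ℓ.Prime]
  (K : Type) [Field K] [Algebra ↥(GaloisRep.ratLocalizedAt ℓ) K]

/-- The chart `Spec (A_fin ⊗ K)` of the fibre. -/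
def vFin : Spec (.of ((chartAlgFin N ℓ) ⊗[↥(GaloisRep.ratLocalizedAt ℓ)] K)) ⟶
    pullback (igusaTo N ℓ)
      (Spec.map (CommRingCat.ofHom (algebraMap ↥(GaloisRep.ratLocalizedAt ℓ) K))) :=
  (pullbackSpecIso ↥(GaloisRep.ratLocalizedAt ℓ) (chartAlgFin N ℓ) K).inv ≫
    pullback.map _ _ _ _ (ιFin N ℓ) (𝟙 _) (𝟙 _) (by simp) (by simp)

/-- The chart `Spec (A_inf ⊗ K)` of the fibre. -/
def vInf : Spec (.of ((chartAlgInf N ℓ) ⊗[↥(GaloisRep.ratLocalizedAt ℓ)] K)) ⟶
    pullback (igusaTo N ℓ)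
      (Spec.map (CommRingCat.ofHom (algebraMap ↥(GaloisRep.ratLocalizedAt ℓ) K))) :=
  (pullbackSpecIso ↥(GaloisRep.ratLocalizedAt ℓ) (chartAlgInf N ℓ) K).inv ≫
    pullback.map _ _ _ _ (ιInf N ℓ) (𝟙 _) (𝟙 _) (by simp) (by simp)

instance : IsOpenImmersion (vFin N ℓ K) := by
  unfold vFin; infer_instance

instance : IsOpenImmersion (vInf N ℓ K) := by
  unfold vInf; infer_instance

theorem range_vFin : Set.range (vFin N ℓ K) =
    (pullback.fst (igusaTo N ℓ)
      (Spec.map (CommRingCat.ofHom (algebraMap ↥(GaloisRep.ratLocalizedAt ℓ) K)))) ⁻¹'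
        Set.range (ιFin N ℓ) := by
  unfold vFin
  have hsurj : Function.Surjective
      (pullbackSpecIso ↥(GaloisRep.ratLocalizedAt ℓ) (chartAlgFin N ℓ) K).inv :=
    (Scheme.homeoOfIso (pullbackSpecIso ↥(GaloisRep.ratLocalizedAt ℓ)
      (chartAlgFin N ℓ) K).symm).surjective
  simp only [Scheme.Hom.comp_base, TopCat.hom_comp, ContinuousMap.coe_comp]
  rw [Set.range_comp, hsurj.range_eq, Set.image_univ, Scheme.Pullback.range_map]
  simp

theorem range_vInf : Set.range (vInf N ℓ K) =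
    (pullback.fst (igusaTo N ℓ)
      (Spec.map (CommRingCat.ofHom (algebraMap ↥(GaloisRep.ratLocalizedAt ℓ) K)))) ⁻¹'
        Set.range (ιInf N ℓ) := by
  unfold vInf
  have hsurj : Function.Surjective
      (pullbackSpecIso ↥(GaloisRep.ratLocalizedAt ℓ) (chartAlgInf N ℓ) K).inv :=
    (Scheme.homeoOfIso (pullbackSpecIso ↥(GaloisRep.ratLocalizedAt ℓ)
      (chartAlgInf N ℓ) K).symm).surjective
  simp only [Scheme.Hom.comp_base, TopCat.hom_comp, ContinuousMap.coe_comp]
  rw [Set.range_comp, hsurj.range_eq, Set.image_univ, Scheme.Pullback.range_map]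
  simp

theorem mid_toBase : (fFin N ℓ ≫ ιFin N ℓ) ≫ igusaTo N ℓ =
    Spec.map (CommRingCat.ofHom (algebraMap ↥(GaloisRep.ratLocalizedAt ℓ) (chartAlgMid N ℓ))) := by
  rw [Category.assoc, ιFin_igusaTo, ← Spec.map_comp, ← CommRingCat.ofHom_comp]
  congr 2

/-- The overlap chart `Spec (A_mid ⊗ K)` of the fibre. -/
def vMid : Spec (.of ((chartAlgMid N ℓ) ⊗[↥(GaloisRep.ratLocalizedAt ℓ)] K)) ⟶
    pullback (igusaTo N ℓ)
      (Spec.map (CommRingCat.ofHom (algebraMap ↥(GaloisRep.ratLocalizedAt ℓ) K))) :=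
  (pullbackSpecIso ↥(GaloisRep.ratLocalizedAt ℓ) (chartAlgMid N ℓ) K).inv ≫
    pullback.map _ _ _ _ (fFin N ℓ ≫ ιFin N ℓ) (𝟙 _) (𝟙 _)
      (by rw [Category.comp_id, mid_toBase]) (by simp)

theorem range_vMid_subset : Set.range (vMid N ℓ K) ⊆
    Set.range (vFin N ℓ K) ∩ Set.range (vInf N ℓ K) := by
  rintro _ ⟨t, rfl⟩
  have h1 : (pullback.fst (igusaTo N ℓ)
      (Spec.map (CommRingCat.ofHom (algebraMap ↥(GaloisRep.ratLocalizedAt ℓ) K))))
        (vMid N ℓ K t) ∈ Set.range (fFin N ℓ ≫ ιFin N ℓ) := by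
    have : vMid N ℓ K t ∈ Set.range (pullback.map
        (Spec.map (CommRingCat.ofHom (algebraMap ↥(GaloisRep.ratLocalizedAt ℓ)
          (chartAlgMid N ℓ))))
        (Spec.map (CommRingCat.ofHom (algebraMap ↥(GaloisRep.ratLocalizedAt ℓ) K)))
        (igusaTo N ℓ)
        (Spec.map (CommRingCat.ofHom (algebraMap ↥(GaloisRep.ratLocalizedAt ℓ) K)))
        (fFin N ℓ ≫ ιFin N ℓ) (𝟙 _) (𝟙 _)
        (by rw [Category.comp_id, mid_toBase]) (by simp)) :=
      ⟨(pullbackSpecIso ↥(GaloisRep.ratLocalizedAt ℓ) (chartAlgMid N ℓ) K).inv t, rfl⟩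
    rw [Scheme.Pullback.range_map] at this
    exact this.1
  constructor
  · rw [range_vFin]
    obtain ⟨s, hs⟩ := h1
    exact ⟨fFin N ℓ s, by rw [← hs]; rfl⟩
  · rw [range_vInf]
    rw [glue_condition] at h1
    obtain ⟨s, hs⟩ := h1
    exact ⟨fInf N ℓ s, by rw [← hs]; rfl⟩

/-- **Leaf (D1)**: the fibre of the Igusa scheme over a field `K` is integral as soon as the two
chart algebras tensored with `K` are domains and the overlap algebra tensored with `K` is
nontrivial. -/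
theorem isIntegral_pullback_igusaTo
    (hFin : IsDomain ((chartAlgFin N ℓ) ⊗[↥(GaloisRep.ratLocalizedAt ℓ)] K))
    (hInf : IsDomain ((chartAlgInf N ℓ) ⊗[↥(GaloisRep.ratLocalizedAt ℓ)] K))
    (hMid : Nontrivial ((chartAlgMid N ℓ) ⊗[↥(GaloisRep.ratLocalizedAt ℓ)] K)) :
    IsIntegral ↑(pullback (igusaTo N ℓ)
      (Spec.map (CommRingCat.ofHom (algebraMap ↥(GaloisRep.ratLocalizedAt ℓ) K)))) := by
  have i1 : IsIntegral (Spec (.of ((chartAlgFin N ℓ) ⊗[↥(GaloisRep.ratLocalizedAt ℓ)] K))) :=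
    (affine_isIntegral_iff _).2 hFin
  have i2 : IsIntegral (Spec (.of ((chartAlgInf N ℓ) ⊗[↥(GaloisRep.ratLocalizedAt ℓ)] K))) :=
    (affine_isIntegral_iff _).2 hInf
  refine isIntegral_of_two (vFin N ℓ K) (vInf N ℓ K) ?_ ?_
  · intro x
    rw [range_vFin, range_vInf]
    exact mem_range_ιFin_or_mem_range_ιInf N ℓ _
  · have : Nonempty (Spec (.of ((chartAlgMid N ℓ) ⊗[↥(GaloisRep.ratLocalizedAt ℓ)] K))) :=
      inferInstanceAs (Nonempty (PrimeSpectrum _))
    obtain ⟨t⟩ := this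
    exact ⟨_, range_vMid_subset N ℓ K ⟨t, rfl⟩⟩

end Igusa

end Fermat.Agent.S28.Glue
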