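import Mathlib
import Fermat.Prelude.Def_ModularCurve_IgusaScheme
import Fermat.Agent.S28.Glue
import Fermat.Agent.S28.Tensor

/-!
# S28: the fibre of the Igusa scheme is integral, given reduction maps on the charts

Combination of the leaves (D1) `Glue` and (C4) `Tensor`: if the two chart algebras `A_fin`,
`A_inf` have ring homomorphisms to `𝔽_ℓ((q))` with kernel contained in `ℓ A`, and `j` is not
killed, then the base change of the Igusa scheme to any field `K` of characteristic `ℓ` is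
integral.
-/

set_option autoImplicit false
set_option linter.style.haveILetI false

open AlgebraicGeometry CategoryTheory CategoryTheory.Limits ModularCurve ModularCurve.IgusaScheme
open scoped TensorProduct

noncomputable section

namespace Fermat.Agent.S28.Fibre

variable (N : ℕ) [NeZero N] (ℓ : ℕ) [Fact ℓ.Prime]
  (K : Type) [Field K] [CharP K ℓ] [Algebra ↥(GaloisRep.ratLocalizedAt ℓ) K]

/-- Version with an explicit map on the overlap algebra. -/
theorem isIntegral_of_rho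
    (ρFin : ↥(chartAlgFin N ℓ) →+* LaurentSeries (ZMod ℓ))
    (hFin : ∀ a : ↥(chartAlgFin N ℓ), ρFin a = 0 → ∃ a', a = (ℓ : ↥(chartAlgFin N ℓ)) * a')
    (ρInf : ↥(chartAlgInf N ℓ) →+* LaurentSeries (ZMod ℓ))
    (hInf : ∀ a : ↥(chartAlgInf N ℓ), ρInf a = 0 → ∃ a', a = (ℓ : ↥(chartAlgInf N ℓ)) * a')
    (ρMid : ↥(chartAlgMid N ℓ) →+* LaurentSeries (ZMod ℓ)) :
    IsIntegral ↑(pullback (igusaTo N ℓ)
      (Spec.map (CommRingCat.ofHom (algebraMap ↥(GaloisRep.ratLocalizedAt ℓ) K)))) :=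
  Fermat.Agent.S28.Glue.isIntegral_pullback_igusaTo N ℓ K
    (Fermat.Agent.S28.Tensor.isDomain_tensor ρFin K hFin)
    (Fermat.Agent.S28.Tensor.isDomain_tensor ρInf K hInf)
    (Fermat.Agent.S28.Tensor.nontrivial_tensor ρMid K)

/-- The extension of a map on `A_fin` not killing `j` to the overlap algebra `A_mid = A_fin[1/j]`. -/
def rhoMid (ρFin : ↥(chartAlgFin N ℓ) →+* LaurentSeries (ZMod ℓ))
    (hj : ρFin (jChartFin N ℓ) ≠ 0) : ↥(chartAlgMid N ℓ) →+* LaurentSeries (ZMod ℓ) :=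
  letI := (inclFin N ℓ).toRingHom.toAlgebra
  haveI := isLocalization_away_inclFin N ℓ
  IsLocalization.Away.lift (jChartFin N ℓ) (g := ρFin) hj.isUnit

/-- Version where the map on the overlap is obtained by localisation. -/
theorem isIntegral_of_rho'
    (ρFin : ↥(chartAlgFin N ℓ) →+* LaurentSeries (ZMod ℓ))
    (hFin : ∀ a : ↥(chartAlgFin N ℓ), ρFin a = 0 → ∃ a', a = (ℓ : ↥(chartAlgFin N ℓ)) * a')
    (hj : ρFin (jChartFin N ℓ) ≠ 0)
    (ρInf : ↥(chartAlgInf N ℓ) →+* LaurentSeries (ZMod ℓ))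
    (hInf : ∀ a : ↥(chartAlgInf N ℓ), ρInf a = 0 → ∃ a', a = (ℓ : ↥(chartAlgInf N ℓ)) * a') :
    IsIntegral ↑(pullback (igusaTo N ℓ)
      (Spec.map (CommRingCat.ofHom (algebraMap ↥(GaloisRep.ratLocalizedAt ℓ) K)))) :=
  isIntegral_of_rho N ℓ K ρFin hFin ρInf hInf (rhoMid N ℓ ρFin hj)

end Fermat.Agent.S28.Fibre
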