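import Mathlib
import Fermat.Prelude.Def_ModularCurve_IgusaScheme
import Fermat.Agent.S28.Fibre
import Fermat.Agent.S28.Chart
import Fermat.Agent.S28.DegreeL

/-!
# S28 (Igusa): assembly

The fibre of the Igusa scheme over a field of characteristic `ℓ ∤ N` is integral, given the two
statements (B4) `StarStmt` and (B5) `TowerStmt` over some field `k` of characteristic `ℓ`:

* `DegreeL.exists_indep_of` : `ψ(N)` elements of `𝔽_ℓ(j̄(q^d) : d ∣ N)` independent over `𝔽_ℓ(j̄)`;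
* `DegreeZero.span_eq` : the degree of `ℚ(j(q^d) : d ∣ N)` over `ℚ(j)` is at most `ψ(N)`;
* `Chart.exists_rho` : the reduction maps on the two chart algebras, with kernel `ℓ A`;
* `Fibre.isIntegral_of_rho'` : gluing.
-/

set_option autoImplicit false

open AlgebraicGeometry CategoryTheory CategoryTheory.Limits ModularCurve ModularCurve.IgusaScheme

namespace Fermat.Agent.S28.Assembly

theorem degreeData_of_star_tower
    (N : ℕ) [NeZero N] (ℓ : ℕ) [Fact ℓ.Prime] (hℓN : ¬ ℓ ∣ N)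
    (k : Type) [Field k] [Algebra (ZMod ℓ) k]
    (hS : Fermat.Agent.S28.DegreeL.StarStmt k ℓ) (hT : Fermat.Agent.S28.DegreeL.TowerStmt k ℓ) :
    Fermat.Agent.S28.Lift.DegreeData N ℓ :=
  ⟨Fermat.Agent.S28.DegreeL.exists_indep_of ℓ k hS hT N hℓN,
    Fermat.Agent.S28.DegreeZero.span_eq N⟩

theorem isIntegral_of_degreeData
    (N : ℕ) [NeZero N] (ℓ : ℕ) [Fact ℓ.Prime]
    (K : Type) [Field K] [CharP K ℓ] [Algebra ↥(GaloisRep.ratLocalizedAt ℓ) K]
    (hD : Fermat.Agent.S28.Lift.DegreeData N ℓ) :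
    IsIntegral ↑(pullback (igusaTo N ℓ)
      (Spec.map (CommRingCat.ofHom (algebraMap ↥(GaloisRep.ratLocalizedAt ℓ) K)))) := by
  obtain ⟨ρFin, ρInf, hFin, hj, hInf⟩ := Fermat.Agent.S28.Chart.exists_rho hD
  exact Fermat.Agent.S28.Fibre.isIntegral_of_rho' N ℓ K ρFin hFin hj ρInf hInf

theorem isIntegral_of_star_tower
    (N : ℕ) [NeZero N] (ℓ : ℕ) [Fact ℓ.Prime] (hℓN : ¬ ℓ ∣ N)
    (K : Type) [Field K] [CharP K ℓ] [Algebra ↥(GaloisRep.ratLocalizedAt ℓ) K]
    (k : Type) [Field k] [Algebra (ZMod ℓ) k]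
    (hS : Fermat.Agent.S28.DegreeL.StarStmt k ℓ) (hT : Fermat.Agent.S28.DegreeL.TowerStmt k ℓ) :
    IsIntegral ↑(pullback (igusaTo N ℓ)
      (Spec.map (CommRingCat.ofHom (algebraMap ↥(GaloisRep.ratLocalizedAt ℓ) K)))) :=
  isIntegral_of_degreeData N ℓ K (degreeData_of_star_tower N ℓ hℓN k hS hT)

end Fermat.Agent.S28.Assembly
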