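import Mathlib
import Fermat.Agent.S28.ModEq
import Fermat.Agent.S28.UnitEq

/-!
# S28 (A1) + (A2): the prime data over `ℂ` with integral coefficients

For every prime `r` there is a `Basic.PrimeData ℂ r` (modular equation and unit equation of level
`r`) whose polynomials have coefficients in the ring of algebraic integers and whose unit
polynomial has a constant term dividing `r ^ 12`.
-/

set_option autoImplicit false
set_option linter.style.haveILetI false

namespace Fermat.Agent.S28.PrimeC

open Polynomial ModularCurve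
open Fermat.Agent.S28.Basic Fermat.Agent.S28.Formal

local notation "OO" => integralClosure ℤ ℂ

/-- The inclusion of the algebraic integers. -/
noncomputable abbrev inc : OO →+* ℂ := algebraMap OO ℂ

theorem inc_injective : Function.Injective inc := FaithfulSMul.algebraMap_injective _ _

theorem map_map_evalAt (x : LaurentSeries OO) (Φ : OO[X][X]) :
    (Φ.map (Polynomial.mapRingHom inc)).map (evalAt ℂ (coeffMap inc x)) =
      (Φ.map (evalAt OO x)).map (coeffMap inc) := by
  rw [Polynomial.map_map, Polynomial.map_map, coeffMap_comp_evalAt]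

theorem coeff_coeff_map (Φ : OO[X][X]) (i j : ℕ) :
    ((Φ.map (Polynomial.mapRingHom inc)).coeff i).coeff j ∈ integralClosure ℤ ℂ := by
  rw [Polynomial.coeff_map, Polynomial.coe_mapRingHom, Polynomial.coeff_map]
  exact ((Φ.coeff i).coeff j).2

/-- **(A1) + (A2)**: prime data over `ℂ` with integral coefficients. -/
theorem exists_primeData_complex (r : ℕ) (hr : r.Prime) :
    ∃ P : Basic.PrimeData ℂ r,
      (∀ i j, (P.Φ.coeff i).coeff j ∈ integralClosure ℤ ℂ) ∧
      (∀ i j, (P.Ψ.coeff i).coeff j ∈ integralClosure ℤ ℂ) ∧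
      ∃ m : ℕ, ∃ d ∈ integralClosure ℤ ℂ, (P.Ψ.coeff 0).coeff 0 * d = (r : ℂ) ^ m := by
  obtain ⟨ζ, hζ, Φ, hΦm, hΦd, hΦ⟩ := ModEq.exists_modEq r hr
  obtain ⟨Ψ, hΨm, hΨ, c, ⟨d, hcd⟩, hc⟩ := UnitEq.exists_unitEq r hr
  have hcd' : (c : ℂ) * (d : ℂ) = (r : ℂ) ^ 12 := by
    have := congrArg inc hcd
    rw [map_pow, map_natCast, map_mul] at this
    exact this.symm
  have hc0 : (c : ℂ) ≠ 0 := by
    intro h0
    rw [h0, zero_mul] at hcd'
    exact pow_ne_zero 12 (Nat.cast_ne_zero.mpr hr.ne_zero) hcd'.symm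
  have hΨ0 : (Ψ.map (Polynomial.mapRingHom inc)).coeff 0 = Polynomial.C (c : ℂ) := by
    rw [Polynomial.coeff_map, hc, Polynomial.coe_mapRingHom, Polynomial.map_C]
    rfl
  refine ⟨{ ζ := Units.map (inc : OO →* ℂ) ζ
            prim := ?_
            Φ := Φ.map (Polynomial.mapRingHom inc)
            monicΦ := hΦm.map _
            natDegreeΦ := ?_
            factor := ?_
            Ψ := Ψ.map (Polynomial.mapRingHom inc)
            monicΨ := hΨm.map _
            rootΨ := ?_
            constΨ := ⟨(c : ℂ), hc0, hΨ0⟩ }, coeff_coeff_map Φ, coeff_coeff_map Ψ, 12, (d : ℂ), d.2, ?_⟩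
  · rw [Units.coe_map]
    exact hζ.map_of_injective inc_injective
  · rw [hΦm.natDegree_map, hΦd]
  · have h1 : Jm ℂ r = coeffMap inc (JmR OO r) := (coeffMap_JmR inc r).symm
    rw [h1, map_map_evalAt, hΦ, Polynomial.map_mul, Polynomial.map_sub, Polynomial.map_X,
      Polynomial.map_C, coeffMap_JmR, Polynomial.map_prod]
    congr 1
    refine Finset.prod_congr rfl fun b _ => ?_
    rw [Polynomial.map_sub, Polynomial.map_X, Polynomial.map_C, coeffMap_JxR, JxR_eq_Jx, map_pow]
  · have h1 : Jm ℂ 1 = coeffMap inc (JmR OO 1) := (coeffMap_JmR inc 1).symm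
    have h2 : unitV ℂ r = coeffMap inc (unitVR OO r) := by
      rw [coeffMap_unitVR, unitVR_eq_unitV]
    rw [h1, h2, map_map_evalAt, Polynomial.eval_map_apply, hΨ, map_zero]
  · show ((Ψ.map (Polynomial.mapRingHom inc)).coeff 0).coeff 0 * (d : ℂ) = (r : ℂ) ^ 12
    rw [hΨ0, Polynomial.coeff_C_zero, hcd']

end Fermat.Agent.S28.PrimeC
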