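import Mathlib
import Fermat.Prelude.Def_ModularCurve_X0ModL
import Fermat.Agent.S28.Basic
import Fermat.Agent.S28.Formal
import Fermat.Agent.S28.PrimeCase
import Fermat.Agent.S28.Star

/-!
# S28, leaf (B5), step 0 of the tower

For an arbitrary intermediate field `k ⊆ B ⊆ k((t))` with `J ∈ B` and `J(t^r) ∉ B`, the minimal
polynomial of `J(t^r)` over `B` is the modular polynomial `Φ(X, J)` of degree `r + 1`
(`minpoly_map`, `natDegree_minpoly`), hence `1, x, …, x^r` (`x = J(t^r)`) are linearly independent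
over `B` (`indep_zero`).

Proof: apply `t ↦ t^r`.  The image `μ'` of the minimal polynomial has coefficients in `k((t^r))`,
divides `Φ(X, J(t^r)) = (X - J(t^(r²))) ∏_b (X - J(ζ^b t))` and has the root `J(t^(r²))`.  It is not
linear, so it has a root `J(ζ^b t)`; the automorphisms `t ↦ ζ^c t` fix its coefficients and
permute the `J(ζ^a t)` transitively, so all `r + 1` pairwise distinct roots of `Φ(X, J(t^r))` are
roots of `μ'`.
-/

set_option autoImplicit false
set_option linter.style.haveILetI false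

open HahnSeries Polynomial ModularCurve
open Fermat.Agent.S28.Basic Fermat.Agent.S28.Formal Fermat.Agent.S28.PrimeCase

noncomputable section

namespace Fermat.Agent.S28.TowerZero

/-! ### The power basis -/

section Generic

variable {K S : Type*} [Field K] [CommRing S] [Algebra K S]

/-- The first `d` powers of `x` are linearly independent if `d` is at most the degree of the
minimal polynomial. -/
theorem linearIndependent_pow_of_le (x : S) {d : ℕ} (hd : d ≤ (minpoly K x).natDegree) :
    LinearIndependent K (fun a : Fin d => x ^ (a : ℕ)) :=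
  (linearIndependent_pow (K := K) x).comp (Fin.castLE hd) (Fin.castLE_injective hd)

end Generic

/-! ### The roots of the modular equation are pairwise distinct -/

section Roots

variable (k : Type*) [Field k]

theorem coeff_JxR_one (ξ : kˣ) : (JxR k ξ 1).coeff (-1) = ((ξ⁻¹ : kˣ) : k) := by
  unfold JxR
  rw [Basic.sub_one, rescaleU_coeff, coeff_jqModC_neg_one, mul_one, zpow_neg_one]

theorem JxR_one_injective : Function.Injective (fun ξ : kˣ => JxR k ξ 1) := by
  intro ξ ξ' h
  have h1 := congrArg (fun f : LaurentSeries k => f.coeff (-1)) h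
  simp only [coeff_JxR_one] at h1
  exact inv_injective (Units.ext h1)

theorem Jm_ne_JxR_one {n : ℕ} (hn : 2 ≤ n) (ξ : kˣ) : Jm k n ≠ JxR k ξ 1 := by
  intro h
  have h1 := congrArg (fun f : LaurentSeries k => f.coeff (-1)) h
  simp only [coeff_JxR_one] at h1
  have h0 : (Jm k n).coeff (-1) = 0 := by
    unfold Jm
    refine sub_coeff_of_not_dvd (by omega) _ ?_
    intro hdvd
    have := Int.le_of_dvd (by norm_num) ((dvd_neg).1 hdvd)
    omega
  rw [h0] at h1
  exact (Units.ne_zero _) h1.symm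

theorem rescaleU_JxR_one (ω ξ : kˣ) : rescaleU ω (JxR k ξ 1) = JxR k (ω * ξ) 1 := by
  have h := Star.psi_JxR k ω ξ one_ne_zero one_ne_zero
  rw [Star.psi_apply, Basic.sub_one, pow_one, one_mul] at h
  exact h

end Roots

/-! ### Step 0 -/

section Zero

variable (k : Type*) [Field k]

/-- Evaluation of polynomials at `J`, with values in `B`. -/
def evalB (B : IntermediateField k (LaurentSeries k)) (hJ : jqModC k ∈ B) : k[X] →+* ↥B :=
  Polynomial.eval₂RingHom (algebraMap k ↥B) ⟨jqModC k, hJ⟩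

theorem algebraMap_comp_evalB (B : IntermediateField k (LaurentSeries k)) (hJ : jqModC k ∈ B) :
    (algebraMap ↥B (LaurentSeries k)).comp (evalB k B hJ) = evalAt k (jqModC k) := by
  refine Polynomial.ringHom_ext (fun c => ?_) ?_
  · rw [RingHom.comp_apply, evalAt_C]
    simp only [evalB, Polynomial.coe_eval₂RingHom, Polynomial.eval₂_C]
    exact Star.algebraMap_eq_C k c
  · rw [RingHom.comp_apply, evalAt_X]
    simp only [evalB, Polynomial.coe_eval₂RingHom, Polynomial.eval₂_X]
    rfl

variable {k}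

theorem map_evalB {r : ℕ} (P : PrimeData k r) (B : IntermediateField k (LaurentSeries k))
    (hJ : jqModC k ∈ B) :
    (P.Φ.map (evalB k B hJ)).map (algebraMap ↥B (LaurentSeries k)) =
      P.Φ.map (evalAt k (jqModC k)) := by
  rw [Polynomial.map_map, algebraMap_comp_evalB]

theorem aeval_evalB {r : ℕ} (hr : r ≠ 0) (P : PrimeData k r)
    (B : IntermediateField k (LaurentSeries k)) (hJ : jqModC k ∈ B) :
    Polynomial.aeval (Jm k r) (P.Φ.map (evalB k B hJ)) = 0 := by
  rw [Polynomial.aeval_def, Polynomial.eval₂_eq_eval_map, map_evalB]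
  exact root_Jm k hr P

theorem isIntegral_Jm {r : ℕ} (hr : r ≠ 0) (P : PrimeData k r)
    (B : IntermediateField k (LaurentSeries k)) (hJ : jqModC k ∈ B) :
    IsIntegral ↥B (Jm k r) :=
  ⟨P.Φ.map (evalB k B hJ), P.monicΦ.map _, by
    have := aeval_evalB hr P B hJ
    rwa [Polynomial.aeval_def] at this⟩

/-- All `r + 1` roots of `Φ(X, J(t^r))` are roots of the transported minimal polynomial. -/
theorem roots_minpoly {r : ℕ} (hr : r.Prime) (P : PrimeData k r)
    (B : IntermediateField k (LaurentSeries k)) (hJ : jqModC k ∈ B) (hB : Jm k r ∉ B) :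
    ((minpoly ↥B (Jm k r)).map ((sub k r).comp (algebraMap ↥B (LaurentSeries k)))).eval
        (Jm k (r ^ 2)) = 0 ∧
      ∀ a : ℕ, ((minpoly ↥B (Jm k r)).map
        ((sub k r).comp (algebraMap ↥B (LaurentSeries k)))).eval (JxR k (P.ζ ^ a) 1) = 0 := by
  have hr0 : r ≠ 0 := hr.ne_zero
  set μ := minpoly ↥B (Jm k r) with hμ
  set s : ↥B →+* LaurentSeries k := (sub k r).comp (algebraMap ↥B (LaurentSeries k)) with hs
  have hμdvd : μ ∣ P.Φ.map (evalB k B hJ) := minpoly.dvd _ _ (aeval_evalB hr0 P B hJ)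
  have hfac : (P.Φ.map (evalB k B hJ)).map s =
      (X - Polynomial.C (Jm k (r ^ 2))) *
        ∏ b ∈ Finset.range r, (X - Polynomial.C (JxR k (P.ζ ^ b) 1)) := by
    have h := Star.factor_subst k hr0 P 1 one_ne_zero
    simp only [one_pow, one_mul, Star.JxR_one'] at h
    rw [← h, hs, ← Polynomial.map_map, map_evalB, Polynomial.map_map, sub_comp_evalAt]
    rfl
  have hμ'dvd : μ.map s ∣ (X - Polynomial.C (Jm k (r ^ 2))) *
      ∏ b ∈ Finset.range r, (X - Polynomial.C (JxR k (P.ζ ^ b) 1)) := by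
    rw [← hfac]
    exact Polynomial.map_dvd _ hμdvd
  have hroot0 : (μ.map s).eval (Jm k (r ^ 2)) = 0 := by
    have h1 : sub k r (Jm k r) = Jm k (r ^ 2) := by
      rw [sub_Jm k hr0 hr0, pow_two]
    rw [← h1, hs, ← Polynomial.map_map, Polynomial.eval_map, Polynomial.eval₂_hom,
      Polynomial.eval_map, ← Polynomial.aeval_def, hμ, minpoly.aeval, map_zero]
  refine ⟨hroot0, ?_⟩
  obtain ⟨ν, hν⟩ := Polynomial.dvd_iff_isRoot.2 hroot0
  have hXne : (X - Polynomial.C (Jm k (r ^ 2)) : (LaurentSeries k)[X]) ≠ 0 :=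
    Polynomial.X_sub_C_ne_zero _
  have hν_dvd : ν ∣ ∏ b ∈ Finset.range r, (X - Polynomial.C (JxR k (P.ζ ^ b) 1)) := by
    rw [hν] at hμ'dvd
    exact (mul_dvd_mul_iff_left hXne).1 hμ'dvd
  have hprod_ne : (∏ b ∈ Finset.range r, (X - Polynomial.C (JxR k (P.ζ ^ b) 1)) :
      (LaurentSeries k)[X]) ≠ 0 :=
    Finset.prod_ne_zero_iff.2 fun b _ => Polynomial.X_sub_C_ne_zero _
  have hν0 : ν ≠ 0 := fun h => hprod_ne (by
    obtain ⟨c, hc⟩ := hν_dvd
    rw [hc, h, zero_mul])
  have hν_deg : ν.degree ≠ 0 := by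
    intro h0
    have hx_not : Jm k r ∉ (algebraMap ↥B (LaurentSeries k)).range := by
      rintro ⟨c, hc⟩
      apply hB
      rw [← hc]
      exact c.2
    apply hx_not
    rw [← minpoly.natDegree_eq_one_iff]
    have h1 : (μ.map s).natDegree = 1 := by
      rw [hν, Polynomial.natDegree_mul hXne hν0, Polynomial.natDegree_X_sub_C,
        Polynomial.natDegree_eq_zero_iff_degree_le_zero.2 h0.le]
    rwa [Polynomial.natDegree_map] at h1
  have hν_splits : ν.Splits :=
    Polynomial.Splits.of_dvd (Polynomial.Splits.prod fun b _ => Polynomial.Splits.X_sub_C _)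
      hprod_ne hν_dvd
  obtain ⟨w, hw⟩ := hν_splits.exists_eval_eq_zero hν_deg
  have hw' : Polynomial.eval w (∏ b ∈ Finset.range r,
      (X - Polynomial.C (JxR k (P.ζ ^ b) 1))) = 0 := by
    obtain ⟨c, hc⟩ := hν_dvd
    rw [hc, Polynomial.eval_mul, hw, zero_mul]
  rw [Polynomial.eval_prod] at hw'
  obtain ⟨b, hb, hb0⟩ := Finset.prod_eq_zero_iff.1 hw'
  rw [Polynomial.eval_sub, Polynomial.eval_X, Polynomial.eval_C, sub_eq_zero] at hb0
  subst hb0
  have hb' : b < r := Finset.mem_range.1 hb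
  have hμb : (μ.map s).eval (JxR k (P.ζ ^ b) 1) = 0 := by
    rw [hν, Polynomial.eval_mul, hw, mul_zero]
  have hζr : P.ζ ^ r = 1 := Units.ext (by simpa using P.prim.pow_eq_one)
  intro a
  -- the automorphism `t ↦ ζ^c t`
  have hωr : (P.ζ ^ (a + (r - b))) ^ r = 1 := by
    rw [← pow_mul, mul_comm, pow_mul, hζr, one_pow]
  have hρF : (rescaleU (P.ζ ^ (a + (r - b)))).comp s = s := by
    ext1 c
    rw [hs]
    simp only [RingHom.comp_apply]
    exact Star.rescaleU_sub_of_pow_eq_one k _ hr0 hωr _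
  have hρy : rescaleU (P.ζ ^ (a + (r - b))) (JxR k (P.ζ ^ b) 1) = JxR k (P.ζ ^ a) 1 := by
    rw [rescaleU_JxR_one, ← _root_.pow_add]
    have e : a + (r - b) + b = a + r := by omega
    rw [e, _root_.pow_add, hζr, mul_one]
  have h := congrArg (rescaleU (P.ζ ^ (a + (r - b)))) hμb
  rw [map_zero, Polynomial.eval_map, Polynomial.hom_eval₂, hρF, hρy,
    ← Polynomial.eval_map] at h
  exact h

/-- **Step 0**: the minimal polynomial of `J(t^r)` over `B` has degree `r + 1`. -/
theorem natDegree_minpoly {r : ℕ} (hr : r.Prime) (P : PrimeData k r)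
    (B : IntermediateField k (LaurentSeries k)) (hJ : jqModC k ∈ B) (hB : Jm k r ∉ B) :
    (minpoly ↥B (Jm k r)).natDegree = r + 1 := by
  have hr0 : r ≠ 0 := hr.ne_zero
  obtain ⟨h0, hall⟩ := roots_minpoly hr P B hJ hB
  set μ := minpoly ↥B (Jm k r) with hμ
  set s : ↥B →+* LaurentSeries k := (sub k r).comp (algebraMap ↥B (LaurentSeries k)) with hs
  have hint := isIntegral_Jm hr0 P B hJ
  have hμ0 : μ ≠ 0 := minpoly.ne_zero hint
  have hμ's0 : μ.map s ≠ 0 := (Polynomial.map_ne_zero_iff s.injective).2 hμ0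
  apply le_antisymm
  · have hμdvd : μ ∣ P.Φ.map (evalB k B hJ) := minpoly.dvd _ _ (aeval_evalB hr0 P B hJ)
    have hΦ0 : P.Φ.map (evalB k B hJ) ≠ 0 := (P.monicΦ.map _).ne_zero
    have := Polynomial.natDegree_le_of_dvd hμdvd hΦ0
    rwa [(P.monicΦ).natDegree_map, P.natDegreeΦ] at this
  · -- `r + 1` distinct roots
    classical
    let Z : Finset (LaurentSeries k) :=
      insert (Jm k (r ^ 2)) ((Finset.range r).image fun b => JxR k (P.ζ ^ b) 1)
    have hinj : Set.InjOn (fun b => JxR k (P.ζ ^ b) 1) (Finset.range r : Set ℕ) := by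
      intro a ha b hb hab
      have h1 : P.ζ ^ a = P.ζ ^ b := JxR_one_injective k hab
      have h2 : (P.ζ : k) ^ a = (P.ζ : k) ^ b := by
        have := congrArg (fun u : kˣ => (u : k)) h1
        simpa using this
      exact P.prim.pow_inj (Finset.mem_range.1 (Finset.mem_coe.1 ha))
        (Finset.mem_range.1 (Finset.mem_coe.1 hb)) h2
    have hZcard : Z.card = r + 1 := by
      rw [Finset.card_insert_of_notMem, Finset.card_image_of_injOn hinj, Finset.card_range]
      intro hmem
      obtain ⟨b, -, hb⟩ := Finset.mem_image.1 hmem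
      have h2 : 2 ≤ r ^ 2 := by nlinarith [hr.two_le]
      exact Jm_ne_JxR_one k h2 _ hb.symm
    have hsub : Z.val ⊆ (μ.map s).roots := by
      intro z hz
      rw [Polynomial.mem_roots hμ's0, Polynomial.IsRoot.def]
      have hz' : z ∈ Z := hz
      rcases Finset.mem_insert.1 hz' with rfl | hz''
      · exact h0
      · obtain ⟨b, -, rfl⟩ := Finset.mem_image.1 hz''
        exact hall b
    have := Polynomial.card_le_degree_of_subset_roots hsub
    rwa [hZcard, Polynomial.natDegree_map] at this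

/-- **Step 0**, strong form: the minimal polynomial of `J(t^r)` over `B` is `Φ(X, J)`. -/
theorem minpoly_eq {r : ℕ} (hr : r.Prime) (P : PrimeData k r)
    (B : IntermediateField k (LaurentSeries k)) (hJ : jqModC k ∈ B) (hB : Jm k r ∉ B) :
    minpoly ↥B (Jm k r) = P.Φ.map (evalB k B hJ) := by
  have hr0 : r ≠ 0 := hr.ne_zero
  have hint := isIntegral_Jm hr0 P B hJ
  have hμdvd : minpoly ↥B (Jm k r) ∣ P.Φ.map (evalB k B hJ) :=
    minpoly.dvd _ _ (aeval_evalB hr0 P B hJ)
  refine (Polynomial.eq_of_monic_of_dvd_of_natDegree_le (minpoly.monic hint)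
    (P.monicΦ.map _) hμdvd ?_).symm
  rw [natDegree_minpoly hr P B hJ hB, (P.monicΦ).natDegree_map, P.natDegreeΦ]

theorem minpoly_map {r : ℕ} (hr : r.Prime) (P : PrimeData k r)
    (B : IntermediateField k (LaurentSeries k)) (hJ : jqModC k ∈ B) (hB : Jm k r ∉ B) :
    (minpoly ↥B (Jm k r)).map (algebraMap ↥B (LaurentSeries k)) =
      P.Φ.map (evalAt k (jqModC k)) := by
  rw [minpoly_eq hr P B hJ hB, map_evalB]

/-- **Step 0**: `1, x, …, x^r` (`x = J(t^r)`) are linearly independent over `B`. -/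
theorem indep_zero {r : ℕ} (hr : r.Prime) (P : PrimeData k r)
    (B : IntermediateField k (LaurentSeries k)) (hJ : jqModC k ∈ B) (hB : Jm k r ∉ B) :
    LinearIndependent ↥B (fun a : Fin (r + 1) => Jm k r ^ (a : ℕ)) :=
  linearIndependent_pow_of_le (Jm k r) (natDegree_minpoly hr P B hJ hB).ge

end Zero

end Fermat.Agent.S28.TowerZero
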