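import Mathlib
import Fermat.Prelude.Def_ModularCurve_X0ModL
import Fermat.Agent.S28.Basic
import Fermat.Agent.S28.Formal
import Fermat.Agent.S28.PrimeCase
import Fermat.Agent.S28.Star
import Fermat.Agent.S28.TowerZero
import Fermat.Agent.S28.DegreeLDescent

/-!
# S28, leaf (B5), step `i` of the tower

Let `k` be algebraically closed, `r` a prime with prime data, `k ⊆ B ⊆ k((t))` an intermediate
field with `J ∈ B` and `J(t^r) ∉ B`, and `x_j = J(t^(r^j))`.  Then `1, x, …, x^(r-1)`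
(`x = x_(i+1)`) are linearly independent over `E_i = B(x_1, …, x_i)` (`indep_succ`).

Proof.  Put `n = r^(i+1)`, let `Ω` be an algebraic closure of `k((t))`, regarded as a
`B`-algebra through `c ↦ c(t^n)`.  By step 0 the minimal polynomial of `x_1` over `B` is
`Φ(X, J)`, and `Φ(X, J(t^n))` has the root `J(t^(r^i))`; so there is a `B`-embedding `σ` of
`D = B(x_1, …, x_(i+1))` into `Ω` with `σ(x_1) = J(t^(r^i))`.  The substituted modular equations
give by induction `σ(x_j) = J(ξ_j t^(r^(i+1-j)))` with `ξ_j^r = ξ_(j-1)` (the other root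
`σ(x_(j-2))` is excluded by injectivity).  Hence `σ(E_i) ⊆ k((t^r))` and
`σ(x_(i+1)) = J(ξ t)`.  A relation of degree `< r` over `E_i` for `x_(i+1)` becomes a polynomial
of degree `< r` over `k((t^r))` vanishing at `J(ξ t)`, hence, applying `t ↦ ζ^c t`, at the `r`
distinct series `J(ζ^c ξ t)`; so it is zero.
-/

set_option autoImplicit false
set_option linter.style.haveILetI false

open HahnSeries Polynomial ModularCurve
open Fermat.Agent.S28.Basic Fermat.Agent.S28.Formal Fermat.Agent.S28.PrimeCase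

noncomputable section

namespace Fermat.Agent.S28.TowerSucc

/-! ### Preliminaries -/

section Prelim

variable (k : Type*) [Field k]

theorem coeff_Jm_of_lt {a b : ℕ} (ha : a ≠ 0) (hab : a < b) : (Jm k a).coeff (-(b : ℤ)) = 0 := by
  unfold Jm
  by_cases hd : (a : ℤ) ∣ -(b : ℤ)
  · obtain ⟨q, hq⟩ := hd
    rw [hq, sub_coeff_mul ha]
    apply coeff_jqModC_of_lt
    have ha' : (0 : ℤ) < a := by exact_mod_cast Nat.pos_of_ne_zero ha
    have hab' : (a : ℤ) < b := by exact_mod_cast hab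
    nlinarith
  · exact sub_coeff_of_not_dvd ha _ hd

theorem Jm_inj {a b : ℕ} (ha : a ≠ 0) (hb : b ≠ 0) (h : Jm k a = Jm k b) : a = b := by
  rcases lt_trichotomy a b with hlt | heq | hgt
  · exfalso
    have h1 := coeff_Jm k hb
    rw [← h, coeff_Jm_of_lt k ha hlt] at h1
    exact zero_ne_one h1
  · exact heq
  · exfalso
    have h1 := coeff_Jm k ha
    rw [h, coeff_Jm_of_lt k hb hgt] at h1
    exact zero_ne_one h1

/-- The generators `x_1, …, x_e` of the tower. -/
def tgens (r e : ℕ) : Set (LaurentSeries k) := (fun j => Jm k (r ^ j)) '' Set.Icc 1 e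

theorem algebraMap_B_C (B : IntermediateField k (LaurentSeries k)) (c : k) :
    algebraMap ↥B (LaurentSeries k) (algebraMap k ↥B c) = HahnSeries.C c :=
  Star.algebraMap_eq_C k c

variable {k}

theorem isIntegral_tgen {r : ℕ} (hr : r ≠ 0) (P : PrimeData k r)
    (B : IntermediateField k (LaurentSeries k)) (hJ : jqModC k ∈ B) (j : ℕ) :
    IsIntegral ↥B (Jm k (r ^ j)) := by
  induction j with
  | zero =>
    rw [pow_zero, Jm_one]
    exact isIntegral_algebraMap (x := (⟨jqModC k, hJ⟩ : ↥B))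
  | succ j ih =>
    have hroot := Star.root_sub k hr P (pow_ne_zero j hr)
    rw [← pow_succ] at hroot
    exact Star.isIntegral_of_root k (algebraMap k ↥B) (algebraMap_B_C k B) _ P.monicΦ _ _ ih hroot

end Prelim

/-! ### The embedding -/

section Embed

variable {k : Type*} [Field k]

/-- `J(t^(r^i))` is a root of `Φ(X, J(t^(r^(i+1))))`. -/
theorem eval_root {Ω : Type*} [Field Ω] (ι : LaurentSeries k →+* Ω) {r : ℕ} (hr : r.Prime)
    (P : PrimeData k r) (i : ℕ) :
    (P.Φ.map (ι.comp (evalAt k (Jm k (r ^ (i + 1)))))).eval (ι (Jm k (r ^ i))) = 0 := by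
  have hr0 : r ≠ 0 := hr.ne_zero
  have h := Star.factor_subst k hr0 P 1 (pow_ne_zero i hr0)
  simp only [one_pow, one_mul, Star.JxR_one'] at h
  rw [← pow_succ] at h
  rw [← Polynomial.map_map, h, Polynomial.map_mul, Polynomial.eval_mul, Polynomial.map_prod,
    Polynomial.eval_prod]
  refine mul_eq_zero_of_right _ (Finset.prod_eq_zero (Finset.mem_range.2 hr.pos) ?_)
  rw [pow_zero, Star.JxR_one', Polynomial.map_sub, Polynomial.map_X, Polynomial.map_C,
    Polynomial.eval_sub, Polynomial.eval_X, Polynomial.eval_C, sub_self]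

theorem exists_sigma {r : ℕ} (hr : r.Prime) (P : PrimeData k r)
    (B : IntermediateField k (LaurentSeries k)) (hJ : jqModC k ∈ B) (hB : Jm k r ∉ B) (i : ℕ)
    {Ω : Type*} [Field Ω] [IsAlgClosed Ω] [Algebra ↥B Ω] (ι : LaurentSeries k →+* Ω)
    (hβ : ∀ c : ↥B, algebraMap ↥B Ω c = ι (sub k (r ^ (i + 1)) (c : LaurentSeries k)))
    (hx : Jm k r ∈ IntermediateField.adjoin ↥B (tgens k r (i + 1))) :
    ∃ σ : ↥(IntermediateField.adjoin ↥B (tgens k r (i + 1))) →ₐ[↥B] Ω,
      σ ⟨Jm k r, hx⟩ = ι (Jm k (r ^ i)) := by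
  have hr0 : r ≠ 0 := hr.ne_zero
  have hK : ∀ s ∈ tgens k r (i + 1), IsIntegral ↥B s ∧
      ((minpoly ↥B s).map (algebraMap ↥B Ω)).Splits := by
    rintro s ⟨j, -, rfl⟩
    exact ⟨isIntegral_tgen hr0 P B hJ j, IsAlgClosed.splits _⟩
  have hβ' : algebraMap ↥B Ω =
      (ι.comp (sub k (r ^ (i + 1)))).comp (algebraMap ↥B (LaurentSeries k)) :=
    RingHom.ext fun c => hβ c
  have hy : Polynomial.aeval (ι (Jm k (r ^ i))) (minpoly ↥B (Jm k r)) = 0 := by
    rw [Polynomial.aeval_def, hβ', ← Polynomial.eval_map, ← Polynomial.map_map,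
      TowerZero.minpoly_map hr P B hJ hB, Polynomial.map_map, RingHom.comp_assoc,
      PrimeCase.sub_comp_evalAt]
    exact eval_root ι hr P i
  exact IntermediateField.exists_algHom_adjoin_of_splits_of_aeval hK hx hy

end Embed

/-! ### Root tracking -/

section Track

variable {k : Type*} [Field k]

theorem mem_DD {r : ℕ} (B : IntermediateField k (LaurentSeries k)) (hJ : jqModC k ∈ B) (e : ℕ)
    (j : ℕ) (hj : j ≤ e) : Jm k (r ^ j) ∈ IntermediateField.adjoin ↥B (tgens k r e) := by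
  rcases Nat.eq_zero_or_pos j with h0 | hpos
  · subst h0
    rw [pow_zero, Jm_one]
    exact (IntermediateField.adjoin ↥B (tgens k r e)).algebraMap_mem (⟨jqModC k, hJ⟩ : ↥B)
  · exact IntermediateField.subset_adjoin _ _ ⟨j, ⟨hpos, hj⟩, rfl⟩

variable [IsAlgClosed k]

theorem track {r : ℕ} (hr : r.Prime) (P : PrimeData k r)
    (B : IntermediateField k (LaurentSeries k)) (hJ : jqModC k ∈ B) (i : ℕ)
    {Ω : Type*} [Field Ω] [Algebra ↥B Ω] (ι : LaurentSeries k →+* Ω)
    (hβ : ∀ c : ↥B, algebraMap ↥B Ω c = ι (sub k (r ^ (i + 1)) (c : LaurentSeries k)))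
    (σ : ↥(IntermediateField.adjoin ↥B (tgens k r (i + 1))) →ₐ[↥B] Ω)
    (hσ : σ ⟨Jm k (r ^ 1), mem_DD B hJ (i + 1) 1 (by omega)⟩ = ι (Jm k (r ^ i))) :
    ∀ j (hj : j ≤ i), ∃ ξ ξ' : kˣ, ξ ^ r = ξ' ∧
      σ ⟨Jm k (r ^ (j + 1)), mem_DD B hJ (i + 1) (j + 1) (by omega)⟩ =
        ι (JxR k ξ (r ^ (i - j))) ∧
      σ ⟨Jm k (r ^ j), mem_DD B hJ (i + 1) j (by omega)⟩ =
        ι (JxR k ξ' (r ^ (i - j + 1))) := by
  have hr0 : r ≠ 0 := hr.ne_zero
  have hζr : P.ζ ^ r = 1 := Units.ext (by simpa using P.prim.pow_eq_one)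
  -- constants
  have hσc : ∀ c : k, (σ : ↥(IntermediateField.adjoin ↥B (tgens k r (i + 1))) →+* Ω)
      (((algebraMap ↥B ↥(IntermediateField.adjoin ↥B (tgens k r (i + 1)))).comp
        (algebraMap k ↥B)) c) = ι (HahnSeries.C c) := by
    intro c
    rw [RingHom.comp_apply]
    change σ _ = _
    have hc : ((algebraMap k ↥B c : ↥B) : LaurentSeries k) = HahnSeries.C c :=
      Star.algebraMap_eq_C k c
    rw [σ.commutes, hβ, hc, sub_C]
  intro j
  induction j with
  | zero =>
    intro hj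
    refine ⟨1, 1, one_pow _, ?_, ?_⟩
    · rw [Star.JxR_one', Nat.sub_zero]
      exact hσ
    · have e1 : (⟨Jm k (r ^ 0), mem_DD B hJ (i + 1) 0 (by omega)⟩ :
          ↥(IntermediateField.adjoin ↥B (tgens k r (i + 1)))) =
          algebraMap ↥B ↥(IntermediateField.adjoin ↥B (tgens k r (i + 1))) ⟨jqModC k, hJ⟩ := by
        apply Subtype.ext
        change Jm k (r ^ 0) = jqModC k
        rw [pow_zero, Jm_one]
      rw [e1, σ.commutes, hβ, Star.JxR_one', Nat.sub_zero]
      rfl
  | succ j ih =>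
    intro hj
    obtain ⟨ξ, ξ', hξ, h1, h0⟩ := ih (by omega)
    -- a root `η` of `ξ`
    obtain ⟨η0, hη0⟩ := IsAlgClosed.exists_pow_nat_eq (ξ : k) hr.pos
    have hη0ne : η0 ≠ 0 := by
      rintro rfl
      rw [zero_pow hr0] at hη0
      exact (Units.ne_zero _) hη0.symm
    have hη : (Units.mk0 η0 hη0ne) ^ r = ξ := Units.ext (by simpa using hη0)
    have hroot := Star.root_sub k hr0 P (pow_ne_zero (j + 1) hr0)
    rw [← pow_succ] at hroot
    have ht := Star.root_transfer k
      ((algebraMap ↥B ↥(IntermediateField.adjoin ↥B (tgens k r (i + 1)))).comp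
        (algebraMap k ↥B))
      (algebraMap ↥(IntermediateField.adjoin ↥B (tgens k r (i + 1))) (LaurentSeries k))
      (algebraMap ↥(IntermediateField.adjoin ↥B (tgens k r (i + 1)))
        (LaurentSeries k)).injective
      (fun c => Star.algebraMap_eq_C k c)
      (σ : ↥(IntermediateField.adjoin ↥B (tgens k r (i + 1))) →+* Ω) ι hσc P.Φ
      ⟨Jm k (r ^ (j + 1)), mem_DD B hJ (i + 1) (j + 1) (by omega)⟩
      ⟨Jm k (r ^ (j + 1 + 1)), mem_DD B hJ (i + 1) (j + 1 + 1) (by omega)⟩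
      (JxR k ξ (r ^ (i - j))) hroot h1
    have hm'0 : r ^ (i - (j + 1)) ≠ 0 := pow_ne_zero _ hr0
    have e2 : JxR k ξ (r ^ (i - j)) =
        JxR k ((Units.mk0 η0 hη0ne) ^ r) (r ^ (i - (j + 1)) * r) := by
      rw [hη, ← pow_succ]
      congr 2
      omega
    rw [e2] at ht
    rcases Star.root_cases k ι hr0 P _ hm'0 _ ht with h | ⟨b, -, h⟩
    · exfalso
      have e3a : (Units.mk0 η0 hη0ne) ^ r ^ 2 = ξ' := by
        rw [pow_two, pow_mul, hη, hξ]
      have e3b : r ^ (i - (j + 1)) * r ^ 2 = r ^ (i - j + 1) := by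
        rw [← _root_.pow_add]
        congr 1
        omega
      have e3 : JxR k ((Units.mk0 η0 hη0ne) ^ r ^ 2) (r ^ (i - (j + 1)) * r ^ 2) =
          JxR k ξ' (r ^ (i - j + 1)) := by
        rw [e3a, e3b]
      rw [e3, ← h0] at h
      have h' := σ.toRingHom.injective h
      have h'' := congrArg Subtype.val h'
      have h3 : r ^ (j + 1 + 1) = r ^ j :=
        Jm_inj k (pow_ne_zero _ hr0) (pow_ne_zero _ hr0) h''
      have := Nat.pow_right_injective hr.two_le h3
      omega
    · refine ⟨Units.mk0 η0 hη0ne * P.ζ ^ b, ξ, ?_, h, ?_⟩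
      · rw [mul_pow, hη, ← pow_mul, mul_comm b r, pow_mul, hζr, one_pow, mul_one]
      · rw [h1]
        congr 3
        omega

end Track

/-! ### Step `i` -/

section Succ

variable {k : Type*} [Field k] [IsAlgClosed k]

theorem indep_succ_aux {r : ℕ} (hr : r.Prime) (P : PrimeData k r)
    (B : IntermediateField k (LaurentSeries k)) (hJ : jqModC k ∈ B) (hB : Jm k r ∉ B) (i : ℕ)
    {Ω : Type*} [Field Ω] [IsAlgClosed Ω] [Algebra ↥B Ω] (ι : LaurentSeries k →+* Ω)
    (hβ : ∀ c : ↥B, algebraMap ↥B Ω c = ι (sub k (r ^ (i + 1)) (c : LaurentSeries k)))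
    (E : IntermediateField k (LaurentSeries k))
    (hE : E ≤ B ⊔ IntermediateField.adjoin k (tgens k r i)) :
    LinearIndependent ↥E (fun b : Fin r => Jm k (r ^ (i + 1)) ^ (b : ℕ)) := by
  have hr0 : r ≠ 0 := hr.ne_zero
  have hζr : P.ζ ^ r = 1 := Units.ext (by simpa using P.prim.pow_eq_one)
  have hx1 : Jm k r ∈ IntermediateField.adjoin ↥B (tgens k r (i + 1)) := by
    have := mem_DD (r := r) B hJ (i + 1) 1 (by omega)
    rwa [pow_one] at this
  obtain ⟨σ, hσ⟩ := exists_sigma hr P B hJ hB i ι hβ hx1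
  have hσ' : σ ⟨Jm k (r ^ 1), mem_DD B hJ (i + 1) 1 (by omega)⟩ = ι (Jm k (r ^ i)) := by
    rw [← hσ]
    congr 1
    apply Subtype.ext
    change Jm k (r ^ 1) = Jm k r
    rw [pow_one]
  have htr := track hr P B hJ i ι hβ σ hσ'
  -- the image of `E_i`
  let R : Subfield Ω := (ι.comp (sub k r)).fieldRange
  let G₀ : Subfield (LaurentSeries k) :=
    (R.comap (σ : ↥(IntermediateField.adjoin ↥B (tgens k r (i + 1))) →+* Ω)).map
      (algebraMap ↥(IntermediateField.adjoin ↥B (tgens k r (i + 1))) (LaurentSeries k))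
  have hGk : ∀ c : k, algebraMap k (LaurentSeries k) c ∈ G₀ := by
    intro c
    refine Subfield.mem_map.2 ⟨algebraMap ↥B
      ↥(IntermediateField.adjoin ↥B (tgens k r (i + 1))) (algebraMap k ↥B c), ?_, rfl⟩
    rw [Subfield.mem_comap]
    change σ _ ∈ R
    rw [σ.commutes, hβ]
    have hc : ((algebraMap k ↥B c : ↥B) : LaurentSeries k) = HahnSeries.C c :=
      Star.algebraMap_eq_C k c
    rw [hc, sub_C]
    exact ⟨HahnSeries.C c, by rw [RingHom.comp_apply, sub_C]⟩
  let Gk : IntermediateField k (LaurentSeries k) := G₀.toIntermediateField hGk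
  have hBG : B ≤ Gk := by
    intro z hz
    refine Subfield.mem_map.2 ⟨algebraMap ↥B
      ↥(IntermediateField.adjoin ↥B (tgens k r (i + 1))) ⟨z, hz⟩, ?_, rfl⟩
    rw [Subfield.mem_comap]
    change σ _ ∈ R
    rw [σ.commutes, hβ]
    refine ⟨sub k (r ^ i) z, ?_⟩
    rw [RingHom.comp_apply, Basic.sub_sub hr0 (pow_ne_zero i hr0), ← pow_succ']
  have hTG : IntermediateField.adjoin k (tgens k r i) ≤ Gk := by
    rw [IntermediateField.adjoin_le_iff]
    rintro _ ⟨j, ⟨hj1, hji⟩, rfl⟩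
    obtain ⟨ξ, ξ', -, -, h0⟩ := htr j hji
    refine Subfield.mem_map.2 ⟨⟨Jm k (r ^ j), mem_DD B hJ (i + 1) j (by omega)⟩, ?_, rfl⟩
    rw [Subfield.mem_comap]
    change σ _ ∈ R
    rw [h0]
    obtain ⟨f, hf⟩ := Star.JxR_mem_range k hr0 (pow_ne_zero (i - j + 1) hr0)
      (dvd_pow_self r (by omega)) ξ'
    exact ⟨f, by rw [RingHom.comp_apply, hf]⟩
  have hEG : E ≤ Gk := hE.trans (sup_le hBG hTG)
  -- the image of `x_(i+1)`
  obtain ⟨ξ, -, -, h1, -⟩ := htr i le_rfl
  rw [Nat.sub_self, pow_zero] at h1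
  -- the relation
  rw [DegreeLDescent.li_iff]
  intro c hc hsum b
  have hcG : ∀ b, ∃ d : ↥(IntermediateField.adjoin ↥B (tgens k r (i + 1))),
      ∃ f : LaurentSeries k, σ d = ι (sub k r f) ∧ (d : LaurentSeries k) = c b := by
    intro b
    obtain ⟨d, hd, hdc⟩ := Subfield.mem_map.1 (hEG (hc b))
    obtain ⟨f, hf⟩ := Subfield.mem_comap.1 hd
    exact ⟨d, f, hf.symm, hdc⟩
  choose d f hσd hdc using hcG
  have hD0 : ∑ b : Fin r, d b *
      (⟨Jm k (r ^ (i + 1)), mem_DD B hJ (i + 1) (i + 1) le_rfl⟩ :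
        ↥(IntermediateField.adjoin ↥B (tgens k r (i + 1)))) ^ (b : ℕ) = 0 := by
    apply (algebraMap ↥(IntermediateField.adjoin ↥B (tgens k r (i + 1)))
      (LaurentSeries k)).injective
    rw [map_sum, map_zero, ← hsum]
    refine Finset.sum_congr rfl fun b _ => ?_
    rw [map_mul, map_pow, ← hdc b]
    rfl
  have hL : ∑ b : Fin r, sub k r (f b) * JxR k ξ 1 ^ (b : ℕ) = 0 := by
    apply ι.injective
    have h := congrArg σ hD0
    rw [map_sum, map_zero] at h
    rw [map_sum, map_zero, ← h]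
    refine Finset.sum_congr rfl fun b _ => ?_
    rw [map_mul, map_pow, map_mul, map_pow, hσd b, h1]
  -- the polynomial
  set q : (LaurentSeries k)[X] :=
    ∑ b : Fin r, Polynomial.C (sub k r (f b)) * Polynomial.X ^ (b : ℕ) with hq
  have heval0 : q.eval (JxR k ξ 1) = 0 := by
    rw [hq, Polynomial.eval_finsetSum, ← hL]
    refine Finset.sum_congr rfl fun b _ => ?_
    rw [Polynomial.eval_mul, Polynomial.eval_C, Polynomial.eval_pow, Polynomial.eval_X]
  have hfix : ∀ ω : kˣ, ω ^ r = 1 → q.map (rescaleU ω) = q := by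
    intro ω hω
    rw [hq, Polynomial.map_sum]
    refine Finset.sum_congr rfl fun b _ => ?_
    rw [Polynomial.map_mul, Polynomial.map_C, Polynomial.map_pow, Polynomial.map_X,
      Star.rescaleU_sub_of_pow_eq_one k ω hr0 hω]
  have hevalc : ∀ a : ℕ, q.eval (JxR k (P.ζ ^ a * ξ) 1) = 0 := by
    intro a
    have hω : (P.ζ ^ a) ^ r = 1 := by
      rw [← pow_mul, mul_comm, pow_mul, hζr, one_pow]
    have h := Polynomial.eval_map_apply (p := q) (rescaleU (P.ζ ^ a)) (JxR k ξ 1)
    rw [hfix _ hω, heval0, map_zero, TowerZero.rescaleU_JxR_one] at h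
    exact h
  classical
  let Z : Finset (LaurentSeries k) :=
    (Finset.range r).image fun a => JxR k (P.ζ ^ a * ξ) 1
  have hinj : Set.InjOn (fun a => JxR k (P.ζ ^ a * ξ) 1) (Finset.range r : Set ℕ) := by
    intro a ha b hb hab
    have h2 : P.ζ ^ a * ξ = P.ζ ^ b * ξ := TowerZero.JxR_one_injective k hab
    have h3 : P.ζ ^ a = P.ζ ^ b := mul_right_cancel h2
    have h4 : (P.ζ : k) ^ a = (P.ζ : k) ^ b := by
      have := congrArg (fun u : kˣ => (u : k)) h3
      simpa using this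
    exact P.prim.pow_inj (Finset.mem_range.1 (Finset.mem_coe.1 ha))
      (Finset.mem_range.1 (Finset.mem_coe.1 hb)) h4
  have hZcard : Z.card = r := by
    rw [Finset.card_image_of_injOn hinj, Finset.card_range]
  have hq0 : q = 0 := by
    by_contra hne
    have hdeg : q.natDegree < Z.card := by
      rw [hZcard, Polynomial.natDegree_lt_iff_degree_lt hne]
      exact Polynomial.degree_sum_fin_lt _
    apply hne
    refine Polynomial.eq_zero_of_natDegree_lt_card_of_eval_eq_zero' q Z ?_ hdeg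
    intro z hz
    obtain ⟨a, -, rfl⟩ := Finset.mem_image.1 hz
    exact hevalc a
  have hcoeff : sub k r (f b) = 0 := by
    have h := congrArg (fun p : (LaurentSeries k)[X] => p.coeff (b : ℕ)) hq0
    simp only [hq, Polynomial.finsetSum_coeff, Polynomial.coeff_C_mul_X_pow,
      Polynomial.coeff_zero] at h
    rw [Finset.sum_eq_single b] at h
    · simpa using h
    · intro b' _ hb'
      rw [if_neg]
      intro hbb
      exact hb' (Fin.ext hbb.symm)
    · intro hb
      exact absurd (Finset.mem_univ b) hb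
  have hσd0 : σ (d b) = 0 := by
    rw [hσd b, hcoeff, map_zero]
  have hd0 : d b = 0 := by
    have := σ.toRingHom.injective (a₁ := d b) (a₂ := 0) (by
      change σ (d b) = σ 0
      rw [hσd0, map_zero])
    exact this
  rw [← hdc b, hd0]
  rfl

/-- **Step `i` of the tower**: `1, x, …, x^(r-1)`, `x = J(t^(r^(i+1)))`, are linearly
independent over every subfield of `B(J(t^r), …, J(t^(r^i)))`. -/
theorem indep_succ {r : ℕ} (hr : r.Prime) (P : PrimeData k r)
    (B : IntermediateField k (LaurentSeries k)) (hJ : jqModC k ∈ B) (hB : Jm k r ∉ B) (i : ℕ)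
    (E : IntermediateField k (LaurentSeries k))
    (hE : E ≤ B ⊔ IntermediateField.adjoin k
      ((fun j => Jm k (r ^ j)) '' Set.Icc 1 i)) :
    LinearIndependent ↥E (fun b : Fin r => Jm k (r ^ (i + 1)) ^ (b : ℕ)) := by
  letI algΩ : Algebra ↥B (AlgebraicClosure (LaurentSeries k)) :=
    (((algebraMap (LaurentSeries k) (AlgebraicClosure (LaurentSeries k))).comp
      (sub k (r ^ (i + 1)))).comp (algebraMap ↥B (LaurentSeries k))).toAlgebra
  exact @indep_succ_aux k _ _ r hr P B hJ hB i (AlgebraicClosure (LaurentSeries k)) _ _ algΩ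
    (algebraMap (LaurentSeries k) (AlgebraicClosure (LaurentSeries k))) (fun c => rfl) E hE

end Succ

end Fermat.Agent.S28.TowerSucc
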