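import Mathlib
import Fermat.Agent.S28.ConjPoly

/-!
# S28 (A2): the formal conjugates of the modular unit

`GV r i`, `i : Option (Fin r)`: the expansions in `s = t ^ (1 / r)` of the conjugates of the
modular unit `v = r ^ 12 Δ(r z) / Δ(z)`, over the ring of algebraic integers:
`r ^ 12 Δ(s ^ (r ^ 2)) / Δ(s ^ r)` and `Δ(ζ ^ b s) / Δ(s ^ r)`, `b < r`.
-/

set_option autoImplicit false
set_option linter.style.haveILetI false
set_option linter.unusedSectionVars false

namespace Fermat.Agent.S28.UnitDefs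

open Fermat.Agent.S28.Basic Fermat.Agent.S28.Formal Fermat.Agent.S28.ConjPoly

/-- The formal conjugates of the modular unit `r ^ 12 Δ(t ^ r) / Δ(t)`, in the variable
`s = t ^ (1 / r)`. -/
noncomputable def GV (r : ℕ) [Fact r.Prime] [NeZero r] :
    Option (Fin r) → LaurentSeries (integralClosure ℤ ℂ)
  | none => Basic.sub (integralClosure ℤ ℂ) r (unitVR (integralClosure ℤ ℂ) r)
  | some b => rescaleU (zetaU r ^ (b : ℕ)) (DeltaL (integralClosure ℤ ℂ)) *
      Basic.sub (integralClosure ℤ ℂ) r (DeltaInvL (integralClosure ℤ ℂ))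

theorem GV_none (r : ℕ) [Fact r.Prime] [NeZero r] :
    GV r none = Basic.sub (integralClosure ℤ ℂ) r (unitVR (integralClosure ℤ ℂ) r) := rfl

theorem GV_some (r : ℕ) [Fact r.Prime] [NeZero r] (b : Fin r) :
    GV r (some b) = rescaleU (zetaU r ^ (b : ℕ)) (DeltaL (integralClosure ℤ ℂ)) *
      Basic.sub (integralClosure ℤ ℂ) r (DeltaInvL (integralClosure ℤ ℂ)) := rfl

end Fermat.Agent.S28.UnitDefs
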